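import Mathlib.AlgebraicGeometry.EllipticCurve.Affine.Point
import Mathlib.Tactic

/-!
# x-only addition formulas for a general Weierstrass curve

For a Weierstrass curve `W` over a field and two affine points `P₁ = (x₁, y₁)`, `P₂ = (x₂, y₂)`
with `x₁ ≠ x₂`, writing `x₃ = x(P₁ + P₂)` and `x₄ = x(P₁ - P₂)`:

* `(x₃ + x₄) (x₁ - x₂)² = 2 x₁ x₂ (x₁ + x₂) + b₂ x₁ x₂ + b₄ (x₁ + x₂) + b₆`
* `x₃ x₄ (x₁ - x₂)² = x₁² x₂² - b₄ x₁ x₂ - b₆ (x₁ + x₂) - b₈`

and the duplication formula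
`x(2P) (4x³ + b₂x² + 2b₄x + b₆) = x⁴ - b₄x² - 2b₆x - b₈`.
-/

set_option autoImplicit false

namespace Fermat.Agent.S13.XOnlyGen

open WeierstrassCurve WeierstrassCurve.Affine

variable {K : Type*} [Field K] {W : WeierstrassCurve K}

/-- x-coordinate of a point (junk value `0` at the point at infinity). -/
def xc : W.toAffine.Point → K
  | .zero => 0
  | .some x _ _ => x

/-- y-coordinate of a point (junk value `0` at the point at infinity). -/
def yc : W.toAffine.Point → K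
  | .zero => 0
  | .some _ y _ => y

@[simp] lemma xc_some {x y : K} (h : W.toAffine.Nonsingular x y) :
    xc (Point.some x y h) = x := rfl
@[simp] lemma yc_some {x y : K} (h : W.toAffine.Nonsingular x y) :
    yc (Point.some x y h) = y := rfl
@[simp] lemma xc_zero : xc (0 : W.toAffine.Point) = 0 := rfl
@[simp] lemma yc_zero : yc (0 : W.toAffine.Point) = 0 := rfl

lemma xc_neg (P : W.toAffine.Point) : xc (-P) = xc P := by
  cases P with
  | zero => rfl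
  | some x y h => rfl

lemma yc_neg {P : W.toAffine.Point} (hP : P ≠ 0) :
    yc (-P) = -yc P - W.a₁ * xc P - W.a₃ := by
  cases P with
  | zero => exact absurd rfl hP
  | some x y h =>
    rw [Point.neg_some]
    simp [Affine.negY]

lemma equation_xc_yc {P : W.toAffine.Point} (hP : P ≠ 0) :
    yc P ^ 2 + W.a₁ * xc P * yc P + W.a₃ * yc P =
      xc P ^ 3 + W.a₂ * xc P ^ 2 + W.a₄ * xc P + W.a₆ := by
  cases P with
  | zero => exact absurd rfl hP
  | some x y h => exact (Affine.equation_iff x y).mp h.1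

lemma nonsingular_xc_yc {P : W.toAffine.Point} (hP : P ≠ 0) :
    W.toAffine.Nonsingular (xc P) (yc P) := by
  cases P with
  | zero => exact absurd rfl hP
  | some x y h => exact h

lemma eq_some_xc_yc {P : W.toAffine.Point} (hP : P ≠ 0) :
    P = Point.some (xc P) (yc P) (nonsingular_xc_yc hP) := by
  cases P with
  | zero => exact absurd rfl hP
  | some x y h => rfl

/-- the square of `2y + a₁x + a₃` on the curve. -/
lemma two_torsion_poly {x y : K} (h : W.toAffine.Equation x y) :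
    (2 * y + W.a₁ * x + W.a₃) ^ 2 = 4 * x ^ 3 + W.b₂ * x ^ 2 + 2 * W.b₄ * x + W.b₆ := by
  have e := (Affine.equation_iff x y).mp h
  simp only [b₂, b₄, b₆]
  linear_combination (4 : K) * e

variable [DecidableEq K]

omit [DecidableEq K] in
lemma neg_some' {x y : K} (h : W.toAffine.Nonsingular x y) :
    ∃ h' : W.toAffine.Nonsingular x (-y - W.a₁ * x - W.a₃),
      -Point.some x y h = Point.some x (-y - W.a₁ * x - W.a₃) h' := by
  have h' := (nonsingular_neg (W' := W.toAffine) x y).mpr h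
  exact ⟨h', Point.neg_some h⟩

/-- x-only addition formulas, `x₁ ≠ x₂`, general Weierstrass curve. -/
theorem exists_add_sub {x₁ y₁ x₂ y₂ : K}
    (h₁ : W.toAffine.Nonsingular x₁ y₁) (h₂ : W.toAffine.Nonsingular x₂ y₂) (hx : x₁ ≠ x₂) :
    ∃ (xp yp xm ym : K) (hp : W.toAffine.Nonsingular xp yp)
      (hm : W.toAffine.Nonsingular xm ym),
      Point.some x₁ y₁ h₁ + Point.some x₂ y₂ h₂ = Point.some xp yp hp ∧
      Point.some x₁ y₁ h₁ - Point.some x₂ y₂ h₂ = Point.some xm ym hm ∧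
      (xp + xm) * (x₁ - x₂) ^ 2 =
        2 * x₁ * x₂ * (x₁ + x₂) + W.b₂ * x₁ * x₂ + W.b₄ * (x₁ + x₂) + W.b₆ ∧
      xp * xm * (x₁ - x₂) ^ 2 =
        x₁ ^ 2 * x₂ ^ 2 - W.b₄ * x₁ * x₂ - W.b₆ * (x₁ + x₂) - W.b₈ := by
  have hd : x₁ - x₂ ≠ 0 := sub_ne_zero.mpr hx
  have e₁ := (Affine.equation_iff x₁ y₁).mp h₁.1
  have e₂ := (Affine.equation_iff x₂ y₂).mp h₂.1
  obtain ⟨h₂', hneg⟩ := neg_some' h₂
  have hadd := Point.add_of_X_ne (h₁ := h₁) (h₂ := h₂) hx
  have hsub : Point.some x₁ y₁ h₁ - Point.some x₂ y₂ h₂ =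
      Point.some _ _ (nonsingular_add h₁ h₂' fun hxy => hx hxy.left) := by
    rw [sub_eq_add_neg, hneg]; exact Point.add_of_X_ne (h₁ := h₁) (h₂ := h₂') hx
  refine ⟨_, _, _, _, _, _, hadd, hsub, ?_, ?_⟩
  · rw [slope_of_X_ne hx, slope_of_X_ne hx]
    simp only [addX, b₂, b₄, b₆]
    field_simp
    linear_combination (2 : K) * e₁ + 2 * e₂
  · rw [slope_of_X_ne hx, slope_of_X_ne hx]
    simp only [addX, b₄, b₆, b₈]
    field_simp
    linear_combination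
      (-x₁ ^ 3 + 2 * x₁ ^ 2 * x₂ - x₁ ^ 2 * W.a₂ + 2 * x₁ * x₂ ^ 2 + x₁ * x₂ * W.a₁ ^ 2 + 4 * x₁ * x₂ * W.a₂ + x₁ * y₁ * W.a₁ + x₁ * W.a₁ * W.a₃ + x₁ * W.a₄ - 2 * x₂ ^ 3 - x₂ ^ 2 * W.a₁ ^ 2 - 2 * x₂ ^ 2 * W.a₂ - 2 * x₂ * y₂ * W.a₁ - x₂ * W.a₁ * W.a₃ + y₁ ^ 2 + y₁ * W.a₃ - 2 * y₂ ^ 2 - 2 * y₂ * W.a₃ + W.a₆) * e₁
      + (-4 * x₁ ^ 3 + 2 * x₁ ^ 2 * x₂ - x₁ ^ 2 * W.a₁ ^ 2 - 4 * x₁ ^ 2 * W.a₂ + 2 * x₁ * x₂ ^ 2 + x₁ * x₂ * W.a₁ ^ 2 + 4 * x₁ * x₂ * W.a₂ - x₁ * W.a₁ * W.a₃ - 2 * x₁ * W.a₄ - x₂ ^ 3 - x₂ ^ 2 * W.a₂ + x₂ * y₂ * W.a₁ + x₂ * W.a₁ * W.a₃ + x₂ * W.a₄ + y₂ ^ 2 + y₂ * W.a₃ - W.a₆) * e₂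

/-- x-only duplication formula, general Weierstrass curve. -/
theorem exists_dbl {x y : K} (h : W.toAffine.Nonsingular x y)
    (hy : 2 * y + W.a₁ * x + W.a₃ ≠ 0) :
    ∃ (x' y' : K) (h' : W.toAffine.Nonsingular x' y'),
      Point.some x y h + Point.some x y h = Point.some x' y' h' ∧
      x' * (4 * x ^ 3 + W.b₂ * x ^ 2 + 2 * W.b₄ * x + W.b₆) =
        x ^ 4 - W.b₄ * x ^ 2 - 2 * W.b₆ * x - W.b₈ := by
  have e := (Affine.equation_iff x y).mp h.1
  have hne : y ≠ W.toAffine.negY x y := by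
    intro hyy
    apply hy
    simp only [Affine.negY] at hyy
    linear_combination hyy
  refine ⟨_, _, _, Point.add_self_of_Y_ne hne, ?_⟩
  rw [← two_torsion_poly h.1, slope_of_Y_ne rfl hne]
  have h2y : y - W.toAffine.negY x y = 2 * y + W.a₁ * x + W.a₃ := by
    simp only [Affine.negY]; ring
  rw [h2y]
  simp only [addX, b₄, b₆, b₈]
  set D := 2 * y + W.a₁ * x + W.a₃ with hD
  set N := 3 * x ^ 2 + 2 * W.a₂ * x + W.a₄ - W.a₁ * y with hN
  have key : ((N / D) ^ 2 + W.a₁ * (N / D) - W.a₂ - x - x) * D ^ 2 =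
      N ^ 2 + W.a₁ * N * D - (W.a₂ + 2 * x) * D ^ 2 := by
    field_simp
    ring
  refine key.trans ?_
  rw [hD, hN]
  linear_combination (-8 * x - W.a₁ ^ 2 - 4 * W.a₂) * e

/-- `P + P = 0` for a point with `2y + a₁x + a₃ = 0`. -/
theorem add_self_eq_zero {x y : K} (h : W.toAffine.Nonsingular x y)
    (hy : 2 * y + W.a₁ * x + W.a₃ = 0) : Point.some x y h + Point.some x y h = 0 := by
  refine Point.add_self_of_Y_eq ?_
  simp only [Affine.negY]
  linear_combination hy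

/-- point-level version of `exists_add_sub`. -/
theorem xc_add_sub {P Q : W.toAffine.Point} (hP : P ≠ 0) (hQ : Q ≠ 0) (hx : xc P ≠ xc Q) :
    P + Q ≠ 0 ∧ P - Q ≠ 0 ∧
      (xc (P + Q) + xc (P - Q)) * (xc P - xc Q) ^ 2 =
        2 * xc P * xc Q * (xc P + xc Q) + W.b₂ * xc P * xc Q + W.b₄ * (xc P + xc Q) + W.b₆ ∧
      xc (P + Q) * xc (P - Q) * (xc P - xc Q) ^ 2 =
        xc P ^ 2 * xc Q ^ 2 - W.b₄ * xc P * xc Q - W.b₆ * (xc P + xc Q) - W.b₈ := by
  cases P with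
  | zero => exact absurd rfl hP
  | some x₁ y₁ h₁ =>
    cases Q with
    | zero => exact absurd rfl hQ
    | some x₂ y₂ h₂ =>
      obtain ⟨xp, yp, xm, ym, hp, hm, e1, e2, e3, e4⟩ := exists_add_sub h₁ h₂ hx
      rw [e1, e2]
      exact ⟨Point.some_ne_zero _, Point.some_ne_zero _, e3, e4⟩

/-- point-level version of `exists_dbl`. -/
theorem xc_add_self {P : W.toAffine.Point} (hP : P ≠ 0)
    (hy : 2 * yc P + W.a₁ * xc P + W.a₃ ≠ 0) :
    P + P ≠ 0 ∧
      xc (P + P) * (4 * xc P ^ 3 + W.b₂ * xc P ^ 2 + 2 * W.b₄ * xc P + W.b₆) =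
        xc P ^ 4 - W.b₄ * xc P ^ 2 - 2 * W.b₆ * xc P - W.b₈ := by
  cases P with
  | zero => exact absurd rfl hP
  | some x y h =>
    obtain ⟨x', y', h', e1, e2⟩ := exists_dbl h hy
    rw [e1]
    exact ⟨Point.some_ne_zero _, e2⟩

/-- a nonzero point is 2-torsion iff `2y + a₁x + a₃ = 0`. -/
theorem add_self_eq_zero_iff {P : W.toAffine.Point} (hP : P ≠ 0) :
    P + P = 0 ↔ 2 * yc P + W.a₁ * xc P + W.a₃ = 0 := by
  constructor
  · intro h
    by_contra hy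
    exact (xc_add_self hP hy).1 h
  · intro hy
    cases P with
    | zero => exact absurd rfl hP
    | some x y h => exact add_self_eq_zero h hy

omit [DecidableEq K] in
/-- two nonzero points with the same `x`-coordinate are equal or opposite. -/
theorem eq_or_eq_neg_of_xc_eq {P Q : W.toAffine.Point} (hP : P ≠ 0) (hQ : Q ≠ 0)
    (hx : xc P = xc Q) : P = Q ∨ P = -Q := by
  cases P with
  | zero => exact absurd rfl hP
  | some x₁ y₁ h₁ =>
    cases Q with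
    | zero => exact absurd rfl hQ
    | some x₂ y₂ h₂ =>
      simp only [xc_some] at hx
      subst hx
      rcases Y_eq_of_X_eq h₁.1 h₂.1 rfl with hy | hy
      · left
        subst hy
        rfl
      · right
        rw [Point.neg_some]
        subst hy
        rfl

end Fermat.Agent.S13.XOnlyGen
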