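/-
S13, block (4) groundwork (owner: helper90).
For a Weierstrass curve `W` over a field `K` whose `b`-invariants lie in a valuation subring `A`
of `K` (any residue characteristic), the points with non-integral abscissa, together with `0`,
form a subgroup `E1 A W hb2 hb4 hb6 hb8` of `W.toAffine.Point` (the kernel of reduction).
-/
import Mathlib
import Fermat.Agent.S13.XOnlyGen

set_option autoImplicit false

namespace Fermat.Agent.S13.E1Subgroup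

open WeierstrassCurve WeierstrassCurve.Affine Fermat.Agent.S13.XOnlyGen

section Algebra

variable {K : Type*} [Field K]

theorem prod_identity (x₁ x₂ x3 x4 b4 b6 b8 : K) (hx1 : x₁ ≠ 0) (hx2 : x₂ ≠ 0)
    (hprod : x3 * x4 * (x₁ - x₂) ^ 2 =
      x₁ ^ 2 * x₂ ^ 2 - b4 * x₁ * x₂ - b6 * (x₁ + x₂) - b8) :
    x3 * x4 * (x₁⁻¹ - x₂⁻¹) ^ 2 =
      1 - (b4 * x₂⁻¹ + b6 * x₂⁻¹ * (x₁⁻¹ + x₂⁻¹) + b8 * x₁⁻¹ * x₂⁻¹ ^ 2) * x₁⁻¹ := by
  field_simp
  linear_combination hprod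

theorem sum_identity (x₁ x₂ x3 x4 b2 b4 b6 : K) (hx1 : x₁ ≠ 0) (hx2 : x₂ ≠ 0)
    (hsum : (x3 + x4) * (x₁ - x₂) ^ 2 =
      2 * x₁ * x₂ * (x₁ + x₂) + b2 * x₁ * x₂ + b4 * (x₁ + x₂) + b6) :
    (x3 + x4) * (x₁⁻¹ - x₂⁻¹) ^ 2 =
      2 * (x₁⁻¹ + x₂⁻¹) +
        (b2 * x₂⁻¹ + b4 * x₂⁻¹ * (x₁⁻¹ + x₂⁻¹) + b6 * x₁⁻¹ * x₂⁻¹ ^ 2) * x₁⁻¹ := by
  field_simp
  linear_combination hsum

theorem dbl_identity (x x2 b2 b4 b6 b8 : K) (hx1 : x ≠ 0)
    (h : x2 * (4 * x ^ 3 + b2 * x ^ 2 + 2 * b4 * x + b6) =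
      x ^ 4 - b4 * x ^ 2 - 2 * b6 * x - b8) :
    x2 * ((4 + b2 * x⁻¹ + 2 * b4 * x⁻¹ ^ 2 + b6 * x⁻¹ ^ 3) * x⁻¹) =
      1 - (b4 * x⁻¹ + 2 * b6 * x⁻¹ ^ 2 + b8 * x⁻¹ ^ 3) * x⁻¹ := by
  field_simp
  linear_combination h

end Algebra

variable {K : Type*} [Field K] (A : ValuationSubring K)

/-- If `x` is not integral then its inverse is a non-unit of `A`. -/
theorem inv_val_lt_one_of_not_mem {x : K} (h : x ∉ A) : A.valuation x⁻¹ < 1 := by
  have hx : x ≠ 0 := fun h0 => h (h0 ▸ A.zero_mem)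
  rw [← A.valuation_le_one_iff, not_le] at h
  rw [map_inv₀, inv_lt_one₀ ((Valuation.pos_iff _).mpr hx)]
  exact h

theorem val_mul_lt_one {a x : K} (ha : a ∈ A) (hx : A.valuation x < 1) :
    A.valuation (a * x) < 1 := by
  rw [map_mul]
  calc A.valuation a * A.valuation x ≤ 1 * A.valuation x :=
        mul_le_mul' ((A.valuation_le_one_iff a).mpr ha) le_rfl
    _ = A.valuation x := one_mul _
    _ < 1 := hx

theorem val_add_lt_one {x y : K} (hx : A.valuation x < 1) (hy : A.valuation y < 1) :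
    A.valuation (x + y) < 1 := Valuation.map_add_lt _ hx hy

theorem mem_of_val_lt_one {x : K} (hx : A.valuation x < 1) : x ∈ A :=
  (A.valuation_le_one_iff x).mp hx.le

theorem val_one_sub_eq_one {x : K} (hx : A.valuation x < 1) : A.valuation (1 - x) = 1 := by
  have h := Valuation.map_sub_eq_of_lt_left (A.valuation) (x := 1) (y := x)
    (by rw [map_one]; exact hx)
  rw [h, map_one]

theorem natCast_mem' (n : ℕ) : (n : K) ∈ A := natCast_mem A n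

/-- The arithmetic core for a sum of two distinct abscissae: if `x₃ x₄ d = U` is a unit and
`(x₃ + x₄) d` is a non-unit with `d` a non-unit, then `x₃` is not integral. -/
theorem not_mem_of_prod_sum {x₃ x₄ d U S : K} (hU : A.valuation U = 1)
    (hS : A.valuation S < 1) (hd : A.valuation d < 1)
    (hprod : x₃ * x₄ * d = U) (hsum : (x₃ + x₄) * d = S) : x₃ ∉ A := by
  intro h3
  have h3' : A.valuation x₃ ≤ 1 := (A.valuation_le_one_iff _).mpr h3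
  have hp : A.valuation x₃ * A.valuation x₄ * A.valuation d = 1 := by
    rw [← map_mul, ← map_mul, hprod, hU]
  -- `v x₄ > 1`
  have h4 : 1 < A.valuation x₄ := by
    by_contra hcon
    rw [not_lt] at hcon
    have : A.valuation x₃ * A.valuation x₄ * A.valuation d ≤ 1 * 1 * A.valuation d :=
      mul_le_mul' (mul_le_mul' h3' hcon) le_rfl
    rw [hp, one_mul, one_mul] at this
    exact absurd hd (not_lt.mpr this)
  have hadd : A.valuation (x₃ + x₄) = A.valuation x₄ :=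
    Valuation.map_add_eq_of_lt_right _ (lt_of_le_of_lt h3' h4)
  have hs : A.valuation x₄ * A.valuation d < 1 := by
    rw [← hadd, ← map_mul, hsum]
    exact hS
  have : A.valuation x₃ * (A.valuation x₄ * A.valuation d) ≤
      1 * (A.valuation x₄ * A.valuation d) := mul_le_mul' h3' le_rfl
  rw [← mul_assoc, hp, one_mul] at this
  exact absurd hs (not_lt.mpr this)

variable [DecidableEq K] {W : WeierstrassCurve K}

/-- Sum and difference of two points with distinct non-integral abscissae. -/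
theorem xc_add_not_mem (hb2 : W.b₂ ∈ A) (hb4 : W.b₄ ∈ A) (hb6 : W.b₆ ∈ A) (hb8 : W.b₈ ∈ A)
    {P Q : W.toAffine.Point} (hP : P ≠ 0) (hQ : Q ≠ 0) (hxP : xc P ∉ A) (hxQ : xc Q ∉ A)
    (hx : xc P ≠ xc Q) : xc (P + Q) ∉ A ∧ xc (P - Q) ∉ A := by
  obtain ⟨_, _, hsum, hprod⟩ := xc_add_sub hP hQ hx
  have hx1 : xc P ≠ 0 := fun h => hxP (h ▸ A.zero_mem)
  have hx2 : xc Q ≠ 0 := fun h => hxQ (h ▸ A.zero_mem)
  have h1 : A.valuation (xc P)⁻¹ < 1 := inv_val_lt_one_of_not_mem A hxP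
  have h2 : A.valuation (xc Q)⁻¹ < 1 := inv_val_lt_one_of_not_mem A hxQ
  have m1 : (xc P)⁻¹ ∈ A := mem_of_val_lt_one A h1
  have m2 : (xc Q)⁻¹ ∈ A := mem_of_val_lt_one A h2
  have hcm : W.b₄ * (xc Q)⁻¹ + W.b₆ * (xc Q)⁻¹ * ((xc P)⁻¹ + (xc Q)⁻¹) +
      W.b₈ * (xc P)⁻¹ * (xc Q)⁻¹ ^ 2 ∈ A :=
    A.add_mem _ _ (A.add_mem _ _ (A.mul_mem _ _ hb4 m2)
      (A.mul_mem _ _ (A.mul_mem _ _ hb6 m2) (A.add_mem _ _ m1 m2)))
      (A.mul_mem _ _ (A.mul_mem _ _ hb8 m1) (pow_mem m2 2))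
  have hem : W.b₂ * (xc Q)⁻¹ + W.b₄ * (xc Q)⁻¹ * ((xc P)⁻¹ + (xc Q)⁻¹) +
      W.b₆ * (xc P)⁻¹ * (xc Q)⁻¹ ^ 2 ∈ A :=
    A.add_mem _ _ (A.add_mem _ _ (A.mul_mem _ _ hb2 m2)
      (A.mul_mem _ _ (A.mul_mem _ _ hb4 m2) (A.add_mem _ _ m1 m2)))
      (A.mul_mem _ _ (A.mul_mem _ _ hb6 m1) (pow_mem m2 2))
  have hU := val_one_sub_eq_one A (val_mul_lt_one A hcm h1)
  have h2m : (2 : K) ∈ A := by
    have := natCast_mem' A 2
    simp
  have hS := val_add_lt_one A (val_mul_lt_one A h2m (val_add_lt_one A h1 h2))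
    (val_mul_lt_one A hem h1)
  have hd : A.valuation (((xc P)⁻¹ - (xc Q)⁻¹) ^ 2) < 1 := by
    have h12 : A.valuation ((xc P)⁻¹ - (xc Q)⁻¹) < 1 := by
      rw [sub_eq_add_neg]
      exact val_add_lt_one A h1 (by rw [Valuation.map_neg]; exact h2)
    rw [pow_two]
    exact val_mul_lt_one A (mem_of_val_lt_one A h12) h12
  have hprod' := prod_identity _ _ _ _ _ _ _ hx1 hx2 hprod
  have hsum' := sum_identity _ _ _ _ _ _ _ hx1 hx2 hsum
  refine ⟨not_mem_of_prod_sum A hU hS hd hprod' hsum', ?_⟩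
  refine not_mem_of_prod_sum A hU hS hd ?_ ?_ (x₄ := xc (P + Q))
  · rw [mul_comm (xc (P - Q))]
    exact hprod'
  · rw [add_comm (xc (P - Q))]
    exact hsum'

/-- Doubling a point with non-integral abscissa. -/
theorem xc_add_self_not_mem (hb2 : W.b₂ ∈ A) (hb4 : W.b₄ ∈ A) (hb6 : W.b₆ ∈ A)
    (hb8 : W.b₈ ∈ A) {P : W.toAffine.Point} (hP : P ≠ 0) (hxP : xc P ∉ A)
    (h2P : P + P ≠ 0) : xc (P + P) ∉ A := by
  have hy : 2 * yc P + W.a₁ * xc P + W.a₃ ≠ 0 := fun h =>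
    h2P ((add_self_eq_zero_iff hP).mpr h)
  obtain ⟨_, hdbl⟩ := xc_add_self hP hy
  have hx1 : xc P ≠ 0 := fun h => hxP (h ▸ A.zero_mem)
  have h1 : A.valuation (xc P)⁻¹ < 1 := inv_val_lt_one_of_not_mem A hxP
  have m1 : (xc P)⁻¹ ∈ A := mem_of_val_lt_one A h1
  have h2m : (2 : K) ∈ A := by
    have := natCast_mem' A 2
    simp
  have h4m : (4 : K) ∈ A := by
    have := natCast_mem' A 4
    simp
  have hcm : W.b₄ * (xc P)⁻¹ + 2 * W.b₆ * (xc P)⁻¹ ^ 2 + W.b₈ * (xc P)⁻¹ ^ 3 ∈ A :=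
    A.add_mem _ _ (A.add_mem _ _ (A.mul_mem _ _ hb4 m1)
      (A.mul_mem _ _ (A.mul_mem _ _ h2m hb6) (pow_mem m1 2)))
      (A.mul_mem _ _ hb8 (pow_mem m1 3))
  have hem : 4 + W.b₂ * (xc P)⁻¹ + 2 * W.b₄ * (xc P)⁻¹ ^ 2 + W.b₆ * (xc P)⁻¹ ^ 3 ∈ A :=
    A.add_mem _ _ (A.add_mem _ _ (A.add_mem _ _ h4m (A.mul_mem _ _ hb2 m1))
      (A.mul_mem _ _ (A.mul_mem _ _ h2m hb4) (pow_mem m1 2)))
      (A.mul_mem _ _ hb6 (pow_mem m1 3))
  have hU := val_one_sub_eq_one A (val_mul_lt_one A hcm h1)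
  have hD := val_mul_lt_one A hem h1
  have hid := dbl_identity _ _ _ _ _ _ hx1 hdbl
  intro hmem
  have h3 : A.valuation (xc (P + P)) ≤ 1 := (A.valuation_le_one_iff _).mpr hmem
  have hv := congrArg A.valuation hid
  rw [map_mul, hU] at hv
  have : A.valuation (xc (P + P)) *
      A.valuation ((4 + W.b₂ * (xc P)⁻¹ + 2 * W.b₄ * (xc P)⁻¹ ^ 2 + W.b₆ * (xc P)⁻¹ ^ 3) *
        (xc P)⁻¹) ≤ 1 * A.valuation ((4 + W.b₂ * (xc P)⁻¹ + 2 * W.b₄ * (xc P)⁻¹ ^ 2 +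
          W.b₆ * (xc P)⁻¹ ^ 3) * (xc P)⁻¹) := mul_le_mul' h3 le_rfl
  rw [hv, one_mul] at this
  exact absurd hD (not_lt.mpr this)

/-- **The kernel of reduction**: points with non-integral abscissa, together with `0`. -/
def E1 (W : WeierstrassCurve K) (hb2 : W.b₂ ∈ A) (hb4 : W.b₄ ∈ A) (hb6 : W.b₆ ∈ A)
    (hb8 : W.b₈ ∈ A) : AddSubgroup W.toAffine.Point where
  carrier := {P | P = 0 ∨ xc P ∉ A}
  zero_mem' := Or.inl rfl
  neg_mem' := by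
    rintro P (rfl | hP)
    · exact Or.inl neg_zero
    · exact Or.inr (by rw [xc_neg]; exact hP)
  add_mem' := by
    rintro P Q (rfl | hP) (rfl | hQ)
    · exact Or.inl (add_zero _)
    · rw [zero_add]; exact Or.inr hQ
    · rw [add_zero]; exact Or.inr hP
    · have hP0 : P ≠ 0 := by
        rintro rfl
        exact hP (by rw [xc_zero]; exact A.zero_mem)
      have hQ0 : Q ≠ 0 := by
        rintro rfl
        exact hQ (by rw [xc_zero]; exact A.zero_mem)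
      by_cases hx : xc P = xc Q
      · rcases eq_or_eq_neg_of_xc_eq hP0 hQ0 hx with rfl | rfl
        · by_cases h2 : P + P = 0
          · exact Or.inl h2
          · exact Or.inr (xc_add_self_not_mem A hb2 hb4 hb6 hb8 hP0 hP h2)
        · exact Or.inl (neg_add_cancel Q)
      · exact Or.inr (xc_add_not_mem A hb2 hb4 hb6 hb8 hP0 hQ0 hP hQ hx).1

theorem mem_E1_iff (hb2 : W.b₂ ∈ A) (hb4 : W.b₄ ∈ A) (hb6 : W.b₆ ∈ A) (hb8 : W.b₈ ∈ A)
    (P : W.toAffine.Point) : P ∈ E1 A W hb2 hb4 hb6 hb8 ↔ P = 0 ∨ xc P ∉ A := Iff.rfl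

/-- Multiples of a point of `E1` stay in `E1`: if `x(P)` is not integral and `n • P ≠ 0` then
`x(n • P)` is not integral. -/
theorem xc_nsmul_not_mem (hb2 : W.b₂ ∈ A) (hb4 : W.b₄ ∈ A) (hb6 : W.b₆ ∈ A) (hb8 : W.b₈ ∈ A)
    {P : W.toAffine.Point} (hxP : xc P ∉ A) (n : ℕ) (hn : n • P ≠ 0) : xc (n • P) ∉ A := by
  have h : n • P ∈ E1 A W hb2 hb4 hb6 hb8 :=
    AddSubgroup.nsmul_mem _ (Or.inr hxP) n
  exact h.resolve_left hn

omit [DecidableEq K] in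
/-- Integrality of the `b`-invariants from integrality of the `a`-invariants. -/
theorem b_mem_of_a_mem (ha1 : W.a₁ ∈ A) (ha2 : W.a₂ ∈ A) (ha3 : W.a₃ ∈ A) (ha4 : W.a₄ ∈ A)
    (ha6 : W.a₆ ∈ A) : W.b₂ ∈ A ∧ W.b₄ ∈ A ∧ W.b₆ ∈ A ∧ W.b₈ ∈ A := by
  have h2m : (2 : K) ∈ A := by
    have := natCast_mem' A 2
    simp
  have h4m : (4 : K) ∈ A := by
    have := natCast_mem' A 4
    simp
  refine ⟨?_, ?_, ?_, ?_⟩
  · rw [WeierstrassCurve.b₂]
    exact A.add_mem _ _ (pow_mem ha1 2) (A.mul_mem _ _ h4m ha2)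
  · rw [WeierstrassCurve.b₄]
    exact A.add_mem _ _ (A.mul_mem _ _ h2m ha4) (A.mul_mem _ _ ha1 ha3)
  · rw [WeierstrassCurve.b₆]
    exact A.add_mem _ _ (pow_mem ha3 2) (A.mul_mem _ _ h4m ha6)
  · rw [WeierstrassCurve.b₈]
    exact sub_mem (add_mem (sub_mem (add_mem
      (mul_mem (pow_mem ha1 2) ha6) (mul_mem (mul_mem h4m ha2) ha6))
      (mul_mem (mul_mem ha1 ha3) ha4)) (mul_mem ha2 (pow_mem ha3 2)))
      (pow_mem ha4 2)

end Fermat.Agent.S13.E1Subgroup
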