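/-
S13 helper file (helper38): rationality of Galois-stable products and valuations of rationals.

* `prod_mem_range_of_stable`: in a Galois extension `K/k` (possibly infinite), the product of a
  finite subset of `K` stable under `Gal(K/k)` lies in `k`.
* `valuation_intCast_eq_pow`, `valuation_ratCast_eq_zpow`: for a valuation subring `A` lying over
  the prime `p`, the valuation of a nonzero integer / rational is an integral power of `v(p)`.
* `inv_valuation_prime_le_prod`: the consumer inequality for the supersingular case of S13: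
  a nonempty finite `G_ℚ`-stable set of elements of `ℚ̄`, all non-integral at `A` (`1 < v x`),
  has `v(p)⁻¹ ≤ ∏ v x`.
-/
import Mathlib
import Fermat.Prelude.Def_FLTPrelim_Ramification
import Fermat.Agent.S05.Inertia

set_option autoImplicit false

namespace Fermat.Agent.S13.RationalProduct

open Fermat.Agent.S05.Inertia

section Galois

variable {k K : Type*} [Field k] [Field K] [Algebra k K] [IsGalois k K]

/-- An element fixed by the whole Galois group comes from the base field
(infinite Galois extensions allowed). -/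
theorem exists_algebraMap_eq_of_fixed (c : K) (hc : ∀ σ : K ≃ₐ[k] K, σ c = c) :
    ∃ q : k, algebraMap k K q = c :=
  (InfiniteGalois.mem_range_algebraMap_iff_fixed c).2 hc

omit [IsGalois k K] in
/-- A Galois automorphism permutes a stable finite set, hence fixes its product. -/
theorem map_prod_eq_of_stable [DecidableEq K] (s : Finset K)
    (hs : ∀ σ : K ≃ₐ[k] K, ∀ x ∈ s, σ x ∈ s) (σ : K ≃ₐ[k] K) :
    σ (∏ x ∈ s, x) = ∏ x ∈ s, x := by
  rw [map_prod]
  refine Finset.prod_bij (fun x _ => σ x) (fun x hx => hs σ x hx)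
    (fun x _ y _ h => σ.injective h) (fun y hy => ?_) (fun _ _ => rfl)
  exact ⟨σ.symm y, hs σ.symm y hy, by simp⟩

/-- The product of a finite Galois-stable subset lies in the base field. -/
theorem prod_mem_range_of_stable [DecidableEq K] (s : Finset K)
    (hs : ∀ σ : K ≃ₐ[k] K, ∀ x ∈ s, σ x ∈ s) :
    ∃ q : k, algebraMap k K q = ∏ x ∈ s, x :=
  exists_algebraMap_eq_of_fixed _ (map_prod_eq_of_stable s hs)

/-- More generally: any symmetric expression.  The sum of a finite Galois-stable subset lies in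
the base field. -/
theorem sum_mem_range_of_stable [DecidableEq K] (s : Finset K)
    (hs : ∀ σ : K ≃ₐ[k] K, ∀ x ∈ s, σ x ∈ s) :
    ∃ q : k, algebraMap k K q = ∑ x ∈ s, x := by
  refine exists_algebraMap_eq_of_fixed _ (fun σ => ?_)
  rw [map_sum]
  refine Finset.sum_bij (fun x _ => σ x) (fun x hx => hs σ x hx)
    (fun x _ y _ h => σ.injective h) (fun y hy => ?_) (fun _ _ => rfl)
  exact ⟨σ.symm y, hs σ.symm y hy, by simp⟩

end Galois

section Valuation

variable {L : Type*} [Field L] {A : ValuationSubring L}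

/-- If `A` lies over `p` then `v(p) ≠ 0` as soon as `p ≠ 0` in `L`. -/
theorem valuation_prime_pos [CharZero L] {p : ℕ} (hp : p.Prime) :
    0 < A.valuation (p : L) := by
  rw [zero_lt_iff, Ne, map_eq_zero]
  exact_mod_cast hp.ne_zero

/-- The valuation of a nonzero natural number is a power of `v(p)`. -/
theorem valuation_natCast_eq_pow {p : ℕ} (hp : p.Prime) (hA : A.LiesOverPrime p) {n : ℕ}
    (hn : n ≠ 0) : ∃ e : ℕ, A.valuation (n : L) = A.valuation (p : L) ^ e := by
  obtain ⟨e, m, hm, rfl⟩ := Nat.exists_eq_pow_mul_and_not_dvd hn p hp.ne_one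
  refine ⟨e, ?_⟩
  have h1 : A.valuation ((m : ℤ) : L) = 1 :=
    valuation_intCast_eq_one_of_not_dvd hp hA (by exact_mod_cast hm)
  push_cast at h1 ⊢
  rw [map_mul, map_pow, h1, mul_one]

/-- The valuation of a nonzero integer is a power of `v(p)`. -/
theorem valuation_intCast_eq_pow {p : ℕ} (hp : p.Prime) (hA : A.LiesOverPrime p) {n : ℤ}
    (hn : n ≠ 0) : ∃ e : ℕ, A.valuation (n : L) = A.valuation (p : L) ^ e := by
  obtain ⟨e, he⟩ := valuation_natCast_eq_pow (L := L) hp hA (n := n.natAbs)
    (Int.natAbs_ne_zero.2 hn)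
  refine ⟨e, ?_⟩
  rw [← he]
  rcases Int.natAbs_eq n with h | h
  · conv_lhs => rw [h]
    simp
  · conv_lhs => rw [h]
    simp

/-- The valuation of a nonzero rational number is an integral power of `v(p)`. -/
theorem valuation_ratCast_eq_zpow [CharZero L] {p : ℕ} (hp : p.Prime) (hA : A.LiesOverPrime p)
    {q : ℚ} (hq : q ≠ 0) : ∃ e : ℤ, A.valuation (q : L) = A.valuation (p : L) ^ e := by
  obtain ⟨a, ha⟩ := valuation_intCast_eq_pow (L := L) hp hA (Rat.num_ne_zero.2 hq)
  obtain ⟨b, hb⟩ := valuation_natCast_eq_pow (L := L) hp hA q.den_ne_zero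
  refine ⟨(a : ℤ) - b, ?_⟩
  have hv : A.valuation (p : L) ≠ 0 := (valuation_prime_pos (A := A) hp).ne'
  rw [Rat.cast_def, map_div₀, ha, hb, zpow_sub₀ hv, zpow_natCast, zpow_natCast]

/-- Same statement with `algebraMap ℚ L`. -/
theorem valuation_algebraMap_rat_eq_zpow [CharZero L] [Algebra ℚ L] {p : ℕ} (hp : p.Prime)
    (hA : A.LiesOverPrime p) {q : ℚ} (hq : q ≠ 0) :
    ∃ e : ℤ, A.valuation (algebraMap ℚ L q) = A.valuation (p : L) ^ e := by
  rw [eq_ratCast]
  exact valuation_ratCast_eq_zpow hp hA hq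

/-- A rational number which is not integral at `A` has valuation at least `v(p)⁻¹`. -/
theorem inv_valuation_prime_le_of_one_lt [CharZero L] {p : ℕ} (hp : p.Prime)
    (hA : A.LiesOverPrime p) {q : ℚ} (h : 1 < A.valuation (q : L)) :
    (A.valuation (p : L))⁻¹ ≤ A.valuation (q : L) := by
  have hq : q ≠ 0 := by
    rintro rfl
    simp at h
  obtain ⟨e, he⟩ := valuation_ratCast_eq_zpow (L := L) hp hA hq
  have hpos : 0 < A.valuation (p : L) := valuation_prime_pos hp
  have hlt : A.valuation (p : L) < 1 := valuation_prime_lt_one hA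
  rw [he] at h ⊢
  have hneg : e < 0 := by
    by_contra hge
    rw [not_lt] at hge
    exact absurd h (not_lt.2 (zpow_le_one₀ hpos hlt.le hge))
  have : e ≤ -1 := by omega
  calc (A.valuation (p : L))⁻¹ = A.valuation (p : L) ^ (-1 : ℤ) := by simp
    _ ≤ A.valuation (p : L) ^ e := zpow_le_zpow_right_of_le_one₀ hpos hlt.le this

end Valuation

section Consumer

variable {L : Type*} [Field L] {A : ValuationSubring L}

/-- A nonempty product of elements `> 1` of a linearly ordered commutative group with zero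
is `> 1`. -/
theorem one_lt_prod_valuation (s : Finset L) (hne : s.Nonempty)
    (h : ∀ x ∈ s, 1 < A.valuation x) : 1 < ∏ x ∈ s, A.valuation x := by
  classical
  induction hne using Finset.Nonempty.cons_induction with
  | singleton a => simpa using h a (by simp)
  | cons a s ha hs ih =>
    rw [Finset.prod_cons]
    have h1 : 1 < A.valuation a := h a (Finset.mem_cons_self a s)
    have h2 : 1 < ∏ x ∈ s, A.valuation x := ih (fun x hx => h x (Finset.mem_cons_of_mem hx))
    calc (1 : A.ValueGroup) < A.valuation a := h1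
      _ = A.valuation a * 1 := (mul_one _).symm
      _ ≤ A.valuation a * ∏ x ∈ s, A.valuation x := by gcongr

/-- **Consumer inequality.**  Let `K/ℚ` be Galois (e.g. `K = ℚ̄`), `A` a valuation subring of `K`
over the prime `p`, and `s` a nonempty finite Galois-stable subset of `K` all of whose elements
are non-integral at `A`.  Then `v(p)⁻¹ ≤ ∏_{x ∈ s} v(x)`. -/
theorem inv_valuation_prime_le_prod [CharZero L] [Algebra ℚ L] [IsGalois ℚ L] [DecidableEq L]
    {p : ℕ} (hp : p.Prime) (hA : A.LiesOverPrime p) (s : Finset L) (hne : s.Nonempty)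
    (hs : ∀ σ : L ≃ₐ[ℚ] L, ∀ x ∈ s, σ x ∈ s) (h : ∀ x ∈ s, 1 < A.valuation x) :
    (A.valuation (p : L))⁻¹ ≤ ∏ x ∈ s, A.valuation x := by
  obtain ⟨q, hq⟩ := prod_mem_range_of_stable (k := ℚ) s hs
  have hprod : ∏ x ∈ s, A.valuation x = A.valuation (q : L) := by
    rw [← map_prod, ← hq, eq_ratCast]
  rw [hprod]
  refine inv_valuation_prime_le_of_one_lt hp hA ?_
  rw [← hprod]
  exact one_lt_prod_valuation s hne h

end Consumer

section Qbar

/-- The consumer inequality for `ℚ̄ = AlgebraicClosure ℚ` with its absolute Galois group. -/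
theorem inv_valuation_prime_le_prod_algebraicClosure
    {A : ValuationSubring (AlgebraicClosure ℚ)} {p : ℕ} (hp : p.Prime) (hA : A.LiesOverPrime p)
    (s : Finset (AlgebraicClosure ℚ)) (hne : s.Nonempty)
    (hs : ∀ σ : AlgebraicClosure ℚ ≃ₐ[ℚ] AlgebraicClosure ℚ, ∀ x ∈ s, σ x ∈ s)
    (h : ∀ x ∈ s, 1 < A.valuation x) :
    (A.valuation (p : AlgebraicClosure ℚ))⁻¹ ≤ ∏ x ∈ s, A.valuation x := by
  classical
  have : IsGalois ℚ (AlgebraicClosure ℚ) := by
    have h : (DivisionRing.toRatAlgebra : Algebra ℚ (AlgebraicClosure ℚ)) =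
        AlgebraicClosure.instAlgebra ℚ := Subsingleton.elim _ _
    rw [h]
    infer_instance
  exact inv_valuation_prime_le_prod hp hA s hne hs h

/-- Rationality of the product of a `G_ℚ`-stable finite subset of `ℚ̄`. -/
theorem prod_mem_range_of_stable_algebraicClosure (s : Finset (AlgebraicClosure ℚ))
    (hs : ∀ σ : AlgebraicClosure ℚ ≃ₐ[ℚ] AlgebraicClosure ℚ, ∀ x ∈ s, σ x ∈ s) :
    ∃ q : ℚ, algebraMap ℚ (AlgebraicClosure ℚ) q = ∏ x ∈ s, x := by
  classical
  have : IsGalois ℚ (AlgebraicClosure ℚ) := by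
    have h : (DivisionRing.toRatAlgebra : Algebra ℚ (AlgebraicClosure ℚ)) =
        AlgebraicClosure.instAlgebra ℚ := Subsingleton.elim _ _
    rw [h]
    infer_instance
  exact prod_mem_range_of_stable s hs

end Qbar

end Fermat.Agent.S13.RationalProduct
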