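/-
S13, interface (I4) `Bp.atP` of the block map (owner: helper92).

For a `G_ℚ`-stable line `X` in `V = E[p](Qbar)` (`E` the Frey curve, `#V ≤ p²`), EITHER all inertia
groups `I_A` (`A | p`) act trivially on `X`, OR all of them act trivially on `V / X`.

Inputs (taken as hypotheses, in the shapes of the block map):
* `hlocal` (`Bp.local`): for `T ∈ V` nonzero with integral abscissa and `σ ∈ I_A`:
  `σ T - T = 0` or `x(σ T - T) ∉ A`  (`σ T - T` lies in the kernel of reduction);
* `hSS` (supersingular case excluded): not all nonzero `T ∈ V` have non-integral abscissa.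

The uniformity over all `A | p` comes from the rational number `c₀ = ∏ x(X ∖ 0)`, which is integral
at one `A | p` iff it is at all of them (`ratCast_mem_iff`).
-/
import Fermat.Statements.S13
import Fermat.Agent.S05
import Fermat.Agent.S13.E1Subgroup
import Fermat.Agent.S13.RationalProduct

set_option autoImplicit false
open WeierstrassCurve WeierstrassCurve.Affine WeierstrassCurve.Affine.Point

namespace Fermat.Agent.S13.AtP

open Fermat.Agent.S13.XOnlyGen

local notation "Qbar" => AlgebraicClosure ℚ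
local notation "GQ" => (AlgebraicClosure ℚ ≃ₐ[ℚ] AlgebraicClosure ℚ)

/-! ### Linear algebra over `ZMod p` -/

section LinearAlgebra

variable {p : ℕ} [Fact p.Prime] {V : Type*} [AddCommGroup V] [Module (ZMod p) V]

theorem finrank_le_two [Finite V] (hcard : Nat.card V ≤ p ^ 2) :
    Module.finrank (ZMod p) V ≤ 2 := by
  have h := Module.natCard_eq_pow_finrank (K := ZMod p) (V := V)
  rw [Nat.card_zmod] at h
  rw [h] at hcard
  exact (Nat.pow_le_pow_iff_right (Fact.out : p.Prime).one_lt).mp hcard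

/-- In a module over `ZMod p` with at most `p²` elements, a submodule `X ≠ ⊥, ⊤` is a line:
a proper submodule `F` containing `X` equals `X`, and one not containing `X` meets it trivially. -/
theorem eq_or_inf_eq_bot [Finite V] (hcard : Nat.card V ≤ p ^ 2)
    (X F : Submodule (ZMod p) V) (hX0 : X ≠ ⊥) (hX1 : X ≠ ⊤) (hF : F ≠ ⊤) :
    (X ≤ F → F = X) ∧ (¬ X ≤ F → X ⊓ F = ⊥) := by
  have h2 := finrank_le_two (p := p) (V := V) hcard
  have hXpos : 0 < Module.finrank (ZMod p) X := by
    rw [Module.finrank_pos_iff]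
    exact (Submodule.nontrivial_iff_ne_bot).mpr hX0
  have hXlt : Module.finrank (ZMod p) X < Module.finrank (ZMod p) V :=
    Submodule.finrank_lt hX1
  have hFlt : Module.finrank (ZMod p) F < Module.finrank (ZMod p) V :=
    Submodule.finrank_lt hF
  have hX1' : Module.finrank (ZMod p) X = 1 := by omega
  constructor
  · intro hle
    have hle' : Module.finrank (ZMod p) X ≤ Module.finrank (ZMod p) F :=
      Submodule.finrank_mono hle
    exact (Submodule.eq_of_le_of_finrank_eq hle (by omega)).symm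
  · intro hnle
    have hlt : X ⊓ F < X := lt_of_le_of_ne inf_le_left (fun h => hnle (h ▸ inf_le_right))
    have := Submodule.finrank_lt_finrank_of_lt hlt
    have h0 : Module.finrank (ZMod p) ↥(X ⊓ F) = 0 := by omega
    exact Submodule.finrank_eq_zero.mp h0

end LinearAlgebra

/-! ### Rational numbers in a valuation subring over `p` -/

section RatMem

variable {L : Type*} [Field L] [CharZero L] (A : ValuationSubring L)

/-- For a valuation subring `A` lying over the prime `p`, a rational number lies in `A` iff `p`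
does not divide its denominator.  In particular the condition does not depend on `A`. -/
theorem ratCast_mem_iff {p : ℕ} (hp : p.Prime) (hA : (p : L) ∈ A.nonunits) (q : ℚ) :
    (q : L) ∈ A ↔ ¬ p ∣ q.den := by
  have hden0 : (q.den : L) ≠ 0 := by exact_mod_cast q.den_ne_zero
  constructor
  · intro hq hd
    have hnum : ¬ (p : ℤ) ∣ q.num := by
      intro hn
      have h1 : p ∣ q.num.natAbs := Int.natCast_dvd.mp hn
      have h2 : p ∣ Nat.gcd q.num.natAbs q.den := Nat.dvd_gcd h1 hd
      rw [q.reduced] at h2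
      exact hp.one_lt.ne' (Nat.dvd_one.mp h2)
    have hv1 : A.valuation ((q.num : ℤ) : L) = 1 := S05.FreyArith.val_intCast_eq_one A hp hA hnum
    have hv2 : A.valuation ((q.den : ℕ) : L) < 1 := S05.FreyArith.val_natCast_lt_one A hA hd
    have hvq : A.valuation (q : L) ≤ 1 := (A.valuation_le_one_iff _).mpr hq
    have e : (q : L) * (q.den : L) = (q.num : L) := by
      rw [Rat.cast_def]; field_simp
    have : A.valuation (q : L) * A.valuation ((q.den : ℕ) : L) = 1 := by
      rw [← map_mul, e, hv1]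
    have hlt : A.valuation (q : L) * A.valuation ((q.den : ℕ) : L) < 1 :=
      calc A.valuation (q : L) * A.valuation ((q.den : ℕ) : L)
          ≤ 1 * A.valuation ((q.den : ℕ) : L) := mul_le_mul' hvq le_rfl
        _ = A.valuation ((q.den : ℕ) : L) := one_mul _
        _ < 1 := hv2
    rw [this] at hlt
    exact lt_irrefl _ hlt
  · intro hd
    have hv2 : A.valuation ((q.den : ℕ) : L) = 1 := S05.FreyArith.val_natCast_eq_one A hp hA hd
    rw [← A.valuation_le_one_iff, Rat.cast_def, map_div₀, hv2, div_one]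
    exact S05.FreyArith.val_intCast_le_one A q.num

end RatMem

/-! ### The Frey curve at an odd prime -/

/-- The coefficients of the Frey model are integral at every valuation subring over an odd prime. -/
theorem frey_coeff_mem (P : FreyPackage) (A : ValuationSubring Qbar) {q : ℕ} (hq : q.Prime)
    (hq2 : q ≠ 2) (hA : (q : Qbar) ∈ A.nonunits) :
    (P.freyCurve⁄Qbar).a₁ ∈ A ∧ (P.freyCurve⁄Qbar).a₂ ∈ A ∧ (P.freyCurve⁄Qbar).a₃ ∈ A ∧
      (P.freyCurve⁄Qbar).a₄ ∈ A ∧ (P.freyCurve⁄Qbar).a₆ ∈ A := by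
  have hq2' : ¬ q ∣ 2 := fun h => hq2 ((Nat.prime_dvd_prime_iff_eq hq Nat.prime_two).mp h)
  have h4 : A.valuation ((4 : ℕ) : Qbar) = 1 :=
    S05.FreyArith.val_natCast_eq_one A hq hA (n := 4)
      (fun h => hq2' (hq.dvd_of_dvd_pow (show q ∣ 2 ^ 2 by simpa using h)))
  have h16 : A.valuation ((16 : ℕ) : Qbar) = 1 :=
    S05.FreyArith.val_natCast_eq_one A hq hA (n := 16)
      (fun h => hq2' (hq.dvd_of_dvd_pow (show q ∣ 2 ^ 4 by simpa using h)))
  push_cast at h4 h16
  refine ⟨?_, ?_, ?_, ?_, ?_⟩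
  · rw [S05.frey_a₁]; exact A.one_mem
  · rw [S05.frey_a₂, ← A.valuation_le_one_iff, map_div₀, h4, div_one, A.valuation_le_one_iff]
    exact sub_mem (sub_mem (pow_mem (intCast_mem A _) _) A.one_mem) (pow_mem (intCast_mem A _) _)
  · rw [S05.frey_a₃]; exact A.zero_mem
  · rw [S05.frey_a₄, ← A.valuation_le_one_iff, map_div₀, h16, div_one, A.valuation_le_one_iff]
    exact mul_mem (neg_mem (pow_mem (intCast_mem A _) _)) (pow_mem (intCast_mem A _) _)
  · rw [S05.frey_a₆]; exact A.zero_mem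

/-- The Galois action commutes with the abscissa. -/
theorem xc_smul (P : FreyPackage) (σ : GQ) (T : (P.freyCurve⁄Qbar).Point) :
    xc (σ • T) = σ (xc T) := by
  cases T with
  | zero =>
    have h0 : σ • (0 : (P.freyCurve⁄Qbar).Point) = 0 := rfl
    change xc (σ • (0 : (P.freyCurve⁄Qbar).Point)) = σ (xc (0 : (P.freyCurve⁄Qbar).Point))
    rw [h0, xc_zero, _root_.map_zero]
  | some x y h => rfl

/-- The `p`-torsion of the Frey curve over `Qbar` (exactly the carrier of the frozen statement). -/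
abbrev Tors (P : FreyPackage) : Type :=
  Submodule.torsionBy ℤ ((P.freyCurve : Affine ℚ)⁄Qbar).Point P.p

theorem coe_smul_sub (P : FreyPackage) (σ : GQ) (x : Tors P) :
    ((σ • x - x : Tors P) : (P.freyCurve⁄Qbar).Point) =
      σ • (x : (P.freyCurve⁄Qbar).Point) - (x : (P.freyCurve⁄Qbar).Point) := rfl

theorem nsmul_coe_eq_zero (P : FreyPackage) (x : Tors P) :
    P.p • (x : (P.freyCurve⁄Qbar).Point) = 0 := by
  have hx : (P.p : ℤ) • (x : (P.freyCurve⁄Qbar).Point) = 0 :=
    (Submodule.mem_torsionBy_iff _ _).mp x.2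
  rwa [natCast_zsmul] at hx

/-- The kernel of reduction inside `E[p]`, as a `ZMod p`-submodule. -/
theorem exists_kernel (P : FreyPackage) (A : ValuationSubring Qbar)
    (hA : A.LiesOverPrime P.p) :
    ∃ F : Submodule (ZMod P.p) (Tors P), ∀ x : Tors P,
      x ∈ F ↔ ((x : (P.freyCurve⁄Qbar).Point) = 0 ∨ xc (x : (P.freyCurve⁄Qbar).Point) ∉ A) := by
  have hp2 : P.p ≠ 2 := by have := P.hp5; omega
  obtain ⟨h1, h2, h3, h4, h6⟩ := frey_coeff_mem P A P.pp hp2 hA
  obtain ⟨hb2, hb4, hb6, hb8⟩ := E1Subgroup.b_mem_of_a_mem A h1 h2 h3 h4 h6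
  refine ⟨AddSubgroup.toZModSubmodule P.p
    ((E1Subgroup.E1 A (P.freyCurve⁄Qbar) hb2 hb4 hb6 hb8).comap
      (Submodule.torsionBy ℤ ((P.freyCurve : Affine ℚ)⁄Qbar).Point P.p).subtype.toAddMonoidHom),
    fun x => Iff.rfl⟩

/-- For one place `A | p`: the kernel of reduction `F = E[p] ∩ E₁(A)` is a proper submodule and
inertia at `A` acts trivially on `E[p] / F`. -/
theorem exists_kernel_proper (P : FreyPackage) (A : ValuationSubring Qbar)
    (hA : A.LiesOverPrime P.p)
    (hlocal : ∀ σ ∈ A.inertiaSubgroupIn ℚ, ∀ T : (P.freyCurve⁄Qbar).Point, T ≠ 0 → P.p • T = 0 →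
        xc T ∈ A → σ • T - T = 0 ∨ xc (σ • T - T) ∉ A)
    (hSS : ¬ ∀ T : (P.freyCurve⁄Qbar).Point, T ≠ 0 → P.p • T = 0 → xc T ∉ A) :
    ∃ F : Submodule (ZMod P.p) (Tors P),
      (∀ x : Tors P, x ∈ F ↔
        ((x : (P.freyCurve⁄Qbar).Point) = 0 ∨ xc (x : (P.freyCurve⁄Qbar).Point) ∉ A)) ∧
      F ≠ ⊤ ∧ ∀ σ ∈ A.inertiaSubgroupIn ℚ, ∀ x : Tors P, σ • x - x ∈ F := by
  obtain ⟨F, hF⟩ := exists_kernel P A hA
  refine ⟨F, hF, ?_, ?_⟩
  · intro htop
    apply hSS
    intro T hT0 hpT
    have hmem : T ∈ Submodule.torsionBy ℤ ((P.freyCurve : Affine ℚ)⁄Qbar).Point P.p := by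
      rw [Submodule.mem_torsionBy_iff, natCast_zsmul]; exact hpT
    have h := (hF ⟨T, hmem⟩).mp (htop ▸ Submodule.mem_top)
    exact h.resolve_left hT0
  · intro σ hσ x
    rw [hF, coe_smul_sub]
    by_cases hx0 : (x : (P.freyCurve⁄Qbar).Point) = 0
    · left
      have h0 : σ • (0 : (P.freyCurve⁄Qbar).Point) = 0 := rfl
      rw [hx0, h0, sub_zero]
    by_cases hxA : xc (x : (P.freyCurve⁄Qbar).Point) ∈ A
    · exact hlocal σ hσ _ hx0 (nsmul_coe_eq_zero P x) hxA
    · -- both `x` and `σ x` lie in the kernel of reduction, which is a subgroup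
      have h1 : x ∈ F := (hF x).mpr (Or.inr hxA)
      have h2 : σ • x ∈ F := by
        refine (hF _).mpr (Or.inr ?_)
        change xc (σ • (x : (P.freyCurve⁄Qbar).Point)) ∉ A
        rw [xc_smul, S05.Inertia.apply_mem_iff hσ]
        exact hxA
      exact (hF _).mp (F.sub_mem h2 h1)

/-- The shape of the hypothesis `Hp` of `ReductionCore.main` (first alternative), for any place
`A | p`. -/
theorem exists_proper_of_place (P : FreyPackage) (A : ValuationSubring Qbar)
    (hA : A.LiesOverPrime P.p)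
    (hlocal : ∀ σ ∈ A.inertiaSubgroupIn ℚ, ∀ T : (P.freyCurve⁄Qbar).Point, T ≠ 0 → P.p • T = 0 →
        xc T ∈ A → σ • T - T = 0 ∨ xc (σ • T - T) ∉ A)
    (hSS : ¬ ∀ T : (P.freyCurve⁄Qbar).Point, T ≠ 0 → P.p • T = 0 → xc T ∉ A) :
    ∃ L : Submodule (ZMod P.p) (Tors P), L ≠ ⊤ ∧
      ∀ σ ∈ A.inertiaSubgroupIn ℚ, ∀ x : Tors P, σ • x - x ∈ L := by
  obtain ⟨F, -, h1, h2⟩ := exists_kernel_proper P A hA hlocal hSS
  exact ⟨F, h1, h2⟩

/-- **Interface (I4)**: the behaviour of inertia at `p` on a `G_ℚ`-stable line is uniform over all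
places above `p`: either all `I_A` act trivially on `X`, or all act trivially on `V / X`. -/
theorem atP (P : FreyPackage) (hfin : Finite (Tors P)) (hcard : Nat.card (Tors P) ≤ P.p ^ 2)
    (hlocal : ∀ A : ValuationSubring Qbar, A.LiesOverPrime P.p →
      ∀ σ ∈ A.inertiaSubgroupIn ℚ, ∀ T : (P.freyCurve⁄Qbar).Point, T ≠ 0 → P.p • T = 0 →
        xc T ∈ A → σ • T - T = 0 ∨ xc (σ • T - T) ∉ A)
    (hSS : ∀ A : ValuationSubring Qbar, A.LiesOverPrime P.p →
      ¬ ∀ T : (P.freyCurve⁄Qbar).Point, T ≠ 0 → P.p • T = 0 → xc T ∉ A)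
    (X : Submodule (ZMod P.p) (Tors P)) (hX : IsGaloisStable ℚ X) (hX0 : X ≠ ⊥) (hX1 : X ≠ ⊤) :
    (∀ A : ValuationSubring Qbar, A.LiesOverPrime P.p →
      ∀ σ ∈ A.inertiaSubgroupIn ℚ, ∀ x ∈ X, σ • x = x) ∨
    (∀ A : ValuationSubring Qbar, A.LiesOverPrime P.p →
      ∀ σ ∈ A.inertiaSubgroupIn ℚ, ∀ x : Tors P, σ • x - x ∈ X) := by
  classical
  have : Fact P.p.Prime := ⟨P.pp⟩
  have : Fintype (Tors P) := Fintype.ofFinite _
  -- the abscissae of the nonzero points of `X`
  set S : Finset Qbar :=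
    (Finset.univ.filter (fun x : Tors P => x ∈ X ∧ x ≠ 0)).image
      (fun x : Tors P => xc (x : (P.freyCurve⁄Qbar).Point)) with hS
  have hSmem : ∀ r, r ∈ S ↔ ∃ x : Tors P, x ∈ X ∧ x ≠ 0 ∧
      xc (x : (P.freyCurve⁄Qbar).Point) = r := by
    intro r
    simp only [hS, Finset.mem_image, Finset.mem_filter, Finset.mem_univ, true_and, and_assoc]
  have hSne : S.Nonempty := by
    obtain ⟨x, hx, hx0⟩ := (Submodule.ne_bot_iff X).mp hX0
    exact ⟨_, (hSmem _).mpr ⟨x, hx, hx0, rfl⟩⟩
  have hSst : ∀ σ : GQ, ∀ r ∈ S, σ r ∈ S := by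
    intro σ r hr
    obtain ⟨x, hx, hx0, rfl⟩ := (hSmem r).mp hr
    refine (hSmem _).mpr ⟨σ • x, hX σ x hx, ?_, ?_⟩
    · intro h
      apply hx0
      have := congrArg (fun y => σ⁻¹ • y) h
      simpa using this
    · exact xc_smul P σ _
  -- their product `c₀` is rational
  obtain ⟨q, hq⟩ := RationalProduct.prod_mem_range_of_stable_algebraicClosure S hSst
  rw [eq_ratCast] at hq
  -- facts for one place
  have key : ∀ A : ValuationSubring Qbar, A.LiesOverPrime P.p →
      ∃ F : Submodule (ZMod P.p) (Tors P), F ≠ ⊤ ∧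
        (∀ σ ∈ A.inertiaSubgroupIn ℚ, ∀ x : Tors P, σ • x - x ∈ F) ∧
        (X ≤ F → (q : Qbar) ∉ A) ∧ (X ⊓ F = ⊥ → (q : Qbar) ∈ A) := by
    intro A hA
    obtain ⟨F, hF, hFtop, hFI⟩ := exists_kernel_proper P A hA (hlocal A hA) (hSS A hA)
    refine ⟨F, hFtop, hFI, ?_, ?_⟩
    · intro hle hqA
      have hall : ∀ r ∈ S, 1 < A.valuation r := by
        intro r hr
        obtain ⟨x, hx, hx0, rfl⟩ := (hSmem r).mp hr
        have hxF := (hF x).mp (hle hx)
        have hx0' : (x : (P.freyCurve⁄Qbar).Point) ≠ 0 := fun h => hx0 (Subtype.ext h)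
        have := hxF.resolve_left hx0'
        rwa [← A.valuation_le_one_iff, not_le] at this
      have h1 := RationalProduct.one_lt_prod_valuation (A := A) S hSne hall
      rw [← map_prod, ← hq] at h1
      exact absurd ((A.valuation_le_one_iff _).mpr hqA) (not_le.mpr h1)
    · intro hbot
      rw [hq]
      refine Subring.prod_mem A.toSubring ?_
      intro r hr
      obtain ⟨x, hx, hx0, rfl⟩ := (hSmem r).mp hr
      by_contra hxA
      have hxF : x ∈ F := (hF x).mpr (Or.inr hxA)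
      have : x ∈ X ⊓ F := ⟨hx, hxF⟩
      rw [hbot] at this
      exact hx0 ((Submodule.mem_bot _).mp this)
  by_cases hden : P.p ∣ q.den
  · -- `c₀` is not `p`-integral: inertia acts trivially on `V / X`
    right
    intro A hA σ hσ x
    obtain ⟨F, hFtop, hFI, -, hF2⟩ := key A hA
    have hdich := eq_or_inf_eq_bot (p := P.p) hcard X F hX0 hX1 hFtop
    have hqA : (q : Qbar) ∉ A := fun h => (ratCast_mem_iff A P.pp hA q).mp h hden
    have hle : X ≤ F := by
      by_contra hnle
      exact hqA (hF2 (hdich.2 hnle))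
    rw [← hdich.1 hle]
    exact hFI σ hσ x
  · -- `c₀` is `p`-integral: inertia acts trivially on `X`
    left
    intro A hA σ hσ x hx
    obtain ⟨F, hFtop, hFI, hF1, -⟩ := key A hA
    have hdich := eq_or_inf_eq_bot (p := P.p) hcard X F hX0 hX1 hFtop
    have hqA : (q : Qbar) ∈ A := (ratCast_mem_iff A P.pp hA q).mpr hden
    have hnle : ¬ X ≤ F := fun hle => hF1 hle hqA
    have hmem : σ • x - x ∈ X ⊓ F := ⟨X.sub_mem (hX σ x hx) hx, hFI σ hσ x⟩
    rw [hdich.2 hnle, Submodule.mem_bot] at hmem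
    exact sub_eq_zero.mp hmem

end Fermat.Agent.S13.AtP
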