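import Mathlib.RingTheory.Valuation.Basic
import Fermat.Agent.S13.XOnlyGen

/-!
# S13: close points on a general integral Weierstrass model

`W` a Weierstrass curve over a valued field `(K, v)` with `v a₁ ≤ 1`, `v a₂ ≤ 1` (ANY residue
characteristic, no assumption on `v 2`).  If `P`, `P'` are affine points, `P` integral with nonsingular reduction
(`v (2y + a₁x + a₃) = 1` or `v (3x² + 2a₂x + a₄ - a₁y) = 1`) and `P' ≡ P` modulo the maximal
ideal, then `P' - P = 0` or `P' - P` has a non-integral `x`-coordinate (lies in the kernel of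
reduction).  This is `S05/ClosePoints` without the short model and without `v 2 = 1`.
-/

set_option autoImplicit false

namespace Fermat.Agent.S13.ClosePointsGen

open WeierstrassCurve WeierstrassCurve.Affine Fermat.Agent.S13.XOnlyGen

variable {K : Type*} [Field K] {Γ₀ : Type*} [LinearOrderedCommGroupWithZero Γ₀]
  (v : Valuation K Γ₀)

lemma one_lt_div {n d : K} (hn : v n = 1) (hd : v d < 1) (hd0 : d ≠ 0) : 1 < v (n / d) := by
  rw [map_div₀, hn, one_div]
  have hpos : 0 < v d := (Valuation.pos_iff v).mpr hd0
  exact (one_lt_inv₀ hpos).mpr hd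

/-- `v (ℓ² + a₁ℓ - c) > 1` as soon as `v ℓ > 1` and `a₁`, `c` are integral. -/
lemma one_lt_addX {l a c : K} (hl : 1 < v l) (ha : v a ≤ 1) (hc : v c ≤ 1) :
    1 < v (l ^ 2 + a * l - c) := by
  have hl0 : 0 < v l := lt_trans zero_lt_one hl
  have h1 : 1 < v (l ^ 2) := by
    rw [map_pow]
    exact one_lt_pow₀ hl two_ne_zero
  have h2 : v (a * l) < v (l ^ 2) := by
    rw [map_mul, map_pow, sq]
    calc v a * v l ≤ 1 * v l := mul_le_mul_of_nonneg_right ha zero_le
      _ < v l * v l := by
          rw [one_mul]
          calc v l = 1 * v l := (one_mul _).symm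
            _ < v l * v l := mul_lt_mul_of_pos_right hl hl0
  have h3 : v c < v (l ^ 2) := lt_of_le_of_lt hc h1
  have h4 : v (l ^ 2 + a * l) = v (l ^ 2) := Valuation.map_add_eq_of_lt_left v h2
  have h5 : v (l ^ 2 + a * l - c) = v (l ^ 2 + a * l) :=
    Valuation.map_sub_eq_of_lt_left v (by rw [h4]; exact h3)
  rw [h5, h4]
  exact h1

variable [DecidableEq K] {W : WeierstrassCurve K}

/-- **Close points, general Weierstrass model.** -/
theorem main (ha₁ : v W.a₁ ≤ 1) (ha₂ : v W.a₂ ≤ 1)
    {P P' : W.toAffine.Point} (hP : P ≠ 0) (hP' : P' ≠ 0)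
    (hx : v (xc P) ≤ 1) (hy : v (yc P) ≤ 1)
    (hx' : v (xc P' - xc P) < 1) (hy' : v (yc P' - yc P) < 1)
    (hns : v (2 * yc P + W.a₁ * xc P + W.a₃) = 1 ∨
      v (3 * xc P ^ 2 + 2 * W.a₂ * xc P + W.a₄ - W.a₁ * yc P) = 1) :
    P' - P = 0 ∨ 1 < v (xc (P' - P)) := by
  cases P with
  | zero => exact absurd rfl hP
  | some x y h =>
  cases P' with
  | zero => exact absurd rfl hP'
  | some x' y' h' =>
  simp only [xc_some, yc_some] at hx hy hx' hy' hns
  have e := (Affine.equation_iff x y).mp h.1
  have e' := (Affine.equation_iff x' y').mp h'.1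
  obtain ⟨hneg, hnegeq⟩ := neg_some' h
  have hvx' : v x' ≤ 1 := by
    have : x' = (x' - x) + x := by ring
    rw [this]
    exact Valuation.map_add_le v hx'.le hx
  have hvy'1 : v y' ≤ 1 := by
    have : y' = (y' - y) + y := by ring
    rw [this]
    exact Valuation.map_add_le v hy'.le hy
  by_cases hxx : x' = x
  · -- same x-coordinate
    subst hxx
    by_cases hyz : y' = y
    · left
      subst hyz
      exact sub_self _
    · right
      -- y' is the other root
      have hyy : (y' - y) * (y' + y + W.a₁ * x' + W.a₃) = 0 := by linear_combination e' - e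
      have hy'eq : y' = -y - W.a₁ * x' - W.a₃ := by
        rcases mul_eq_zero.mp hyy with hyy | hyy
        · exact absurd (sub_eq_zero.mp hyy) hyz
        · linear_combination hyy
      have hWY : 2 * y + W.a₁ * x' + W.a₃ = -(y' - y) := by rw [hy'eq]; ring
      have hvWY : v (2 * y + W.a₁ * x' + W.a₃) < 1 := by
        rw [hWY, Valuation.map_neg]; exact hy'
      have hWX : v (3 * x' ^ 2 + 2 * W.a₂ * x' + W.a₄ - W.a₁ * y) = 1 := by
        rcases hns with hns | hns
        · exact absurd hns hvWY.ne
        · exact hns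
      -- P' - P = P' + P'
      have hne : y' ≠ W.toAffine.negY x' y' := by
        intro hcon
        apply hyz
        rw [Affine.negY] at hcon
        rw [hy'eq] at hcon ⊢
        linear_combination hcon
      have hPP : Point.some x' y' h' - Point.some x' y h =
          Point.some x' y' h' + Point.some x' y' h' := by
        rw [sub_eq_add_neg, hnegeq]
        congr 2
        exact hy'eq.symm
      rw [hPP, Point.add_self_of_Y_ne hne]
      simp only [xc_some]
      rw [slope_of_Y_ne rfl hne]
      simp only [addX, Affine.negY]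
      have hden : y' - (-y' - W.a₁ * x' - W.a₃) = (y' - y) := by rw [hy'eq]; ring
      rw [hden]
      have hnum : v (3 * x' ^ 2 + 2 * W.a₂ * x' + W.a₄ - W.a₁ * y') = 1 := by
        have : 3 * x' ^ 2 + 2 * W.a₂ * x' + W.a₄ - W.a₁ * y' =
            (3 * x' ^ 2 + 2 * W.a₂ * x' + W.a₄ - W.a₁ * y) + -(W.a₁ * (y' - y)) := by ring
        rw [this]
        have hsmall : v (-(W.a₁ * (y' - y))) < 1 := by
          rw [Valuation.map_neg, map_mul]
          calc v W.a₁ * v (y' - y) ≤ 1 * v (y' - y) :=
                mul_le_mul_of_nonneg_right ha₁ zero_le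
            _ = v (y' - y) := one_mul _
            _ < 1 := hy'
        rw [Valuation.map_add_eq_of_lt_left v (by rw [hWX]; exact hsmall), hWX]
      have hl : 1 < v ((3 * x' ^ 2 + 2 * W.a₂ * x' + W.a₄ - W.a₁ * y') / (y' - y)) :=
        one_lt_div v hnum hy' (sub_ne_zero.mpr hyz)
      set l := (3 * x' ^ 2 + 2 * W.a₂ * x' + W.a₄ - W.a₁ * y') / (y' - y) with hl_def
      have : l ^ 2 + W.a₁ * l - W.a₂ - x' - x' = l ^ 2 + W.a₁ * l - (W.a₂ + x' + x') := by ring
      rw [this]
      exact one_lt_addX v hl ha₁
        (Valuation.map_add_le v (Valuation.map_add_le v ha₂ hvx') hvx')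
  · right
    have hxx' : x' - x ≠ 0 := sub_ne_zero.mpr hxx
    have hsub : Point.some x' y' h' - Point.some x y h =
        Point.some _ _ (nonsingular_add h' hneg fun hxy => hxx hxy.left) := by
      rw [sub_eq_add_neg, hnegeq]; exact Point.add_of_X_ne (h₁ := h') (h₂ := hneg) hxx
    rw [hsub]
    simp only [xc_some]
    rw [slope_of_X_ne hxx]
    simp only [addX]
    have hl : 1 < v ((y' - (-y - W.a₁ * x - W.a₃)) / (x' - x)) := by
      by_cases hvy : v (2 * y + W.a₁ * x + W.a₃) = 1
      · apply one_lt_div v _ hx' hxx'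
        have : y' - (-y - W.a₁ * x - W.a₃) = (2 * y + W.a₁ * x + W.a₃) + (y' - y) := by ring
        rw [this, Valuation.map_add_eq_of_lt_left v (by rw [hvy]; exact hy'), hvy]
      · have hf' : v (3 * x ^ 2 + 2 * W.a₂ * x + W.a₄ - W.a₁ * y) = 1 := by
          rcases hns with hns | hns
          · exact absurd hns hvy
          · exact hns
        set hh := x' ^ 2 + x' * x + x ^ 2 + W.a₂ * (x' + x) + W.a₄ - W.a₁ * y with hh_def
        have hprod : (y' - y) * (y' + y + W.a₁ * x' + W.a₃) = (x' - x) * hh := by
          rw [hh_def]; linear_combination e' - e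
        have hhv : v hh = 1 := by
          have hdiff : hh = (3 * x ^ 2 + 2 * W.a₂ * x + W.a₄ - W.a₁ * y) +
              (x' - x) * (x' + 2 * x + W.a₂) := by
            rw [hh_def]; ring
          rw [hdiff]
          have hsmall : v ((x' - x) * (x' + 2 * x + W.a₂)) < 1 := by
            rw [map_mul]
            have h2x : v (2 * x) ≤ 1 := by
              have : (2 : K) * x = x + x := by ring
              rw [this]
              exact Valuation.map_add_le v hx hx
            have hle : v (x' + 2 * x + W.a₂) ≤ 1 :=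
              Valuation.map_add_le v (Valuation.map_add_le v hvx' h2x) ha₂
            calc v (x' - x) * v (x' + 2 * x + W.a₂) ≤ v (x' - x) * 1 :=
                  mul_le_mul_of_nonneg_left hle zero_le
              _ = v (x' - x) := mul_one _
              _ < 1 := hx'
          rw [Valuation.map_add_eq_of_lt_left v (by rw [hf']; exact hsmall), hf']
        have hh0 : hh ≠ 0 := by
          intro h0
          rw [h0, map_zero] at hhv
          exact zero_ne_one hhv
        have hyy' : y' - y ≠ 0 := by
          intro h0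
          rw [h0, zero_mul] at hprod
          exact (mul_ne_zero hxx' hh0) hprod.symm
        -- slope = hh / (y' - y) - a₁
        have hleq : (y' - (-y - W.a₁ * x - W.a₃)) / (x' - x) = hh / (y' - y) + -W.a₁ := by
          field_simp
          linear_combination hprod
        rw [hleq]
        have hbig : 1 < v (hh / (y' - y)) := one_lt_div v hhv hy' hyy'
        have hlt : v (-W.a₁) < v (hh / (y' - y)) := by
          rw [Valuation.map_neg]; exact lt_of_le_of_lt ha₁ hbig
        rw [Valuation.map_add_eq_of_lt_left v hlt]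
        exact hbig
    set l := (y' - (-y - W.a₁ * x - W.a₃)) / (x' - x) with hl_def
    have : l ^ 2 + W.a₁ * l - W.a₂ - x' - x = l ^ 2 + W.a₁ * l - (W.a₂ + x' + x) := by ring
    rw [this]
    exact one_lt_addX v hl ha₁
      (Valuation.map_add_le v (Valuation.map_add_le v ha₂ hvx') hx)

end Fermat.Agent.S13.ClosePointsGen
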