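import Fermat.Agent.S13.VLawGen
import Fermat.Agent.S05.CruxAbstract

/-!
# S13 / B2.crux: a `p`-torsion point reducing to the node has `ord x(T)` in `(2 ord a₄ / p) ℤ`

Port of `S05/CruxPoint` to a general Weierstrass model with `a₃ = a₆ = 0`, `v b₂ = 1`,
`0 < v a₄ < 1`, any residue characteristic (on top of the folding law `VLawGen`).
-/

set_option autoImplicit false

namespace Fermat.Agent.S13.CruxGen

open WeierstrassCurve WeierstrassCurve.Affine Fermat.Agent.S13.XOnlyGen Fermat.Agent.S13.VLawGen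
  Fermat.Agent.S05.VLawRaw

variable {K : Type*} [Field K] [DecidableEq K]
  {Γ₀ : Type*} [LinearOrderedCommGroupWithZero Γ₀] (v : Valuation K Γ₀)

omit [DecidableEq K] in
/-- on a model with `a₃ = a₆ = 0`, a point with `x = 0` has `y = 0`. -/
lemma yc_eq_zero_of_xc_eq_zero {W : WeierstrassCurve K} (ha₃ : W.a₃ = 0) (ha₆ : W.a₆ = 0)
    {P : W.toAffine.Point} (hP : P ≠ 0) (h : xc P = 0) : yc P = 0 := by
  have := equation_xc_yc hP
  rw [h, ha₃, ha₆] at this
  have h0 : yc P ^ 2 = 0 := by linear_combination this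
  exact pow_eq_zero_iff (two_ne_zero) |>.mp h0

/-- on a model with `a₃ = a₆ = 0`, a nonzero point which is not 2-torsion has `x ≠ 0`
and `2y + a₁x ≠ 0`. -/
lemma xc_ne_zero_of_add_self_ne_zero {W : WeierstrassCurve K} (ha₃ : W.a₃ = 0) (ha₆ : W.a₆ = 0)
    {P : W.toAffine.Point} (hP : P ≠ 0) (h2 : P + P ≠ 0) :
    xc P ≠ 0 ∧ 2 * yc P + W.a₁ * xc P ≠ 0 := by
  have h2y : 2 * yc P + W.a₁ * xc P + W.a₃ ≠ 0 := fun h => h2 ((add_self_eq_zero_iff hP).mpr h)
  have h2y' : 2 * yc P + W.a₁ * xc P ≠ 0 := by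
    intro h
    apply h2y
    rw [h, ha₃, add_zero]
  refine ⟨fun hx => h2y' ?_, h2y'⟩
  rw [yc_eq_zero_of_xc_eq_zero ha₃ ha₆ hP hx, hx]
  ring

/-- group theory: multiples of a point of odd prime order. -/
lemma nsmul_facts {G : Type*} [AddCommGroup G] {p : ℕ} (hp : p.Prime) (hp2 : p ≠ 2) {T : G}
    (hT : T ≠ 0) (hpT : p • T = 0) {j : ℕ} (hj1 : 1 ≤ j) (hjp : j < p) :
    j • T ≠ 0 ∧ (j • T) + (j • T) ≠ 0 ∧ (2 ≤ j → j + 2 ≤ p → j • T ≠ T ∧ j • T ≠ -T) := by
  have hord : addOrderOf T = p := by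
    have : Fact p.Prime := ⟨hp⟩
    exact addOrderOf_eq_prime hpT hT
  have key : ∀ n : ℕ, n • T = 0 ↔ p ∣ n := fun n => by
    rw [← hord]; exact (addOrderOf_dvd_iff_nsmul_eq_zero).symm
  have hodd : Odd p := hp.odd_of_ne_two hp2
  refine ⟨?_, ?_, ?_⟩
  · rw [Ne, key]
    intro hd
    exact absurd (Nat.le_of_dvd (by omega) hd) (by omega)
  · rw [← two_nsmul, ← mul_nsmul', Ne, key]
    intro hd
    have : p ∣ j := by
      rcases (Nat.Prime.dvd_mul hp).mp hd with h | h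
      · have := Nat.le_of_dvd (by norm_num) h
        have := hp.two_le
        omega
      · exact h
    exact absurd (Nat.le_of_dvd (by omega) this) (by omega)
  · intro h2j hj2
    constructor
    · intro h
      have : (j - 1) • T = 0 := by
        have hj : j = (j - 1) + 1 := by omega
        rw [hj, succ_nsmul] at h
        simpa using h
      rw [key] at this
      exact absurd (Nat.le_of_dvd (by omega) this) (by omega)
    · intro h
      have : (j + 1) • T = 0 := by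
        rw [succ_nsmul, h]; simp
      rw [key] at this
      exact absurd (Nat.le_of_dvd (by omega) this) (by omega)

/-- **Crux** for a general model with a node at `(0,0)`: a point `T ≠ 0` of odd prime order `p`
with `v (x T) < 1` has `v a₄ < v (x T)` and `v (x T) ^ p ∈ (v a₄) ^ (2ℤ)`. -/
theorem main {W : WeierstrassCurve K} (ha₃ : W.a₃ = 0) (ha₆ : W.a₆ = 0) (hb₂ : v W.b₂ = 1)
    (ha₄0 : W.a₄ ≠ 0) (ha₄ : v W.a₄ < 1)
    {p : ℕ} (hp : p.Prime) (hp2 : p ≠ 2)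
    {T : W.toAffine.Point} (hT : T ≠ 0) (hpT : p • T = 0)
    (hT1 : v (xc T) < 1) :
    v W.a₄ < v (xc T) ∧ ∃ k : ℤ, v (xc T) ^ p = v W.a₄ ^ (2 * k) := by
  have hvα0 : v W.a₄ ≠ 0 := (Valuation.ne_zero_iff v).mpr ha₄0
  have hp1 : 1 < p := hp.one_lt
  -- T is not 2-torsion
  have f1 := nsmul_facts hp hp2 hT hpT (j := 1) le_rfl hp1
  rw [one_nsmul] at f1
  obtain ⟨hxT, hyT⟩ := xc_ne_zero_of_add_self_ne_zero ha₃ ha₆ hT f1.2.1
  have hVT : Vc v T = max (v W.a₄) (v (xc T)) := by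
    rw [Vc_of_ne_zero v hT]
    unfold clamp
    rw [min_eq_right hT1.le]
  have hVT1 : Vc v T < 1 := by
    rw [hVT]; exact max_lt ha₄ hT1
  have hdbl : Vc v (2 • T) = max (Vc v T ^ 2) (v W.a₄ ^ 2 / Vc v T ^ 2) := by
    rw [two_nsmul]
    exact add_self v ha₃ ha₆ hb₂ ha₄0 ha₄ hT hxT hyT hT1
  have hlaw : ∀ j : ℕ, 2 ≤ j → j + 2 ≤ p →
      (Vc v ((j + 1) • T) = max (Vc v (j • T) * Vc v T)
          (v W.a₄ ^ 2 / (Vc v (j • T) * Vc v T)) ∧
        Vc v ((j - 1) • T) = min (Vc v (j • T) / Vc v T) (Vc v T / Vc v (j • T))) ∨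
      (Vc v ((j + 1) • T) = min (Vc v (j • T) / Vc v T) (Vc v T / Vc v (j • T)) ∧
        Vc v ((j - 1) • T) = max (Vc v (j • T) * Vc v T)
          (v W.a₄ ^ 2 / (Vc v (j • T) * Vc v T))) := by
    intro j hj2 hjp
    obtain ⟨hjT, hjT2, hjne⟩ := nsmul_facts hp hp2 hT hpT (j := j) (by omega) (by omega)
    obtain ⟨hne1, hne2⟩ := hjne hj2 hjp
    obtain ⟨hxj, -⟩ := xc_ne_zero_of_add_self_ne_zero ha₃ ha₆ hjT hjT2
    have hxne : xc (j • T) ≠ xc T := by
      intro h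
      rcases eq_or_eq_neg_of_xc_eq hjT hT h with h | h
      · exact hne1 h
      · exact hne2 h
    have e1 : (j + 1) • T = j • T + T := succ_nsmul T j
    have e2 : (j - 1) • T = j • T - T := by
      have hj : j = (j - 1) + 1 := by omega
      conv_rhs => rw [hj, succ_nsmul]
      simp
    rw [e1, e2]
    exact add_sub v ha₃ ha₆ hb₂ ha₄0 ha₄ hjT hT hxj hxT hxne hT1
  obtain ⟨hm, k, hk⟩ := Fermat.Agent.S05.CruxAbstract.main (Vc v (W := W)) (v W.a₄) hvα0 ha₄
    (fun P => Vc_range v ha₄.le P) (fun P => Vc_neg v P) hp hp2 hT hpT hVT1 hdbl hlaw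
  rw [hVT] at hm hk
  have hlt : v W.a₄ < v (xc T) := by
    rcases le_or_gt (v (xc T)) (v W.a₄) with h | h
    · rw [max_eq_left h] at hm
      exact absurd hm (lt_irrefl _)
    · exact h
  rw [max_eq_right hlt.le] at hk
  exact ⟨hlt, k, hk⟩

end Fermat.Agent.S13.CruxGen
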