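import Mathlib.RingTheory.Valuation.ValuationSubring
import Mathlib.GroupTheory.OrderOfElement
import Fermat.Agent.S13.XOnlyGen

/-!
# S13: points with non-integral `x` on a general integral Weierstrass model

`A` is a valuation subring of the field `K`, `W` a Weierstrass curve over `K` with
`b₂ b₄ b₆ b₈ ∈ A` (any residue characteristic).  For a point `T` with `x(T) ∉ A` put
`ξ(P) = 1/x(P)`.  Then `ξ(jT) = j² ξ(T) + ξ(T)² c` with `c ∈ A` as long as the multiples of `T`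
involved are nonzero (`xi_nsmul`).  Consequently a point of odd prime order `p`, `p` a unit of
`A`, has integral `x`-coordinate.
-/

set_option autoImplicit false

namespace Fermat.Agent.S13.NoTorsionE1Gen

open WeierstrassCurve WeierstrassCurve.Affine Fermat.Agent.S13.XOnlyGen

variable {K : Type*} [Field K] (A : ValuationSubring K)

/-! ### valuation-subring bookkeeping -/

lemma mul_mem_nonunits_left {a t : K} (ha : a ∈ A) (ht : t ∈ A.nonunits) : a * t ∈ A.nonunits := by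
  rw [ValuationSubring.mem_nonunits_iff] at ht ⊢
  rw [map_mul]
  have h1 : A.valuation a ≤ 1 := (A.valuation_le_one_iff a).mpr ha
  exact Right.mul_lt_one_of_le_of_lt h1 ht

lemma mul_mem_nonunits_right {a t : K} (ht : t ∈ A.nonunits) (ha : a ∈ A) : t * a ∈ A.nonunits := by
  rw [mul_comm]; exact mul_mem_nonunits_left A ha ht

lemma nonunits_mem {t : K} (ht : t ∈ A.nonunits) : t ∈ A := A.nonunits_subset ht

lemma add_mem_nonunits {s t : K} (hs : s ∈ A.nonunits) (ht : t ∈ A.nonunits) :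
    s + t ∈ A.nonunits := by
  rw [ValuationSubring.mem_nonunits_iff] at hs ht ⊢
  exact lt_of_le_of_lt (A.valuation.map_add s t) (max_lt hs ht)

/-- `1 - u` is a unit of `A` for `u` in the maximal ideal. -/
lemma one_sub_unit {u : K} (hu : u ∈ A.nonunits) : ∃ w ∈ A, (1 - u) * w = 1 := by
  rw [ValuationSubring.mem_nonunits_iff] at hu
  have hv : A.valuation (1 - u) = 1 := Valuation.map_one_sub_of_lt _ hu
  have h0 : 1 - u ≠ 0 := by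
    intro h0
    rw [h0, map_zero] at hv
    exact zero_ne_one hv
  refine ⟨(1 - u)⁻¹, ?_, mul_inv_cancel₀ h0⟩
  rw [← A.valuation_le_one_iff, map_inv₀, hv, inv_one]

lemma two_mem : (2 : K) ∈ A := by
  have : ((2 : ℕ) : K) ∈ A := natCast_mem A 2
  exact_mod_cast this

lemma four_mem : (4 : K) ∈ A := by
  have : ((4 : ℕ) : K) ∈ A := natCast_mem A 4
  exact_mod_cast this

/-! ### the two algebraic steps -/

/-- duplication step in the variable `t = 1/x`. -/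
lemma dup_step {b₂ b₄ b₆ b₈ t x' : K} (hb₂ : b₂ ∈ A) (hb₄ : b₄ ∈ A) (hb₆ : b₆ ∈ A) (hb₈ : b₈ ∈ A)
    (ht : t ∈ A.nonunits)
    (h : x' * (t * (4 + t * (b₂ + 2 * b₄ * t + b₆ * t ^ 2))) =
      1 - t ^ 2 * (b₄ + 2 * b₆ * t + b₈ * t ^ 2)) :
    x' ≠ 0 ∧ ∃ c ∈ A, x'⁻¹ = 4 * t + t ^ 2 * c := by
  have htA := nonunits_mem A ht
  have hU : b₄ + 2 * b₆ * t + b₈ * t ^ 2 ∈ A :=
    A.add_mem _ _ (A.add_mem _ _ hb₄ (A.mul_mem _ _ (A.mul_mem _ _ (two_mem A) hb₆) htA))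
      (A.mul_mem _ _ hb₈ (pow_mem htA 2))
  have hB : b₂ + 2 * b₄ * t + b₆ * t ^ 2 ∈ A :=
    A.add_mem _ _ (A.add_mem _ _ hb₂ (A.mul_mem _ _ (A.mul_mem _ _ (two_mem A) hb₄) htA))
      (A.mul_mem _ _ hb₆ (pow_mem htA 2))
  have hu : t ^ 2 * (b₄ + 2 * b₆ * t + b₈ * t ^ 2) ∈ A.nonunits := by
    have e : t ^ 2 * (b₄ + 2 * b₆ * t + b₈ * t ^ 2) =
        t * (t * (b₄ + 2 * b₆ * t + b₈ * t ^ 2)) := by ring
    rw [e]
    exact mul_mem_nonunits_right A ht (A.mul_mem _ _ htA hU)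
  obtain ⟨w, hwA, hw⟩ := one_sub_unit A hu
  have hu0 : (1 - t ^ 2 * (b₄ + 2 * b₆ * t + b₈ * t ^ 2)) ≠ 0 := left_ne_zero_of_mul_eq_one hw
  have hx' : x' ≠ 0 := by
    rintro rfl
    rw [zero_mul] at h
    exact hu0 h.symm
  refine ⟨hx', (b₂ + 2 * b₄ * t + b₆ * t ^ 2) * w +
    4 * t * (b₄ + 2 * b₆ * t + b₈ * t ^ 2) * w, ?_, ?_⟩
  · refine A.add_mem _ _ (A.mul_mem _ _ hB hwA) (A.mul_mem _ _ (A.mul_mem _ _ ?_ hU) hwA)
    exact A.mul_mem _ _ (four_mem A) htA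
  · apply inv_eq_of_mul_eq_one_right
    linear_combination w * h + (1 - 4 * t * x') * hw

/-- addition step in the variables `s = 1/x₁`, `t = 1/x₂`. -/
lemma add_step {b₂ b₄ b₆ b₈ s t x₃ x₄ : K} (hb₂ : b₂ ∈ A) (hb₄ : b₄ ∈ A) (hb₆ : b₆ ∈ A)
    (hb₈ : b₈ ∈ A) (hs : s ∈ A.nonunits) (ht : t ∈ A.nonunits)
    (h₁ : (x₃ + x₄) * (t - s) ^ 2 =
      2 * (s + t) + s * t * (b₂ + b₄ * (s + t) + b₆ * (s * t)))
    (h₂ : x₃ * x₄ * (t - s) ^ 2 = 1 - s * t * (b₄ + b₆ * (s + t) + b₈ * (s * t))) :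
    x₃ ≠ 0 ∧ x₄ ≠ 0 ∧ ∃ c ∈ A, x₃⁻¹ + x₄⁻¹ = 2 * (s + t) + s * t * c := by
  have hsA := nonunits_mem A hs
  have htA := nonunits_mem A ht
  have hstA : s * t ∈ A := A.mul_mem _ _ hsA htA
  have hsumA : s + t ∈ A := A.add_mem _ _ hsA htA
  have hU : b₄ + b₆ * (s + t) + b₈ * (s * t) ∈ A :=
    A.add_mem _ _ (A.add_mem _ _ hb₄ (A.mul_mem _ _ hb₆ hsumA)) (A.mul_mem _ _ hb₈ hstA)
  have hB : b₂ + b₄ * (s + t) + b₆ * (s * t) ∈ A :=
    A.add_mem _ _ (A.add_mem _ _ hb₂ (A.mul_mem _ _ hb₄ hsumA)) (A.mul_mem _ _ hb₆ hstA)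
  have hu : s * t * (b₄ + b₆ * (s + t) + b₈ * (s * t)) ∈ A.nonunits := by
    rw [mul_assoc]
    exact mul_mem_nonunits_right A hs (A.mul_mem _ _ htA hU)
  obtain ⟨w, hwA, hw⟩ := one_sub_unit A hu
  have hu0 : (1 - s * t * (b₄ + b₆ * (s + t) + b₈ * (s * t))) ≠ 0 :=
    left_ne_zero_of_mul_eq_one hw
  have hne : x₃ * x₄ * (t - s) ^ 2 ≠ 0 := by rw [h₂]; exact hu0
  have hx₃ : x₃ ≠ 0 := fun h => hne (by rw [h]; ring)
  have hx₄ : x₄ ≠ 0 := fun h => hne (by rw [h]; ring)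
  have hts : (t - s) ^ 2 ≠ 0 := fun h => hne (by rw [h]; ring)
  refine ⟨hx₃, hx₄,
    (2 * (s + t) * (b₄ + b₆ * (s + t) + b₈ * (s * t)) + (b₂ + b₄ * (s + t) + b₆ * (s * t))) * w,
    ?_, ?_⟩
  · refine A.mul_mem _ _ (A.add_mem _ _ ?_ hB) hwA
    exact A.mul_mem _ _ (A.mul_mem _ _ (two_mem A) hsumA) hU
  · have key : (x₃ + x₄) * (1 - s * t * (b₄ + b₆ * (s + t) + b₈ * (s * t))) =
        x₃ * x₄ * (2 * (s + t) + s * t * (b₂ + b₄ * (s + t) + b₆ * (s * t))) := by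
      apply mul_left_cancel₀ hts
      linear_combination (1 - s * t * (b₄ + b₆ * (s + t) + b₈ * (s * t))) * h₁ -
        (2 * (s + t) + s * t * (b₂ + b₄ * (s + t) + b₆ * (s * t))) * h₂
    have hR : x₃ + x₄ = x₃ * x₄ *
        (2 * (s + t) + s * t *
          ((2 * (s + t) * (b₄ + b₆ * (s + t) + b₈ * (s * t)) +
            (b₂ + b₄ * (s + t) + b₆ * (s * t))) * w)) := by
      linear_combination w * key + (-(x₃ + x₄) + 2 * (s + t) * (x₃ * x₄)) * hw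
    have i3 : x₃ * x₃⁻¹ = 1 := mul_inv_cancel₀ hx₃
    have i4 : x₄ * x₄⁻¹ = 1 := mul_inv_cancel₀ hx₄
    apply mul_left_cancel₀ (mul_ne_zero hx₃ hx₄)
    rw [← hR]
    linear_combination x₄ * i3 + x₃ * i4

/-- duplication step, in the `x`-coordinate. -/
lemma dup_step_x {b₂ b₄ b₆ b₈ x x' : K} (hb₂ : b₂ ∈ A) (hb₄ : b₄ ∈ A) (hb₆ : b₆ ∈ A)
    (hb₈ : b₈ ∈ A) (hx : x ∉ A)
    (e1 : x' * (4 * x ^ 3 + b₂ * x ^ 2 + 2 * b₄ * x + b₆) =
      x ^ 4 - b₄ * x ^ 2 - 2 * b₆ * x - b₈) :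
    x' ≠ 0 ∧ ∃ c ∈ A, x'⁻¹ = 4 * x⁻¹ + x⁻¹ ^ 2 * c := by
  have hx0 : x ≠ 0 := fun h => hx (h ▸ A.zero_mem)
  have ht : x⁻¹ ∈ A.nonunits := A.inv_mem_nonunits_iff.mpr (Or.inr hx)
  refine dup_step A hb₂ hb₄ hb₆ hb₈ ht ?_
  field_simp
  linear_combination e1

/-- addition step, in the `x`-coordinates. -/
lemma add_step_x {b₂ b₄ b₆ b₈ x₁ x₂ x₃ x₄ : K} (hb₂ : b₂ ∈ A) (hb₄ : b₄ ∈ A) (hb₆ : b₆ ∈ A)
    (hb₈ : b₈ ∈ A)
    (hx₁ : x₁ ≠ 0) (hs : x₁⁻¹ ∈ A.nonunits) (hx₂ : x₂ ≠ 0) (ht : x₂⁻¹ ∈ A.nonunits)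
    (h₁ : (x₃ + x₄) * (x₁ - x₂) ^ 2 =
      2 * x₁ * x₂ * (x₁ + x₂) + b₂ * x₁ * x₂ + b₄ * (x₁ + x₂) + b₆)
    (h₂ : x₃ * x₄ * (x₁ - x₂) ^ 2 =
      x₁ ^ 2 * x₂ ^ 2 - b₄ * x₁ * x₂ - b₆ * (x₁ + x₂) - b₈) :
    x₃ ≠ 0 ∧ x₄ ≠ 0 ∧ ∃ c ∈ A, x₃⁻¹ + x₄⁻¹ = 2 * (x₁⁻¹ + x₂⁻¹) + x₁⁻¹ * x₂⁻¹ * c := by
  refine add_step A hb₂ hb₄ hb₆ hb₈ hs ht ?_ ?_
  · field_simp
    linear_combination h₁
  · field_simp
    linear_combination h₂

/-! ### points -/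

section points

variable [DecidableEq K] {W : WeierstrassCurve K}

/-- **first-order congruence** `ξ(jT) = j² ξ(T) + ξ(T)² c`, `c ∈ A`, for a point `T` with
non-integral `x`-coordinate, as long as `k • T ≠ 0` for `0 < k ≤ N`. -/
theorem xi_nsmul (hb₂ : W.b₂ ∈ A) (hb₄ : W.b₄ ∈ A) (hb₆ : W.b₆ ∈ A) (hb₈ : W.b₈ ∈ A)
    {T : W.toAffine.Point} (hx : xc T ∉ A) {N : ℕ}
    (hne : ∀ k : ℕ, 0 < k → k ≤ N → k • T ≠ 0) :
    ∀ j : ℕ, 1 ≤ j → j ≤ N → xc (j • T) ≠ 0 ∧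
      ∃ c ∈ A, (xc (j • T))⁻¹ = (j : K) ^ 2 * (xc T)⁻¹ + (xc T)⁻¹ ^ 2 * c := by
  have hT0 : T ≠ 0 := by
    rintro rfl
    exact hx (by rw [xc_zero]; exact A.zero_mem)
  have hxT : xc T ≠ 0 := fun h => hx (h ▸ A.zero_mem)
  have htm : (xc T)⁻¹ ∈ A.nonunits := A.inv_mem_nonunits_iff.mpr (Or.inr hx)
  have htA : (xc T)⁻¹ ∈ A := nonunits_mem A htm
  have claim : ∀ j : ℕ,
      (1 ≤ j → j ≤ N → xc (j • T) ≠ 0 ∧
        ∃ c ∈ A, (xc (j • T))⁻¹ = (j : K) ^ 2 * (xc T)⁻¹ + (xc T)⁻¹ ^ 2 * c) ∧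
      (j + 1 ≤ N → xc ((j + 1) • T) ≠ 0 ∧
        ∃ c ∈ A, (xc ((j + 1) • T))⁻¹ = ((j + 1 : ℕ) : K) ^ 2 * (xc T)⁻¹ + (xc T)⁻¹ ^ 2 * c) := by
    intro j
    induction j with
    | zero =>
      refine ⟨fun h => absurd h (by omega), fun _ => ?_⟩
      rw [zero_add, one_smul]
      exact ⟨hxT, 0, A.zero_mem, by simp⟩
    | succ j ih =>
      refine ⟨fun _ h => ih.2 h, fun hj => ?_⟩
      rcases Nat.eq_zero_or_pos j with rfl | hjpos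
      · -- duplication
        have h2T : T + T ≠ 0 := by
          have := hne 2 (by omega) (by omega)
          rwa [two_smul] at this
        have hy : 2 * yc T + W.a₁ * xc T + W.a₃ ≠ 0 := fun hy =>
          h2T ((add_self_eq_zero_iff hT0).mpr hy)
        obtain ⟨-, e1⟩ := xc_add_self hT0 hy
        have hTT : (0 + 1 + 1) • T = T + T := by rw [zero_add, one_add_one_eq_two, two_smul]
        rw [hTT]
        obtain ⟨hx', c, hc, hcx⟩ := dup_step_x A hb₂ hb₄ hb₆ hb₈ hx e1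
        refine ⟨hx', c, hc, ?_⟩
        rw [hcx]
        push_cast
        ring
      · -- addition
        have hj1 : j + 1 ≤ N := by omega
        obtain ⟨hxj1, c₁, hc₁, hcx₁⟩ := ih.2 hj1
        obtain ⟨hxj, c₀, hc₀, hcx₀⟩ := ih.1 hjpos (by omega)
        have hP0 : (j + 1) • T ≠ 0 := hne (j + 1) (by omega) (by omega)
        have hsm : (xc ((j + 1) • T))⁻¹ ∈ A.nonunits := by
          rw [hcx₁]
          have : ((j + 1 : ℕ) : K) ^ 2 * (xc T)⁻¹ + (xc T)⁻¹ ^ 2 * c₁ =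
              (((j + 1 : ℕ) : K) ^ 2 + (xc T)⁻¹ * c₁) * (xc T)⁻¹ := by ring
          rw [this]
          refine mul_mem_nonunits_left A ?_ htm
          exact A.add_mem _ _ (pow_mem (natCast_mem A _) 2) (A.mul_mem _ _ htA hc₁)
        have hxne : xc ((j + 1) • T) ≠ xc T := by
          intro hEq
          rcases eq_or_eq_neg_of_xc_eq hP0 hT0 hEq with h | h
          · -- (j+1) T = T → j T = 0
            have : j • T = 0 := by
              have h' : j • T + T = T := by rw [← succ_nsmul]; exact h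
              simpa using h'
            exact hne j hjpos (by omega) this
          · -- (j+1) T = -T → (j+2) T = 0
            have : (j + 1 + 1) • T = 0 := by
              rw [succ_nsmul T (j + 1), h]; exact neg_add_cancel T
            exact hne (j + 1 + 1) (by omega) (by omega) this
        obtain ⟨-, -, e1, e2⟩ := xc_add_sub hP0 hT0 hxne
        have hadd : (j + 1) • T + T = (j + 1 + 1) • T := (succ_nsmul T (j + 1)).symm
        have hsub : (j + 1) • T - T = j • T := by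
          rw [succ_nsmul]; abel
        rw [hadd, hsub] at e1 e2
        obtain ⟨hx₃, -, c, hc, hcx⟩ :=
          add_step_x A hb₂ hb₄ hb₆ hb₈ hxj1 hsm hxT htm e1 e2
        refine ⟨hx₃, 2 * c₁ + ((((j + 1 : ℕ) : K) ^ 2 + (xc T)⁻¹ * c₁)) * c - c₀,
          ?_, ?_⟩
        · refine sub_mem (A.add_mem _ _ (A.mul_mem _ _ (two_mem A) hc₁) ?_) hc₀
          refine A.mul_mem _ _ ?_ hc
          exact A.add_mem _ _ (pow_mem (natCast_mem A _) 2) (A.mul_mem _ _ htA hc₁)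
        · have : (xc ((j + 1 + 1) • T))⁻¹ =
              2 * ((xc ((j + 1) • T))⁻¹ + (xc T)⁻¹) +
                (xc ((j + 1) • T))⁻¹ * (xc T)⁻¹ * c - (xc (j • T))⁻¹ := by
            rw [← hcx]; ring
          rw [this, hcx₁, hcx₀]
          push_cast
          ring
  intro j h1 hN
  exact (claim j).1 h1 hN

/-- the multiples `j • T` (within the range of `xi_nsmul`) still have non-integral `x`. -/
theorem xc_nsmul_not_mem (hb₂ : W.b₂ ∈ A) (hb₄ : W.b₄ ∈ A) (hb₆ : W.b₆ ∈ A) (hb₈ : W.b₈ ∈ A)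
    {T : W.toAffine.Point} (hx : xc T ∉ A) {N : ℕ}
    (hne : ∀ k : ℕ, 0 < k → k ≤ N → k • T ≠ 0) {j : ℕ} (h1 : 1 ≤ j) (hN : j ≤ N) :
    xc (j • T) ∉ A := by
  obtain ⟨hxj, c, hc, hcx⟩ := xi_nsmul A hb₂ hb₄ hb₆ hb₈ hx hne j h1 hN
  have htm : (xc T)⁻¹ ∈ A.nonunits := A.inv_mem_nonunits_iff.mpr (Or.inr hx)
  have htA : (xc T)⁻¹ ∈ A := nonunits_mem A htm
  have hsm : (xc (j • T))⁻¹ ∈ A.nonunits := by
    rw [hcx]
    have : (j : K) ^ 2 * (xc T)⁻¹ + (xc T)⁻¹ ^ 2 * c =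
        ((j : K) ^ 2 + (xc T)⁻¹ * c) * (xc T)⁻¹ := by ring
    rw [this]
    refine mul_mem_nonunits_left A ?_ htm
    exact A.add_mem _ _ (pow_mem (natCast_mem A _) 2) (A.mul_mem _ _ htA hc)
  rcases A.inv_mem_nonunits_iff.mp hsm with h | h
  · exact absurd h hxj
  · exact h

/-- A point of odd prime order `p`, `p` a unit of `A`, on an integral Weierstrass model
(`b₂ b₄ b₆ b₈ ∈ A`) has integral `x`-coordinate. -/
theorem xc_mem_of_prime_nsmul_eq_zero (hb₂ : W.b₂ ∈ A) (hb₄ : W.b₄ ∈ A) (hb₆ : W.b₆ ∈ A)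
    (hb₈ : W.b₈ ∈ A) {p : ℕ} (hp : p.Prime) (hp2 : p ≠ 2) (hpA : (p : K) ∉ A.nonunits)
    {T : W.toAffine.Point} (hT : p • T = 0) : xc T ∈ A := by
  by_contra hx
  have hT0 : T ≠ 0 := by
    rintro rfl
    exact hx (by rw [xc_zero]; exact A.zero_mem)
  have : Fact p.Prime := ⟨hp⟩
  have hord : addOrderOf T = p := addOrderOf_eq_prime hT hT0
  have hxT : xc T ≠ 0 := fun h => hx (h ▸ A.zero_mem)
  have htm : (xc T)⁻¹ ∈ A.nonunits := A.inv_mem_nonunits_iff.mpr (Or.inr hx)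
  have hne : ∀ k : ℕ, 0 < k → k ≤ p - 1 → k • T ≠ 0 := by
    intro k hk0 hkp hk
    have hdvd : p ∣ k := hord ▸ addOrderOf_dvd_of_nsmul_eq_zero hk
    have := Nat.le_of_dvd hk0 hdvd
    have := hp.two_le
    omega
  obtain ⟨m, hm⟩ : ∃ m, p = 2 * m + 1 := by
    rcases hp.eq_two_or_odd' with h | h
    · exact absurd h hp2
    · exact h
  have hm1 : 1 ≤ m := by
    have := hp.two_le
    omega
  obtain ⟨-, c₀, hc₀, hcx₀⟩ := xi_nsmul A hb₂ hb₄ hb₆ hb₈ hx hne m hm1 (by omega)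
  obtain ⟨-, c₁, hc₁, hcx₁⟩ := xi_nsmul A hb₂ hb₄ hb₆ hb₈ hx hne (m + 1) (by omega) (by omega)
  have hneg : (m + 1) • T = -(m • T) := by
    rw [eq_neg_iff_add_eq_zero, ← add_nsmul]
    have : m + 1 + m = p := by omega
    rw [this, hT]
  rw [hneg, xc_neg, hcx₀] at hcx₁
  have ht0 : (xc T)⁻¹ ≠ 0 := inv_ne_zero hxT
  have hpeq : (p : K) = (xc T)⁻¹ * (c₀ - c₁) := by
    apply mul_left_cancel₀ ht0
    rw [hm]
    push_cast at hcx₁ ⊢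
    linear_combination -hcx₁
  apply hpA
  rw [hpeq]
  exact mul_mem_nonunits_right A htm (sub_mem hc₀ hc₁)

/-- `ℤ`-scalar version (the shape of `Submodule.torsionBy ℤ _ p`). -/
theorem xc_mem_of_prime_zsmul_eq_zero (hb₂ : W.b₂ ∈ A) (hb₄ : W.b₄ ∈ A) (hb₆ : W.b₆ ∈ A)
    (hb₈ : W.b₈ ∈ A) {p : ℕ} (hp : p.Prime) (hp2 : p ≠ 2) (hpA : (p : K) ∉ A.nonunits)
    {T : W.toAffine.Point} (hT : (p : ℤ) • T = 0) : xc T ∈ A :=
  xc_mem_of_prime_nsmul_eq_zero A hb₂ hb₄ hb₆ hb₈ hp hp2 hpA (by rwa [natCast_zsmul] at hT)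

/-- A `p`-torsion point which is `0` or has non-integral `x` is `0`. -/
theorem eq_zero_of_xc_not_mem (hb₂ : W.b₂ ∈ A) (hb₄ : W.b₄ ∈ A) (hb₆ : W.b₆ ∈ A)
    (hb₈ : W.b₈ ∈ A) {p : ℕ} (hp : p.Prime) (hp2 : p ≠ 2) (hpA : (p : K) ∉ A.nonunits)
    {T : W.toAffine.Point} (hT : p • T = 0) (h : T = 0 ∨ xc T ∉ A) : T = 0 := by
  rcases h with h | h
  · exact h
  · exact absurd (xc_mem_of_prime_nsmul_eq_zero A hb₂ hb₄ hb₆ hb₈ hp hp2 hpA hT) h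

omit [DecidableEq K] in
/-- integrality of the `b`-invariants from integrality of the `a`-invariants. -/
theorem b_mem_of_a_mem (ha₁ : W.a₁ ∈ A) (ha₂ : W.a₂ ∈ A) (ha₃ : W.a₃ ∈ A) (ha₄ : W.a₄ ∈ A)
    (ha₆ : W.a₆ ∈ A) : W.b₂ ∈ A ∧ W.b₄ ∈ A ∧ W.b₆ ∈ A ∧ W.b₈ ∈ A := by
  have h4 := four_mem A
  have h2 := two_mem A
  refine ⟨?_, ?_, ?_, ?_⟩
  · simp only [b₂]
    exact A.add_mem _ _ (pow_mem ha₁ 2) (A.mul_mem _ _ h4 ha₂)
  · simp only [b₄]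
    exact A.add_mem _ _ (A.mul_mem _ _ h2 ha₄) (A.mul_mem _ _ ha₁ ha₃)
  · simp only [b₆]
    exact A.add_mem _ _ (pow_mem ha₃ 2) (A.mul_mem _ _ h4 ha₆)
  · simp only [b₈]
    refine sub_mem (A.add_mem _ _ (sub_mem (A.add_mem _ _ ?_ ?_) ?_) ?_) (pow_mem ha₄ 2)
    · exact A.mul_mem _ _ (pow_mem ha₁ 2) ha₆
    · exact A.mul_mem _ _ (A.mul_mem _ _ h4 ha₂) ha₆
    · exact A.mul_mem _ _ (A.mul_mem _ _ ha₁ ha₃) ha₄
    · exact A.mul_mem _ _ ha₂ (pow_mem ha₃ 2)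

end points

end Fermat.Agent.S13.NoTorsionE1Gen
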