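import Mathlib
import Fermat.Agent.S05
import Fermat.Agent.S13.XOnlyGen
import Fermat.Agent.S13.NoTorsionE1Gen

/-!
# The Frey curve at the prime `2` (shared arithmetic file of the S13 block B2)

`E := P.freyCurve⁄Qbar` is `y² + xy = x³ + a₂x² + a₄x` with `a₂ ∈ ℤ` and `a₄ = 2^μ u`, `u` odd,
`μ = p · v₂(b) - 4 ≥ 1`, `p ∤ μ`.  This file collects

* the integer arithmetic (`mu`, `no_multiple`, `a₂_eq`, `a₄_eq`),
* the valuations of the coefficients at a valuation subring `A` of `Qbar` over `2`,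
* the Galois action on points in coordinates, rational points (`rational_of_fixed`),
* `2`-adic valuations and residues of rational numbers,
* `crux_contra`: a rational abscissa cannot satisfy the crux relation,
* inertia re-exports, integrality of `y`, nonsingularity of points with unit `x`.
-/

set_option autoImplicit false

namespace Fermat.Agent.S13.FreyAt2

open WeierstrassCurve WeierstrassCurve.Affine
open Fermat.Agent.S13.XOnlyGen

local notation "Qbar" => AlgebraicClosure ℚ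


/-! ### Integer arithmetic -/

/-- `b` is even. -/
theorem two_dvd_b (P : FreyPackage) : (2 : ℤ) ∣ P.b :=
  (ZMod.intCast_zmod_eq_zero_iff_dvd P.b 2).1 P.hb2

/-- `a ≡ 3 mod 4`. -/
theorem four_dvd_a_sub_three (P : FreyPackage) : (4 : ℤ) ∣ P.a - 3 := by
  have h := P.ha4
  have : ((P.a - 3 : ℤ) : ZMod 4) = 0 := by
    push_cast
    rw [h]
    decide
  exact (ZMod.intCast_zmod_eq_zero_iff_dvd _ 4).1 this

/-- `a` is odd. -/
theorem not_two_dvd_a (P : FreyPackage) : ¬ (2 : ℤ) ∣ P.a := by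
  obtain ⟨k, hk⟩ := four_dvd_a_sub_three P
  intro ⟨m, hm⟩
  omega

/-- the `2`-adic valuation of `b`. -/
noncomputable def kb (P : FreyPackage) : ℕ := padicValInt 2 P.b

theorem b_decomp (P : FreyPackage) : ∃ b' : ℤ, ¬ (2 : ℤ) ∣ b' ∧ P.b = 2 ^ kb P * b' := by
  have h0 : P.b ≠ 0 := P.hb0
  have hdvd : (2 : ℤ) ^ kb P ∣ P.b := by
    have : Fact (Nat.Prime 2) := ⟨Nat.prime_two⟩
    have := padicValInt_dvd (p := 2) P.b
    simpa [kb] using this
  obtain ⟨b', hb'⟩ := hdvd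
  refine ⟨b', ?_, hb'⟩
  intro ⟨c, hc⟩
  have h2 : (2 : ℤ) ^ (kb P + 1) ∣ P.b := ⟨c, by rw [hb', hc]; ring⟩
  have : Fact (Nat.Prime 2) := ⟨Nat.prime_two⟩
  have := (padicValInt_dvd_iff (p := 2) (kb P + 1) P.b).mp (by exact_mod_cast h2)
  rcases this with h | h
  · exact h0 h
  · simp [kb] at h

theorem one_le_kb (P : FreyPackage) : 1 ≤ kb P := by
  have : Fact (Nat.Prime 2) := ⟨Nat.prime_two⟩
  have h := (padicValInt_dvd_iff (p := 2) 1 P.b).mp (by simpa using two_dvd_b P)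
  rcases h with h | h
  · exact absurd h P.hb0
  · exact h

/-- `μ = p · v₂(b) - 4 = v₂(a₄)`. -/
noncomputable def mu (P : FreyPackage) : ℕ := P.p * kb P - 4

theorem mu_add_four (P : FreyPackage) : mu P + 4 = P.p * kb P := by
  have h1 := one_le_kb P
  have h5 := P.hp5
  have : 5 ≤ P.p * kb P := by nlinarith
  unfold mu
  omega

theorem one_le_mu (P : FreyPackage) : 1 ≤ mu P := by
  have h1 := one_le_kb P
  have h5 := P.hp5
  have := mu_add_four P
  have : 5 ≤ P.p * kb P := by nlinarith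
  omega

theorem not_dvd_mu (P : FreyPackage) : ¬ P.p ∣ mu P := by
  intro h
  have h1 : P.p ∣ mu P + 4 := by rw [mu_add_four]; exact dvd_mul_right _ _
  have h2 : P.p ∣ 4 := (Nat.dvd_add_right h).mp h1
  have := Nat.le_of_dvd (by norm_num) h2
  have := P.hp5
  omega

/-- the arithmetic contradiction of the crux at `2`: `p c = 2 μ k` has no solution
with `0 < c < 2 μ`. -/
theorem no_multiple (P : FreyPackage) (c k : ℤ) (h : (P.p : ℤ) * c = 2 * (mu P : ℤ) * k)
    (hc0 : 0 < c) (hc : c < 2 * (mu P : ℤ)) : False := by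
  have hp : Prime (P.p : ℤ) := Nat.prime_iff_prime_int.mp P.pp
  have hdvd : (P.p : ℤ) ∣ 2 * (mu P : ℤ) * k := ⟨c, h.symm⟩
  have hk : (P.p : ℤ) ∣ k := by
    rcases hp.dvd_or_dvd hdvd with h1 | h1
    · rcases hp.dvd_or_dvd h1 with h2 | h2
      · exfalso
        have : P.p ∣ 2 := by exact_mod_cast h2
        have := Nat.le_of_dvd (by norm_num) this
        have := P.hp5
        omega
      · exfalso
        exact not_dvd_mu P (by exact_mod_cast h2)
    · exact h1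
  obtain ⟨k', rfl⟩ := hk
  have hp0 : (P.p : ℤ) ≠ 0 := by exact_mod_cast P.hp0
  have hc' : c = 2 * (mu P : ℤ) * k' := by
    apply mul_left_cancel₀ hp0
    rw [h]; ring
  have hmu : (0 : ℤ) < mu P := by exact_mod_cast one_le_mu P
  rw [hc'] at hc0 hc
  have hk0 : 0 < k' := by
    by_contra hneg
    rw [not_lt] at hneg
    nlinarith
  nlinarith

/-- `4 ∣ b^p - 1 - a^p`. -/
theorem four_dvd (P : FreyPackage) : (4 : ℤ) ∣ P.b ^ P.p - 1 - P.a ^ P.p := by
  apply (ZMod.intCast_zmod_eq_zero_iff_dvd _ 4).1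
  push_cast
  rw [P.ha4]
  obtain ⟨b', hb'⟩ := two_dvd_b P
  have hb4 : ((P.b : ZMod 4)) ^ P.p = 0 := by
    rw [hb']
    push_cast
    rw [mul_pow]
    have : P.p = 2 + (P.p - 2) := by have := P.hp5; omega
    rw [this, pow_add]
    have h4 : (2 : ZMod 4) ^ 2 = 0 := by decide
    rw [h4, zero_mul, zero_mul]
  rw [hb4]
  have h3 : (3 : ZMod 4) = -1 := by decide
  rw [h3, P.hp_odd.neg_one_pow]
  decide


/-! ### The coefficients of the Frey curve over `Qbar` -/

/-- the integer `a₂`. -/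
noncomputable def n₂ (P : FreyPackage) : ℤ := (P.b ^ P.p - 1 - P.a ^ P.p) / 4

theorem four_mul_n₂ (P : FreyPackage) : 4 * n₂ P = P.b ^ P.p - 1 - P.a ^ P.p :=
  Int.mul_ediv_cancel' (four_dvd P)

theorem a₁_eq (P : FreyPackage) : (P.freyCurve⁄Qbar).a₁ = 1 := Fermat.Agent.S05.frey_a₁ P
theorem a₃_eq (P : FreyPackage) : (P.freyCurve⁄Qbar).a₃ = 0 := Fermat.Agent.S05.frey_a₃ P
theorem a₆_eq (P : FreyPackage) : (P.freyCurve⁄Qbar).a₆ = 0 := Fermat.Agent.S05.frey_a₆ P

theorem a₂_eq (P : FreyPackage) : (P.freyCurve⁄Qbar).a₂ = ((n₂ P : ℤ) : Qbar) := by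
  rw [Fermat.Agent.S05.frey_a₂ P]
  have h := congrArg (fun z : ℤ => (z : Qbar)) (four_mul_n₂ P)
  simp only [Int.cast_mul, Int.cast_sub, Int.cast_pow, Int.cast_one, Int.cast_ofNat] at h
  rw [← h]
  field_simp

theorem a₂_eq_intCast (P : FreyPackage) : ∃ n : ℤ, (P.freyCurve⁄Qbar).a₂ = (n : Qbar) :=
  ⟨n₂ P, a₂_eq P⟩

/-- `a₄ = 2^μ u` with `u` odd. -/
theorem a₄_eq (P : FreyPackage) :
    ∃ u : ℤ, ¬ (2 : ℤ) ∣ u ∧ (P.freyCurve⁄Qbar).a₄ = (2 : Qbar) ^ mu P * (u : Qbar) := by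
  obtain ⟨b', hb'odd, hb'⟩ := b_decomp P
  refine ⟨-(P.a ^ P.p * b' ^ P.p), ?_, ?_⟩
  · rw [dvd_neg]
    intro h
    rcases Int.prime_two.dvd_or_dvd h with h1 | h1
    · exact not_two_dvd_a P (Int.prime_two.dvd_of_dvd_pow h1)
    · exact hb'odd (Int.prime_two.dvd_of_dvd_pow h1)
  · rw [Fermat.Agent.S05.frey_a₄ P]
    have hb : (P.b : Qbar) = 2 ^ kb P * (b' : Qbar) := by
      have := congrArg (fun z : ℤ => (z : Qbar)) hb'
      simpa using this
    rw [hb, mul_pow, ← pow_mul, mul_comm (kb P) P.p, ← mu_add_four P, pow_add]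
    push_cast
    ring

theorem a₄_eq_intCast (P : FreyPackage) : ∃ n : ℤ, (P.freyCurve⁄Qbar).a₄ = (n : Qbar) := by
  obtain ⟨u, -, hu⟩ := a₄_eq P
  exact ⟨2 ^ mu P * u, by rw [hu]; push_cast; ring⟩

theorem a₄_ne_zero (P : FreyPackage) : (P.freyCurve⁄Qbar).a₄ ≠ 0 := by
  obtain ⟨u, hu, h⟩ := a₄_eq P
  rw [h]
  refine mul_ne_zero (pow_ne_zero _ two_ne_zero) ?_
  intro h0
  have : u = 0 := by exact_mod_cast h0
  exact hu (this ▸ dvd_zero _)

/-! ### Valuations at a place over `2` -/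

section val

variable (A : ValuationSubring Qbar)

theorem val_two_lt_one (hA : A.LiesOverPrime 2) : A.valuation (2 : Qbar) < 1 := by
  have := Fermat.Agent.S05.Inertia.valuation_prime_lt_one hA
  simpa using this

theorem val_two_ne_zero : A.valuation (2 : Qbar) ≠ 0 :=
  (Valuation.ne_zero_iff _).mpr two_ne_zero

theorem val_two_pos : 0 < A.valuation (2 : Qbar) :=
  zero_lt_iff.mpr (val_two_ne_zero A)

theorem val_odd (hA : A.LiesOverPrime 2) {u : ℤ} (hu : ¬ (2 : ℤ) ∣ u) :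
    A.valuation (u : Qbar) = 1 :=
  Fermat.Agent.S05.Inertia.valuation_intCast_eq_one_of_not_dvd Nat.prime_two hA
    (by simpa using hu)

theorem val_even (hA : A.LiesOverPrime 2) {u : ℤ} (hu : (2 : ℤ) ∣ u) :
    A.valuation (u : Qbar) < 1 :=
  Fermat.Agent.S05.Inertia.valuation_intCast_lt_one_of_dvd hA (by simpa using hu)

theorem val_a₁ (P : FreyPackage) : A.valuation (P.freyCurve⁄Qbar).a₁ = 1 := by
  rw [a₁_eq, map_one]

theorem val_a₂_le_one (P : FreyPackage) : A.valuation (P.freyCurve⁄Qbar).a₂ ≤ 1 := by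
  rw [a₂_eq]
  exact Fermat.Agent.S05.Inertia.valuation_intCast_le_one A _

theorem val_a₄ (P : FreyPackage) (hA : A.LiesOverPrime 2) :
    A.valuation (P.freyCurve⁄Qbar).a₄ = A.valuation (2 : Qbar) ^ mu P := by
  obtain ⟨u, hu, h⟩ := a₄_eq P
  rw [h, map_mul, map_pow, val_odd A hA hu, mul_one]

theorem val_a₄_lt_one (P : FreyPackage) (hA : A.LiesOverPrime 2) :
    A.valuation (P.freyCurve⁄Qbar).a₄ < 1 := by
  rw [val_a₄ A P hA]
  exact pow_lt_one₀ zero_le (val_two_lt_one A hA) (by have := one_le_mu P; omega)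

theorem val_a₄_le_one (P : FreyPackage) : A.valuation (P.freyCurve⁄Qbar).a₄ ≤ 1 := by
  obtain ⟨n, hn⟩ := a₄_eq_intCast P
  rw [hn]
  exact Fermat.Agent.S05.Inertia.valuation_intCast_le_one A _

theorem b₂_eq (P : FreyPackage) : (P.freyCurve⁄Qbar).b₂ = 1 + 4 * ((n₂ P : ℤ) : Qbar) := by
  simp only [WeierstrassCurve.b₂]
  rw [a₁_eq, a₂_eq]
  ring

theorem b₄_eq (P : FreyPackage) : (P.freyCurve⁄Qbar).b₄ = 2 * (P.freyCurve⁄Qbar).a₄ := by
  simp only [WeierstrassCurve.b₄]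
  rw [a₃_eq]
  ring

theorem b₆_eq (P : FreyPackage) : (P.freyCurve⁄Qbar).b₆ = 0 := by
  simp only [WeierstrassCurve.b₆]
  rw [a₃_eq, a₆_eq]
  ring

theorem b₈_eq (P : FreyPackage) : (P.freyCurve⁄Qbar).b₈ = -(P.freyCurve⁄Qbar).a₄ ^ 2 := by
  simp only [WeierstrassCurve.b₈]
  rw [a₃_eq, a₆_eq]
  ring

theorem val_b₂ (P : FreyPackage) (hA : A.LiesOverPrime 2) :
    A.valuation (P.freyCurve⁄Qbar).b₂ = 1 := by
  rw [b₂_eq]
  have h4 : A.valuation (4 * ((n₂ P : ℤ) : Qbar)) < 1 := by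
    have : (4 * ((n₂ P : ℤ) : Qbar)) = (((4 * n₂ P : ℤ)) : Qbar) := by push_cast; ring
    rw [this]
    exact val_even A hA ⟨2 * n₂ P, by ring⟩
  have := Valuation.map_add_eq_of_lt_left A.valuation (x := (1 : Qbar)) (y := 4 * ((n₂ P : ℤ) : Qbar))
    (by rw [map_one]; exact h4)
  rw [this, map_one]

theorem a_mem (P : FreyPackage) :
    (P.freyCurve⁄Qbar).a₁ ∈ A ∧ (P.freyCurve⁄Qbar).a₂ ∈ A ∧ (P.freyCurve⁄Qbar).a₃ ∈ A ∧
      (P.freyCurve⁄Qbar).a₄ ∈ A ∧ (P.freyCurve⁄Qbar).a₆ ∈ A := by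
  refine ⟨?_, ?_, ?_, ?_, ?_⟩
  · rw [a₁_eq]; exact A.one_mem
  · rw [a₂_eq]; exact intCast_mem A _
  · rw [a₃_eq]; exact A.zero_mem
  · obtain ⟨n, hn⟩ := a₄_eq_intCast P
    rw [hn]; exact intCast_mem A _
  · rw [a₆_eq]; exact A.zero_mem

theorem b_mem (P : FreyPackage) :
    (P.freyCurve⁄Qbar).b₂ ∈ A ∧ (P.freyCurve⁄Qbar).b₄ ∈ A ∧ (P.freyCurve⁄Qbar).b₆ ∈ A ∧
      (P.freyCurve⁄Qbar).b₈ ∈ A := by
  obtain ⟨h1, h2, h3, h4, h6⟩ := a_mem A P
  exact Fermat.Agent.S13.NoTorsionE1Gen.b_mem_of_a_mem A h1 h2 h3 h4 h6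

theorem val_p (P : FreyPackage) (hA : A.LiesOverPrime 2) : A.valuation (P.p : Qbar) = 1 :=
  Fermat.Agent.S05.Inertia.valuation_natCast_prime_eq_one Nat.prime_two P.pp
    (by have := P.hp5; omega) hA

theorem p_not_mem_nonunits (P : FreyPackage) (hA : A.LiesOverPrime 2) :
    (P.p : Qbar) ∉ A.nonunits := by
  rw [A.mem_nonunits_iff, val_p A P hA]
  exact lt_irrefl _

end val


/-! ### The Galois action in coordinates -/

section action

universe r s v

variable {R : Type r} {S : Type s} {K : Type v} [CommRing R] [CommRing S] [Field K]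
  [DecidableEq K] {W' : Affine R} [Algebra R S] [Algebra R K] [Algebra S K]
  [IsScalarTower R S K]

theorem smul_some (σ : K ≃ₐ[S] K) {x y : K} (h : (W'⁄K).toAffine.Nonsingular x y) :
    σ • (Point.some x y h : (W'⁄K).Point) = Point.some (σ x) (σ y)
      ((WeierstrassCurve.Affine.baseChange_nonsingular _ σ.toAlgHom.injective ..).mpr h) := rfl

theorem smul_zero' (σ : K ≃ₐ[S] K) : σ • (0 : (W'⁄K).Point) = 0 := rfl

theorem xc_smul (σ : K ≃ₐ[S] K) (T : (W'⁄K).Point) : xc (σ • T) = σ (xc T) := by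
  cases T with
  | zero => exact (map_zero σ).symm
  | some x y h => rfl

theorem yc_smul (σ : K ≃ₐ[S] K) (T : (W'⁄K).Point) : yc (σ • T) = σ (yc T) := by
  cases T with
  | zero => exact (map_zero σ).symm
  | some x y h => rfl

theorem smul_eq_zero_iff (σ : K ≃ₐ[S] K) (T : (W'⁄K).Point) : σ • T = 0 ↔ T = 0 := by
  cases T with
  | zero => exact ⟨fun _ => rfl, fun _ => rfl⟩
  | some x y h =>
    constructor
    · intro h1
      rw [smul_some] at h1
      exact absurd h1 (by simp)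
    · intro h1
      exact absurd h1 (by simp)

theorem smul_ne_zero (σ : K ≃ₐ[S] K) {T : (W'⁄K).Point} (hT : T ≠ 0) : σ • T ≠ 0 :=
  fun h => hT ((smul_eq_zero_iff σ T).mp h)

theorem smul_nsmul (σ : K ≃ₐ[S] K) (n : ℕ) (T : (W'⁄K).Point) : σ • (n • T) = n • (σ • T) :=
  (Point.map σ.toAlgHom).map_nsmul n T

theorem nsmul_smul_eq_zero (σ : K ≃ₐ[S] K) {n : ℕ} {T : (W'⁄K).Point} (hT : n • T = 0) :
    n • (σ • T) = 0 := by
  rw [← smul_nsmul, hT]; rfl

end action

/-! ### Rational points -/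

/-- `Qbar / ℚ` is Galois (for whichever `Algebra ℚ Qbar` instance elaboration picks). -/
theorem isGalois_rat_qbar : IsGalois ℚ Qbar := by
  have h : (inferInstance : Algebra ℚ Qbar) = AlgebraicClosure.instAlgebra ℚ :=
    Subsingleton.elim _ _
  have : @IsGalois ℚ _ Qbar _ (AlgebraicClosure.instAlgebra ℚ) := inferInstance
  rw [← h] at this
  exact this

theorem rational_of_fixed (P : FreyPackage) (T : (P.freyCurve⁄Qbar).Point)
    (hT : ∀ σ : Qbar ≃ₐ[ℚ] Qbar, σ • T = T) :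
    ∃ x y : ℚ, xc T = (x : Qbar) ∧ yc T = (y : Qbar) := by
  have hx : ∀ σ : Qbar ≃ₐ[ℚ] Qbar, σ (xc T) = xc T := fun σ => by
    rw [← xc_smul, hT σ]
  have hy : ∀ σ : Qbar ≃ₐ[ℚ] Qbar, σ (yc T) = yc T := fun σ => by
    rw [← yc_smul, hT σ]
  have hG : IsGalois ℚ Qbar := isGalois_rat_qbar
  obtain ⟨x, hx'⟩ := (InfiniteGalois.mem_range_algebraMap_iff_fixed (k := ℚ) (K := Qbar) _).mpr hx
  obtain ⟨y, hy'⟩ := (InfiniteGalois.mem_range_algebraMap_iff_fixed (k := ℚ) (K := Qbar) _).mpr hy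
  refine ⟨x, y, ?_, ?_⟩
  · rw [← hx']; rfl
  · rw [← hy']; rfl


/-! ### Rational numbers at a place over `2` -/

section rat

variable (A : ValuationSubring Qbar)

/-- a nonzero integer is `2^k` times an odd integer. -/
theorem int_decomp {n : ℤ} (hn : n ≠ 0) : ∃ (k : ℕ) (n' : ℤ), ¬ (2 : ℤ) ∣ n' ∧ n = 2 ^ k * n' := by
  have hfin : FiniteMultiplicity (2 : ℤ) n :=
    Int.finiteMultiplicity_iff.mpr ⟨by decide, hn⟩
  obtain ⟨c, hc, hnd⟩ := hfin.exists_eq_pow_mul_and_not_dvd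
  exact ⟨_, c, hnd, hc⟩

theorem val_intCast (hA : A.LiesOverPrime 2) {n : ℤ} (hn : n ≠ 0) :
    ∃ k : ℕ, A.valuation (n : Qbar) = A.valuation (2 : Qbar) ^ k := by
  obtain ⟨k, n', hn', rfl⟩ := int_decomp hn
  refine ⟨k, ?_⟩
  push_cast
  rw [map_mul, map_pow, val_odd A hA hn', mul_one]

/-- rational numbers have integral `2`-adic valuation. -/
theorem val_ratCast (hA : A.LiesOverPrime 2) {x : ℚ} (hx : x ≠ 0) :
    ∃ c : ℤ, A.valuation (x : Qbar) = A.valuation (2 : Qbar) ^ c := by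
  obtain ⟨k₁, h₁⟩ := val_intCast A hA (Rat.num_ne_zero.mpr hx)
  have hden : (x.den : ℤ) ≠ 0 := by exact_mod_cast x.den_nz
  obtain ⟨k₂, h₂⟩ := val_intCast A hA hden
  refine ⟨(k₁ : ℤ) - k₂, ?_⟩
  have hxe : (x : Qbar) = ((x.num : ℤ) : Qbar) / (((x.den : ℤ)) : Qbar) := by
    conv_lhs => rw [← Rat.num_div_den x]
    push_cast
    rfl
  rw [hxe, map_div₀, h₁, h₂, zpow_sub₀ (val_two_ne_zero A), zpow_natCast, zpow_natCast]

/-- a rational number of valuation `≤ 1` is `n / d` with `d` odd. -/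
theorem exists_odd_den (hA : A.LiesOverPrime 2) {x : ℚ} (hx : A.valuation (x : Qbar) ≤ 1) :
    ∃ n d : ℤ, ¬ (2 : ℤ) ∣ d ∧ (x : Qbar) = (n : Qbar) / (d : Qbar) := by
  refine ⟨x.num, x.den, ?_, ?_⟩
  · intro hd
    have hnum : ¬ (2 : ℤ) ∣ x.num := by
      intro hn
      have hcop := x.reduced
      have h2 : (2 : ℕ) ∣ x.num.natAbs := by
        have := Int.natAbs_dvd_natAbs.mpr hn
        simpa using this
      have h3 : (2 : ℕ) ∣ x.den := by exact_mod_cast hd
      have := Nat.dvd_gcd h2 h3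
      rw [hcop] at this
      exact absurd this (by decide)
    have hxe : (x : Qbar) = ((x.num : ℤ) : Qbar) / (((x.den : ℤ)) : Qbar) := by
      conv_lhs => rw [← Rat.num_div_den x]
      push_cast
      rfl
    rw [hxe, map_div₀, val_odd A hA hnum] at hx
    have hdlt := val_even A hA hd
    have hd0 : A.valuation (((x.den : ℤ)) : Qbar) ≠ 0 := by
      rw [Valuation.ne_zero_iff]
      exact_mod_cast x.den_nz
    have : (1 : _) ≤ A.valuation (((x.den : ℤ)) : Qbar) := by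
      rwa [div_le_iff₀ (zero_lt_iff.mpr hd0), one_mul] at hx
    exact absurd hdlt (not_lt.mpr this)
  · conv_lhs => rw [← Rat.num_div_den x]
    push_cast
    rfl

/-- the residue field of `ℚ` at `2` is `𝔽₂`: an integral rational number is `≡ 0` or `≡ 1`. -/
theorem val_ratCast_res (hA : A.LiesOverPrime 2) {y : ℚ} (hy : A.valuation (y : Qbar) ≤ 1) :
    A.valuation (y : Qbar) < 1 ∨ A.valuation ((y : Qbar) - 1) < 1 := by
  obtain ⟨n, d, hd, hyd⟩ := exists_odd_den A hA hy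
  have hvd := val_odd A hA hd
  have hd0 : (d : Qbar) ≠ 0 := by
    intro h
    rw [h, map_zero] at hvd
    exact zero_ne_one hvd
  by_cases hn : (2 : ℤ) ∣ n
  · left
    rw [hyd, map_div₀, hvd, div_one]
    exact val_even A hA hn
  · right
    have : (y : Qbar) - 1 = (((n - d : ℤ)) : Qbar) / (d : Qbar) := by
      rw [hyd]; push_cast; field_simp
    rw [this, map_div₀, hvd, div_one]
    apply val_even A hA
    have h1 : n % 2 = 1 := by omega
    have h2 : d % 2 = 1 := by omega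
    omega

/-- a rational unit is `≡ 1`. -/
theorem val_ratCast_sub_one_lt (hA : A.LiesOverPrime 2) {x : ℚ} (hx : A.valuation (x : Qbar) = 1) :
    A.valuation ((x : Qbar) - 1) < 1 := by
  rcases val_ratCast_res A hA hx.le with h | h
  · rw [hx] at h; exact absurd h (lt_irrefl _)
  · exact h

end rat

/-! ### The arithmetic contradiction of the crux at `2` for rational abscissas -/

theorem crux_contra (P : FreyPackage) (A : ValuationSubring Qbar) (hA : A.LiesOverPrime 2)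
    {x : ℚ} (hx1 : A.valuation (x : Qbar) < 1)
    (hx2 : A.valuation (P.freyCurve⁄Qbar).a₄ < A.valuation (x : Qbar)) (k : ℤ)
    (h : A.valuation (x : Qbar) ^ P.p = A.valuation (P.freyCurve⁄Qbar).a₄ ^ (2 * k)) : False := by
  have hx0 : x ≠ 0 := by
    rintro rfl
    simp at hx2
  obtain ⟨c, hc⟩ := val_ratCast A hA hx0
  set t := A.valuation (2 : Qbar) with ht
  have ht0 : t ≠ 0 := val_two_ne_zero A
  have htpos : 0 < t := val_two_pos A
  have ht1 : t < 1 := val_two_lt_one A hA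
  rw [val_a₄ A P hA] at hx2 h
  rw [hc] at hx1 hx2 h
  -- strict anti-monotonicity of `c ↦ t ^ c`
  have hanti : ∀ {m n : ℤ}, t ^ m < t ^ n → n < m := by
    intro m n hmn
    by_contra hle
    rw [not_lt] at hle
    exact absurd hmn (not_lt.mpr (zpow_le_zpow_right_of_le_one₀ htpos ht1.le hle))
  have hinj : ∀ {m n : ℤ}, t ^ m = t ^ n → m = n := by
    intro m n hmn
    rcases lt_trichotomy m n with hlt | heq | hgt
    · exact absurd hmn (ne_of_gt (zpow_lt_zpow_right_of_lt_one₀ htpos ht1 hlt))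
    · exact heq
    · exact absurd hmn (ne_of_lt (zpow_lt_zpow_right_of_lt_one₀ htpos ht1 hgt))
  have hc0 : 0 < c := by
    have : t ^ c < t ^ (0 : ℤ) := by rwa [zpow_zero]
    exact hanti this
  have hcμ : c < (mu P : ℤ) := by
    have : t ^ ((mu P : ℕ) : ℤ) < t ^ c := by rwa [zpow_natCast]
    exact hanti this
  have heq : (P.p : ℤ) * c = 2 * (mu P : ℤ) * k := by
    apply hinj
    rw [mul_comm (P.p : ℤ) c, zpow_mul, zpow_natCast]
    rw [show (2 * (mu P : ℤ) * k) = ((mu P : ℕ) : ℤ) * (2 * k) by ring, zpow_mul, zpow_natCast]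
    exact h
  have hmu : (0 : ℤ) < mu P := by exact_mod_cast one_le_mu P
  exact no_multiple P c k heq hc0 (by linarith)


/-! ### Inertia (re-exports from `S05/Inertia` for `Qbar / ℚ`) -/

section inertia

variable (A : ValuationSubring Qbar)

theorem isAlgebraic_rat_qbar : Algebra.IsAlgebraic ℚ Qbar := by
  have h : (inferInstance : Algebra ℚ Qbar) = AlgebraicClosure.instAlgebra ℚ :=
    Subsingleton.elim _ _
  have : @Algebra.IsAlgebraic ℚ Qbar _ _ (AlgebraicClosure.instAlgebra ℚ) := inferInstance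
  rw [← h] at this
  exact this

theorem inertia_close {σ : Qbar ≃ₐ[ℚ] Qbar} (hσ : σ ∈ A.inertiaSubgroupIn ℚ) :
    ∀ x, A.valuation x ≤ 1 → A.valuation (σ x - x) < 1 :=
  Fermat.Agent.S05.Inertia.sub_mem A hσ

theorem inertia_val_eq {σ : Qbar ≃ₐ[ℚ] Qbar} (hσ : σ ∈ A.inertiaSubgroupIn ℚ) (x : Qbar) :
    A.valuation (σ x) = A.valuation x := by
  have := isAlgebraic_rat_qbar
  exact Fermat.Agent.S05.Inertia.valuation_apply_eq hσ x

end inertia

/-! ### Integrality of `y`, nonsingularity of unit points -/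

section points

variable {K : Type*} [Field K] {Γ₀ : Type*} [LinearOrderedCommGroupWithZero Γ₀]
  (v : Valuation K Γ₀) [DecidableEq K] {W : WeierstrassCurve K}

omit [DecidableEq K] in
/-- on an integral model, integral `x` forces integral `y`. -/
theorem yc_le_one_gen (ha₁ : v W.a₁ ≤ 1) (ha₂ : v W.a₂ ≤ 1) (ha₃ : v W.a₃ ≤ 1) (ha₄ : v W.a₄ ≤ 1)
    (ha₆ : v W.a₆ ≤ 1) {T : W.toAffine.Point} (hT : T ≠ 0) (hx : v (xc T) ≤ 1) :
    v (yc T) ≤ 1 := by
  by_contra hy
  rw [not_le] at hy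
  have e := equation_xc_yc hT
  set x := xc T
  set y := yc T
  have hR : v (x ^ 3 + W.a₂ * x ^ 2 + W.a₄ * x + W.a₆) ≤ 1 := by
    refine le_trans (Valuation.map_add _ _ _) (max_le ?_ ha₆)
    refine le_trans (Valuation.map_add _ _ _) (max_le ?_ ?_)
    · refine le_trans (Valuation.map_add _ _ _) (max_le ?_ ?_)
      · rw [map_pow]; exact pow_le_one₀ zero_le hx
      · rw [map_mul, map_pow]; exact mul_le_one₀ ha₂ zero_le (pow_le_one₀ zero_le hx)
    · rw [map_mul]; exact mul_le_one₀ ha₄ zero_le hx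
  have hy0 : 0 < v y := lt_trans zero_lt_one hy
  have hlin : v (W.a₁ * x + W.a₃) ≤ 1 := by
    refine le_trans (Valuation.map_add _ _ _) (max_le ?_ ha₃)
    rw [map_mul]; exact mul_le_one₀ ha₁ zero_le hx
  have h2 : v ((W.a₁ * x + W.a₃) * y) < v (y ^ 2) := by
    rw [map_mul, map_pow, pow_two]
    calc v (W.a₁ * x + W.a₃) * v y ≤ 1 * v y := mul_le_mul_of_nonneg_right hlin zero_le
      _ < v y * v y := mul_lt_mul_of_pos_right hy hy0
  have h3 : v (y ^ 2 + (W.a₁ * x + W.a₃) * y) = v (y ^ 2) :=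
    Valuation.map_add_eq_of_lt_left v h2
  have h4 : y ^ 2 + (W.a₁ * x + W.a₃) * y = x ^ 3 + W.a₂ * x ^ 2 + W.a₄ * x + W.a₆ := by
    rw [← e]; ring
  rw [h4] at h3
  have h5 : 1 < v (y ^ 2) := by
    rw [map_pow]; exact one_lt_pow₀ hy two_ne_zero
  rw [← h3] at h5
  exact absurd hR (not_le.mpr h5)

end points

section freypoints

variable (A : ValuationSubring Qbar) (P : FreyPackage)

/-- integral `x` forces integral `y` on the Frey curve (any place). -/
theorem yc_le_one {T : (P.freyCurve⁄Qbar).Point} (hT : T ≠ 0)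
    (hx : A.valuation (xc T) ≤ 1) : A.valuation (yc T) ≤ 1 := by
  obtain ⟨h1, h2, h3, h4, h6⟩ := a_mem A P
  exact yc_le_one_gen A.valuation ((A.valuation_le_one_iff _).mpr h1)
    ((A.valuation_le_one_iff _).mpr h2) ((A.valuation_le_one_iff _).mpr h3)
    ((A.valuation_le_one_iff _).mpr h4) ((A.valuation_le_one_iff _).mpr h6) hT hx

/-- at a place over `2`, a point with unit `x` reduces to a nonsingular point:
`∂/∂y = 2y + a₁x + a₃` is a unit. -/
theorem nonsing_of_unit (hA : A.LiesOverPrime 2) {T : (P.freyCurve⁄Qbar).Point} (hT : T ≠ 0)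
    (hx : A.valuation (xc T) = 1) :
    A.valuation (2 * yc T + (P.freyCurve⁄Qbar).a₁ * xc T + (P.freyCurve⁄Qbar).a₃) = 1 := by
  have hy := yc_le_one A P hT hx.le
  rw [a₁_eq, a₃_eq, add_zero, one_mul]
  have h2y : A.valuation (2 * yc T) < 1 := by
    rw [map_mul]
    calc A.valuation (2 : Qbar) * A.valuation (yc T) ≤ A.valuation (2 : Qbar) * 1 :=
          mul_le_mul_of_nonneg_left hy zero_le
      _ < 1 := by rw [mul_one]; exact val_two_lt_one A hA
  rw [add_comm]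
  have := Valuation.map_add_eq_of_lt_left A.valuation (x := xc T) (y := 2 * yc T)
    (by rw [hx]; exact h2y)
  rw [this, hx]

end freypoints

end Fermat.Agent.S13.FreyAt2
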