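import Mathlib
import Fermat.Agent.S13.FreyAt2
import Fermat.Agent.S13.ClosePointsGen
import Fermat.Agent.S13.CruxGen

/-!
# S13, block (B2), interface (I2): the Frey curve has no rational point of order `p`

`I2 : P.p • T = 0 → (∀ σ : Gal(Qbar/ℚ), σ • T = T) → T = 0`.

Proof at a place `A` of `Qbar` over `2`: a rational `p`-torsion point `S ≠ 0` has integral
abscissa (`NoTorsionE1Gen`), which cannot reduce to the node (`CruxGen.main` +
`FreyAt2.crux_contra`: the `2`-adic valuation of a rational number is an integer, but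
`p · ord x = 2 μ k` has no solution with `0 < ord x < μ`).  So `x(S)` is a `2`-adic unit, `≡ 1`,
and `y(S) ≡ 0` or `1`.  Among `T, 2T, 3T` two have congruent coordinates, hence are equal
(`ClosePointsGen.main`, and again no `p`-torsion in the kernel of reduction): so `T = 0` or
`2T = 0`, impossible for `p ≥ 5`.
-/

set_option autoImplicit false

namespace Fermat.Agent.S13.B2RationalH5

open WeierstrassCurve WeierstrassCurve.Affine
open Fermat.Agent.S13.XOnlyGen Fermat.Agent.S13.FreyAt2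

local notation "Qbar" => AlgebraicClosure ℚ

/-- there is a place of `Qbar` over `2`. -/
theorem exists_over_two : ∃ A : ValuationSubring Qbar, A.LiesOverPrime 2 := by
  let R : Subring Qbar := (Int.castRingHom Qbar).range
  let two : R := ⟨2, ⟨2, by simp⟩⟩
  let I : Ideal R := Ideal.span {two}
  have hI : I ≠ ⊤ := by
    intro h
    have h1 : (1 : R) ∈ I := by rw [h]; trivial
    obtain ⟨r, hr⟩ := Ideal.mem_span_singleton'.mp h1
    obtain ⟨n, hn⟩ := r.2
    have h2 : ((n * 2 : ℤ) : Qbar) = ((1 : ℤ) : Qbar) := by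
      have := congrArg (fun z : R => (z : Qbar)) hr
      simp only [Subring.coe_mul, Subring.coe_one] at this
      push_cast
      rw [← this]
      change (Int.castRingHom Qbar) n * 2 = (r : Qbar) * (two : Qbar)
      rw [hn]
    have h3 : n * 2 = 1 := Int.cast_injective h2
    omega
  obtain ⟨B, -, hB⟩ := Ideal.image_subset_nonunits_valuationSubring I hI
  refine ⟨B, ?_⟩
  have : ((two : R) : Qbar) ∈ B.nonunits := hB ⟨two, Ideal.subset_span rfl, rfl⟩
  simpa [ValuationSubring.LiesOverPrime] using this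

section facts

variable (P : FreyPackage) (A : ValuationSubring Qbar) (hA : A.LiesOverPrime 2)

include hA in
/-- integrality of `p`-torsion at `2`. -/
theorem val_xc_le_one {S : (P.freyCurve⁄Qbar).Point} (hS : P.p • S = 0) :
    A.valuation (xc S) ≤ 1 := by
  obtain ⟨hb2, hb4, hb6, hb8⟩ := b_mem A P
  have hp2 : P.p ≠ 2 := by have := P.hp5; omega
  exact (A.valuation_le_one_iff _).mpr
    (NoTorsionE1Gen.xc_mem_of_prime_nsmul_eq_zero A hb2 hb4 hb6 hb8 P.pp hp2
      (p_not_mem_nonunits A P hA) hS)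

include hA in
/-- a rational nonzero `p`-torsion point has coordinates `x ≡ 1`, `y ≡ 0` or `1` at `2`. -/
theorem rat_point_facts {S : (P.freyCurve⁄Qbar).Point} (hS0 : S ≠ 0) (hS : P.p • S = 0)
    (hfix : ∀ σ : Qbar ≃ₐ[ℚ] Qbar, σ • S = S) :
    A.valuation (xc S) = 1 ∧ A.valuation (yc S) ≤ 1 ∧ A.valuation (xc S - 1) < 1 ∧
      (A.valuation (yc S) < 1 ∨ A.valuation (yc S - 1) < 1) := by
  obtain ⟨x, y, hx, hy⟩ := rational_of_fixed P S hfix
  have hp2 : P.p ≠ 2 := by have := P.hp5; omega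
  have hle := val_xc_le_one P A hA hS
  have hx1 : A.valuation (xc S) = 1 := by
    refine le_antisymm hle ?_
    by_contra hlt
    rw [not_le] at hlt
    obtain ⟨h1, k, hk⟩ := CruxGen.main A.valuation (a₃_eq P) (a₆_eq P) (val_b₂ A P hA)
      (a₄_ne_zero P) (val_a₄_lt_one A P hA) P.pp hp2 hS0 hS hlt
    rw [hx] at hlt h1 hk
    exact crux_contra P A hA hlt h1 k hk
  have hy1 : A.valuation (yc S) ≤ 1 := yc_le_one A P hS0 hx1.le
  refine ⟨hx1, hy1, ?_, ?_⟩
  · rw [hx] at hx1 ⊢
    exact val_ratCast_sub_one_lt A hA hx1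
  · rw [hy] at hy1 ⊢
    exact val_ratCast_res A hA hy1

include hA in
/-- two `p`-torsion points with congruent integral coordinates, unit abscissa, are equal. -/
theorem eq_of_close {S S' : (P.freyCurve⁄Qbar).Point} (hS0 : S ≠ 0) (hS'0 : S' ≠ 0)
    (hS : P.p • S = 0) (hS' : P.p • S' = 0)
    (hx : A.valuation (xc S) = 1) (hy : A.valuation (yc S) ≤ 1)
    (hxx : A.valuation (xc S' - xc S) < 1) (hyy : A.valuation (yc S' - yc S) < 1) :
    S' = S := by
  have hcl := ClosePointsGen.main A.valuation (val_a₁ A P).le (val_a₂_le_one A P) hS0 hS'0 hx.le hy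
    hxx hyy (Or.inl (nonsing_of_unit A P hA hS0 hx))
  have hD : P.p • (S' - S) = 0 := by rw [nsmul_sub, hS, hS', sub_zero]
  rcases hcl with h | h
  · exact sub_eq_zero.mp h
  · exact absurd (val_xc_le_one P A hA hD) (not_le.mpr h)

include hA in
/-- two rational nonzero `p`-torsion points in the same residue class are equal. -/
theorem eq_of_same_class {S S' : (P.freyCurve⁄Qbar).Point} (hS0 : S ≠ 0) (hS'0 : S' ≠ 0)
    (hS : P.p • S = 0) (hS' : P.p • S' = 0)
    (hfix : ∀ σ : Qbar ≃ₐ[ℚ] Qbar, σ • S = S) (hfix' : ∀ σ : Qbar ≃ₐ[ℚ] Qbar, σ • S' = S')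
    (hclass : (A.valuation (yc S) < 1 ∧ A.valuation (yc S') < 1) ∨
      (A.valuation (yc S - 1) < 1 ∧ A.valuation (yc S' - 1) < 1)) : S' = S := by
  obtain ⟨hx, hy, hx1, -⟩ := rat_point_facts P A hA hS0 hS hfix
  obtain ⟨-, -, hx1', -⟩ := rat_point_facts P A hA hS'0 hS' hfix'
  refine eq_of_close P A hA hS0 hS'0 hS hS' hx hy ?_ ?_
  · have : xc S' - xc S = (xc S' - 1) - (xc S - 1) := by ring
    rw [this]
    exact Valuation.map_sub_lt _ hx1' hx1
  · rcases hclass with ⟨h1, h2⟩ | ⟨h1, h2⟩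
    · exact Valuation.map_sub_lt _ h2 h1
    · have : yc S' - yc S = (yc S' - 1) - (yc S - 1) := by ring
      rw [this]
      exact Valuation.map_sub_lt _ h2 h1

end facts

/-- **(I2)**: the Frey curve has no nonzero rational `p`-torsion point. -/
theorem I2 (P : FreyPackage) (T : (P.freyCurve⁄Qbar).Point) (hT : P.p • T = 0)
    (hfix : ∀ σ : Qbar ≃ₐ[ℚ] Qbar, σ • T = T) : T = 0 := by
  by_contra hT0
  obtain ⟨A, hA⟩ := exists_over_two
  have hp : P.p.Prime := P.pp
  have hp2 : P.p ≠ 2 := by have := P.hp5; omega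
  have h5 := P.hp5
  -- multiples of `T`
  have hfixn : ∀ n : ℕ, ∀ σ : Qbar ≃ₐ[ℚ] Qbar, σ • (n • T) = n • T := fun n σ => by
    rw [smul_nsmul, hfix σ]
  have htorn : ∀ n : ℕ, P.p • (n • T) = 0 := fun n => by
    rw [smul_comm, hT, nsmul_zero]
  have h1 := (CruxGen.nsmul_facts hp hp2 hT0 hT (j := 1) le_rfl (by omega)).1
  have h2 := (CruxGen.nsmul_facts hp hp2 hT0 hT (j := 2) (by omega) (by omega)).1
  have h3 := (CruxGen.nsmul_facts hp hp2 hT0 hT (j := 3) (by omega) (by omega)).1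
  obtain ⟨-, -, -, c1⟩ := rat_point_facts P A hA h1 (htorn 1) (hfixn 1)
  obtain ⟨-, -, -, c2⟩ := rat_point_facts P A hA h2 (htorn 2) (hfixn 2)
  obtain ⟨-, -, -, c3⟩ := rat_point_facts P A hA h3 (htorn 3) (hfixn 3)
  -- the three possible coincidences
  have e12 : 2 • T = 1 • T → False := by
    intro h
    apply hT0
    rw [two_nsmul, one_nsmul] at h
    exact add_eq_left.mp h
  have e13 : 3 • T = 1 • T → False := by
    intro h
    apply h2
    rw [show (3 : ℕ) = 2 + 1 from rfl, add_nsmul, one_nsmul] at h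
    exact add_eq_right.mp h
  have e23 : 3 • T = 2 • T → False := by
    intro h
    apply hT0
    rw [show (3 : ℕ) = 2 + 1 from rfl, add_nsmul, one_nsmul] at h
    exact add_eq_left.mp h
  have key : ∀ {i j : ℕ}, i • T ≠ 0 → j • T ≠ 0 →
      ((A.valuation (yc (i • T)) < 1 ∧ A.valuation (yc (j • T)) < 1) ∨
        (A.valuation (yc (i • T) - 1) < 1 ∧ A.valuation (yc (j • T) - 1) < 1)) →
      j • T = i • T := fun {i j} hi hj hc =>
    eq_of_same_class P A hA hi hj (htorn i) (htorn j) (hfixn i) (hfixn j) hc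
  rcases c1 with c1 | c1 <;> rcases c2 with c2 | c2 <;> rcases c3 with c3 | c3
  · exact e12 (key h1 h2 (Or.inl ⟨c1, c2⟩))
  · exact e12 (key h1 h2 (Or.inl ⟨c1, c2⟩))
  · exact e13 (key h1 h3 (Or.inl ⟨c1, c3⟩))
  · exact e23 (key h2 h3 (Or.inr ⟨c2, c3⟩))
  · exact e23 (key h2 h3 (Or.inl ⟨c2, c3⟩))
  · exact e13 (key h1 h3 (Or.inr ⟨c1, c3⟩))
  · exact e12 (key h1 h2 (Or.inr ⟨c1, c2⟩))
  · exact e12 (key h1 h2 (Or.inr ⟨c1, c2⟩))

end Fermat.Agent.S13.B2RationalH5
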