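import Mathlib.RingTheory.Valuation.Basic
import Mathlib.FieldTheory.IsAlgClosed.Basic
import Fermat.Agent.S13.XOnlyGen

/-!
# S13 / B2: the branch (sign) lemma, direct version

Model `y² + a₁xy = x³ + a₂x² + a₄x` (`a₃ = a₆ = 0`), `α, β` the two tangent slopes at the node
`(0,0)` of the reduction: `α + β = -a₁`, `α β = -a₂`.  Put `s = y - αx`, `t = y - βx`.

* exact identity: `(x(P-Q) + x_P + x_Q)(x_P - x_Q)² = (s_P + t_Q)(t_P + s_Q)`;
* two points on the same branch (`v s < v x`) with the same `v x < 1` differ by a point with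
  `1 ≤ v x` (or are equal);
* a valuation-preserving ring endomorphism `σ` close to the identity on integers preserves the
  branch, hence `σT - T` has `1 ≤ v x` (or is zero).
-/

set_option autoImplicit false

namespace Fermat.Agent.S13.BranchDirect

open WeierstrassCurve WeierstrassCurve.Affine Fermat.Agent.S13.XOnlyGen

variable {K : Type*} [Field K] {W : WeierstrassCurve K}

section Identity

variable [DecidableEq K]

/-- coordinate form of the identity `(x(P-Q) + x_P + x_Q)(x_P - x_Q)² = (s_P + t_Q)(t_P + s_Q)`. -/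
theorem exists_sub_identity {α β : K} (hαβ : α + β = -W.a₁) (hprod : α * β = -W.a₂)
    {x₁ y₁ x₂ y₂ : K}
    (h₁ : W.toAffine.Nonsingular x₁ y₁) (h₂ : W.toAffine.Nonsingular x₂ y₂) (hx : x₁ ≠ x₂) :
    ∃ (xm ym : K) (hm : W.toAffine.Nonsingular xm ym),
      Point.some x₁ y₁ h₁ - Point.some x₂ y₂ h₂ = Point.some xm ym hm ∧
      (xm + x₁ + x₂) * (x₁ - x₂) ^ 2 =
        ((y₁ - α * x₁) + (y₂ - β * x₂) + W.a₃) * ((y₁ - β * x₁) + (y₂ - α * x₂) + W.a₃) := by
  have hd : x₁ - x₂ ≠ 0 := sub_ne_zero.mpr hx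
  obtain ⟨h₂', hneg⟩ := neg_some' h₂
  have hsub : Point.some x₁ y₁ h₁ - Point.some x₂ y₂ h₂ =
      Point.some _ _ (nonsingular_add h₁ h₂' fun hxy => hx hxy.left) := by
    rw [sub_eq_add_neg, hneg]; exact Point.add_of_X_ne (h₁ := h₁) (h₂ := h₂') hx
  refine ⟨_, _, _, hsub, ?_⟩
  rw [slope_of_X_ne hx]
  simp only [addX]
  have ha₁ : W.a₁ = -(α + β) := by rw [hαβ]; ring
  have ha₂ : W.a₂ = -(α * β) := by rw [hprod]; ring
  rw [ha₁, ha₂]
  field_simp
  ring

/-- point-level form of the identity (for `a₃ = 0`). -/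
theorem xc_sub_identity (ha₃ : W.a₃ = 0) {α β : K} (hαβ : α + β = -W.a₁)
    (hprod : α * β = -W.a₂) {P Q : W.toAffine.Point} (hP : P ≠ 0) (hQ : Q ≠ 0)
    (hx : xc P ≠ xc Q) :
    P - Q ≠ 0 ∧
      (xc (P - Q) + xc P + xc Q) * (xc P - xc Q) ^ 2 =
        ((yc P - α * xc P) + (yc Q - β * xc Q)) * ((yc P - β * xc P) + (yc Q - α * xc Q)) := by
  cases P with
  | zero => exact absurd rfl hP
  | some x₁ y₁ h₁ =>
    cases Q with
    | zero => exact absurd rfl hQ
    | some x₂ y₂ h₂ =>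
      obtain ⟨xm, ym, hm, e1, e2⟩ := exists_sub_identity hαβ hprod h₁ h₂ hx
      rw [e1]
      refine ⟨Point.some_ne_zero _, ?_⟩
      simp only [xc_some, yc_some]
      rw [e2, ha₃, add_zero, add_zero]

end Identity

section Val

variable {Γ₀ : Type*} [LinearOrderedCommGroupWithZero Γ₀] (v : Valuation K Γ₀)

/-- on the curve with `a₃ = a₆ = 0`: `s t = x³ + a₄ x`. -/
theorem s_mul_t (ha₃ : W.a₃ = 0) (ha₆ : W.a₆ = 0) {α β : K} (hαβ : α + β = -W.a₁)
    (hprod : α * β = -W.a₂) {P : W.toAffine.Point} (hP : P ≠ 0) :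
    (yc P - α * xc P) * (yc P - β * xc P) = xc P * (xc P ^ 2 + W.a₄) := by
  have e := equation_xc_yc hP
  rw [ha₃, ha₆] at e
  have ha₁ : W.a₁ = -(α + β) := by rw [hαβ]; ring
  have ha₂ : W.a₂ = -(α * β) := by rw [hprod]; ring
  rw [ha₁, ha₂] at e
  linear_combination e

/-- `t = s + (α - β) x`. -/
theorem t_eq (α β x y : K) : y - β * x = (y - α * x) + (α - β) * x := by ring

/-- if `v s < v x` and `v (α - β) = 1` then `v t = v x`. -/
theorem val_t_of_val_s_lt {α β x y : K} (hdisc : v (α - β) = 1) (hs : v (y - α * x) < v x) :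
    v (y - β * x) = v x := by
  rw [t_eq α β x y]
  have h : v ((α - β) * x) = v x := by rw [map_mul, hdisc, one_mul]
  rw [Valuation.map_add_eq_of_lt_right v (by rw [h]; exact hs), h]

/-- branch dichotomy: a point with `v a₄ < v x < 1` is close to exactly one of the two branches
(here: at least one). -/
theorem branch_dichotomy (ha₃ : W.a₃ = 0) (ha₆ : W.a₆ = 0) {α β : K} (hαβ : α + β = -W.a₁)
    (hprod : α * β = -W.a₂) {P : W.toAffine.Point} (hP : P ≠ 0)
    (h1 : v (xc P) < 1) (hm : v W.a₄ < v (xc P)) :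
    v (yc P - α * xc P) < v (xc P) ∨ v (yc P - β * xc P) < v (xc P) := by
  by_contra hcon
  rw [not_or, not_lt, not_lt] at hcon
  obtain ⟨hs, ht⟩ := hcon
  have hxpos : 0 < v (xc P) := lt_of_le_of_lt zero_le hm
  have hprod' := congrArg v (s_mul_t ha₃ ha₆ hαβ hprod hP)
  rw [map_mul, map_mul] at hprod'
  have hge : v (xc P) * v (xc P) ≤ v (yc P - α * xc P) * v (yc P - β * xc P) :=
    mul_le_mul' hs ht
  have hlt : v (xc P ^ 2 + W.a₄) < v (xc P) := by
    refine lt_of_le_of_lt (Valuation.map_add v _ _) (max_lt ?_ hm)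
    rw [map_pow, sq]
    exact mul_lt_of_lt_one_left hxpos h1
  have : v (xc P) * v (xc P ^ 2 + W.a₄) < v (xc P) * v (xc P) :=
    mul_lt_mul_of_pos_left hlt hxpos
  rw [← hprod'] at this
  exact absurd hge (not_le.mpr this)

variable [DecidableEq K]

/-- two points on the same branch with the same `v x < 1` differ by a point of `E₀`. -/
theorem same_branch (ha₃ : W.a₃ = 0) {α β : K} (hαβ : α + β = -W.a₁)
    (hprod : α * β = -W.a₂) (hdisc : v (α - β) = 1)
    {P Q : W.toAffine.Point} (hP : P ≠ 0) (hQ : Q ≠ 0)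
    (hxP : v (xc P) < 1) (hxQ : v (xc Q) = v (xc P))
    (hsP : v (yc P - α * xc P) < v (xc P)) (hsQ : v (yc Q - α * xc Q) < v (xc Q)) :
    P - Q = 0 ∨ 1 ≤ v (xc (P - Q)) := by
  have htP : v (yc P - β * xc P) = v (xc P) := val_t_of_val_s_lt v hdisc hsP
  have htQ : v (yc Q - β * xc Q) = v (xc P) := by
    rw [val_t_of_val_s_lt v hdisc hsQ, hxQ]
  rw [hxQ] at hsQ
  by_cases hx : xc P = xc Q
  · rcases eq_or_eq_neg_of_xc_eq hP hQ hx with h | h
    · left; rw [h, sub_self]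
    · exfalso
      -- `s_P = -t_Q`
      have hy : yc P = -yc Q - W.a₁ * xc Q - W.a₃ := by rw [h]; exact yc_neg hQ
      have : yc P - α * xc P = -(yc Q - β * xc Q) := by
        rw [hy, hx, ha₃]
        have ha₁ : W.a₁ = -(α + β) := by rw [hαβ]; ring
        rw [ha₁]; ring
      rw [this, Valuation.map_neg, htQ] at hsP
      exact lt_irrefl _ hsP
  · right
    obtain ⟨_, hid⟩ := xc_sub_identity ha₃ hαβ hprod hP hQ hx
    set c := v (xc P) with hc
    have hcpos : 0 < c := lt_of_le_of_lt zero_le hsP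
    have h1 : v ((yc P - α * xc P) + (yc Q - β * xc Q)) = c := by
      rw [Valuation.map_add_eq_of_lt_right v (by rw [htQ]; exact hsP), htQ]
    have h2 : v ((yc P - β * xc P) + (yc Q - α * xc Q)) = c := by
      rw [Valuation.map_add_eq_of_lt_left v (by rw [htP]; exact hsQ), htP]
    have hd0 : v (xc P - xc Q) ≠ 0 := (Valuation.ne_zero_iff v).mpr (sub_ne_zero.mpr hx)
    have hdpos : 0 < v (xc P - xc Q) := zero_lt_iff.mpr hd0
    have hdle : v (xc P - xc Q) ≤ c := Valuation.map_sub_le v le_rfl hxQ.le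
    have hval := congrArg v hid
    rw [map_mul, map_mul, map_pow, h1, h2] at hval
    by_contra hlt
    rw [not_le] at hlt
    have hsum : v (xc (P - Q) + xc P + xc Q) < 1 := by
      refine lt_of_le_of_lt (Valuation.map_add v _ _) (max_lt ?_ (by rw [hxQ]; exact hxP))
      exact lt_of_le_of_lt (Valuation.map_add v _ _) (max_lt hlt hxP)
    have : v (xc (P - Q) + xc P + xc Q) * v (xc P - xc Q) ^ 2 < c * c := by
      calc v (xc (P - Q) + xc P + xc Q) * v (xc P - xc Q) ^ 2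
          < 1 * v (xc P - xc Q) ^ 2 := mul_lt_mul_of_pos_right hsum (pow_pos hdpos 2)
        _ = v (xc P - xc Q) * v (xc P - xc Q) := by rw [one_mul, sq]
        _ ≤ c * c := mul_le_mul' hdle hdle
    rw [hval] at this
    exact lt_irrefl _ this

end Val

section Sigma

variable {Γ₀ : Type*} [LinearOrderedCommGroupWithZero Γ₀] (v : Valuation K Γ₀)

/-- a root of `X² + a₁X - a₂` with integral `a₁, a₂` is integral. -/
theorem val_root_le_one {a₁ a₂ α β : K} (ha₁ : v a₁ ≤ 1) (ha₂ : v a₂ ≤ 1)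
    (hαβ : α + β = -a₁) (hprod : α * β = -a₂) : v α ≤ 1 := by
  by_contra hcon
  rw [not_le] at hcon
  have hpos : 0 < v α := lt_trans zero_lt_one hcon
  have heq : α * α = -(a₁ * α) + a₂ := by
    have h1 : a₁ = -(α + β) := by rw [hαβ]; ring
    have h2 : a₂ = -(α * β) := by rw [hprod]; ring
    rw [h1, h2]; ring
  have h1 : v (-(a₁ * α) + a₂) < v α * v α := by
    refine lt_of_le_of_lt (Valuation.map_add v _ _) (max_lt ?_ ?_)
    · rw [Valuation.map_neg, map_mul]
      calc v a₁ * v α ≤ 1 * v α := mul_le_mul' ha₁ le_rfl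
        _ = v α := one_mul _
        _ < v α * v α := lt_mul_of_one_lt_left hpos hcon
    · calc v a₂ ≤ 1 := ha₂
        _ < v α := hcon
        _ < v α * v α := lt_mul_of_one_lt_left hpos hcon
  rw [← heq, map_mul] at h1
  exact lt_irrefl _ h1

/-- `(α - β)² = b₂`. -/
theorem disc_sq {α β : K} (hαβ : α + β = -W.a₁) (hprod : α * β = -W.a₂) :
    (α - β) ^ 2 = W.b₂ := by
  have h1 : W.a₁ = -(α + β) := by rw [hαβ]; ring
  have h2 : W.a₂ = -(α * β) := by rw [hprod]; ring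
  simp only [b₂]
  rw [h1, h2]; ring

/-- `v (α - β) = 1` when `b₂` is a unit. -/
theorem val_disc {α β : K} (hαβ : α + β = -W.a₁) (hprod : α * β = -W.a₂)
    (hb₂ : v W.b₂ = 1) : v (α - β) = 1 := by
  have h := congrArg v (disc_sq hαβ hprod)
  rw [map_pow, hb₂] at h
  exact (pow_eq_one_iff_of_nonneg zero_le (by norm_num)).mp h

/-- a ring endomorphism close to the identity on integers fixes the two tangent slopes. -/
theorem sigma_root {a₁ a₂ α β : K} (σ : K →+* K)
    (hclose : ∀ z, v z ≤ 1 → v (σ z - z) < 1)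
    (hσa₁ : σ a₁ = a₁) (hσa₂ : σ a₂ = a₂) (ha₁ : v a₁ ≤ 1) (ha₂ : v a₂ ≤ 1)
    (hαβ : α + β = -a₁) (hprod : α * β = -a₂) (hdisc : v (α - β) = 1) : σ α = α := by
  have hα1 : v α ≤ 1 := val_root_le_one v ha₁ ha₂ hαβ hprod
  have hroot : α * α + a₁ * α - a₂ = 0 := by
    have h1 : a₁ = -(α + β) := by rw [hαβ]; ring
    have h2 : a₂ = -(α * β) := by rw [hprod]; ring
    rw [h1, h2]; ring
  have hσroot : σ α * σ α + a₁ * σ α - a₂ = 0 := by
    have := congrArg σ hroot
    rwa [map_sub, map_add, map_mul, map_mul, hσa₁, hσa₂, map_zero] at this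
  have hfac : (σ α - α) * (σ α - β) = 0 := by
    have h1 : a₁ = -(α + β) := by rw [hαβ]; ring
    have h2 : a₂ = -(α * β) := by rw [hprod]; ring
    rw [h1, h2] at hσroot
    linear_combination hσroot
  rcases mul_eq_zero.mp hfac with h | h
  · exact sub_eq_zero.mp h
  · exfalso
    have hβ : σ α = β := sub_eq_zero.mp h
    have := hclose α hα1
    rw [hβ, ← Valuation.map_neg, neg_sub, hdisc] at this
    exact lt_irrefl _ this

variable [DecidableEq K]

/-- **Branch lemma, `σ`-form.**  Let `σ` be a ring endomorphism of `K` preserving `v`, close to the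
identity on integers and fixing `a₁, a₂`.  If `T' = σ T` (coordinatewise) and `v a₄ < v x_T < 1`,
then `T' - T` is zero or has `1 ≤ v x`. -/
theorem sigma_sub (ha₃ : W.a₃ = 0) (ha₆ : W.a₆ = 0) (σ : K →+* K)
    (hv : ∀ z, v (σ z) = v z) (hclose : ∀ z, v z ≤ 1 → v (σ z - z) < 1)
    (hσa₁ : σ W.a₁ = W.a₁) (hσa₂ : σ W.a₂ = W.a₂) (ha₁ : v W.a₁ ≤ 1) (ha₂ : v W.a₂ ≤ 1)
    {α β : K} (hαβ : α + β = -W.a₁) (hprod : α * β = -W.a₂) (hdisc : v (α - β) = 1)
    {T T' : W.toAffine.Point} (hT : T ≠ 0) (hT' : T' ≠ 0)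
    (hx' : xc T' = σ (xc T)) (hy' : yc T' = σ (yc T))
    (h1 : v (xc T) < 1) (hm : v W.a₄ < v (xc T)) :
    T' - T = 0 ∨ 1 ≤ v (xc (T' - T)) := by
  have hβα : β + α = -W.a₁ := by rw [add_comm]; exact hαβ
  have hprod' : β * α = -W.a₂ := by rw [mul_comm]; exact hprod
  have hdisc' : v (β - α) = 1 := by rw [← Valuation.map_neg, neg_sub]; exact hdisc
  have hσα : σ α = α := sigma_root v σ hclose hσa₁ hσa₂ ha₁ ha₂ hαβ hprod hdisc
  have hσβ : σ β = β := sigma_root v σ hclose hσa₁ hσa₂ ha₁ ha₂ hβα hprod' hdisc'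
  have hxv : v (xc T') = v (xc T) := by rw [hx', hv]
  have hs : ∀ γ : K, σ γ = γ → v (yc T' - γ * xc T') = v (yc T - γ * xc T) := by
    intro γ hγ
    have e : yc T' - γ * xc T' = σ (yc T - γ * xc T) := by
      rw [hx', hy', map_sub, map_mul, hγ]
    rw [e, hv]
  rcases branch_dichotomy v ha₃ ha₆ hαβ hprod hT h1 hm with h | h
  · exact same_branch v ha₃ hαβ hprod hdisc hT' hT (by rw [hxv]; exact h1) hxv.symm
      (by rw [hs α hσα, hxv]; exact h) h
  · exact same_branch v ha₃ hβα hprod' hdisc' hT' hT (by rw [hxv]; exact h1) hxv.symm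
      (by rw [hs β hσβ, hxv]; exact h) h

omit [DecidableEq K] in
/-- over an algebraically closed field the two tangent slopes exist. -/
theorem exists_slopes [IsAlgClosed K] (a₁ a₂ : K) : ∃ α β : K, α + β = -a₁ ∧ α * β = -a₂ := by
  open Polynomial in
  have hdeg : (X ^ 2 + C a₁ * X - C a₂ : K[X]).degree ≠ 0 := by
    have : (X ^ 2 + C a₁ * X - C a₂ : K[X]).degree = 2 := by
      compute_degree!
    rw [this]; norm_num
  open Polynomial in
  obtain ⟨α, hα⟩ := IsAlgClosed.exists_root (X ^ 2 + C a₁ * X - C a₂ : K[X]) hdeg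
  open Polynomial in
  have hα' : α ^ 2 + a₁ * α - a₂ = 0 := by
    simpa [IsRoot.def] using hα
  refine ⟨α, -a₁ - α, by ring, ?_⟩
  linear_combination -hα'

/-- **Branch lemma, `σ`-form, algebraically closed field, `b₂` a unit.** -/
theorem sigma_sub_of_b₂ [IsAlgClosed K] (ha₃ : W.a₃ = 0) (ha₆ : W.a₆ = 0) (σ : K →+* K)
    (hv : ∀ z, v (σ z) = v z) (hclose : ∀ z, v z ≤ 1 → v (σ z - z) < 1)
    (hσa₁ : σ W.a₁ = W.a₁) (hσa₂ : σ W.a₂ = W.a₂) (ha₁ : v W.a₁ ≤ 1) (ha₂ : v W.a₂ ≤ 1)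
    (hb₂ : v W.b₂ = 1)
    {T T' : W.toAffine.Point} (hT : T ≠ 0) (hT' : T' ≠ 0)
    (hx' : xc T' = σ (xc T)) (hy' : yc T' = σ (yc T))
    (h1 : v (xc T) < 1) (hm : v W.a₄ < v (xc T)) :
    T' - T = 0 ∨ 1 ≤ v (xc (T' - T)) := by
  obtain ⟨α, β, hαβ, hprod⟩ := exists_slopes W.a₁ W.a₂
  exact sigma_sub v ha₃ ha₆ σ hv hclose hσa₁ hσa₂ ha₁ ha₂ hαβ hprod
    (val_disc v hαβ hprod hb₂) hT hT' hx' hy' h1 hm

end Sigma

end Fermat.Agent.S13.BranchDirect
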