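import Fermat.Agent.S13.ClosePointsGen
import Fermat.Agent.S13.NoTorsionE1Gen
import Fermat.Agent.S13.CruxGen

/-!
# S13, block (B2), interface (I3): inertia at a node acts unipotently on the `p`-torsion

Generic local statement for a nodal model `y² + a₁xy = x³ + a₂x² + a₄x` (`a₃ = a₆ = 0`,
`a₁ a₂` integral, `b₂` a unit, `0 < v a₄ < 1`) over a valued field, `p` an odd prime which is a
unit, and an "inertia-like" endomorphism `σ` (acting on points through `φ`):
`φ (φ T - T) = φ T - T` for every `p`-torsion point `T`.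

* points with unit abscissa have nonsingular reduction (`nonsing_of_unit`);
* a `p`-torsion point with nonsingular reduction is fixed (`fixed_of_unit`:
  `ClosePointsGen.main` + `NoTorsionE1Gen`);
* a `p`-torsion point `T` reducing to the node has `φ T - T` in the nonsingular locus (folding law
  plus the branch lemma, both taken here in consumer form as hypotheses), hence `φ T - T` is fixed.
-/

set_option autoImplicit false

namespace Fermat.Agent.S13.Unipotent2

open WeierstrassCurve WeierstrassCurve.Affine Fermat.Agent.S13.XOnlyGen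

variable {K : Type*} [Field K] (A : ValuationSubring K) {W : WeierstrassCurve K}

/-- the `y`-coordinate of a point with integral `x` on an integral model is integral. -/
lemma y_integral (ha₁ : A.valuation W.a₁ ≤ 1) (ha₂ : A.valuation W.a₂ ≤ 1)
    (ha₃ : A.valuation W.a₃ ≤ 1) (ha₄ : A.valuation W.a₄ ≤ 1) (ha₆ : A.valuation W.a₆ ≤ 1)
    {x y : K} (hx : A.valuation x ≤ 1) (h : W.toAffine.Equation x y) : A.valuation y ≤ 1 := by
  by_contra hy
  push Not at hy
  have e := (Affine.equation_iff x y).mp h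
  have hy0 : y ≠ 0 := by
    rintro rfl
    rw [map_zero] at hy
    exact absurd hy (not_lt.mpr zero_le_one)
  -- `y = -(a₁ x + a₃) + (x³ + a₂ x² + a₄ x + a₆) / y`
  have hxA : x ∈ A := (A.valuation_le_one_iff x).mp hx
  have h1 : W.a₁ * x + W.a₃ ∈ A :=
    A.add_mem _ _ (A.mul_mem _ _ ((A.valuation_le_one_iff _).mp ha₁) hxA)
      ((A.valuation_le_one_iff _).mp ha₃)
  have h2 : x ^ 3 + W.a₂ * x ^ 2 + W.a₄ * x + W.a₆ ∈ A := by
    refine A.add_mem _ _ (A.add_mem _ _ (A.add_mem _ _ (pow_mem hxA 3) ?_) ?_)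
      ((A.valuation_le_one_iff _).mp ha₆)
    · exact A.mul_mem _ _ ((A.valuation_le_one_iff _).mp ha₂) (pow_mem hxA 2)
    · exact A.mul_mem _ _ ((A.valuation_le_one_iff _).mp ha₄) hxA
  have hyinv : y⁻¹ ∈ A := by
    rw [← A.valuation_le_one_iff, map_inv₀]
    exact inv_le_one_of_one_le₀ hy.le
  have hyeq : y = -(W.a₁ * x + W.a₃) + (x ^ 3 + W.a₂ * x ^ 2 + W.a₄ * x + W.a₆) * y⁻¹ := by
    field_simp
    linear_combination e
  have : y ∈ A := by
    rw [hyeq]
    exact A.add_mem _ _ (A.neg_mem _ h1) (A.mul_mem _ _ h2 hyinv)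
  exact absurd ((A.valuation_le_one_iff y).mpr this) (not_le.mpr hy)

/-- **Nonsingular reduction.** On a nodal model (`a₃ = a₆ = 0`, `a₄` a non-unit, `b₂` a unit) an
integral point with unit abscissa has nonsingular reduction. -/
lemma nonsing_of_unit (ha₁ : A.valuation W.a₁ ≤ 1) (ha₂ : A.valuation W.a₂ ≤ 1)
    (ha₃ : W.a₃ = 0) (ha₆ : W.a₆ = 0) (ha₄ : A.valuation W.a₄ < 1) (hb₂ : A.valuation W.b₂ = 1)
    {x y : K} (hx : A.valuation x = 1) (hy : A.valuation y ≤ 1) (h : W.toAffine.Equation x y) :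
    A.valuation (2 * y + W.a₁ * x + W.a₃) = 1 ∨
      A.valuation (3 * x ^ 2 + 2 * W.a₂ * x + W.a₄ - W.a₁ * y) = 1 := by
  by_contra hcon
  push Not at hcon
  obtain ⟨hU, hV⟩ := hcon
  have hxA : x ∈ A := (A.valuation_le_one_iff x).mp hx.le
  have hyA : y ∈ A := (A.valuation_le_one_iff y).mp hy
  have h1A : W.a₁ ∈ A := (A.valuation_le_one_iff _).mp ha₁
  have h2A : W.a₂ ∈ A := (A.valuation_le_one_iff _).mp ha₂
  have h4A : W.a₄ ∈ A := (A.valuation_le_one_iff _).mp ha₄.le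
  have h4m : W.a₄ ∈ A.nonunits := ha₄
  have two_mem : (2 : K) ∈ A := by
    have : (2 : K) = 1 + 1 := by norm_num
    rw [this]; exact A.add_mem _ _ A.one_mem A.one_mem
  have three_mem : (3 : K) ∈ A := by
    have : (3 : K) = 2 + 1 := by norm_num
    rw [this]; exact A.add_mem _ _ two_mem A.one_mem
  -- both quantities are integral, hence non-units
  have hUA : 2 * y + W.a₁ * x + W.a₃ ∈ A := by
    rw [ha₃, add_zero]
    exact A.add_mem _ _ (A.mul_mem _ _ two_mem hyA) (A.mul_mem _ _ h1A hxA)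
  have hVA : 3 * x ^ 2 + 2 * W.a₂ * x + W.a₄ - W.a₁ * y ∈ A := by
    refine sub_mem (A.add_mem _ _ (A.add_mem _ _ ?_ ?_) h4A) (A.mul_mem _ _ h1A hyA)
    · exact A.mul_mem _ _ three_mem (pow_mem hxA 2)
    · exact A.mul_mem _ _ (A.mul_mem _ _ two_mem h2A) hxA
  have hUm : 2 * y + W.a₁ * x + W.a₃ ∈ A.nonunits :=
    lt_of_le_of_ne ((A.valuation_le_one_iff _).mpr hUA) hU
  have hVm : 3 * x ^ 2 + 2 * W.a₂ * x + W.a₄ - W.a₁ * y ∈ A.nonunits :=
    lt_of_le_of_ne ((A.valuation_le_one_iff _).mpr hVA) hV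
  -- multiplication of a non-unit by an integral element
  have mulm : ∀ {a t : K}, a ∈ A → t ∈ A.nonunits → a * t ∈ A.nonunits := fun {a t} ha ht =>
    NoTorsionE1Gen.mul_mem_nonunits_left A ha ht
  have hxinv : x⁻¹ ∈ A := by
    rw [← A.valuation_le_one_iff, map_inv₀, hx, inv_one]
  have hx0 : x ≠ 0 := by
    rintro rfl
    rw [map_zero] at hx
    exact zero_ne_one hx
  -- (*) : `6 x + b₂` is a non-unit
  have hstar : 6 * x + W.b₂ ∈ A.nonunits := by
    have e1 : 6 * x + W.b₂ = x⁻¹ * (2 * (3 * x ^ 2 + 2 * W.a₂ * x + W.a₄ - W.a₁ * y) +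
        W.a₁ * (2 * y + W.a₁ * x + W.a₃) + -(2 * W.a₄)) := by
      simp only [b₂, ha₃]
      field_simp
      ring
    rw [e1]
    refine mulm hxinv (A.nonunits.add_mem (A.nonunits.add_mem (mulm two_mem hVm) (mulm h1A hUm)) ?_)
    exact A.nonunits.neg_mem (mulm two_mem h4m)
  -- (**) : `4 x + b₂` is a non-unit
  have hss : 4 * x + W.b₂ ∈ A.nonunits := by
    have hsq := two_torsion_poly (W := W) h
    have e2 : 4 * x + W.b₂ = x⁻¹ ^ 2 * ((2 * y + W.a₁ * x + W.a₃) * (2 * y + W.a₁ * x + W.a₃) +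
        -(4 * W.a₄ * x)) := by
      have hb4 : W.b₄ = 2 * W.a₄ := by simp only [b₄, ha₃]; ring
      have hb6 : W.b₆ = 0 := by simp only [b₆, ha₃, ha₆]; ring
      rw [hb4, hb6] at hsq
      field_simp
      linear_combination -hsq
    rw [e2]
    refine mulm (pow_mem hxinv 2) (A.nonunits.add_mem (mulm hUA hUm) ?_)
    refine A.nonunits.neg_mem ?_
    have : 4 * W.a₄ * x = (4 * x) * W.a₄ := by ring
    rw [this]
    refine mulm (A.mul_mem _ _ ?_ hxA) h4m
    have : (4 : K) = 2 * 2 := by norm_num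
    rw [this]; exact A.mul_mem _ _ two_mem two_mem
  -- hence `2 x`, `4 x`, and `b₂` are non-units
  have h2x : 2 * x ∈ A.nonunits := by
    have : 2 * x = (6 * x + W.b₂) + -(4 * x + W.b₂) := by ring
    rw [this]
    exact A.nonunits.add_mem hstar (A.nonunits.neg_mem hss)
  have h4x : 4 * x ∈ A.nonunits := by
    have : 4 * x = 2 * (2 * x) := by ring
    rw [this]
    exact mulm two_mem h2x
  have hb2m : W.b₂ ∈ A.nonunits := by
    have : W.b₂ = (4 * x + W.b₂) + -(4 * x) := by ring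
    rw [this]
    exact A.nonunits.add_mem hss (A.nonunits.neg_mem h4x)
  exact absurd hb₂ (ne_of_lt hb2m)


variable [DecidableEq K]

/-- **Nonsingular case.** A `p`-torsion point with unit abscissa is fixed by an inertia-like
endomorphism. -/
theorem fixed_of_unit (ha₁ : A.valuation W.a₁ ≤ 1) (ha₂ : A.valuation W.a₂ ≤ 1)
    (ha₃ : W.a₃ = 0) (ha₆ : W.a₆ = 0) (ha₄ : A.valuation W.a₄ < 1) (hb₂ : A.valuation W.b₂ = 1)
    {p : ℕ} (hp : p.Prime) (hp2 : p ≠ 2) (hpA : A.valuation (p : K) = 1)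
    (σ : K →+* K) (hσI : ∀ x, A.valuation x ≤ 1 → A.valuation (σ x - x) < 1)
    {T T' : W.toAffine.Point} (hT : T ≠ 0) (hT' : T' ≠ 0)
    (hx' : xc T' = σ (xc T)) (hy' : yc T' = σ (yc T))
    (hpT : p • T = 0) (hpT' : p • T' = 0) (hxT : A.valuation (xc T) = 1) : T' = T := by
  have ha₃' : A.valuation W.a₃ ≤ 1 := by rw [ha₃, map_zero]; exact zero_le_one
  have ha₆' : A.valuation W.a₆ ≤ 1 := by rw [ha₆, map_zero]; exact zero_le_one
  have hE : W.toAffine.Equation (xc T) (yc T) :=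
    (Affine.equation_iff _ _).mpr (equation_xc_yc hT)
  have hyT : A.valuation (yc T) ≤ 1 := y_integral A ha₁ ha₂ ha₃' ha₄.le ha₆' hxT.le hE
  have hns := nonsing_of_unit A ha₁ ha₂ ha₃ ha₆ ha₄ hb₂ hxT hyT hE
  have hb := NoTorsionE1Gen.b_mem_of_a_mem A ((A.valuation_le_one_iff _).mp ha₁)
    ((A.valuation_le_one_iff _).mp ha₂) ((A.valuation_le_one_iff _).mp ha₃')
    ((A.valuation_le_one_iff _).mp ha₄.le) ((A.valuation_le_one_iff _).mp ha₆')
  obtain ⟨hb2, hb4, hb6, hb8⟩ := hb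
  have hpA' : (p : K) ∉ A.nonunits := by
    intro h
    have : A.valuation (p : K) < 1 := h
    rw [hpA] at this
    exact lt_irrefl _ this
  have hS : p • (T' - T) = 0 := by rw [nsmul_sub, hpT, hpT', sub_zero]
  have hcl := ClosePointsGen.main A.valuation ha₁ ha₂ hT hT' hxT.le hyT
    (by rw [hx']; exact hσI _ hxT.le) (by rw [hy']; exact hσI _ hyT) hns
  have hzero : T' - T = 0 := by
    refine NoTorsionE1Gen.eq_zero_of_xc_not_mem A hb2 hb4 hb6 hb8 hp hp2 hpA' hS ?_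
    rcases hcl with h | h
    · exact Or.inl h
    · right
      intro hmem
      exact absurd ((A.valuation_le_one_iff _).mpr hmem) (not_le.mpr h)
  exact sub_eq_zero.mp hzero

/-- a nonzero point of odd prime order has nonzero abscissa on a model with `a₃ = a₆ = 0`
(the point `(0, 0)` is `2`-torsion). -/
lemma xc_ne_zero_of_odd_order (ha₃ : W.a₃ = 0) (ha₆ : W.a₆ = 0) {p : ℕ} (hp : p.Prime)
    (hp2 : p ≠ 2) {T : W.toAffine.Point} (hT : T ≠ 0) (hpT : p • T = 0) : xc T ≠ 0 := by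
  intro hx
  have hE := equation_xc_yc hT
  rw [hx, ha₃, ha₆] at hE
  have hy2 : yc T ^ 2 = 0 := by linear_combination hE
  have hy : yc T = 0 := pow_eq_zero_iff two_ne_zero |>.mp hy2
  have h2T : T + T = 0 := by
    rw [add_self_eq_zero_iff hT, hx, hy, ha₃]; ring
  -- `2 T = 0` and `p T = 0` with `p` odd force `T = 0`
  have : Fact p.Prime := ⟨hp⟩
  have hord : addOrderOf T = p := addOrderOf_eq_prime hpT hT
  have hdvd : p ∣ 2 := by
    rw [← hord]
    apply addOrderOf_dvd_of_nsmul_eq_zero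
    rw [two_nsmul]; exact h2T
  have := (Nat.prime_dvd_prime_iff_eq hp Nat.prime_two).mp hdvd
  exact hp2 this

/-- **Unipotence at a node (consumer form).**  `hfold` is the folding law for two points of equal
clamped valuation (from the `V`-law), `hbranch` the branch (sign) lemma, `hcrux` the fact that
`p`-torsion points do not sit in the middle component; all three for points reducing to the
node. -/
theorem main (ha₁ : A.valuation W.a₁ ≤ 1) (ha₂ : A.valuation W.a₂ ≤ 1)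
    (ha₃ : W.a₃ = 0) (ha₆ : W.a₆ = 0) (ha₄ : A.valuation W.a₄ < 1) (hb₂ : A.valuation W.b₂ = 1)
    {p : ℕ} (hp : p.Prime) (hp2 : p ≠ 2) (hpA : A.valuation (p : K) = 1)
    (σ : K →+* K) (hσI : ∀ x, A.valuation x ≤ 1 → A.valuation (σ x - x) < 1)
    (hσv : ∀ x, A.valuation (σ x) = A.valuation x)
    (φ : W.toAffine.Point →+ W.toAffine.Point)
    (hφ : ∀ P : W.toAffine.Point, P ≠ 0 →
      φ P ≠ 0 ∧ xc (φ P) = σ (xc P) ∧ yc (φ P) = σ (yc P))
    (hcrux : ∀ T : W.toAffine.Point, T ≠ 0 → p • T = 0 → A.valuation (xc T) < 1 →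
      A.valuation W.a₄ < A.valuation (xc T))
    (hfold : ∀ P Q : W.toAffine.Point, P ≠ 0 → Q ≠ 0 → xc P ≠ xc Q →
      A.valuation (xc P) = A.valuation (xc Q) → A.valuation W.a₄ < A.valuation (xc Q) →
      A.valuation (xc Q) < 1 →
      (P + Q = 0 ∨ 1 ≤ A.valuation (xc (P + Q))) ∨ (P - Q = 0 ∨ 1 ≤ A.valuation (xc (P - Q))))
    (hbranch : ∀ T : W.toAffine.Point, T ≠ 0 → A.valuation W.a₄ < A.valuation (xc T) →
      A.valuation (xc T) < 1 → (φ T + T = 0 ∨ 1 ≤ A.valuation (xc (φ T + T))) → False)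
    {T : W.toAffine.Point} (hpT : p • T = 0) : φ (φ T - T) = φ T - T := by
  have ha₃' : A.valuation W.a₃ ≤ 1 := by rw [ha₃, map_zero]; exact zero_le_one
  have ha₆' : A.valuation W.a₆ ≤ 1 := by rw [ha₆, map_zero]; exact zero_le_one
  obtain ⟨hb2, hb4, hb6, hb8⟩ := NoTorsionE1Gen.b_mem_of_a_mem A
    ((A.valuation_le_one_iff _).mp ha₁) ((A.valuation_le_one_iff _).mp ha₂)
    ((A.valuation_le_one_iff _).mp ha₃') ((A.valuation_le_one_iff _).mp ha₄.le)
    ((A.valuation_le_one_iff _).mp ha₆')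
  have hpA' : (p : K) ∉ A.nonunits := by
    intro h
    have : A.valuation (p : K) < 1 := h
    rw [hpA] at this
    exact lt_irrefl _ this
  -- integrality of `p`-torsion
  have hint : ∀ S : W.toAffine.Point, p • S = 0 → A.valuation (xc S) ≤ 1 := fun S hS =>
    (A.valuation_le_one_iff _).mpr
      (NoTorsionE1Gen.xc_mem_of_prime_nsmul_eq_zero A hb2 hb4 hb6 hb8 hp hp2 hpA' hS)
  -- the nonsingular case, for any `p`-torsion point
  have hfix : ∀ S : W.toAffine.Point, p • S = 0 → (S = 0 ∨ 1 ≤ A.valuation (xc S)) → φ S = S := by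
    intro S hS h
    by_cases hS0 : S = 0
    · rw [hS0, map_zero]
    · have hx1 : A.valuation (xc S) = 1 := by
        rcases h with h | h
        · exact absurd h hS0
        · exact le_antisymm (hint S hS) h
      obtain ⟨h1, h2, h3⟩ := hφ S hS0
      have hpS' : p • φ S = 0 := by rw [← map_nsmul, hS, map_zero]
      exact fixed_of_unit A ha₁ ha₂ ha₃ ha₆ ha₄ hb₂ hp hp2 hpA σ hσI hS0 h1 h2 h3 hS hpS' hx1
  by_cases hT0 : T = 0
  · rw [hT0, map_zero, sub_zero, map_zero]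
  have hpT' : p • φ T = 0 := by rw [← map_nsmul, hpT, map_zero]
  have hpD : p • (φ T - T) = 0 := by rw [nsmul_sub, hpT, hpT', sub_zero]
  rcases le_or_gt 1 (A.valuation (xc T)) with h1 | h1
  · -- `T` has nonsingular reduction: `φ T = T`
    rw [hfix T hpT (Or.inr h1), sub_self, map_zero]
  -- `T` reduces to the node
  obtain ⟨hφT0, hφx, hφy⟩ := hφ T hT0
  have hlt := hcrux T hT0 hpT h1
  apply hfix _ hpD
  by_cases hxx : xc (φ T) = xc T
  · -- `φ T = ± T`
    rcases eq_or_eq_neg_of_xc_eq hφT0 hT0 hxx with h | h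
    · left; rw [h, sub_self]
    · exfalso
      exact hbranch T hT0 hlt h1 (Or.inl (by rw [h, neg_add_cancel]))
  · have hvx : A.valuation (xc (φ T)) = A.valuation (xc T) := by rw [hφx, hσv]
    rcases hfold (φ T) T hφT0 hT0 hxx hvx hlt h1 with h | h
    · exact absurd h (fun h => hbranch T hT0 hlt h1 h)
    · exact h


/-- the folding law for two points of equal valuation reducing to the node: one of `P + Q`,
`P - Q` lies in the nonsingular locus. -/
theorem fold_of_eq (ha₃ : W.a₃ = 0) (ha₆ : W.a₆ = 0) (ha₄0 : W.a₄ ≠ 0)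
    (ha₄ : A.valuation W.a₄ < 1) (hb₂ : A.valuation W.b₂ = 1)
    {P Q : W.toAffine.Point} (hP : P ≠ 0) (hQ : Q ≠ 0) (hx : xc P ≠ xc Q)
    (hv : A.valuation (xc P) = A.valuation (xc Q))
    (hlt : A.valuation W.a₄ < A.valuation (xc Q)) (hQ1 : A.valuation (xc Q) < 1) :
    (P + Q = 0 ∨ 1 ≤ A.valuation (xc (P + Q))) ∨ (P - Q = 0 ∨ 1 ≤ A.valuation (xc (P - Q))) := by
  have hvQ0 : A.valuation (xc Q) ≠ 0 := ne_of_gt (lt_of_le_of_lt zero_le hlt)
  have hxQ : xc Q ≠ 0 := (Valuation.ne_zero_iff _).mp hvQ0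
  have hxP : xc P ≠ 0 := (Valuation.ne_zero_iff _).mp (by rw [hv]; exact hvQ0)
  have hVV : VLawGen.Vc A.valuation P = VLawGen.Vc A.valuation Q := by
    rw [VLawGen.Vc_of_ne_zero _ hP, VLawGen.Vc_of_ne_zero _ hQ, hv]
  have hVQ0 : VLawGen.Vc A.valuation Q ≠ 0 := by
    have h1 := (VLawGen.Vc_range A.valuation ha₄.le Q).1
    have h2 : (0 : _) < A.valuation W.a₄ := zero_lt_iff.mpr ((Valuation.ne_zero_iff _).mpr ha₄0)
    exact ne_of_gt (lt_of_lt_of_le h2 h1)
  have hmin : min (VLawGen.Vc A.valuation P / VLawGen.Vc A.valuation Q)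
      (VLawGen.Vc A.valuation Q / VLawGen.Vc A.valuation P) = 1 := by
    rw [hVV, div_self hVQ0, min_self]
  have key : ∀ S : W.toAffine.Point, VLawGen.Vc A.valuation S = 1 →
      S = 0 ∨ 1 ≤ A.valuation (xc S) := by
    intro S hS
    by_cases hS0 : S = 0
    · exact Or.inl hS0
    · exact Or.inr ((VLawGen.Vc_eq_one_iff A.valuation ha₄ hS0).mp hS)
  rcases VLawGen.add_sub A.valuation ha₃ ha₆ hb₂ ha₄0 ha₄ hP hQ hxP hxQ hx hQ1 with
    ⟨-, h⟩ | ⟨h, -⟩
  · right
    rw [hmin] at h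
    exact key _ h
  · left
    rw [hmin] at h
    exact key _ h

/-- **Unipotence at a node**, with only the branch lemma left as a hypothesis. -/
theorem main_of_branch (ha₁ : A.valuation W.a₁ ≤ 1) (ha₂ : A.valuation W.a₂ ≤ 1)
    (ha₃ : W.a₃ = 0) (ha₆ : W.a₆ = 0) (ha₄0 : W.a₄ ≠ 0) (ha₄ : A.valuation W.a₄ < 1)
    (hb₂ : A.valuation W.b₂ = 1)
    {p : ℕ} (hp : p.Prime) (hp2 : p ≠ 2) (hpA : A.valuation (p : K) = 1)
    (σ : K →+* K) (hσI : ∀ x, A.valuation x ≤ 1 → A.valuation (σ x - x) < 1)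
    (hσv : ∀ x, A.valuation (σ x) = A.valuation x)
    (φ : W.toAffine.Point →+ W.toAffine.Point)
    (hφ : ∀ P : W.toAffine.Point, P ≠ 0 →
      φ P ≠ 0 ∧ xc (φ P) = σ (xc P) ∧ yc (φ P) = σ (yc P))
    (hbranch : ∀ T : W.toAffine.Point, T ≠ 0 → A.valuation W.a₄ < A.valuation (xc T) →
      A.valuation (xc T) < 1 → (φ T + T = 0 ∨ 1 ≤ A.valuation (xc (φ T + T))) → False)
    {T : W.toAffine.Point} (hpT : p • T = 0) : φ (φ T - T) = φ T - T :=
  main A ha₁ ha₂ ha₃ ha₆ ha₄ hb₂ hp hp2 hpA σ hσI hσv φ hφ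
    (fun _ hT0 hpT' hT1 =>
      (CruxGen.main A.valuation ha₃ ha₆ hb₂ ha₄0 ha₄ hp hp2 hT0 hpT' hT1).1)
    (fun _ _ hP hQ hx hv hlt hQ1 => fold_of_eq A ha₃ ha₆ ha₄0 ha₄ hb₂ hP hQ hx hv hlt hQ1)
    hbranch hpT

end Fermat.Agent.S13.Unipotent2
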