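import Mathlib
import Fermat.Agent.S13.FreyAt2
import Fermat.Agent.S13.Unipotent2
import Fermat.Agent.S13.BranchDirect

/-!
# S13, block (B2), interface (I3): inertia at `2` acts unipotently on the `p`-torsion of the
Frey curve

`I3 : σ • (σ • T - T) = σ • T - T` for `σ` in the inertia group of a place `A` of `Qbar` over `2`
and `T` a `p`-torsion point of `P.freyCurve⁄Qbar`.

Assembly of: `FreyAt2` (arithmetic of the Frey model at `2`), `NoTorsionE1Gen` (no `p`-torsion in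
the kernel of reduction), `Unipotent2.fixed_of_unit` (points with nonsingular reduction are fixed:
`ClosePointsGen`), `CruxGen.main` (torsion points reducing to the node are strictly inside), and
`BranchDirect.sigma_sub_of_b₂` (the branch lemma: `σ T - T` has nonsingular reduction).
-/

set_option autoImplicit false

namespace Fermat.Agent.S13.B2Unipotent

open WeierstrassCurve WeierstrassCurve.Affine
open Fermat.Agent.S13.XOnlyGen Fermat.Agent.S13.FreyAt2

local notation "Qbar" => AlgebraicClosure ℚ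

/-- **(I3)**: for `σ` in the inertia group at a place over `2`, `(σ - 1)² = 0` on the
`p`-torsion of the Frey curve. -/
theorem I3 (P : FreyPackage) (A : ValuationSubring Qbar) (hA : A.LiesOverPrime 2)
    (σ : Qbar ≃ₐ[ℚ] Qbar) (hσ : σ ∈ A.inertiaSubgroupIn ℚ)
    (T : (P.freyCurve⁄Qbar).Point) (hT : P.p • T = 0) :
    σ • (σ • T - T) = σ • T - T := by
  -- the model
  have ha₁ : A.valuation (P.freyCurve⁄Qbar).a₁ ≤ 1 := (val_a₁ A P).le
  have ha₂ : A.valuation (P.freyCurve⁄Qbar).a₂ ≤ 1 := val_a₂_le_one A P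
  have ha₃ : (P.freyCurve⁄Qbar).a₃ = 0 := a₃_eq P
  have ha₆ : (P.freyCurve⁄Qbar).a₆ = 0 := a₆_eq P
  have ha₄0 : (P.freyCurve⁄Qbar).a₄ ≠ 0 := a₄_ne_zero P
  have ha₄ : A.valuation (P.freyCurve⁄Qbar).a₄ < 1 := val_a₄_lt_one A P hA
  have hb₂ : A.valuation (P.freyCurve⁄Qbar).b₂ = 1 := val_b₂ A P hA
  obtain ⟨hb2, hb4, hb6, hb8⟩ := b_mem A P
  have hp : P.p.Prime := P.pp
  have hp2 : P.p ≠ 2 := by have := P.hp5; omega
  have hpA : A.valuation (P.p : Qbar) = 1 := val_p A P hA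
  have hpA' : (P.p : Qbar) ∉ A.nonunits := p_not_mem_nonunits A P hA
  -- the automorphism
  have hσI : ∀ x, A.valuation x ≤ 1 → A.valuation ((σ : Qbar →+* Qbar) x - x) < 1 :=
    fun x hx => inertia_close A hσ x hx
  have hσv : ∀ x, A.valuation ((σ : Qbar →+* Qbar) x) = A.valuation x :=
    fun x => inertia_val_eq A hσ x
  have hσa₁ : (σ : Qbar →+* Qbar) (P.freyCurve⁄Qbar).a₁ = (P.freyCurve⁄Qbar).a₁ := by
    rw [a₁_eq]; exact map_one _
  have hσa₂ : (σ : Qbar →+* Qbar) (P.freyCurve⁄Qbar).a₂ = (P.freyCurve⁄Qbar).a₂ := by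
    rw [a₂_eq]; exact map_intCast _ _
  -- integrality of `p`-torsion
  have hint : ∀ S : (P.freyCurve⁄Qbar).Point, P.p • S = 0 → A.valuation (xc S) ≤ 1 :=
    fun S hS => (A.valuation_le_one_iff _).mpr
      (NoTorsionE1Gen.xc_mem_of_prime_nsmul_eq_zero A hb2 hb4 hb6 hb8 hp hp2 hpA' hS)
  -- points with nonsingular reduction are fixed
  have hfix : ∀ S : (P.freyCurve⁄Qbar).Point, P.p • S = 0 →
      (S = 0 ∨ 1 ≤ A.valuation (xc S)) → σ • S = S := by
    intro S hS h
    by_cases hS0 : S = 0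
    · rw [hS0]; rfl
    · have hx1 : A.valuation (xc S) = 1 := by
        rcases h with h | h
        · exact absurd h hS0
        · exact le_antisymm (hint S hS) h
      exact Unipotent2.fixed_of_unit A ha₁ ha₂ ha₃ ha₆ ha₄ hb₂ hp hp2 hpA (σ : Qbar →+* Qbar) hσI
        hS0 (smul_ne_zero σ hS0) (xc_smul σ S) (yc_smul σ S) hS (nsmul_smul_eq_zero σ hS) hx1
  by_cases hT0 : T = 0
  · rw [hT0]; rfl
  have hT' : P.p • (σ • T) = 0 := nsmul_smul_eq_zero σ hT
  have hD : P.p • (σ • T - T) = 0 := by rw [nsmul_sub, hT, hT', sub_zero]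
  rcases le_or_gt 1 (A.valuation (xc T)) with h1 | h1
  · -- nonsingular reduction
    rw [hfix T hT (Or.inr h1), sub_self]; rfl
  · -- `T` reduces to the node
    have hlt := (CruxGen.main A.valuation ha₃ ha₆ hb₂ ha₄0 ha₄ hp hp2 hT0 hT h1).1
    apply hfix _ hD
    exact BranchDirect.sigma_sub_of_b₂ A.valuation ha₃ ha₆ (σ : Qbar →+* Qbar) hσv hσI hσa₁ hσa₂
      ha₁ ha₂ hb₂ hT0 (smul_ne_zero σ hT0) (xc_smul σ T) (yc_smul σ T) h1 hlt

end Fermat.Agent.S13.B2Unipotent
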