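import Fermat.Agent.S05.LocalMain
import Fermat.Agent.S05.VarChange
import Fermat.Agent.S05.Inertia
import Fermat.Agent.S05.FreyArith
import Fermat.Agent.S05
import Fermat.Agent.S13.XOnlyGen
import Fermat.Prelude.Def_FLTPrelim_FreyPackage
import Fermat.Prelude.Def_FLTPrelim_GaloisRep
import Fermat.Prelude.Def_FLTPrelim_Ramification

/-!
# S13, block (Bp): inertia at `p` moves integral `p`-torsion points of the Frey curve only by
elements of the kernel of reduction

Port of `S05.LocalMain.main` / `S05.core` to the prime `q = P.p` itself.  The only place where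
S05 uses that `p` is a unit (`v p = 1`) is the lemma "`p`-torsion has integral coordinates"
(`NoTorsionE1V`); here integrality is a hypothesis instead, and the conclusion is
`σ T - T = 0 ∨ x(σ T - T) ∉ A`.
-/

set_option autoImplicit false

namespace Fermat.Agent.S13.BpCore

open WeierstrassCurve WeierstrassCurve.Affine Fermat.Agent.S05

section local_

variable {K : Type*} [Field K] [DecidableEq K]
  {Γ₀ : Type*} [LinearOrderedCommGroupWithZero Γ₀] (v : Valuation K Γ₀)

/-- `S05.LocalMain.main` without the hypothesis `v p = 1`: integrality of `T` is assumed, and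
the conclusion is that `T' - T` lies in the kernel of reduction. -/
theorem localP (σ : K →+* K) (hσI : ∀ x, v x ≤ 1 → v (σ x - x) < 1)
    {a₂ a₄ α β a0 : K} (ha₂ : a₂ = β - α) (ha₄ : a₄ = -(α * β))
    (hσa0 : σ a0 = a0)
    (h2 : v (2 : K) = 1) {p : ℕ} (hp : p.Prime) (hp2 : p ≠ 2)
    (hβ : v β = 1) (hαβ : v (α + β) = 1)
    (hα : v α = 1 ∨ (α = a0 ^ p ∧ v α < 1 ∧ α ≠ 0))
    {T T' : (shortW a₂ a₄).toAffine.Point} (hpT : p • T = 0)
    (hT : T ≠ 0) (hT' : T' ≠ 0) (hx' : xc T' = σ (xc T)) (hy' : yc T' = σ (yc T))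
    (hxi : v (xc T) ≤ 1) (hyi : v (yc T) ≤ 1) :
    T' - T = 0 ∨ 1 < v (xc (T' - T)) := by
  subst ha₂ ha₄
  have h2K : (2 : K) ≠ 0 := by
    intro h
    rw [h, map_zero] at h2
    exact zero_ne_one h2
  have hα1 : v α ≤ 1 := by
    rcases hα with h | ⟨-, h, -⟩
    · exact h.le
    · exact h.le
  have ha₂v : v (β - α) ≤ 1 := le_trans (v.map_sub _ _) (max_le hβ.le hα1)
  have ha₄v : v (-(α * β)) ≤ 1 := by
    rw [Valuation.map_neg, map_mul, hβ, mul_one]; exact hα1
  have hE : yc T ^ 2 = xc T * (xc T - α) * (xc T + β) := by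
    rw [equation_xc_yc hT]; ring
  by_cases hgood : v α = 1 ∨ v (xc T) = 1
  · -- nonsingular reduction
    have hns := LocalMain.nonsing_red v hβ hαβ hα1 hxi hyi hE hgood
    refine ClosePoints.main v h2 ha₂v ha₄v hT hT' hxi hyi ?_ ?_ hns
    · rw [hx']; exact hσI _ hxi
    · rw [hy']; exact hσI _ hyi
  · -- reduction to the node
    push Not at hgood
    obtain ⟨hαne, hxne⟩ := hgood
    have hxlt : v (xc T) < 1 := lt_of_le_of_ne hxi hxne
    rcases hα with h | ⟨hαa0, hαlt, hα0⟩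
    · exact absurd h hαne
    obtain ⟨hlt, k, hk⟩ := CruxPoint.main v hα0 hαlt hβ h2 hp hp2 hT hpT hxlt
    have hvα0 : v α ≠ 0 := (Valuation.ne_zero_iff v).mpr hα0
    have ha00 : a0 ≠ 0 := by
      intro h
      rw [h, zero_pow hp.ne_zero] at hαa0
      exact hα0 hαa0
    have hva0 : v a0 ≠ 0 := (Valuation.ne_zero_iff v).mpr ha00
    have hvx0 : v (xc T) ≠ 0 := ne_of_gt (lt_trans (zero_lt_iff.mpr hvα0) hlt)
    have hx0 : xc T ≠ 0 := (Valuation.ne_zero_iff v).mp hvx0
    -- v x = v (a0 ^ (2k))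
    have hvx : v (xc T) = v a0 ^ (2 * k) := by
      have h1 : v (xc T) ^ p = (v a0 ^ (2 * k)) ^ p := by
        rw [hk, hαa0, map_pow, ← zpow_natCast (v a0 ^ (2 * k)), ← zpow_mul, ← zpow_natCast (v a0),
          ← zpow_mul, mul_comm]
      exact (pow_left_inj₀ zero_le zero_le hp.ne_zero).mp h1
    -- v y = v x
    have hvy : v (yc T) = v (xc T) := by
      have h1 : v (yc T) ^ 2 = v (xc T) ^ 2 := by
        rw [← map_pow, hE, map_mul, map_mul, LocalMain.val_sub_eq_of_lt v hlt,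
          show xc T + β = β + xc T by ring,
          LocalMain.val_add_eq_of_lt v (by rw [hβ]; exact hxlt), hβ, mul_one, sq]
      exact (pow_left_inj₀ zero_le zero_le two_ne_zero).mp h1
    have hy0 : yc T ≠ 0 := (Valuation.ne_zero_iff v).mp (by rw [hvy]; exact hvx0)
    set c : K := a0 ^ (2 * k) with hc
    have hc0 : c ≠ 0 := zpow_ne_zero _ ha00
    have hvc : v c = v (xc T) := by rw [hc, map_zpow₀, hvx]
    have hσc : σ c = c := by rw [hc, map_zpow₀, hσa0]
    -- generic unit trick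
    have unit_trick : ∀ z : K, v z = v c → ∃ ε : K, v ε < 1 ∧ σ z = z * (1 + ε) := by
      intro z hz
      have hz0 : z ≠ 0 := (Valuation.ne_zero_iff v).mp (by rw [hz, hvc]; exact hvx0)
      set w : K := z / c with hw
      have hw0 : w ≠ 0 := div_ne_zero hz0 hc0
      have hvw : v w = 1 := by
        rw [hw, map_div₀, hz, div_self ((Valuation.ne_zero_iff v).mpr hc0)]
      have hzw : z = c * w := by rw [hw]; field_simp
      refine ⟨(σ w - w) / w, ?_, ?_⟩
      · rw [map_div₀, hvw, div_one]; exact hσI w hvw.le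
      · rw [hzw, map_mul, hσc]; field_simp; ring
    obtain ⟨ε, hε, hσx⟩ := unit_trick (xc T) hvc.symm
    obtain ⟨ε', hε', hσy⟩ := unit_trick (yc T) (by rw [hvy, hvc])
    exact NodeFinal.main v h2 ha₂v hT hT' hx0 hy0 hvy hxi hε hε' (by rw [hx', hσx])
      (by rw [hy', hσy])

omit [DecidableEq K] in
/-- integrality of `y` from integrality of `x` on the short model. -/
lemma yc_integral_of_xc {a₂ a₄ : K} (ha₂ : v a₂ ≤ 1) (ha₄ : v a₄ ≤ 1)
    {T : (shortW a₂ a₄).toAffine.Point} (hT : T ≠ 0) (hx : v (xc T) ≤ 1) : v (yc T) ≤ 1 := by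
  have hE := equation_xc_yc hT
  by_contra hy
  push Not at hy
  have h1 : 1 < v (yc T ^ 2) := by
    rw [map_pow]; exact one_lt_pow₀ hy two_ne_zero
  have h2 : v (xc T ^ 3 + a₂ * xc T ^ 2 + a₄ * xc T) ≤ 1 := by
    refine Valuation.map_add_le v (Valuation.map_add_le v ?_ ?_) ?_
    · rw [map_pow]; exact pow_le_one₀ zero_le hx
    · rw [map_mul, map_pow]
      exact mul_le_one₀ ha₂ zero_le (pow_le_one₀ zero_le hx)
    · rw [map_mul]; exact mul_le_one₀ ha₄ zero_le hx
  rw [hE] at h1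
  exact absurd h1 (not_lt.mpr h2)

end local_

section frey

open FreyPackage Fermat.Agent.S13

local notation "Qbar" => AlgebraicClosure ℚ

/-- the core at `p`: one of the three shapes. -/
theorem core_of_data_p (P : FreyPackage)
    (A : ValuationSubring Qbar) (hA : A.LiesOverPrime P.p)
    (σ : Qbar ≃ₐ[ℚ] Qbar) (hσ : σ ∈ A.inertiaSubgroupIn ℚ)
    (nα nβ nγ : ℤ) (ρ : Qbar)
    (hsum : (nα : Qbar) ^ P.p + (nβ : Qbar) ^ P.p = (nγ : Qbar) ^ P.p)
    (hnα0 : nα ≠ 0) (hnβ : ¬ (P.p : ℤ) ∣ nβ) (hnγ : ¬ (P.p : ℤ) ∣ nγ)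
    (hσρ : σ ρ = ρ) (hρA : ρ ∈ A)
    (hρ : -ρ ^ 3 + (4 * (P.freyCurve⁄Qbar).a₂ + 1) * ρ ^ 2 - 16 * (P.freyCurve⁄Qbar).a₄ * ρ = 0)
    (hA₂ : 4 * (P.freyCurve⁄Qbar).a₂ + 1 - 3 * ρ = (nβ : Qbar) ^ P.p - (nα : Qbar) ^ P.p)
    (hA₄ : 16 * (P.freyCurve⁄Qbar).a₄ - 2 * ρ * (4 * (P.freyCurve⁄Qbar).a₂ + 1) + 3 * ρ ^ 2 =
      -((nα : Qbar) ^ P.p * (nβ : Qbar) ^ P.p))
    (T : (P.freyCurve⁄Qbar).Point) (hT : P.p • T = 0) (hT0 : T ≠ 0)
    (hxT : XOnlyGen.xc T ∈ A) :
    σ • T - T = 0 ∨ XOnlyGen.xc (σ • T - T) ∉ A := by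
  have hq : P.p.Prime := P.pp
  have hA' : (P.p : Qbar) ∈ A.nonunits := hA
  have h2K : (2 : Qbar) ≠ 0 := two_ne_zero
  obtain ⟨ψ, hψinj, hψ⟩ := VarChange.exists_pointHom (P.freyCurve⁄Qbar) (frey_a₁ P)
    (frey_a₃ P) (frey_a₆ P) h2K ρ hρ
  have hσI := Inertia.sub_mem A hσ
  have hp2 : P.p ≠ 2 := by have := P.hp5; omega
  have h2v : A.valuation (2 : Qbar) = 1 := by
    have := FreyArith.val_natCast_eq_one A hq hA' (n := 2)
      (fun h => hp2 ((Nat.prime_dvd_prime_iff_eq hq Nat.prime_two).mp h))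
    simpa using this
  have h4v : A.valuation (4 : Qbar) = 1 := by
    have : (4 : Qbar) = 2 * 2 := by norm_num
    rw [this, map_mul, h2v, one_mul]
  have hβ : A.valuation ((nβ : Qbar) ^ P.p) = 1 := FreyArith.val_intCast_pow_eq_one A hq hA' hnβ _
  have hαβ : A.valuation ((nα : Qbar) ^ P.p + (nβ : Qbar) ^ P.p) = 1 := by
    rw [hsum]; exact FreyArith.val_intCast_pow_eq_one A hq hA' hnγ _
  have hα : A.valuation ((nα : Qbar) ^ P.p) = 1 ∨
      ((nα : Qbar) ^ P.p = (nα : Qbar) ^ P.p ∧ A.valuation ((nα : Qbar) ^ P.p) < 1 ∧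
        (nα : Qbar) ^ P.p ≠ 0) := by
    by_cases hd : (P.p : ℤ) ∣ nα
    · right
      refine ⟨rfl, ?_, ?_⟩
      · rw [map_pow]
        exact pow_lt_one₀ zero_le (FreyArith.val_intCast_lt_one A hA' hd) hq.ne_zero
      · exact pow_ne_zero _ (Int.cast_ne_zero.mpr hnα0)
    · left
      exact FreyArith.val_intCast_pow_eq_one A hq hA' hd _
  have hα1 : A.valuation ((nα : Qbar) ^ P.p) ≤ 1 := by
    rw [map_pow]; exact pow_le_one₀ zero_le (FreyArith.val_intCast_le_one A nα)
  have hσa0 : (σ : Qbar →+* Qbar) (nα : Qbar) = (nα : Qbar) := map_intCast _ nα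
  have hpT : P.p • ψ T = 0 := by rw [← map_nsmul, hT, _root_.map_zero]
  have hσT : σ • T = Point.map σ.toAlgHom T := rfl
  have hρv : A.valuation ρ ≤ 1 := (A.valuation_le_one_iff ρ).mpr hρA
  -- unpack `T`
  cases T with
  | zero => exact absurd rfl hT0
  | some x y h =>
    have hxA : A.valuation x ≤ 1 := (A.valuation_le_one_iff x).mpr hxT
    have hns' : (P.freyCurve⁄Qbar).Nonsingular (σ x) (σ y) :=
      (WeierstrassCurve.Affine.baseChange_nonsingular _ σ.toAlgHom.injective ..).mpr h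
    have hmap : σ • (Point.some x y h : (P.freyCurve⁄Qbar).Point) =
        Point.some (σ x) (σ y) hns' := rfl
    obtain ⟨h1, h2, h3⟩ := hψ x y h
    obtain ⟨h1', h2', h3'⟩ := hψ (σ x) (σ y) hns'
    have hxi : A.valuation (xc (ψ (Point.some x y h))) ≤ 1 := by
      rw [h2]
      refine Valuation.map_add_le _ ?_ hρv
      rw [map_mul, h4v, one_mul]; exact hxA
    have ha₂v : A.valuation (4 * (P.freyCurve⁄Qbar).a₂ + 1 - 3 * ρ) ≤ 1 := by
      rw [hA₂]
      exact Valuation.map_sub_le _ hβ.le hα1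
    have ha₄v : A.valuation (16 * (P.freyCurve⁄Qbar).a₄ - 2 * ρ * (4 * (P.freyCurve⁄Qbar).a₂ + 1)
        + 3 * ρ ^ 2) ≤ 1 := by
      rw [hA₄, Valuation.map_neg, map_mul, hβ, mul_one]; exact hα1
    have hyi : A.valuation (yc (ψ (Point.some x y h))) ≤ 1 :=
      yc_integral_of_xc A.valuation ha₂v ha₄v h1 hxi
    have key := localP A.valuation (σ : Qbar →+* Qbar) (fun x hx => hσI x hx) hA₂ hA₄ hσa0
      h2v hq hp2 hβ hαβ hα hpT h1 h1'
      (by rw [h2', h2]; simp only [RingHom.coe_coe, map_add, map_mul, hσρ, map_ofNat])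
      (by rw [h3', h3]; simp only [RingHom.coe_coe, map_add, map_mul, map_ofNat])
      hxi hyi
    rw [hmap]
    rw [← map_sub] at key
    rcases key with key | key
    · left
      exact hψinj (by rw [key, _root_.map_zero])
    · right
      -- the difference is a nonzero point with non-integral abscissa
      generalize (Point.some (σ x) (σ y) hns' - Point.some x y h : (P.freyCurve⁄Qbar).Point) = Q
        at key
      cases Q with
      | zero =>
        exfalso
        change 1 < A.valuation (xc (ψ 0)) at key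
        rw [_root_.map_zero] at key
        simp only [xc_zero, map_zero] at key
        exact absurd key (not_lt.mpr zero_le_one)
      | some x₀ y₀ h₀ =>
        obtain ⟨-, e2, -⟩ := hψ x₀ y₀ h₀
        rw [e2] at key
        intro hx₀
        have hx₀' : A.valuation x₀ ≤ 1 := (A.valuation_le_one_iff x₀).mpr hx₀
        have : A.valuation (4 * x₀ + ρ) ≤ 1 := by
          refine Valuation.map_add_le _ ?_ hρv
          rw [map_mul, h4v, one_mul]; exact hx₀'
        exact absurd key (not_lt.mpr this)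

/-- **(Bp) core.** For a place `A` over `p`, `σ` in the inertia group of `A`, and a nonzero
`p`-torsion point `T` of the Frey curve with integral abscissa, the point `σ T - T` is zero or has
non-integral abscissa (it lies in the kernel of reduction). -/
theorem core_p (P : FreyPackage)
    (A : ValuationSubring Qbar) (hA : A.LiesOverPrime P.p)
    (σ : Qbar ≃ₐ[ℚ] Qbar) (hσ : σ ∈ A.inertiaSubgroupIn ℚ)
    (T : (P.freyCurve⁄Qbar).Point) (hT : P.p • T = 0) (hT0 : T ≠ 0)
    (hxT : XOnlyGen.xc T ∈ A) :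
    σ • T - T = 0 ∨ XOnlyGen.xc (σ • T - T) ∉ A := by
  have hodd : Odd P.p := P.hp_odd
  have hF := frey_FLT P
  have e2 := frey_a₂ P
  have e4 := frey_a₄ P
  have hq : P.p.Prime := P.pp
  rcases FreyArith.cases P hq with ⟨hb, hc⟩ | ⟨ha, hc⟩ | ⟨ha, hb⟩
  · -- p ∤ b, p ∤ c : α = a^p, β = b^p, ρ = 0
    refine core_of_data_p P A hA σ hσ P.a P.b P.c 0 hF P.ha0 hb hc (_root_.map_zero _)
      A.zero_mem ?_ ?_ ?_ T hT hT0 hxT
    · ring
    · rw [e2]; ring
    · rw [e2, e4]; ring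
  · -- p ∤ a, p ∤ c : α = b^p, β = (-c)^p, α + β = (-a)^p, ρ = b^p
    have hc' : ¬ (P.p : ℤ) ∣ -P.c := by rwa [dvd_neg]
    have ha' : ¬ (P.p : ℤ) ∣ -P.a := by rwa [dvd_neg]
    refine core_of_data_p P A hA σ hσ P.b (-P.c) (-P.a) ((P.b : Qbar) ^ P.p) ?_
      P.hb0 hc' ha' ?_ ?_ ?_ ?_ ?_ T hT hT0 hxT
    · push_cast
      rw [hodd.neg_pow, hodd.neg_pow]
      linear_combination hF
    · rw [map_pow, map_intCast]
    · exact A.pow_mem (Inertia.intCast_mem' A P.b) _
    · rw [e2, e4]; ring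
    · push_cast
      rw [e2, hodd.neg_pow]
      linear_combination -hF
    · push_cast
      rw [e2, e4, hodd.neg_pow]
      linear_combination ((P.b : Qbar) ^ P.p) * hF
  · -- p ∤ a, p ∤ b : α = (-c)^p, β = a^p, α + β = (-b)^p, ρ = -a^p
    have hb' : ¬ (P.p : ℤ) ∣ -P.b := by rwa [dvd_neg]
    have hc0 : -P.c ≠ 0 := neg_ne_zero.mpr P.hc0
    refine core_of_data_p P A hA σ hσ (-P.c) P.a (-P.b) (-((P.a : Qbar) ^ P.p)) ?_
      hc0 ha hb' ?_ ?_ ?_ ?_ ?_ T hT hT0 hxT
    · push_cast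
      rw [hodd.neg_pow, hodd.neg_pow]
      linear_combination hF
    · rw [map_neg, map_pow, map_intCast]
    · exact A.neg_mem _ (A.pow_mem (Inertia.intCast_mem' A P.a) _)
    · rw [e2, e4]; ring
    · push_cast
      rw [e2, hodd.neg_pow]
      linear_combination hF
    · push_cast
      rw [e2, e4, hodd.neg_pow]
      linear_combination ((P.a : Qbar) ^ P.p) * hF

end frey

end Fermat.Agent.S13.BpCore
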