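import Fermat.Agent.S13.Defs
import Mathlib.FieldTheory.KrullTopology
import Mathlib.FieldTheory.Finiteness
import Mathlib.LinearAlgebra.FiniteDimensional.Lemmas
import Mathlib.Topology.Algebra.OpenSubgroup

/-!
# S13: reduction of the frozen statement to the block interfaces (I0)–(I5)

architect: helper93.
-/

set_option autoImplicit false

open WeierstrassCurve WeierstrassCurve.Affine WeierstrassCurve.Affine.Point
open FreyPackage

namespace Fermat.Agent.S13.Reduction

open Fermat.Agent.S13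

variable (P : FreyPackage)

instance factPrime : Fact (P.p).Prime := ⟨P.pp⟩

/-- `σ` commutes with the `ZMod p`-scalar multiplication on `V`. -/
lemma smul_zmod_smul (σ : GQ) (c : ZMod P.p) (x : V P) : σ • (c • x) = c • (σ • x) := by
  have := ZMod.map_smul (DistribSMul.toAddMonoidHom (V P) σ) c x
  simpa using this

/-- the subgroup of `GQ` acting trivially on a stable submodule `X`. -/
def HX (X : Submodule (ZMod P.p) (V P)) (hX : IsGaloisStable ℚ X) : Subgroup GQ where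
  carrier := {σ | ∀ x ∈ X, σ • x = x}
  one_mem' := fun x _ => one_smul _ x
  mul_mem' := by
    intro σ τ hσ hτ x hx
    rw [mul_smul, hτ x hx, hσ x hx]
  inv_mem' := by
    intro σ hσ x hx
    have := hσ x hx
    rw [inv_smul_eq_iff, this]

/-- the subgroup of `GQ` acting trivially on `V / X`. -/
def HY (X : Submodule (ZMod P.p) (V P)) (hX : IsGaloisStable ℚ X) : Subgroup GQ where
  carrier := {σ | ∀ x : V P, σ • x - x ∈ X}
  one_mem' := fun x => by rw [one_smul, sub_self]; exact X.zero_mem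
  mul_mem' := by
    intro σ τ hσ hτ x
    have h1 : (σ * τ) • x - x = σ • (τ • x - x) + (σ • x - x) := by
      rw [mul_smul, smul_sub]; abel
    rw [h1]
    exact X.add_mem (hX σ _ (hτ x)) (hσ x)
  inv_mem' := by
    intro σ hσ x
    have h1 : σ⁻¹ • x - x = -(σ⁻¹ • (σ • x - x)) := by
      rw [smul_sub, inv_smul_smul]; abel
    rw [h1]
    exact X.neg_mem (hX σ⁻¹ _ (hσ x))

lemma HX_normal (X : Submodule (ZMod P.p) (V P)) (hX : IsGaloisStable ℚ X) :
    (HX P X hX).Normal := by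
  refine ⟨fun σ hσ τ x hx => ?_⟩
  have h1 : τ⁻¹ • x ∈ X := hX τ⁻¹ x hx
  rw [mul_smul, mul_smul, hσ _ h1, smul_inv_smul]

lemma HY_normal (X : Submodule (ZMod P.p) (V P)) (hX : IsGaloisStable ℚ X) :
    (HY P X hX).Normal := by
  refine ⟨fun σ hσ τ x => ?_⟩
  have h1 : (τ * σ * τ⁻¹) • x - x = τ • (σ • (τ⁻¹ • x) - τ⁻¹ • x) := by
    rw [mul_smul, mul_smul, smul_sub, smul_inv_smul]
  rw [h1]
  exact hX τ _ (hσ _)

/-- the pointwise stabilizer of a point is open. -/
lemma isOpen_stabilizer_point (T : (P.freyCurve⁄Qbar).Point) :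
    ∃ U : Subgroup GQ, IsOpen (U : Set GQ) ∧ ∀ σ ∈ U, σ • T = T := by
  cases T with
  | zero => exact ⟨⊤, isOpen_univ, fun σ _ => rfl⟩
  | some x y h =>
    haveI := isIntegral_Qbar
    refine ⟨MulAction.stabilizer GQ x ⊓ MulAction.stabilizer GQ y, ?_, ?_⟩
    · exact (stabilizer_isOpen_of_isIntegral (K := ℚ) (L := Qbar) x).inter
        (stabilizer_isOpen_of_isIntegral (K := ℚ) (L := Qbar) y)
    · rintro σ ⟨hx, hy⟩
      obtain ⟨h', e⟩ := smul_some P σ h
      rw [e]
      have hx' : σ x = x := hx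
      have hy' : σ y = y := hy
      congr 1

/-- the pointwise stabilizer of the finite set `V` is open. -/
lemma exists_open_fixing [Finite (V P)] :
    ∃ U : Subgroup GQ, IsOpen (U : Set GQ) ∧ ∀ σ ∈ U, ∀ x : V P, σ • x = x := by
  classical
  letI : Fintype (V P) := Fintype.ofFinite _
  choose U hU hfix using fun x : V P => isOpen_stabilizer_point P x.1
  refine ⟨⨅ x : V P, U x, ?_, ?_⟩
  · have : ((⨅ x : V P, U x : Subgroup GQ) : Set GQ) = ⋂ x : V P, (U x : Set GQ) := by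
      ext σ; simp
    rw [this]
    exact isOpen_iInter_of_finite hU
  · intro σ hσ x
    apply Subtype.ext
    exact hfix x σ ((Subgroup.mem_iInf.mp hσ) x)


/-- dimension count: a proper nonzero submodule of `V` with `#V ≤ p²` is a line in a plane. -/
lemma finrank_facts [Finite (V P)] (hcard : Nat.card (V P) ≤ P.p ^ 2)
    (X : Submodule (ZMod P.p) (V P)) (hbot : X ≠ ⊥) (htop : X ≠ ⊤) :
    Module.finrank (ZMod P.p) X = 1 ∧ Module.finrank (ZMod P.p) (V P ⧸ X) = 1 := by
  haveI : Module.Finite (ZMod P.p) (V P) := Module.Finite.of_finite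
  have h1 : Nat.card (V P) = P.p ^ Module.finrank (ZMod P.p) (V P) := by
    rw [Module.natCard_eq_pow_finrank (K := ZMod P.p), Nat.card_zmod]
  have h2 : Module.finrank (ZMod P.p) (V P) ≤ 2 := by
    rw [h1] at hcard
    exact (Nat.pow_le_pow_iff_right P.pp.one_lt).mp hcard
  have h3 : 0 < Module.finrank (ZMod P.p) X := by
    rw [Module.finrank_pos_iff_exists_ne_zero]
    obtain ⟨x, hx, hx0⟩ := (Submodule.ne_bot_iff X).mp hbot
    exact ⟨⟨x, hx⟩, fun h => hx0 (congrArg Subtype.val h)⟩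
  have h4 : Module.finrank (ZMod P.p) X < Module.finrank (ZMod P.p) (V P) :=
    Submodule.finrank_lt htop
  have h5 := Submodule.finrank_quotient_add_finrank X
  omega

/-- `X` is a line. -/
lemma line_X [Finite (V P)] (hcard : Nat.card (V P) ≤ P.p ^ 2)
    (X : Submodule (ZMod P.p) (V P)) (hbot : X ≠ ⊥) (htop : X ≠ ⊤)
    {x : V P} (hx : x ∈ X) (hx0 : x ≠ 0) {y : V P} (hy : y ∈ X) :
    ∃ c : ZMod P.p, y = c • x := by
  have h := (finrank_facts P hcard X hbot htop).1
  have hx0' : (⟨x, hx⟩ : X) ≠ 0 := fun h => hx0 (congrArg Subtype.val h)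
  obtain ⟨c, hc⟩ := (finrank_eq_one_iff_of_nonzero' (⟨x, hx⟩ : X) hx0').mp h ⟨y, hy⟩
  exact ⟨c, (congrArg Subtype.val hc).symm⟩

/-- `V / X` is a line. -/
lemma line_quot [Finite (V P)] (hcard : Nat.card (V P) ≤ P.p ^ 2)
    (X : Submodule (ZMod P.p) (V P)) (hbot : X ≠ ⊥) (htop : X ≠ ⊤)
    {t : V P} (ht : t ∉ X) (y : V P) :
    ∃ c : ZMod P.p, y - c • t ∈ X := by
  have h := (finrank_facts P hcard X hbot htop).2
  have ht0 : (Submodule.Quotient.mk t : V P ⧸ X) ≠ 0 := by
    rwa [Ne, Submodule.Quotient.mk_eq_zero]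
  obtain ⟨c, hc⟩ := (finrank_eq_one_iff_of_nonzero' _ ht0).mp h (Submodule.Quotient.mk y)
  refine ⟨c, ?_⟩
  rw [← Submodule.Quotient.mk_eq_zero, Submodule.Quotient.mk_sub, Submodule.Quotient.mk_smul,
    hc, sub_self]

/-- a unipotent element (`(σ - 1)² = 0` on `V`) acts trivially on the line `X`. -/
lemma mem_HX_of_unipotent [Finite (V P)] (hcard : Nat.card (V P) ≤ P.p ^ 2)
    (X : Submodule (ZMod P.p) (V P)) (hX : IsGaloisStable ℚ X) (hbot : X ≠ ⊥) (htop : X ≠ ⊤)
    (σ : GQ) (hσ : ∀ x : V P, σ • (σ • x - x) = σ • x - x) : σ ∈ HX P X hX := by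
  intro x hx
  by_cases hx0 : x = 0
  · rw [hx0, smul_zero]
  obtain ⟨c, hc⟩ := line_X P hcard X hbot htop hx hx0 (hX σ x hx)
  have h1 := hσ x
  rw [hc, smul_sub, smul_zmod_smul, hc] at h1
  have h2 : ((c - 1) * (c - 1)) • x = 0 := by
    have : ((c - 1) * (c - 1)) • x = c • c • x - c • x - (c • x - x) := by
      rw [smul_smul]
      have e : (c - 1) * (c - 1) = c * c - c - (c - 1) := by ring
      rw [e, sub_smul, sub_smul, sub_smul, one_smul]
    rw [this, h1, sub_self]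
  rcases smul_eq_zero.mp h2 with h | h
  · have hc1 : c - 1 = 0 := by
      rcases mul_eq_zero.mp h with h | h <;> exact h
    rw [hc, sub_eq_zero.mp hc1, one_smul]
  · exact absurd h hx0

/-- a unipotent element (`(σ - 1)² = 0` on `V`) acts trivially on the line `V / X`. -/
lemma mem_HY_of_unipotent [Finite (V P)] (hcard : Nat.card (V P) ≤ P.p ^ 2)
    (X : Submodule (ZMod P.p) (V P)) (hX : IsGaloisStable ℚ X) (hbot : X ≠ ⊥) (htop : X ≠ ⊤)
    (σ : GQ) (hσ : ∀ x : V P, σ • (σ • x - x) = σ • x - x) : σ ∈ HY P X hX := by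
  intro x
  by_cases hxX : x ∈ X
  · exact X.sub_mem (hX σ x hxX) hxX
  obtain ⟨d, hd⟩ := line_quot P hcard X hbot htop hxX (σ • x)
  -- w := σ x - d x ∈ X
  set w : V P := σ • x - d • x with hw
  have hσx : σ • x = d • x + w := by rw [hw]; abel
  have h1 := hσ x
  -- (d-1)² x ∈ X
  have h2 : ((d - 1) * (d - 1)) • x ∈ X := by
    have e : ((d - 1) * (d - 1)) • x =
        (σ • (σ • x - x) - (σ • x - x)) - ((d - 1) • w + (σ • w - w)) := by
      have e1 : σ • (σ • x - x) = d • (d • x + w) + σ • w - (d • x + w) := by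
        rw [smul_sub, hσx, smul_add, smul_zmod_smul, hσx]
      rw [e1, hσx]
      have e2 : (d - 1) * (d - 1) = d * d - d - (d - 1) := by ring
      rw [e2, sub_smul, sub_smul, sub_smul, one_smul, mul_smul, sub_smul, one_smul, smul_add]
      abel
    rw [e, h1, sub_self, zero_sub]
    exact X.neg_mem (X.add_mem (X.smul_mem _ hd) (X.sub_mem (hX σ w hd) hd))
  by_cases hd1 : d - 1 = 0
  · have : σ • x - x = w := by rw [hw, sub_eq_zero.mp hd1, one_smul]
    rw [this]; exact hd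
  · exfalso
    apply hxX
    have hne : (d - 1) * (d - 1) ≠ 0 := mul_ne_zero hd1 hd1
    have := X.smul_mem ((d - 1) * (d - 1))⁻¹ h2
    rwa [smul_smul, inv_mul_cancel₀ hne, one_smul] at this


/-- **Reduction of the frozen S13 statement to the block interfaces.** -/
theorem result_of_blocks
    (I0 : ∃ T : (P.freyCurve⁄Qbar).Point, T ≠ 0 ∧ P.p • T = 0)
    (I1 : Finite (V P) ∧ Nat.card (V P) ≤ P.p ^ 2)
    (I2 : ∀ T : (P.freyCurve⁄Qbar).Point, P.p • T = 0 → (∀ σ : GQ, σ • T = T) → T = 0)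
    (I3 : ∀ ℓ : ℕ, ℓ.Prime → ℓ ≠ P.p → ∀ A : ValuationSubring Qbar, A.LiesOverPrime ℓ →
      ∀ σ ∈ A.inertiaSubgroupIn ℚ, ∀ T : (P.freyCurve⁄Qbar).Point, P.p • T = 0 →
        σ • (σ • T - T) = σ • T - T)
    (I4 : ∀ X : Submodule (ZMod P.p) (V P), IsGaloisStable ℚ X → X ≠ ⊥ → X ≠ ⊤ →
      (∀ A : ValuationSubring Qbar, A.LiesOverPrime P.p → ∀ σ ∈ A.inertiaSubgroupIn ℚ,
        ∀ x ∈ X, σ • x = x) ∨
      (∀ A : ValuationSubring Qbar, A.LiesOverPrime P.p → ∀ σ ∈ A.inertiaSubgroupIn ℚ,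
        ∀ x : V P, σ • x - x ∈ X))
    (I5 : ∀ H : Subgroup GQ, H.Normal → IsOpen (H : Set GQ) →
      (∀ ℓ : ℕ, ℓ.Prime → ∀ A : ValuationSubring Qbar, A.LiesOverPrime ℓ →
        A.inertiaSubgroupIn ℚ ≤ H) → H = ⊤)
    (hred : ¬ GaloisRepIsIrreducible (K := AlgebraicClosure ℚ) ℚ P.freyCurve P.p) :
    HasGaloisStableCofixedLine (K := AlgebraicClosure ℚ) ℚ P.freyCurve P.p := by
  obtain ⟨hfin, hcard⟩ := I1
  haveI : Finite (V P) := hfin
  -- `V` is nontrivial
  have hnt : Nontrivial (V P) := by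
    obtain ⟨T, hT0, hpT⟩ := I0
    have hmem : T ∈ V P := by
      rw [Submodule.mem_torsionBy_iff, natCast_zsmul]; exact hpT
    exact ⟨⟨⟨T, hmem⟩, 0, fun h => hT0 (congrArg Subtype.val h)⟩⟩
  -- a proper nonzero stable submodule
  have hex : ∃ X : Submodule (ZMod P.p) (V P), IsGaloisStable ℚ X ∧ X ≠ ⊥ ∧ X ≠ ⊤ := by
    by_contra hcon
    apply hred
    refine ⟨hnt, fun N hN => ?_⟩
    by_contra h
    push Not at h
    exact hcon ⟨N, hN, h.1, h.2⟩
  obtain ⟨X, hX, hbot, htop⟩ := hex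
  -- point-level unipotence implies the `V`-level statement
  have hunip : ∀ ℓ : ℕ, ℓ.Prime → ℓ ≠ P.p → ∀ A : ValuationSubring Qbar, A.LiesOverPrime ℓ →
      ∀ σ ∈ A.inertiaSubgroupIn ℚ, ∀ x : V P, σ • (σ • x - x) = σ • x - x := by
    intro ℓ hℓ hℓp A hA σ hσ x
    apply Subtype.ext
    have hx : P.p • (x : (P.freyCurve⁄Qbar).Point) = 0 := by
      have := (Submodule.mem_torsionBy_iff _ _).mp x.2
      rwa [natCast_zsmul] at this
    exact I3 ℓ hℓ hℓp A hA σ hσ x.1 hx
  -- openness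
  obtain ⟨U, hUopen, hUfix⟩ := exists_open_fixing P
  have hXopen : IsOpen ((HX P X hX : Subgroup GQ) : Set GQ) :=
    Subgroup.isOpen_mono (H₁ := U) (fun σ hσ x _ => hUfix σ hσ x) hUopen
  have hYopen : IsOpen ((HY P X hX : Subgroup GQ) : Set GQ) :=
    Subgroup.isOpen_mono (H₁ := U) (fun σ hσ x => by
      rw [hUfix σ hσ x, sub_self]; exact X.zero_mem) hUopen
  rcases I4 X hX hbot htop with hp | hp
  · -- all inertia acts trivially on `X`: then `X` has a rational point, contradiction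
    exfalso
    have htopX : HX P X hX = ⊤ := by
      refine I5 _ (HX_normal P X hX) hXopen (fun ℓ hℓ A hA σ hσ => ?_)
      by_cases hℓp : ℓ = P.p
      · subst hℓp
        exact fun x hx => hp A hA σ hσ x hx
      · exact mem_HX_of_unipotent P hcard X hX hbot htop σ (hunip ℓ hℓ hℓp A hA σ hσ)
    obtain ⟨x, hx, hx0⟩ := (Submodule.ne_bot_iff X).mp hbot
    have hfix : ∀ σ : GQ, σ • (x : (P.freyCurve⁄Qbar).Point) = x := by
      intro σ
      have hσ : σ ∈ HX P X hX := by rw [htopX]; exact Subgroup.mem_top σ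
      exact congrArg Subtype.val (hσ x hx)
    have hpx : P.p • (x : (P.freyCurve⁄Qbar).Point) = 0 := by
      have := (Submodule.mem_torsionBy_iff _ _).mp x.2
      rwa [natCast_zsmul] at this
    exact hx0 (Subtype.ext (I2 x.1 hpx hfix))
  · -- all inertia acts trivially on `V / X`: `X` is the cofixed line
    have htopY : HY P X hX = ⊤ := by
      refine I5 _ (HY_normal P X hX) hYopen (fun ℓ hℓ A hA σ hσ => ?_)
      by_cases hℓp : ℓ = P.p
      · subst hℓp
        exact fun x => hp A hA σ hσ x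
      · exact mem_HY_of_unipotent P hcard X hX hbot htop σ (hunip ℓ hℓ hℓp A hA σ hσ)
    refine ⟨X, hX, hbot, htop, fun σ x => ?_⟩
    have hσ : σ ∈ HY P X hX := by rw [htopY]; exact Subgroup.mem_top σ
    exact hσ x

end Fermat.Agent.S13.Reduction
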