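import Mathlib
import Fermat.Prelude.Def_FLTPrelim_FreyPackage
import Fermat.Prelude.Def_FLTPrelim_Ramification
import Fermat.Agent.S05.FreyArith

/-!
# S13: arithmetic of the Frey model `y² + xy = x³ + a₂x² + a₄x` over `Qbar`

For `P : FreyPackage` and `E := P.freyCurve⁄Qbar` (NO change of variables):

* `a₁ = 1`, `a₃ = a₆ = 0`, `a₂`, `a₄` are casts of the integers `n₂ P`, `n₄ P`
  (`4 ∣ bᵖ - 1 - aᵖ`, `16 ∣ bᵖ`), hence all `aᵢ`, `bᵢ` lie in EVERY valuation subring `A`;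
* `b₂ = bᵖ - aᵖ`, `b₄ = 2a₄`, `b₆ = 0`, `b₈ = -a₄²`;
* `256 Δ = (aᵖ bᵖ cᵖ)²`, so `Δ ≠ 0` and `E` is elliptic (instance);
* at a place `A` over `2`: `v b₂ = 1`, `a₄ ≠ 0`, `v a₄ = v(2)^(p e - 4) < 1` where `2^e ∥ b`.
-/

set_option autoImplicit false

namespace Fermat.Agent.S13.FreyModel

open WeierstrassCurve

local notation "Qbar" => AlgebraicClosure ℚ

variable (P : FreyPackage)

/-! ### integer arithmetic of a Frey package -/

theorem two_dvd_b : (2 : ℤ) ∣ P.b := (ZMod.intCast_zmod_eq_zero_iff_dvd P.b 2).1 P.hb2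

theorem a_mod_four : P.a % 4 = 3 := by
  have h := P.ha4
  have h3 : ((3 : ℤ) : ZMod 4) = 3 := by norm_cast
  rw [← h3] at h
  have h' := (ZMod.intCast_eq_intCast_iff P.a 3 4).mp h
  unfold Int.ModEq at h'
  omega

theorem not_two_dvd_a : ¬ (2 : ℤ) ∣ P.a := by
  have := a_mod_four P
  omega

theorem p_ne_two : P.p ≠ 2 := by have := P.hp5; omega

theorem four_dvd : (4 : ℤ) ∣ P.b ^ P.p - 1 - P.a ^ P.p := by
  obtain ⟨k, hk⟩ := two_dvd_b P
  have hp5 := P.hp5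
  have hb : (4 : ℤ) ∣ P.b ^ P.p := by
    obtain ⟨m, hm⟩ : ∃ m, P.p = m + 2 := ⟨P.p - 2, by omega⟩
    rw [hm, hk]
    exact ⟨2 ^ m * k ^ (m + 2), by ring⟩
  have ha : (4 : ℤ) ∣ P.a ^ P.p + 1 := by
    have h1 : P.a ≡ -1 [ZMOD 4] := by
      have := a_mod_four P
      unfold Int.ModEq; omega
    have h2 : P.a ^ P.p ≡ (-1) ^ P.p [ZMOD 4] := h1.pow _
    rw [P.hp_odd.neg_one_pow] at h2
    have := h2.dvd
    have e : P.a ^ P.p + 1 = -(-1 - P.a ^ P.p) := by ring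
    rw [e, dvd_neg]
    exact this
  have e : P.b ^ P.p - 1 - P.a ^ P.p = P.b ^ P.p - (P.a ^ P.p + 1) := by ring
  rw [e]
  exact dvd_sub hb ha

theorem sixteen_dvd : (16 : ℤ) ∣ P.b ^ P.p := by
  obtain ⟨k, hk⟩ := two_dvd_b P
  have hp5 := P.hp5
  obtain ⟨m, hm⟩ : ∃ m, P.p = m + 4 := ⟨P.p - 4, by omega⟩
  rw [hm, hk]
  exact ⟨2 ^ m * k ^ (m + 4), by ring⟩

/-- the integer `a₂` of the Frey model. -/
def n₂ : ℤ := (P.b ^ P.p - 1 - P.a ^ P.p) / 4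

/-- the integer `a₄` of the Frey model. -/
def n₄ : ℤ := -(P.a ^ P.p) * (P.b ^ P.p / 16)

theorem four_mul_n₂ : 4 * n₂ P = P.b ^ P.p - 1 - P.a ^ P.p :=
  Int.mul_ediv_cancel' (four_dvd P)

theorem sixteen_mul_n₄ : 16 * n₄ P = -(P.a ^ P.p * P.b ^ P.p) := by
  unfold n₄
  have := Int.mul_ediv_cancel' (sixteen_dvd P)
  linear_combination (-(P.a ^ P.p)) * this

/-! ### the coefficients of the Frey model over `Qbar` -/

theorem a₁_eq : (P.freyCurve⁄Qbar).a₁ = 1 := by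
  simp [WeierstrassCurve.baseChange, WeierstrassCurve.map, FreyPackage.freyCurve]

theorem a₃_eq : (P.freyCurve⁄Qbar).a₃ = 0 := by
  simp [WeierstrassCurve.baseChange, WeierstrassCurve.map, FreyPackage.freyCurve]

theorem a₆_eq : (P.freyCurve⁄Qbar).a₆ = 0 := by
  simp [WeierstrassCurve.baseChange, WeierstrassCurve.map, FreyPackage.freyCurve]

theorem a₂_eq' :
    (P.freyCurve⁄Qbar).a₂ = (((P.b : Qbar)) ^ P.p - 1 - ((P.a : Qbar)) ^ P.p) / 4 := by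
  simp [WeierstrassCurve.baseChange, WeierstrassCurve.map, FreyPackage.freyCurve]

theorem a₄_eq' :
    (P.freyCurve⁄Qbar).a₄ = -(((P.a : Qbar)) ^ P.p) * ((P.b : Qbar)) ^ P.p / 16 := by
  simp [WeierstrassCurve.baseChange, WeierstrassCurve.map, FreyPackage.freyCurve]

/-- `a₂` is (the cast of) an integer. -/
theorem a₂_eq : (P.freyCurve⁄Qbar).a₂ = ((n₂ P : ℤ) : Qbar) := by
  rw [a₂_eq']
  have h := congrArg (fun z : ℤ => (z : Qbar)) (four_mul_n₂ P)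
  simp only [Int.cast_mul, Int.cast_sub, Int.cast_pow, Int.cast_one, Int.cast_ofNat] at h
  rw [← h]
  field_simp

/-- `a₄` is (the cast of) an integer. -/
theorem a₄_eq : (P.freyCurve⁄Qbar).a₄ = ((n₄ P : ℤ) : Qbar) := by
  rw [a₄_eq']
  have h := congrArg (fun z : ℤ => (z : Qbar)) (sixteen_mul_n₄ P)
  simp only [Int.cast_mul, Int.cast_neg, Int.cast_pow, Int.cast_ofNat] at h
  have h16 : (16 : Qbar) ≠ 0 := by norm_num
  field_simp
  linear_combination -h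

theorem b₂_eq : (P.freyCurve⁄Qbar).b₂ = ((P.b ^ P.p - P.a ^ P.p : ℤ) : Qbar) := by
  simp only [WeierstrassCurve.b₂, a₁_eq, a₂_eq']
  push_cast
  ring

theorem b₄_eq : (P.freyCurve⁄Qbar).b₄ = 2 * (P.freyCurve⁄Qbar).a₄ := by
  simp only [WeierstrassCurve.b₄, a₃_eq]
  ring

theorem b₆_eq : (P.freyCurve⁄Qbar).b₆ = 0 := by
  simp only [WeierstrassCurve.b₆, a₃_eq, a₆_eq]
  ring

theorem b₈_eq : (P.freyCurve⁄Qbar).b₈ = -(P.freyCurve⁄Qbar).a₄ ^ 2 := by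
  simp only [WeierstrassCurve.b₈, a₃_eq, a₆_eq]
  ring

/-! ### integrality -/

variable {P}

theorem a₁_mem (A : ValuationSubring Qbar) : (P.freyCurve⁄Qbar).a₁ ∈ A := by
  rw [a₁_eq]; exact A.one_mem

theorem a₂_mem (A : ValuationSubring Qbar) : (P.freyCurve⁄Qbar).a₂ ∈ A := by
  rw [a₂_eq]; exact intCast_mem A _

theorem a₃_mem (A : ValuationSubring Qbar) : (P.freyCurve⁄Qbar).a₃ ∈ A := by
  rw [a₃_eq]; exact A.zero_mem

theorem a₄_mem (A : ValuationSubring Qbar) : (P.freyCurve⁄Qbar).a₄ ∈ A := by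
  rw [a₄_eq]; exact intCast_mem A _

theorem a₆_mem (A : ValuationSubring Qbar) : (P.freyCurve⁄Qbar).a₆ ∈ A := by
  rw [a₆_eq]; exact A.zero_mem

theorem b₂_mem (A : ValuationSubring Qbar) : (P.freyCurve⁄Qbar).b₂ ∈ A := by
  rw [b₂_eq]; exact intCast_mem A _

theorem b₄_mem (A : ValuationSubring Qbar) : (P.freyCurve⁄Qbar).b₄ ∈ A := by
  rw [b₄_eq]
  exact A.mul_mem _ _ (by exact_mod_cast natCast_mem A 2) (a₄_mem A)

theorem b₆_mem (A : ValuationSubring Qbar) : (P.freyCurve⁄Qbar).b₆ ∈ A := by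
  rw [b₆_eq]; exact A.zero_mem

theorem b₈_mem (A : ValuationSubring Qbar) : (P.freyCurve⁄Qbar).b₈ ∈ A := by
  rw [b₈_eq]
  exact A.neg_mem _ (pow_mem (a₄_mem A) 2)

theorem val_a₁_le (A : ValuationSubring Qbar) : A.valuation (P.freyCurve⁄Qbar).a₁ ≤ 1 :=
  (A.valuation_le_one_iff _).mpr (a₁_mem A)

theorem val_a₂_le (A : ValuationSubring Qbar) : A.valuation (P.freyCurve⁄Qbar).a₂ ≤ 1 :=
  (A.valuation_le_one_iff _).mpr (a₂_mem A)

theorem val_a₄_le (A : ValuationSubring Qbar) : A.valuation (P.freyCurve⁄Qbar).a₄ ≤ 1 :=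
  (A.valuation_le_one_iff _).mpr (a₄_mem A)

/-! ### the discriminant -/

variable (P)

theorem Δ_eq : 256 * (P.freyCurve⁄Qbar).Δ =
    (((P.a : Qbar)) ^ P.p * ((P.b : Qbar)) ^ P.p * ((P.c : Qbar)) ^ P.p) ^ 2 := by
  have hFLT : ((P.a : Qbar)) ^ P.p + ((P.b : Qbar)) ^ P.p = ((P.c : Qbar)) ^ P.p := by
    have := congrArg (fun z : ℤ => (z : Qbar)) P.hFLT
    simpa using this
  simp only [WeierstrassCurve.Δ, WeierstrassCurve.b₂, WeierstrassCurve.b₄, WeierstrassCurve.b₆,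
    WeierstrassCurve.b₈, a₁_eq, a₃_eq, a₆_eq, a₂_eq', a₄_eq']
  rw [← hFLT]
  ring

theorem Δ_ne_zero : (P.freyCurve⁄Qbar).Δ ≠ 0 := by
  intro h
  have h1 := Δ_eq P
  rw [h, mul_zero] at h1
  have ha : (P.a : Qbar) ≠ 0 := Int.cast_ne_zero.mpr P.ha0
  have hb : (P.b : Qbar) ≠ 0 := Int.cast_ne_zero.mpr P.hb0
  have hc : (P.c : Qbar) ≠ 0 := Int.cast_ne_zero.mpr P.hc0
  exact (pow_ne_zero 2 (mul_ne_zero (mul_ne_zero (pow_ne_zero _ ha) (pow_ne_zero _ hb))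
    (pow_ne_zero _ hc))) h1.symm

instance isElliptic : (P.freyCurve⁄Qbar).IsElliptic :=
  ⟨isUnit_iff_ne_zero.mpr (Δ_ne_zero P)⟩

/-! ### at a place over `2` -/

theorem exists_b_eq : ∃ (e : ℕ) (b' : ℤ), 0 < e ∧ ¬ (2 : ℤ) ∣ b' ∧ P.b = 2 ^ e * b' := by
  have hfin : FiniteMultiplicity (2 : ℤ) P.b :=
    Int.finiteMultiplicity_iff.mpr ⟨by decide, P.hb0⟩
  obtain ⟨c, hc, hndvd⟩ := hfin.exists_eq_pow_mul_and_not_dvd
  refine ⟨multiplicity (2 : ℤ) P.b, c, ?_, hndvd, hc⟩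
  rcases Nat.eq_zero_or_pos (multiplicity (2 : ℤ) P.b) with h0 | hpos
  · exfalso
    rw [h0, pow_zero, one_mul] at hc
    exact hndvd (hc ▸ two_dvd_b P)
  · exact hpos

theorem not_two_dvd_pow_sub : ¬ (2 : ℤ) ∣ P.b ^ P.p - P.a ^ P.p := by
  intro h
  have hb : (2 : ℤ) ∣ P.b ^ P.p := dvd_pow (two_dvd_b P) P.hp0
  have ha : (2 : ℤ) ∣ P.a ^ P.p := by
    have := dvd_sub hb h
    simpa using this
  exact not_two_dvd_a P (Int.prime_two.dvd_of_dvd_pow ha)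

theorem a₄_ne_zero : (P.freyCurve⁄Qbar).a₄ ≠ 0 := by
  rw [a₄_eq' P]
  have ha : (P.a : Qbar) ≠ 0 := Int.cast_ne_zero.mpr P.ha0
  have hb : (P.b : Qbar) ≠ 0 := Int.cast_ne_zero.mpr P.hb0
  exact div_ne_zero (mul_ne_zero (neg_ne_zero.mpr (pow_ne_zero _ ha)) (pow_ne_zero _ hb))
    (by norm_num)

variable {P}

theorem two_mem_nonunits {A : ValuationSubring Qbar} (hA : A.LiesOverPrime 2) :
    ((2 : ℕ) : Qbar) ∈ A.nonunits := hA

theorem val_b₂_eq_one {A : ValuationSubring Qbar} (hA : A.LiesOverPrime 2) :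
    A.valuation (P.freyCurve⁄Qbar).b₂ = 1 := by
  rw [b₂_eq]
  exact Fermat.Agent.S05.FreyArith.val_intCast_eq_one A Nat.prime_two (two_mem_nonunits hA)
    (by exact_mod_cast not_two_dvd_pow_sub P)

/-- `v(a₄) = v(2)^(p e - 4)` where `2^e ∥ b`. -/
theorem exists_val_a₄ {A : ValuationSubring Qbar} (hA : A.LiesOverPrime 2) :
    ∃ e : ℕ, 0 < e ∧ 4 < P.p * e ∧
      A.valuation (P.freyCurve⁄Qbar).a₄ = A.valuation (2 : Qbar) ^ (P.p * e - 4) := by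
  obtain ⟨e, b', he, hb', hb⟩ := exists_b_eq P
  have hp5 := P.hp5
  have hpe : 4 < P.p * e := by nlinarith
  refine ⟨e, he, hpe, ?_⟩
  have hA' := two_mem_nonunits hA
  have hva : A.valuation ((P.a : Qbar) ^ P.p) = 1 :=
    Fermat.Agent.S05.FreyArith.val_intCast_pow_eq_one A Nat.prime_two hA'
      (by exact_mod_cast not_two_dvd_a P) _
  have hvb' : A.valuation ((b' : Qbar) ^ P.p) = 1 :=
    Fermat.Agent.S05.FreyArith.val_intCast_pow_eq_one A Nat.prime_two hA'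
      (by exact_mod_cast hb') _
  have h2 : (2 : Qbar) ≠ 0 := two_ne_zero
  have key : (P.freyCurve⁄Qbar).a₄ =
      -((P.a : Qbar) ^ P.p) * (b' : Qbar) ^ P.p * (2 : Qbar) ^ (P.p * e - 4) := by
    rw [a₄_eq' P, hb]
    push_cast
    have h16 : (16 : Qbar) = 2 ^ 4 := by norm_num
    have hsplit : ((2 : Qbar) ^ e) ^ P.p = 2 ^ (P.p * e - 4) * 2 ^ 4 := by
      rw [← pow_mul, ← pow_add]
      congr 1
      have : e * P.p = P.p * e := Nat.mul_comm _ _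
      omega
    rw [mul_pow, hsplit, h16]
    field_simp
  rw [key, map_mul, map_mul, Valuation.map_neg, hva, hvb', one_mul, one_mul, map_pow]

theorem val_a₄_lt_one {A : ValuationSubring Qbar} (hA : A.LiesOverPrime 2) :
    A.valuation (P.freyCurve⁄Qbar).a₄ < 1 := by
  obtain ⟨e, _, hpe, hv⟩ := exists_val_a₄ (P := P) hA
  rw [hv]
  have h2 : A.valuation (2 : Qbar) < 1 := by
    have := (A.mem_nonunits_iff).mp (two_mem_nonunits hA)
    simpa using this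
  exact pow_lt_one₀ zero_le h2 (by omega)

end Fermat.Agent.S13.FreyModel
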