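/-
S13 / block Bp, piece SS (helper36): the "supersingular" configuration at a place `A | p` is
impossible as soon as there is a `G_ℚ`-stable proper nonzero submodule `X` of `E[p]`.

Inputs (both elementary):
* `(Σ)`  (division-polynomial / ladder block): for every finite set `S` of abscissas of nonzero
  `p`-torsion points, all non-integral at `A`:  `∏_{r ∈ S} v(r) ≤ v(p)⁻¹`;
* `RationalProduct` (helper38): a nonempty finite `G_ℚ`-stable set `s ⊆ ℚ̄` all of whose elements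
  are non-integral at `A` has `v(p)⁻¹ ≤ ∏_{x ∈ s} v(x)`.

Take `s := x(X ∖ 0)` and `S := s ∪ {x(T₀)}` with `T₀ ∉ X`.
-/
import Mathlib
import Fermat.Prelude.Def_FLTPrelim_FreyPackage
import Fermat.Prelude.Def_FLTPrelim_GaloisRep
import Fermat.Prelude.Def_FLTPrelim_Ramification
import Fermat.Agent.S13.XOnlyGen
import Fermat.Agent.S13.RationalProduct

set_option autoImplicit false
open WeierstrassCurve WeierstrassCurve.Affine WeierstrassCurve.Affine.Point

namespace Fermat.Agent.S13.Supersingular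

open Fermat.Agent.S13.XOnlyGen

local notation "Qbar" => AlgebraicClosure ℚ
local notation "GQ" => (AlgebraicClosure ℚ ≃ₐ[ℚ] AlgebraicClosure ℚ)

section General

variable {W' : Affine ℚ}

/-- the abscissa is Galois-equivariant. -/
theorem xc_smul (σ : GQ) (T : (W'⁄Qbar).Point) : xc (σ • T) = σ (xc T) := by
  cases T with
  | zero => exact (map_zero σ).symm
  | some x y h => rfl

/-- **SS, general form** (any Weierstrass curve over `ℚ`, any prime `p`): given the product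
bound `(Σ)` at a place `A | p`, the existence of a `G_ℚ`-stable proper nonzero submodule of the
(finite) `p`-torsion forces some nonzero `p`-torsion point to have `A`-integral abscissa. -/
theorem not_forall_xc_not_mem {p : ℕ} (hp : p.Prime) (A : ValuationSubring Qbar)
    (hA : A.LiesOverPrime p)
    (X : Submodule (ZMod p) (Submodule.torsionBy ℤ (W'⁄Qbar).Point p))
    (hX : IsGaloisStable ℚ X) (hbot : X ≠ ⊥) (htop : X ≠ ⊤)
    (hfin : Finite (Submodule.torsionBy ℤ (W'⁄Qbar).Point p))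
    (hSigma : ∀ S : Finset Qbar,
      (∀ r ∈ S, ∃ T : (W'⁄Qbar).Point, T ≠ 0 ∧ p • T = 0 ∧ xc T = r) →
      (∀ r ∈ S, r ∉ A) → ∏ r ∈ S, A.valuation r ≤ (A.valuation (p : Qbar))⁻¹) :
    ¬ ∀ T : (W'⁄Qbar).Point, T ≠ 0 → p • T = 0 → xc T ∉ A := by
  classical
  intro hall
  have : Fintype (Submodule.torsionBy ℤ (W'⁄Qbar).Point p) := Fintype.ofFinite _
  -- torsion facts
  have htors : ∀ t : Submodule.torsionBy ℤ (W'⁄Qbar).Point p,
      p • (t : (W'⁄Qbar).Point) = 0 := by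
    intro t
    have h := t.2
    rw [Submodule.mem_torsionBy_iff, natCast_zsmul] at h
    exact h
  have hne0 : ∀ t : Submodule.torsionBy ℤ (W'⁄Qbar).Point p, t ≠ 0 →
      (t : (W'⁄Qbar).Point) ≠ 0 := by
    intro t ht h
    exact ht (Subtype.ext h)
  have hbig : ∀ t : Submodule.torsionBy ℤ (W'⁄Qbar).Point p, t ≠ 0 →
      1 < A.valuation (xc (t : (W'⁄Qbar).Point)) := by
    intro t ht
    have h := hall _ (hne0 t ht) (htors t)
    rw [← A.valuation_le_one_iff] at h
    exact not_le.mp h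
  -- the stable set of abscissas of `X ∖ 0`
  set s : Finset Qbar :=
    (Finset.univ.filter (fun t : Submodule.torsionBy ℤ (W'⁄Qbar).Point p => t ∈ X ∧ t ≠ 0)).image
      (fun t : Submodule.torsionBy ℤ (W'⁄Qbar).Point p => xc (t : (W'⁄Qbar).Point)) with hs
  have hmem : ∀ r, r ∈ s ↔ ∃ t : Submodule.torsionBy ℤ (W'⁄Qbar).Point p,
      (t ∈ X ∧ t ≠ 0) ∧ xc (t : (W'⁄Qbar).Point) = r := by
    intro r
    simp [hs]
  have hsne : s.Nonempty := by
    obtain ⟨t, htX, ht0⟩ := (Submodule.ne_bot_iff X).mp hbot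
    exact ⟨_, (hmem _).mpr ⟨t, ⟨htX, ht0⟩, rfl⟩⟩
  have hstab : ∀ σ : GQ, ∀ x ∈ s, σ x ∈ s := by
    intro σ x hx
    obtain ⟨t, ⟨htX, ht0⟩, rfl⟩ := (hmem _).mp hx
    refine (hmem _).mpr ⟨σ • t, ⟨hX σ t htX, ?_⟩, ?_⟩
    · intro h
      apply ht0
      have := congrArg (fun u => σ⁻¹ • u) h
      simpa using this
    · exact xc_smul σ (t : (W'⁄Qbar).Point)
  have hsbig : ∀ x ∈ s, 1 < A.valuation x := by
    intro x hx
    obtain ⟨t, ⟨_, ht0⟩, rfl⟩ := (hmem _).mp hx
    exact hbig t ht0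
  have hlow := RationalProduct.inv_valuation_prime_le_prod_algebraicClosure hp hA s hsne hstab hsbig
  -- a point outside `X`
  obtain ⟨t₀, ht₀⟩ : ∃ t₀ : Submodule.torsionBy ℤ (W'⁄Qbar).Point p, t₀ ∉ X := by
    by_contra h
    exact htop (eq_top_iff.mpr fun t _ => not_not.mp fun ht => h ⟨t, ht⟩)
  have ht₀0 : t₀ ≠ 0 := by
    rintro rfl
    exact ht₀ X.zero_mem
  have hr₀ : xc (t₀ : (W'⁄Qbar).Point) ∉ s := by
    intro h
    obtain ⟨t, ⟨htX, ht0⟩, hx⟩ := (hmem _).mp h
    rcases eq_or_eq_neg_of_xc_eq (hne0 t ht0) (hne0 t₀ ht₀0) hx with h1 | h1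
    · exact ht₀ ((Subtype.ext h1 : t = t₀) ▸ htX)
    · have : t₀ = -t := by
        apply Subtype.ext
        rw [Submodule.coe_neg, h1, neg_neg]
      exact ht₀ (this ▸ X.neg_mem htX)
  -- apply `(Σ)` to `insert (x t₀) s`
  have hup := hSigma (insert (xc (t₀ : (W'⁄Qbar).Point)) s) (by
      intro r hr
      rcases Finset.mem_insert.mp hr with rfl | hr
      · exact ⟨_, hne0 t₀ ht₀0, htors t₀, rfl⟩
      · obtain ⟨t, ⟨_, ht0⟩, hx⟩ := (hmem _).mp hr
        exact ⟨_, hne0 t ht0, htors t, hx⟩) (by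
      intro r hr
      rcases Finset.mem_insert.mp hr with rfl | hr
      · exact hall _ (hne0 t₀ ht₀0) (htors t₀)
      · obtain ⟨t, ⟨_, ht0⟩, rfl⟩ := (hmem _).mp hr
        exact hall _ (hne0 t ht0) (htors t))
  rw [Finset.prod_insert hr₀] at hup
  have hpos : 0 < ∏ x ∈ s, A.valuation x :=
    lt_of_lt_of_le (by
      rw [inv_pos]
      exact RationalProduct.valuation_prime_pos hp) hlow
  have hlt : ∏ x ∈ s, A.valuation x <
      A.valuation (xc (t₀ : (W'⁄Qbar).Point)) * ∏ x ∈ s, A.valuation x :=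
    lt_mul_of_one_lt_left hpos (hbig t₀ ht₀0)
  exact absurd (hlt.trans_le (hup.trans hlow)) (lt_irrefl _)

end General

section Frey

/-- **SS for the Frey curve**, in the shape of the S13 block map: `(Σ)` (`hSigma`) and finiteness of
`E[p]` are taken as hypotheses (they are the exports of the division-polynomial block). -/
theorem frey (P : FreyPackage) (A : ValuationSubring Qbar) (hA : A.LiesOverPrime P.p)
    (X : Submodule (ZMod P.p) (Submodule.torsionBy ℤ (P.freyCurve⁄Qbar).Point P.p))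
    (hX : IsGaloisStable ℚ X) (hbot : X ≠ ⊥) (htop : X ≠ ⊤)
    (hfin : Finite (Submodule.torsionBy ℤ (P.freyCurve⁄Qbar).Point P.p))
    (hSigma : ∀ S : Finset Qbar,
      (∀ r ∈ S, ∃ T : (P.freyCurve⁄Qbar).Point, T ≠ 0 ∧ P.p • T = 0 ∧ xc T = r) →
      (∀ r ∈ S, r ∉ A) → ∏ r ∈ S, A.valuation r ≤ (A.valuation (P.p : Qbar))⁻¹) :
    ¬ ∀ T : (P.freyCurve⁄Qbar).Point, T ≠ 0 → P.p • T = 0 → xc T ∉ A :=
  not_forall_xc_not_mem P.pp A hA X hX hbot htop hfin hSigma

/-- Same, in positive form: some nonzero `p`-torsion point has `A`-integral abscissa. -/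
theorem frey_exists_integral (P : FreyPackage) (A : ValuationSubring Qbar)
    (hA : A.LiesOverPrime P.p)
    (X : Submodule (ZMod P.p) (Submodule.torsionBy ℤ (P.freyCurve⁄Qbar).Point P.p))
    (hX : IsGaloisStable ℚ X) (hbot : X ≠ ⊥) (htop : X ≠ ⊤)
    (hfin : Finite (Submodule.torsionBy ℤ (P.freyCurve⁄Qbar).Point P.p))
    (hSigma : ∀ S : Finset Qbar,
      (∀ r ∈ S, ∃ T : (P.freyCurve⁄Qbar).Point, T ≠ 0 ∧ P.p • T = 0 ∧ xc T = r) →
      (∀ r ∈ S, r ∉ A) → ∏ r ∈ S, A.valuation r ≤ (A.valuation (P.p : Qbar))⁻¹) :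
    ∃ T : (P.freyCurve⁄Qbar).Point, T ≠ 0 ∧ P.p • T = 0 ∧ xc T ∈ A := by
  by_contra h
  exact frey P A hA X hX hbot htop hfin hSigma fun T hT hpT hx => h ⟨T, hT, hpT, hx⟩

end Frey

end Fermat.Agent.S13.Supersingular
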