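/-
S13, block (Σ) for the Frey curve (owner: helper30).

`sigma_general`: the product bound (Σ) in EXACTLY the `hSigma` shape of `Supersingular.frey`
(helper36), for any Weierstrass curve with `b`-invariants in a valuation subring `A` over an odd
prime `p`, derived from `UDivPoly.valuation_le_prod_image` (unnormalised division polynomials).
`sigma_frey`: the instance for the Frey curve; `supersingular_frey`: `Supersingular.frey` without
the hypothesis `hSigma`.
-/
import Mathlib
import Fermat.Agent.S13.UDivPoly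
import Fermat.Agent.S13.FreyModel
import Fermat.Agent.S13.Supersingular

set_option autoImplicit false

namespace Fermat.Agent.S13.SigmaFrey

open WeierstrassCurve WeierstrassCurve.Affine Fermat.Agent.S13.XOnlyGen

local notation "Qbar" => AlgebraicClosure ℚ

section General

variable {K : Type*} [Field K] [DecidableEq K] [CharZero K] (A : ValuationSubring K)
  (W : WeierstrassCurve K)

/-- **(Σ)** in the `hSigma` shape: for distinct non-integral abscissas `r` of nonzero `p`-torsion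
points, `∏ v(r) ≤ v(p)⁻¹`. -/
theorem sigma_general (hb₂ : W.b₂ ∈ A) (hb₄ : W.b₄ ∈ A) (hb₆ : W.b₆ ∈ A) (hb₈ : W.b₈ ∈ A)
    {p : ℕ} (hp : p.Prime) (hp3 : 3 ≤ p) (hodd : Odd p) (hpA : (p : K) ∈ A.nonunits)
    (S : Finset K)
    (hS : ∀ r ∈ S, ∃ T : W.toAffine.Point, T ≠ 0 ∧ p • T = 0 ∧ xc T = r)
    (hSA : ∀ r ∈ S, r ∉ A) :
    ∏ r ∈ S, A.valuation r ≤ (A.valuation (p : K))⁻¹ := by
  classical
  obtain ⟨m, hpm'⟩ := hodd
  have hpm : p = 2 * m + 1 := hpm'
  have hm : 1 ≤ m := by omega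
  -- choose a point over each abscissa
  have hex : ∀ r : K, ∃ T : W.toAffine.Point, r ∈ S → (T ≠ 0 ∧ p • T = 0 ∧ xc T = r) := by
    intro r
    by_cases h : r ∈ S
    · obtain ⟨T, hT⟩ := hS r h
      exact ⟨T, fun _ => hT⟩
    · exact ⟨0, fun h' => absurd h' h⟩
  choose τ hτ using hex
  set V₀ : Finset W.toAffine.Point := S.image τ with hV₀
  have hV : ∀ T ∈ V₀, T ≠ 0 ∧ p • T = 0 ∧ 1 < A.valuation (xc T) := by
    intro T hT
    obtain ⟨r, hr, rfl⟩ := Finset.mem_image.mp hT
    obtain ⟨h0, hpT, hx⟩ := hτ r hr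
    refine ⟨h0, hpT, ?_⟩
    rw [hx]
    exact not_le.mp fun hle => hSA r hr ((A.valuation_le_one_iff r).mp hle)
  have key := UDivPoly.valuation_le_prod_image A W hb₂ hb₄ hb₆ hb₈ hp m hm hpm hpA V₀ hV
  have himg : V₀.image (fun T => (xc T)⁻¹) = S.image (fun r => r⁻¹) := by
    rw [hV₀, Finset.image_image]
    refine Finset.image_congr fun r hr => ?_
    simp only [Function.comp]
    rw [(hτ r hr).2.2]
  rw [himg, Finset.prod_image (fun a _ b _ h => inv_injective h)] at key
  have hinv : ∏ r ∈ S, A.valuation r⁻¹ = (∏ r ∈ S, A.valuation r)⁻¹ := by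
    rw [← Finset.prod_inv_distrib]
    exact Finset.prod_congr rfl fun r _ => map_inv₀ _ _
  rw [hinv] at key
  have hp0 : (p : K) ≠ 0 := Nat.cast_ne_zero.mpr hp.ne_zero
  have hppos : 0 < A.valuation (p : K) := (Valuation.pos_iff _).mpr hp0
  have hprodpos : 0 < ∏ r ∈ S, A.valuation r := by
    rw [pos_iff_ne_zero, Finset.prod_ne_zero_iff]
    intro r hr
    refine (Valuation.ne_zero_iff _).mpr ?_
    rintro rfl
    exact hSA 0 hr A.zero_mem
  exact (le_inv_comm₀ hppos hprodpos).mp key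

end General

/-- **(Σ) for the Frey curve**, the hypothesis `hSigma` of `Supersingular.frey`. -/
theorem sigma_frey (P : FreyPackage) (A : ValuationSubring Qbar) (hA : A.LiesOverPrime P.p)
    (S : Finset Qbar)
    (hS : ∀ r ∈ S, ∃ T : (P.freyCurve⁄Qbar).Point, T ≠ 0 ∧ P.p • T = 0 ∧ xc T = r)
    (hSA : ∀ r ∈ S, r ∉ A) :
    ∏ r ∈ S, A.valuation r ≤ (A.valuation (P.p : Qbar))⁻¹ :=
  sigma_general A (P.freyCurve⁄Qbar) (FreyModel.b₂_mem A) (FreyModel.b₄_mem A)
    (FreyModel.b₆_mem A) (FreyModel.b₈_mem A) P.pp (by have := P.hp5; omega) P.hp_odd hA S hS hSA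

/-- **Supersingular exclusion for the Frey curve**, unconditional in `(Σ)`: if `E[p]` is finite
and `X` is a proper nonzero `G_ℚ`-stable submodule, then some nonzero `p`-torsion point has an
`A`-integral abscissa. -/
theorem supersingular_frey (P : FreyPackage) (A : ValuationSubring Qbar)
    (hA : A.LiesOverPrime P.p)
    (X : Submodule (ZMod P.p) (Submodule.torsionBy ℤ (P.freyCurve⁄Qbar).Point P.p))
    (hX : Point.IsGaloisStable ℚ X) (hbot : X ≠ ⊥) (htop : X ≠ ⊤)
    (hfin : Finite (Submodule.torsionBy ℤ (P.freyCurve⁄Qbar).Point P.p)) :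
    ¬ ∀ T : (P.freyCurve⁄Qbar).Point, T ≠ 0 → P.p • T = 0 → xc T ∉ A :=
  Supersingular.frey P A hA X hX hbot htop hfin (sigma_frey P A hA)

end Fermat.Agent.S13.SigmaFrey
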