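/-
S13 helper (helper23): abstract linear-algebra core of the reduction.

`V` is a `ZMod p`-module with `p ^ 2` elements on which a group `Γ` acts additively, `N` a
`Γ`-stable line.  We construct the two characters `χ₁` (on `N`) and `χ₂` (on `V ⧸ N`) and prove:
if every "unramified" element acts unipotently, a chosen "inertia group at `p`" acts trivially
modulo a proper submodule (or has no stable line at all), `V` has no nonzero fixed vector, and
every character which is trivial on all those elements is trivial, then `Γ` acts trivially on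
`V ⧸ N`.
-/
import Mathlib

set_option autoImplicit false
set_option linter.unusedSectionVars false

namespace Fermat.Agent.S13.AbstractCore

variable {p : ℕ} [hp : Fact p.Prime] {Γ V : Type*} [Group Γ] [AddCommGroup V]
  [Module (ZMod p) V] [DistribMulAction Γ V]

lemma smul_zmod_comm (σ : Γ) (a : ZMod p) (x : V) : σ • (a • x) = a • (σ • x) := by
  have ha : a = ((a.val : ℕ) : ZMod p) := (ZMod.natCast_zmod_val a).symm
  rw [ha, Nat.cast_smul_eq_nsmul, Nat.cast_smul_eq_nsmul]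
  exact map_nsmul (DistribSMul.toAddMonoidHom V σ) a.val x

lemma finite_of_card (hcard : Nat.card V = p ^ 2) : Finite V :=
  Nat.finite_of_card_ne_zero (by rw [hcard]; exact pow_ne_zero _ hp.out.ne_zero)

lemma finrank_eq_two (hcard : Nat.card V = p ^ 2) : Module.finrank (ZMod p) V = 2 := by
  have := finite_of_card hcard
  have : Module.Finite (ZMod p) V := Module.Finite.of_finite
  have h := Module.natCard_eq_pow_finrank (K := ZMod p) (V := V)
  rw [hcard, Nat.card_zmod] at h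
  exact (Nat.pow_right_injective hp.out.two_le h).symm

/-- A proper nonzero submodule of a `p ^ 2`-element module is a line. -/
lemma finrank_line (hcard : Nat.card V = p ^ 2) {N : Submodule (ZMod p) V} (hN0 : N ≠ ⊥)
    (hN1 : N ≠ ⊤) : Module.finrank (ZMod p) N = 1 := by
  have := finite_of_card hcard
  have : Module.Finite (ZMod p) V := Module.Finite.of_finite
  have h2 := finrank_eq_two hcard
  have hlt : Module.finrank (ZMod p) N < Module.finrank (ZMod p) V :=
    Submodule.finrank_lt hN1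
  have hpos : 0 < Module.finrank (ZMod p) N := by
    rw [Module.finrank_pos_iff]
    exact (Submodule.nontrivial_iff_ne_bot).mpr hN0
  omega

/-- The structure of a line `N` in a `p ^ 2`-element module with chosen `n₀ ∈ N`, `v₀ ∉ N`. -/
lemma mem_line (hcard : Nat.card V = p ^ 2) {N : Submodule (ZMod p) V} (hN0 : N ≠ ⊥)
    (hN1 : N ≠ ⊤) {n₀ : V} (hn₀ : n₀ ∈ N) (hn₀0 : n₀ ≠ 0) {w : V} (hw : w ∈ N) :
    ∃ c : ZMod p, w = c • n₀ := by
  have h1 := finrank_line hcard hN0 hN1
  have := (finrank_eq_one_iff_of_nonzero' (⟨n₀, hn₀⟩ : N)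
    (by intro h; exact hn₀0 (congrArg Subtype.val h))).mp h1 ⟨w, hw⟩
  obtain ⟨c, hc⟩ := this
  exact ⟨c, by simpa using (congrArg Subtype.val hc).symm⟩

lemma decomp (hcard : Nat.card V = p ^ 2) {N : Submodule (ZMod p) V} (hN0 : N ≠ ⊥)
    (hN1 : N ≠ ⊤) {v₀ : V} (hv₀ : v₀ ∉ N) (x : V) :
    ∃ a : ZMod p, x - a • v₀ ∈ N := by
  have := finite_of_card hcard
  have : Module.Finite (ZMod p) V := Module.Finite.of_finite
  have h1 := finrank_line hcard hN0 hN1
  have h2 := finrank_eq_two hcard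
  have hq : Module.finrank (ZMod p) (V ⧸ N) = 1 := by
    have := Submodule.finrank_quotient_add_finrank N
    omega
  have hq0 : (Submodule.Quotient.mk v₀ : V ⧸ N) ≠ 0 := by
    rwa [Ne, Submodule.Quotient.mk_eq_zero]
  obtain ⟨a, ha⟩ := (finrank_eq_one_iff_of_nonzero' _ hq0).mp hq (Submodule.Quotient.mk x)
  refine ⟨a, ?_⟩
  rw [← Submodule.Quotient.mk_eq_zero, Submodule.Quotient.mk_sub, Submodule.Quotient.mk_smul, ha,
    sub_self]

lemma smul_mem_iff_of_not_mem {N : Submodule (ZMod p) V} {v₀ : V} (hv₀ : v₀ ∉ N) (a : ZMod p) :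
    a • v₀ ∈ N ↔ a = 0 := by
  constructor
  · intro h
    by_contra ha
    apply hv₀
    have := N.smul_mem a⁻¹ h
    rwa [smul_smul, inv_mul_cancel₀ ha, one_smul] at this
  · rintro rfl; simp


lemma eq_of_sub_smul_mem {N : Submodule (ZMod p) V} {v₀ : V} (hv₀ : v₀ ∉ N) {x : V} {a b : ZMod p}
    (ha : x - a • v₀ ∈ N) (hb : x - b • v₀ ∈ N) : a = b := by
  have h : (b - a) • v₀ ∈ N := by
    have := N.sub_mem ha hb
    have e : x - a • v₀ - (x - b • v₀) = (b - a) • v₀ := by rw [sub_smul]; abel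
    rwa [e] at this
  have := (smul_mem_iff_of_not_mem hv₀ _).mp h
  exact (sub_eq_zero.mp this).symm

/-- The two characters attached to a stable line. -/
theorem exists_chars (hcard : Nat.card V = p ^ 2) (N : Submodule (ZMod p) V)
    (hNst : ∀ σ : Γ, ∀ x ∈ N, σ • x ∈ N) (hN0 : N ≠ ⊥) (hN1 : N ≠ ⊤) :
    ∃ χ₁ χ₂ : Γ →* (ZMod p)ˣ,
      (∀ σ, ∀ x ∈ N, σ • x = ((χ₁ σ : (ZMod p)ˣ) : ZMod p) • x) ∧
      (∀ σ, ∀ x : V, σ • x - ((χ₂ σ : (ZMod p)ˣ) : ZMod p) • x ∈ N) := by
  classical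
  obtain ⟨n₀, hn₀, hn₀0⟩ := Submodule.exists_mem_ne_zero_of_ne_bot hN0
  obtain ⟨v₀, hv₀⟩ : ∃ v₀ : V, v₀ ∉ N := by
    by_contra h
    push Not at h
    exact hN1 (Submodule.eq_top_iff'.mpr h)
  have hinj : Function.Injective (fun c : ZMod p => c • n₀) := smul_left_injective (ZMod p) hn₀0
  -- first character
  have h1 : ∀ σ : Γ, ∃ c : ZMod p, σ • n₀ = c • n₀ := fun σ =>
    mem_line hcard hN0 hN1 hn₀ hn₀0 (hNst σ n₀ hn₀)
  choose c₁ hc₁ using h1
  let f₁ : Γ →* ZMod p :=
    { toFun := c₁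
      map_one' := by
        apply hinj
        simp only [← hc₁, one_smul]
      map_mul' := fun σ τ => by
        apply hinj
        simp only
        rw [← hc₁, mul_smul, hc₁ τ, smul_zmod_comm, hc₁ σ, smul_smul, mul_comm] }
  -- second character
  have h2 : ∀ σ : Γ, ∃ d : ZMod p, σ • v₀ - d • v₀ ∈ N := fun σ => decomp hcard hN0 hN1 hv₀ _
  choose d hd using h2
  have hgen : ∀ σ : Γ, ∀ x : V, σ • x - d σ • x ∈ N := by
    intro σ x
    obtain ⟨a, ha⟩ := decomp hcard hN0 hN1 hv₀ x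
    have e : σ • x - d σ • x = a • (σ • v₀ - d σ • v₀) + (σ • (x - a • v₀) - d σ • (x - a • v₀)) := by
      rw [smul_sub σ, smul_zmod_comm, smul_sub, smul_sub, smul_comm (d σ) a v₀]
      abel
    rw [e]
    exact N.add_mem (N.smul_mem _ (hd σ)) (N.sub_mem (hNst σ _ ha) (N.smul_mem _ ha))
  let f₂ : Γ →* ZMod p :=
    { toFun := d
      map_one' := by
        have h := hd 1
        rw [one_smul] at h
        have h' : v₀ - (1 : ZMod p) • v₀ ∈ N := by simp
        exact eq_of_sub_smul_mem hv₀ h h'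
      map_mul' := fun σ τ => by
        have h := hd (σ * τ)
        have h' : (σ * τ) • v₀ - (d σ * d τ) • v₀ ∈ N := by
          have e : (σ * τ) • v₀ - (d σ * d τ) • v₀ =
              (σ • (τ • v₀) - d σ • (τ • v₀)) + d σ • (τ • v₀ - d τ • v₀) := by
            rw [mul_smul, mul_smul, smul_sub]
            abel
          rw [e]
          exact N.add_mem (hgen σ _) (N.smul_mem _ (hd τ))
        exact eq_of_sub_smul_mem hv₀ h h' }
  refine ⟨f₁.toHomUnits, f₂.toHomUnits, ?_, ?_⟩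
  · intro σ x hx
    obtain ⟨a, rfl⟩ := mem_line hcard hN0 hN1 hn₀ hn₀0 hx
    show σ • a • n₀ = c₁ σ • a • n₀
    rw [smul_zmod_comm, hc₁, smul_comm]
  · intro σ x
    exact hgen σ x


/-- **Abstract core of S13.**  `U` = elements known to act unipotently (inertia at `ℓ ≠ p`),
`I` = a chosen inertia group at `p`. -/
theorem core (hcard : Nat.card V = p ^ 2) (N : Submodule (ZMod p) V)
    (hNst : ∀ σ : Γ, ∀ x ∈ N, σ • x ∈ N) (hN0 : N ≠ ⊥) (hN1 : N ≠ ⊤)
    (U : Set Γ) (hU : ∀ σ ∈ U, ∀ x : V, σ • (σ • x - x) = σ • x - x)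
    (I : Set Γ)
    (hI : (∃ L : Submodule (ZMod p) V, L ≠ ⊤ ∧ ∀ σ ∈ I, ∀ x : V, σ • x - x ∈ L) ∨
      (∀ N' : Submodule (ZMod p) V, (∀ σ ∈ I, ∀ x ∈ N', σ • x ∈ N') → N' = ⊥ ∨ N' = ⊤))
    (hQ : ∀ x : V, (∀ σ : Γ, σ • x = x) → x = 0)
    (hM : ∀ χ : Γ →* (ZMod p)ˣ, (∀ σ : Γ, (∀ x : V, σ • x = x) → χ σ = 1) →
      (∀ σ ∈ U, χ σ = 1) → (∀ σ ∈ I, χ σ = 1) → ∀ σ, χ σ = 1) :
    ∀ σ : Γ, ∀ x : V, σ • x - x ∈ N := by
  classical
  obtain ⟨χ₁, χ₂, h₁, h₂⟩ := exists_chars hcard N hNst hN0 hN1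
  obtain ⟨n₀, hn₀, hn₀0⟩ := Submodule.exists_mem_ne_zero_of_ne_bot hN0
  obtain ⟨v₀, hv₀⟩ : ∃ v₀ : V, v₀ ∉ N := by
    by_contra h
    push Not at h
    exact hN1 (Submodule.eq_top_iff'.mpr h)
  have hinj : Function.Injective (fun c : ZMod p => c • n₀) := smul_left_injective (ZMod p) hn₀0
  -- criteria for the characters to be trivial at `σ`
  have crit₁ : ∀ σ : Γ, σ • n₀ = n₀ → χ₁ σ = 1 := by
    intro σ h
    have := h₁ σ n₀ hn₀
    rw [h] at this
    have : ((χ₁ σ : (ZMod p)ˣ) : ZMod p) = 1 := by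
      apply hinj
      simp only [one_smul]
      exact this.symm
    exact Units.ext this
  have crit₂ : ∀ σ : Γ, σ • v₀ - v₀ ∈ N → χ₂ σ = 1 := by
    intro σ h
    have h' : σ • v₀ - (1 : ZMod p) • v₀ ∈ N := by simpa using h
    exact Units.ext (eq_of_sub_smul_mem hv₀ (h₂ σ v₀) h')
  -- trivial action => both characters trivial
  have triv₁ : ∀ σ : Γ, (∀ x : V, σ • x = x) → χ₁ σ = 1 := fun σ h => crit₁ σ (h n₀)
  have triv₂ : ∀ σ : Γ, (∀ x : V, σ • x = x) → χ₂ σ = 1 := fun σ h =>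
    crit₂ σ (by rw [h v₀, sub_self]; exact N.zero_mem)
  -- unipotent action => both characters trivial
  have uni₁ : ∀ σ ∈ U, χ₁ σ = 1 := by
    intro σ hσ
    set c : ZMod p := ((χ₁ σ : (ZMod p)ˣ) : ZMod p) with hc
    have e1 : σ • n₀ = c • n₀ := h₁ σ n₀ hn₀
    have e2 := hU σ hσ n₀
    have hmem : c • n₀ - n₀ ∈ N := N.sub_mem (N.smul_mem _ hn₀) hn₀
    rw [e1, h₁ σ _ hmem] at e2
    rw [← hc] at e2
    have e3 : ((c - 1) * (c - 1)) • n₀ = (0 : ZMod p) • n₀ := by
      have e4 : (c - 1) • n₀ = c • n₀ - n₀ := by rw [sub_smul, one_smul]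
      rw [zero_smul, mul_smul, e4, sub_smul, one_smul, e2, sub_self]
    have := hinj e3
    have hc1 : c - 1 = 0 := by
      rcases mul_eq_zero.mp this with h | h <;> exact h
    exact Units.ext (sub_eq_zero.mp hc1)
  have uni₂ : ∀ σ ∈ U, χ₂ σ = 1 := by
    intro σ hσ
    set dd : ZMod p := ((χ₂ σ : (ZMod p)ˣ) : ZMod p) with hd
    -- y = σ v₀ - v₀ is fixed by σ
    have e2 := hU σ hσ v₀
    -- σ y - dd y ∈ N, so (1 - dd) y ∈ N
    have hy := h₂ σ (σ • v₀ - v₀)
    rw [e2, ← hd] at hy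
    -- y ≡ (dd - 1) v₀ mod N
    have hy2 : (σ • v₀ - v₀) - (dd - 1) • v₀ ∈ N := by
      have := h₂ σ v₀
      rw [← hd] at this
      have e : (σ • v₀ - v₀) - (dd - 1) • v₀ = σ • v₀ - dd • v₀ := by
        rw [sub_smul, one_smul]; abel
      rwa [e]
    -- hence (1 - dd) (dd - 1) v₀ ∈ N
    have h3 : ((1 - dd) * (dd - 1)) • v₀ ∈ N := by
      have h4 : (1 - dd) • ((σ • v₀ - v₀) - (dd - 1) • v₀) ∈ N := N.smul_mem _ hy2
      have h5 : (1 - dd) • (σ • v₀ - v₀) ∈ N := by
        have e : (1 - dd) • (σ • v₀ - v₀) = (σ • v₀ - v₀) - dd • (σ • v₀ - v₀) := by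
          rw [sub_smul, one_smul]
        rwa [e]
      have e : ((1 - dd) * (dd - 1)) • v₀ =
          (1 - dd) • (σ • v₀ - v₀) - (1 - dd) • ((σ • v₀ - v₀) - (dd - 1) • v₀) := by
        rw [mul_smul, smul_sub (1 - dd) (σ • v₀ - v₀)]
        abel
      rw [e]
      exact N.sub_mem h5 h4
    have := (smul_mem_iff_of_not_mem hv₀ _).mp h3
    have hd1 : dd = 1 := by
      rcases mul_eq_zero.mp this with h | h
      · exact (sub_eq_zero.mp h).symm
      · exact sub_eq_zero.mp h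
    exact Units.ext hd1
  -- at `p`: one of the two characters is trivial on `I`
  have hIp : (∀ σ ∈ I, χ₁ σ = 1) ∨ (∀ σ ∈ I, χ₂ σ = 1) := by
    rcases hI with ⟨L, hL, hIL⟩ | hno
    · by_cases hNL : N ≤ L
      · -- then L = N
        have := finite_of_card hcard
        have : Module.Finite (ZMod p) V := Module.Finite.of_finite
        have hLN : L = N := by
          have hL1 : Module.finrank (ZMod p) L < Module.finrank (ZMod p) V :=
            Submodule.finrank_lt hL
          rw [finrank_eq_two hcard] at hL1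
          have hN1' := finrank_line hcard hN0 hN1
          exact (Submodule.eq_of_le_of_finrank_le hNL (by omega)).symm
        right
        intro σ hσ
        apply crit₂
        rw [← hLN]
        exact hIL σ hσ v₀
      · -- then N ⊓ L = ⊥
        left
        intro σ hσ
        apply crit₁
        have hmem : σ • n₀ - n₀ ∈ N ⊓ L :=
          ⟨N.sub_mem (hNst σ n₀ hn₀) hn₀, hIL σ hσ n₀⟩
        have hbot : N ⊓ L = ⊥ := by
          by_contra hne
          apply hNL
          obtain ⟨w, hw, hw0⟩ := Submodule.exists_mem_ne_zero_of_ne_bot hne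
          intro x hx
          obtain ⟨a, rfl⟩ := mem_line hcard hN0 hN1 hw.1 hw0 hx
          exact L.smul_mem _ hw.2
        rw [hbot, Submodule.mem_bot] at hmem
        exact sub_eq_zero.mp hmem
    · rcases hno N (fun σ _ x hx => hNst σ x hx) with h | h
      · exact absurd h hN0
      · exact absurd h hN1
  rcases hIp with hp1 | hp2
  · -- χ₁ is trivial everywhere: contradiction with hQ
    have hχ := hM χ₁ triv₁ uni₁ hp1
    exfalso
    apply hn₀0
    apply hQ
    intro σ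
    rw [h₁ σ n₀ hn₀, hχ σ]
    simp
  · have hχ := hM χ₂ triv₂ uni₂ hp2
    intro σ x
    have := h₂ σ x
    rw [hχ σ] at this
    simpa using this

end Fermat.Agent.S13.AbstractCore
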