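/-
S13, interface (I4) `Bp.atP` with only the product bound `(Σ)` left as a hypothesis
(owner: helper92).  Plugs `BpCore.core_p` (local theorem at `p`, helper41) and
`Supersingular.frey` (supersingular case excluded, helper36) into `AtP.atP`.
-/
import Fermat.Agent.S13.AtP
import Fermat.Agent.S13.BpCore
import Fermat.Agent.S13.Supersingular

set_option autoImplicit false
open WeierstrassCurve WeierstrassCurve.Affine WeierstrassCurve.Affine.Point

namespace Fermat.Agent.S13.AtPFinal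

open Fermat.Agent.S13.XOnlyGen

local notation "Qbar" => AlgebraicClosure ℚ

/-- **Interface (I4) from `(Σ)`.**  `hSigma` is the product bound: for every place `A | p`, the
abscissae of finitely many nonzero `p`-torsion points, all non-integral at `A`, have
`∏ v(r) ≤ v(p)⁻¹`. -/
theorem I4_of_sigma (P : FreyPackage)
    (hfin : Finite (Submodule.torsionBy ℤ (P.freyCurve⁄Qbar).Point P.p))
    (hcard : Nat.card (Submodule.torsionBy ℤ (P.freyCurve⁄Qbar).Point P.p) ≤ P.p ^ 2)
    (hSigma : ∀ A : ValuationSubring Qbar, A.LiesOverPrime P.p → ∀ S : Finset Qbar,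
      (∀ r ∈ S, ∃ T : (P.freyCurve⁄Qbar).Point, T ≠ 0 ∧ P.p • T = 0 ∧ xc T = r) →
      (∀ r ∈ S, r ∉ A) → ∏ r ∈ S, A.valuation r ≤ (A.valuation (P.p : Qbar))⁻¹) :
    ∀ X : Submodule (ZMod P.p) (Submodule.torsionBy ℤ (P.freyCurve⁄Qbar).Point P.p),
      IsGaloisStable ℚ X → X ≠ ⊥ → X ≠ ⊤ →
      (∀ A : ValuationSubring Qbar, A.LiesOverPrime P.p → ∀ σ ∈ A.inertiaSubgroupIn ℚ,
        ∀ x ∈ X, σ • x = x) ∨
      (∀ A : ValuationSubring Qbar, A.LiesOverPrime P.p → ∀ σ ∈ A.inertiaSubgroupIn ℚ,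
        ∀ x : Submodule.torsionBy ℤ (P.freyCurve⁄Qbar).Point P.p, σ • x - x ∈ X) :=
  fun X hX hbot htop =>
    AtP.atP P hfin hcard
      (fun A hA σ hσ T hT0 hpT hx => BpCore.core_p P A hA σ hσ T hpT hT0 hx)
      (fun A hA => Supersingular.frey P A hA X hX hbot htop hfin (hSigma A hA))
      X hX hbot htop

end Fermat.Agent.S13.AtPFinal
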