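import Fermat.Prelude.Def_FLTPrelim_CofixedLine
import Fermat.Prelude.Def_FLTPrelim_Ramification
import Fermat.Agent.S13.XOnlyGen

/-!
# S13: shared notation (architect: helper93)

`Qbar`, `GQ`, the Frey curve over `Qbar` (the `a₁ = 1` model of the frozen statement, no change of
variables), its `p`-torsion `V`, and the kernel of reduction `E1`.
-/

set_option autoImplicit false

open WeierstrassCurve WeierstrassCurve.Affine WeierstrassCurve.Affine.Point
open FreyPackage

namespace Fermat.Agent.S13

/-- the algebraic closure of `ℚ` used in the frozen statement. -/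
abbrev Qbar : Type := AlgebraicClosure ℚ

/-- the absolute Galois group of `ℚ`. -/
abbrev GQ : Type := Qbar ≃ₐ[ℚ] Qbar

theorem isAlgebraic_Qbar : Algebra.IsAlgebraic ℚ Qbar := by
  have h : (DivisionRing.toRatAlgebra : Algebra ℚ Qbar) = AlgebraicClosure.instAlgebra ℚ :=
    Subsingleton.elim _ _
  rw [h]
  infer_instance

theorem isIntegral_Qbar : Algebra.IsIntegral ℚ Qbar :=
  haveI := isAlgebraic_Qbar
  Algebra.IsAlgebraic.isIntegral

theorem isGalois_Qbar : IsGalois ℚ Qbar := by
  have h : (DivisionRing.toRatAlgebra : Algebra ℚ Qbar) = AlgebraicClosure.instAlgebra ℚ :=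
    Subsingleton.elim _ _
  rw [h]
  infer_instance

/-- the Frey curve over `Qbar` (exactly the term occurring in the frozen statement). -/
noncomputable abbrev E (P : FreyPackage) : WeierstrassCurve Qbar := (P.freyCurve⁄Qbar)

/-- the `p`-torsion of the Frey curve over `Qbar` (exactly the type of the frozen statement). -/
noncomputable abbrev V (P : FreyPackage) : Submodule ℤ (P.freyCurve⁄Qbar).Point :=
  Submodule.torsionBy ℤ (P.freyCurve⁄Qbar).Point P.p

/-- kernel of reduction at a valuation subring `A`, for any Weierstrass curve over a field. -/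
def E1 {K : Type*} [Field K] (A : ValuationSubring K) {W : WeierstrassCurve K}
    (T : W.toAffine.Point) : Prop :=
  T = 0 ∨ XOnlyGen.xc T ∉ A

lemma frey_a₁ (P : FreyPackage) : (P.freyCurve⁄Qbar).a₁ = 1 := by
  simp [WeierstrassCurve.baseChange, WeierstrassCurve.map, FreyPackage.freyCurve]

lemma frey_a₃ (P : FreyPackage) : (P.freyCurve⁄Qbar).a₃ = 0 := by
  simp [WeierstrassCurve.baseChange, WeierstrassCurve.map, FreyPackage.freyCurve]

lemma frey_a₆ (P : FreyPackage) : (P.freyCurve⁄Qbar).a₆ = 0 := by
  simp [WeierstrassCurve.baseChange, WeierstrassCurve.map, FreyPackage.freyCurve]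

lemma frey_a₂ (P : FreyPackage) :
    (P.freyCurve⁄Qbar).a₂ = (((P.b : Qbar)) ^ P.p - 1 - ((P.a : Qbar)) ^ P.p) / 4 := by
  simp [WeierstrassCurve.baseChange, WeierstrassCurve.map, FreyPackage.freyCurve]

lemma frey_a₄ (P : FreyPackage) :
    (P.freyCurve⁄Qbar).a₄ = -(((P.a : Qbar)) ^ P.p) * ((P.b : Qbar)) ^ P.p / 16 := by
  simp [WeierstrassCurve.baseChange, WeierstrassCurve.map, FreyPackage.freyCurve]

/-- the Galois action on points, coordinatewise. -/
lemma smul_some (P : FreyPackage) (σ : GQ) {x y : Qbar}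
    (h : (P.freyCurve⁄Qbar).toAffine.Nonsingular x y) :
    ∃ h' : (P.freyCurve⁄Qbar).toAffine.Nonsingular (σ x) (σ y),
      σ • (Point.some x y h : (P.freyCurve⁄Qbar).Point) = Point.some (σ x) (σ y) h' :=
  ⟨(WeierstrassCurve.Affine.baseChange_nonsingular _ σ.toAlgHom.injective ..).mpr h, rfl⟩

end Fermat.Agent.S13
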