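import Mathlib
import Fermat.Prelude.Def_FLTPrelim_FreyPackage
import Fermat.Prelude.Def_FLTPrelim_GaloisRep
import Fermat.Agent.S05.FreyArith
import Fermat.Agent.S51.GalFixed
import Fermat.Agent.S13.Defs
import Fermat.Agent.S13.XOnlyGen
import Fermat.Agent.S13.NoTorsionE1Gen
import Fermat.Agent.S13.ClosePointsGen
import Fermat.Agent.S13.FreyModel
import Fermat.Agent.S13.CruxGen

/-!
# S13 / B2.rational = interface (I2): the Frey curve has no rational `p`-torsion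

`main : ∀ T : (P.freyCurve⁄Qbar).Point, P.p • T = 0 → (∀ σ : GQ, σ • T = T) → T = 0`
(`i2` is the same statement in the notation of `S13/Defs`).

The whole `2`-adic argument is done over `ℚ` itself (`W₀ = P.freyCurve⁄ℚ`, `A = ℤ_(2) ⊂ ℚ`):

* a Galois-fixed point of `E(Qbar)` is the image of a point of `W₀(ℚ)` (`exists_rat_point`,
  via `S51/GalFixed`), and `Point.map` is injective (`eq_zero_of_fixed`);
* generic theorem `eq_zero_of_prime_nsmul_eq_zero'` for `y² + xy = x³ + a₂x² + a₄x` over `ℚ`,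
  `a₂ ∈ ℤ_(2)`, `v₂(a₄) = μ > 0`, `p ∤ μ`, `p ≥ 5` prime: `W(ℚ)[p] = 0`.  Proof: for `T ≠ 0`,
  `pT = 0`: `x(T) ∈ ℤ_(2)` (`NoTorsionE1Gen`); `x(T)` is a unit (`CruxGen.main`:
  `v(x)^p = v(a₄)^(2k)` with `v(a₄) < v(x) < 1` is impossible for `x ∈ ℚ` when `p ∤ 2μ`);
  the residues of `T, 2T, 3T` lie in `{(1,0),(1,1)}`, so two of them are congruent modulo `2`,
  the reduction is nonsingular there (`2y + x` is a unit), and `ClosePointsGen.main` puts
  the difference in the kernel of reduction, which has no `p`-torsion;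
* Frey arithmetic at `2` over `ℚ` (`freyQ_*`), from the integer facts of `S13/FreyModel`.
-/

set_option autoImplicit false

namespace Fermat.Agent.S13.B2Rational

open Fermat.Agent.S05.FreyArith

section TwoAdic

variable (A : ValuationSubring ℚ)

/-- the valuation of `2` is positive. -/
lemma val_two_pos : 0 < A.valuation (2 : ℚ) :=
  (Valuation.pos_iff _).mpr two_ne_zero

lemma val_two_lt_one (h2 : ((2 : ℕ) : ℚ) ∈ A.nonunits) : A.valuation (2 : ℚ) < 1 := by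
  have := val_prime_lt_one A h2
  simpa using this

/-- a nonzero natural number has valuation a power of the valuation of `2`. -/
lemma val_natCast_eq_pow (h2 : ((2 : ℕ) : ℚ) ∈ A.nonunits) {n : ℕ} (hn : n ≠ 0) :
    ∃ e : ℕ, A.valuation (n : ℚ) = A.valuation (2 : ℚ) ^ e ∧ ∃ n' : ℕ, ¬ 2 ∣ n' ∧ n = 2 ^ e * n' := by
  obtain ⟨e, n', hn', rfl⟩ := Nat.exists_eq_pow_mul_and_not_dvd hn 2 (by norm_num)
  refine ⟨e, ?_, n', hn', rfl⟩
  push_cast
  rw [map_mul, map_pow, val_natCast_eq_one A Nat.prime_two h2 hn', mul_one]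

/-- a nonzero integer has valuation a power of the valuation of `2`. -/
lemma val_intCast_eq_pow (h2 : ((2 : ℕ) : ℚ) ∈ A.nonunits) {n : ℤ} (hn : n ≠ 0) :
    ∃ e : ℕ, A.valuation (n : ℚ) = A.valuation (2 : ℚ) ^ e ∧ (2 ∣ n → 1 ≤ e) := by
  have hn' : n.natAbs ≠ 0 := Int.natAbs_ne_zero.mpr hn
  obtain ⟨e, he, n', hn'2, hnn'⟩ := val_natCast_eq_pow A h2 hn'
  refine ⟨e, ?_, ?_⟩
  · rw [← he]
    rcases Int.natAbs_eq n with h | h
    · conv_lhs => rw [h]
      simp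
    · conv_lhs => rw [h]
      simp
  · intro hd
    by_contra hlt
    have he0 : e = 0 := by omega
    subst he0
    rw [pow_zero, one_mul] at hnn'
    have : (2 : ℤ) ∣ (n.natAbs : ℤ) := by
      rw [Int.dvd_natAbs]; exact hd
    rw [hnn'] at this
    exact hn'2 (by exact_mod_cast this)

/-- a nonzero rational number has valuation an integral power of the valuation of `2`. -/
lemma val_rat_eq_zpow (h2 : ((2 : ℕ) : ℚ) ∈ A.nonunits) {q : ℚ} (hq : q ≠ 0) :
    ∃ c : ℤ, A.valuation q = A.valuation (2 : ℚ) ^ c := by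
  have hnum : q.num ≠ 0 := Rat.num_ne_zero.mpr hq
  have hden : (q.den : ℤ) ≠ 0 := by exact_mod_cast q.den_ne_zero
  obtain ⟨e₁, h₁, -⟩ := val_intCast_eq_pow A h2 hnum
  obtain ⟨e₂, h₂, -⟩ := val_intCast_eq_pow A h2 hden
  refine ⟨(e₁ : ℤ) - e₂, ?_⟩
  have hq' : q = (q.num : ℚ) / ((q.den : ℤ) : ℚ) := by
    push_cast
    exact (Rat.num_div_den q).symm
  rw [hq', map_div₀, h₁, h₂, zpow_sub₀ (val_two_pos A).ne', zpow_natCast, zpow_natCast]

/-- injectivity of `c ↦ v(2)^c`. -/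
lemma zpow_val_two_inj (h2 : ((2 : ℕ) : ℚ) ∈ A.nonunits) {c d : ℤ}
    (h : A.valuation (2 : ℚ) ^ c = A.valuation (2 : ℚ) ^ d) : c = d :=
  (zpow_right_strictAnti₀ (val_two_pos A) (val_two_lt_one A h2)).injective h

/-- an element of `ℤ_(2)` is congruent to `0` or `1` modulo the maximal ideal. -/
lemma val_lt_one_or_val_sub_one_lt_one (h2 : ((2 : ℕ) : ℚ) ∈ A.nonunits) {q : ℚ}
    (hq : A.valuation q ≤ 1) : A.valuation q < 1 ∨ A.valuation (q - 1) < 1 := by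
  -- the denominator is odd
  have hden : ¬ 2 ∣ q.den := by
    intro hd
    have hnum : ¬ (2 : ℤ) ∣ q.num := by
      intro hn
      have h2' : 2 ∣ q.num.natAbs := by
        have := Int.natAbs_dvd_natAbs.mpr hn
        simpa using this
      have := Nat.Coprime.eq_one_of_dvd (Nat.Coprime.coprime_dvd_left h2' q.reduced) hd
      omega
    have hv1 : A.valuation ((q.num : ℤ) : ℚ) = 1 :=
      val_intCast_eq_one A Nat.prime_two h2 (by exact_mod_cast hnum)
    have hv2 : A.valuation ((q.den : ℕ) : ℚ) < 1 := val_natCast_lt_one A h2 hd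
    have hq' : q = (q.num : ℚ) / (q.den : ℚ) := (Rat.num_div_den q).symm
    have hd0 : (q.den : ℚ) ≠ 0 := by exact_mod_cast q.den_ne_zero
    have hpos : 0 < A.valuation ((q.den : ℕ) : ℚ) := (Valuation.pos_iff _).mpr hd0
    rw [hq', map_div₀, hv1, one_div] at hq
    have : 1 < (A.valuation ((q.den : ℕ) : ℚ))⁻¹ := (one_lt_inv₀ hpos).mpr hv2
    exact absurd hq (not_le.mpr this)
  have hvd : A.valuation ((q.den : ℕ) : ℚ) = 1 := val_natCast_eq_one A Nat.prime_two h2 hden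
  have hd0 : (q.den : ℚ) ≠ 0 := by exact_mod_cast q.den_ne_zero
  have hq' : q = (q.num : ℚ) / (q.den : ℚ) := (Rat.num_div_den q).symm
  by_cases hnum : (2 : ℤ) ∣ q.num
  · left
    rw [hq', map_div₀, hvd, div_one]
    exact val_intCast_lt_one A h2 (by exact_mod_cast hnum)
  · right
    have hsub : q - 1 = (((q.num - (q.den : ℤ) : ℤ)) : ℚ) / (q.den : ℚ) := by
      push_cast
      field_simp
      rw [sub_mul, one_mul, Rat.mul_den_eq_num]
    rw [hsub, map_div₀, hvd, div_one]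
    apply val_intCast_lt_one A h2
    have hoddn : ¬ (2 : ℤ) ∣ q.num := hnum
    have hoddd : ¬ (2 : ℤ) ∣ (q.den : ℤ) := by exact_mod_cast hden
    push_cast
    omega

end TwoAdic

open WeierstrassCurve WeierstrassCurve.Affine Fermat.Agent.S13.XOnlyGen

section Generic

variable (A : ValuationSubring ℚ) (W : WeierstrassCurve ℚ)

/-- The statement of the crux at `2` (shape of `S05/CruxPoint.main`), for the valuation of `A`. -/
def CruxAt (p : ℕ) : Prop :=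
  ∀ T : W.toAffine.Point, T ≠ 0 → p • T = 0 → A.valuation (xc T) < 1 →
    A.valuation W.a₄ < A.valuation (xc T) ∧
      ∃ k : ℤ, A.valuation (xc T) ^ p = A.valuation W.a₄ ^ (2 * k)

variable {A W}

lemma natCast_prime_not_mem_nonunits (h2 : ((2 : ℕ) : ℚ) ∈ A.nonunits) {p : ℕ} (hp : p.Prime)
    (hp2 : p ≠ 2) : (p : ℚ) ∉ A.nonunits := by
  have hnd : ¬ 2 ∣ p := fun h => hp2 ((Nat.prime_dvd_prime_iff_eq Nat.prime_two hp).mp h).symm
  have h1 : A.valuation (p : ℚ) = 1 := val_natCast_eq_one A Nat.prime_two h2 hnd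
  intro hmem
  have := (A.mem_nonunits_iff).mp hmem
  rw [h1] at this
  exact lt_irrefl _ this

/-- the arithmetic heart: `c p = 2 k μ`, `0 < c < μ`, `p ∤ 2μ` is impossible. -/
lemma arith_contra {p : ℕ} (hp : p.Prime) (hp2 : p ≠ 2) {μ c k : ℤ} (hμp : ¬ (p : ℤ) ∣ μ)
    (h : c * p = μ * (2 * k)) (hc0 : 0 < c) (hcμ : c < μ) : False := by
  have hpp : Prime (p : ℤ) := Nat.prime_iff_prime_int.mp hp
  have hd : (p : ℤ) ∣ μ * (2 * k) := ⟨c, by rw [← h]; ring⟩
  have hp2' : ¬ (p : ℤ) ∣ 2 := by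
    intro h2
    have : p ∣ 2 := by exact_mod_cast h2
    exact hp2 ((Nat.prime_dvd_prime_iff_eq hp Nat.prime_two).mp this)
  rcases hpp.dvd_or_dvd hd with h1 | h1
  · exact hμp h1
  rcases hpp.dvd_or_dvd h1 with h1 | h1
  · exact hp2' h1
  obtain ⟨k', rfl⟩ := h1
  have hp0 : (p : ℤ) ≠ 0 := by exact_mod_cast hp.ne_zero
  have hc : c = μ * (2 * k') := by
    have : c * p = (μ * (2 * k')) * p := by rw [h]; ring
    exact mul_right_cancel₀ hp0 this
  have hμ0 : 0 < μ := lt_trans hc0 hcμ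
  have hk' : 1 ≤ k' := by
    by_contra hk
    have hk0 : k' ≤ 0 := by omega
    have : μ * (2 * k') ≤ 0 := mul_nonpos_of_nonneg_of_nonpos hμ0.le (by omega)
    omega
  have : μ * 2 ≤ μ * (2 * k') := by
    apply mul_le_mul_of_nonneg_left _ hμ0.le
    omega
  omega

/-- **Step A**: a nonzero `p`-torsion point has `x`-coordinate a unit at `2`. -/
lemma val_xc_eq_one (h2 : ((2 : ℕ) : ℚ) ∈ A.nonunits) (ha₁ : W.a₁ = 1) (ha₂ : W.a₂ ∈ A)
    (ha₃ : W.a₃ = 0) (ha₄ : W.a₄ ∈ A) (ha₆ : W.a₆ = 0)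
    {p : ℕ} (hp : p.Prime) (hp2 : p ≠ 2) {μ : ℤ}
    (hμ : A.valuation W.a₄ = A.valuation (2 : ℚ) ^ μ) (hμp : ¬ (p : ℤ) ∣ μ)
    (hcrux : CruxAt A W p) {T : W.toAffine.Point} (hT : T ≠ 0) (hpT : p • T = 0) :
    A.valuation (xc T) = 1 := by
  obtain ⟨hb₂, hb₄, hb₆, hb₈⟩ := NoTorsionE1Gen.b_mem_of_a_mem A (ha₁ ▸ A.one_mem) ha₂
    (ha₃ ▸ A.zero_mem) ha₄ (ha₆ ▸ A.zero_mem)
  have hpA := natCast_prime_not_mem_nonunits h2 hp hp2
  have hx : xc T ∈ A :=
    NoTorsionE1Gen.xc_mem_of_prime_nsmul_eq_zero A hb₂ hb₄ hb₆ hb₈ hp hp2 hpA hpT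
  have hle : A.valuation (xc T) ≤ 1 := (A.valuation_le_one_iff _).mpr hx
  by_contra hne
  have hlt : A.valuation (xc T) < 1 := lt_of_le_of_ne hle hne
  obtain ⟨h1, k, hk⟩ := hcrux T hT hpT hlt
  have hx0 : xc T ≠ 0 := by
    intro h0
    rw [h0, map_zero] at h1
    exact not_lt_zero h1
  obtain ⟨c, hc⟩ := val_rat_eq_zpow A h2 hx0
  rw [hc] at hk h1 hlt
  rw [hμ] at hk h1
  have h0 := val_two_pos A
  have h1' := val_two_lt_one A h2
  have hcμ : c < μ := (zpow_lt_zpow_iff_right_of_lt_one₀ h0 h1').mp h1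
  have hc0 : 0 < c := (zpow_lt_one_iff_right_of_lt_one₀ h0 h1').mp hlt
  have hk' : A.valuation (2 : ℚ) ^ (c * (p : ℤ)) = A.valuation (2 : ℚ) ^ (μ * (2 * k)) := by
    rw [zpow_mul, zpow_mul, zpow_natCast]
    exact hk
  exact arith_contra hp hp2 hμp (zpow_val_two_inj A h2 hk') hc0 hcμ

/-- integrality of the `y`-coordinate. -/
lemma val_yc_le_one (ha₁ : W.a₁ = 1) (ha₂ : W.a₂ ∈ A)
    (ha₃ : W.a₃ = 0) (ha₄ : W.a₄ ∈ A) (ha₆ : W.a₆ = 0)
    {T : W.toAffine.Point} (hT : T ≠ 0) (hx : A.valuation (xc T) ≤ 1) :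
    A.valuation (yc T) ≤ 1 := by
  have e := equation_xc_yc hT
  rw [ha₁, ha₃, ha₆] at e
  set x := xc T
  set y := yc T
  by_contra hy
  have hy1 : 1 < A.valuation y := not_le.mp hy
  have hv2 : A.valuation W.a₂ ≤ 1 := (A.valuation_le_one_iff _).mpr ha₂
  have hv4 : A.valuation W.a₄ ≤ 1 := (A.valuation_le_one_iff _).mpr ha₄
  have hy2 : y ^ 2 = (x ^ 3 + W.a₂ * x ^ 2 + W.a₄ * x) - x * y := by linear_combination e
  have hR : A.valuation (x ^ 3 + W.a₂ * x ^ 2 + W.a₄ * x) ≤ 1 := by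
    apply Valuation.map_add_le _ (Valuation.map_add_le _ _ _)
    · rw [map_mul]; exact mul_le_one' hv4 hx
    · rw [map_pow]; exact pow_le_one' hx 3
    · rw [map_mul, map_pow]; exact mul_le_one' hv2 (pow_le_one' hx 2)
  have hxy : A.valuation (x * y) ≤ A.valuation y := by
    rw [map_mul]
    exact mul_le_of_le_one_left' hx
  have h3 : A.valuation (y ^ 2) ≤ A.valuation y := by
    rw [hy2]
    exact Valuation.map_sub_le _ (hR.trans hy1.le) hxy
  rw [map_pow, sq] at h3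
  have hpos : 0 < A.valuation y := lt_trans zero_lt_one hy1
  have : A.valuation y < A.valuation y * A.valuation y := by
    calc A.valuation y = 1 * A.valuation y := (one_mul _).symm
      _ < A.valuation y * A.valuation y := mul_lt_mul_of_pos_right hy1 hpos
  exact absurd h3 (not_le.mpr this)

end Generic

section Generic

variable {A : ValuationSubring ℚ} {W : WeierstrassCurve ℚ}

/-- multiples `j • T`, `0 < j < p`, of a nonzero `p`-torsion point are nonzero `p`-torsion. -/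
lemma nsmul_ne_zero_of_lt {p : ℕ} (hp : p.Prime) {T : W.toAffine.Point} (hT : T ≠ 0)
    (hpT : p • T = 0) {j : ℕ} (hj0 : 0 < j) (hjp : j < p) : j • T ≠ 0 ∧ p • (j • T) = 0 := by
  refine ⟨?_, ?_⟩
  · intro hj
    have h1 : addOrderOf T ∣ j := addOrderOf_dvd_of_nsmul_eq_zero hj
    have h2 : addOrderOf T ∣ p := addOrderOf_dvd_of_nsmul_eq_zero hpT
    have hcop : Nat.Coprime j p :=
      Nat.Coprime.symm ((Nat.Prime.coprime_iff_not_dvd hp).mpr (Nat.not_dvd_of_pos_of_lt hj0 hjp))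
    have h3 : addOrderOf T ∣ 1 := by
      have := Nat.dvd_gcd h1 h2
      rwa [hcop] at this
    exact hT (AddMonoid.addOrderOf_eq_one_iff.mp (Nat.dvd_one.mp h3))
  · rw [smul_comm, hpT, nsmul_zero]

/-- **E(ℚ)[p] = 0** for a curve `y² + xy = x³ + a₂x² + a₄x` over `ℚ` with `a₂` integral at `2`,
`v₂(a₄) = μ`, `p ∤ μ`, `p ≥ 5`, given the crux at `2`. -/
theorem eq_zero_of_prime_nsmul_eq_zero (h2 : ((2 : ℕ) : ℚ) ∈ A.nonunits) (ha₁ : W.a₁ = 1)
    (ha₂ : W.a₂ ∈ A) (ha₃ : W.a₃ = 0) (ha₄ : W.a₄ ∈ A) (ha₆ : W.a₆ = 0)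
    {p : ℕ} (hp : p.Prime) (hp5 : 5 ≤ p) {μ : ℤ}
    (hμ : A.valuation W.a₄ = A.valuation (2 : ℚ) ^ μ) (hμp : ¬ (p : ℤ) ∣ μ)
    (hcrux : CruxAt A W p) {T : W.toAffine.Point} (hpT : p • T = 0) : T = 0 := by
  by_contra hT
  have hp2 : p ≠ 2 := by omega
  have hv2 : A.valuation (2 : ℚ) < 1 := val_two_lt_one A h2
  have hva₁ : A.valuation W.a₁ ≤ 1 := by rw [ha₁, map_one]
  have hva₂ : A.valuation W.a₂ ≤ 1 := (A.valuation_le_one_iff _).mpr ha₂
  -- facts about a nonzero `p`-torsion point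
  have facts : ∀ S : W.toAffine.Point, S ≠ 0 → p • S = 0 →
      A.valuation (xc S) = 1 ∧ A.valuation (yc S) ≤ 1 ∧ A.valuation (xc S - 1) < 1 ∧
        (A.valuation (yc S) < 1 ∨ A.valuation (yc S - 1) < 1) := by
    intro S hS hpS
    have hx1 := val_xc_eq_one h2 ha₁ ha₂ ha₃ ha₄ ha₆ hp hp2 hμ hμp hcrux hS hpS
    have hy1 := val_yc_le_one ha₁ ha₂ ha₃ ha₄ ha₆ hS hx1.le
    refine ⟨hx1, hy1, ?_, val_lt_one_or_val_sub_one_lt_one A h2 hy1⟩
    rcases val_lt_one_or_val_sub_one_lt_one A h2 hx1.le with h | h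
    · rw [hx1] at h; exact absurd h (lt_irrefl _)
    · exact h
  -- two multiples with congruent coordinates give a contradiction
  have close : ∀ i j : ℕ, 0 < i → i < j → j < p →
      A.valuation (yc (j • T) - yc (i • T)) < 1 → False := by
    intro i j hi hij hjp hy'
    obtain ⟨hPi, hpPi⟩ := nsmul_ne_zero_of_lt hp hT hpT hi (hij.trans hjp)
    obtain ⟨hPj, hpPj⟩ := nsmul_ne_zero_of_lt hp hT hpT (hi.trans hij) hjp
    obtain ⟨hD, hpD⟩ := nsmul_ne_zero_of_lt hp hT hpT (Nat.sub_pos_of_lt hij)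
      (lt_of_le_of_lt (Nat.sub_le j i) hjp)
    obtain ⟨hxi, hyi, hxi1, -⟩ := facts _ hPi hpPi
    obtain ⟨hxj, hyj, hxj1, -⟩ := facts _ hPj hpPj
    obtain ⟨hxD, -, -, -⟩ := facts _ hD hpD
    have hx' : A.valuation (xc (j • T) - xc (i • T)) < 1 := by
      have : xc (j • T) - xc (i • T) = (xc (j • T) - 1) - (xc (i • T) - 1) := by ring
      rw [this]
      exact Valuation.map_sub_lt _ hxj1 hxi1
    have hns : A.valuation (2 * yc (i • T) + W.a₁ * xc (i • T) + W.a₃) = 1 := by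
      rw [ha₁, ha₃, add_zero, one_mul]
      have h2y : A.valuation (2 * yc (i • T)) < A.valuation (xc (i • T)) := by
        rw [hxi, map_mul]
        exact mul_lt_one_of_nonneg_of_lt_one_left zero_le hv2 hyi
      rw [Valuation.map_add_eq_of_lt_right _ h2y, hxi]
    have hmain := ClosePointsGen.main A.valuation hva₁ hva₂ hPi hPj hxi.le hyi hx' hy' (Or.inl hns)
    have hsub : j • T - i • T = (j - i) • T := by
      rw [sub_nsmul T hij.le, sub_eq_add_neg]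
    rw [hsub] at hmain
    rcases hmain with h | h
    · exact hD h
    · rw [hxD] at h; exact lt_irrefl _ h
  -- pigeonhole on the class of `y` modulo the maximal ideal for `T, 2T, 3T`
  have hp1 : 1 < p := by omega
  have hp2' : 2 < p := by omega
  have hp3 : 3 < p := by omega
  obtain ⟨h1, hp1T⟩ := nsmul_ne_zero_of_lt hp hT hpT (j := 1) (by omega) hp1
  obtain ⟨h2', hp2T⟩ := nsmul_ne_zero_of_lt hp hT hpT (j := 2) (by omega) hp2'
  obtain ⟨h3, hp3T⟩ := nsmul_ne_zero_of_lt hp hT hpT (j := 3) (by omega) hp3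
  obtain ⟨-, -, -, c1⟩ := facts _ h1 hp1T
  obtain ⟨-, -, -, c2⟩ := facts _ h2' hp2T
  obtain ⟨-, -, -, c3⟩ := facts _ h3 hp3T
  have sub0 : ∀ {a b : ℚ}, A.valuation a < 1 → A.valuation b < 1 → A.valuation (b - a) < 1 :=
    fun ha hb => Valuation.map_sub_lt _ hb ha
  have sub1 : ∀ {a b : ℚ}, A.valuation (a - 1) < 1 → A.valuation (b - 1) < 1 →
      A.valuation (b - a) < 1 := by
    intro a b ha hb
    have : b - a = (b - 1) - (a - 1) := by ring
    rw [this]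
    exact Valuation.map_sub_lt _ hb ha
  rcases c1 with c1 | c1 <;> rcases c2 with c2 | c2 <;> rcases c3 with c3 | c3
  · exact close 1 2 (by omega) (by omega) hp2' (sub0 c1 c2)
  · exact close 1 2 (by omega) (by omega) hp2' (sub0 c1 c2)
  · exact close 1 3 (by omega) (by omega) hp3 (sub0 c1 c3)
  · exact close 2 3 (by omega) (by omega) hp3 (sub1 c2 c3)
  · exact close 2 3 (by omega) (by omega) hp3 (sub0 c2 c3)
  · exact close 1 3 (by omega) (by omega) hp3 (sub1 c1 c3)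
  · exact close 1 2 (by omega) (by omega) hp2' (sub1 c1 c2)
  · exact close 1 2 (by omega) (by omega) hp2' (sub1 c1 c2)

end Generic

open WeierstrassCurve WeierstrassCurve.Affine WeierstrassCurve.Affine.Point
open Fermat.Agent.S13.XOnlyGen

local notation "Qbar" => AlgebraicClosure ℚ

section NoCrux

variable {A : ValuationSubring ℚ} {W : WeierstrassCurve ℚ}

/-- the crux at `2` holds (by `CruxGen.main`). -/
theorem cruxAt (h2 : ((2 : ℕ) : ℚ) ∈ A.nonunits) (ha₁ : W.a₁ = 1)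
    (ha₂ : W.a₂ ∈ A) (ha₃ : W.a₃ = 0) (ha₄0 : W.a₄ ≠ 0) (ha₄ : A.valuation W.a₄ < 1)
    (ha₆ : W.a₆ = 0) {p : ℕ} (hp : p.Prime) (hp2 : p ≠ 2) : CruxAt A W p := by
  intro T hT hpT hT1
  have hb₂ : A.valuation W.b₂ = 1 := by
    have : W.b₂ = 1 + 4 * W.a₂ := by simp only [b₂, ha₁]; ring
    rw [this]
    apply Valuation.map_one_add_of_lt
    rw [map_mul]
    have h4 : A.valuation (4 : ℚ) < 1 := by
      have : (4 : ℚ) = ((4 : ℕ) : ℚ) := by norm_num
      rw [this]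
      exact val_natCast_lt_one A h2 (by norm_num)
    exact mul_lt_one_of_nonneg_of_lt_one_left zero_le h4 ((A.valuation_le_one_iff _).mpr ha₂)
  exact CruxGen.main A.valuation ha₃ ha₆ hb₂ ha₄0 ha₄ hp hp2 hT hpT hT1

/-- **E(ℚ)[p] = 0**, crux discharged. -/
theorem eq_zero_of_prime_nsmul_eq_zero' (h2 : ((2 : ℕ) : ℚ) ∈ A.nonunits) (ha₁ : W.a₁ = 1)
    (ha₂ : W.a₂ ∈ A) (ha₃ : W.a₃ = 0) (ha₄0 : W.a₄ ≠ 0) (ha₆ : W.a₆ = 0)
    {p : ℕ} (hp : p.Prime) (hp5 : 5 ≤ p) {μ : ℤ} (hμ0 : 0 < μ)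
    (hμ : A.valuation W.a₄ = A.valuation (2 : ℚ) ^ μ) (hμp : ¬ (p : ℤ) ∣ μ)
    {T : W.toAffine.Point} (hpT : p • T = 0) : T = 0 := by
  have hlt : A.valuation W.a₄ < 1 := by
    rw [hμ]
    exact (zpow_lt_one_iff_right_of_lt_one₀ (val_two_pos A) (val_two_lt_one A h2)).mpr hμ0
  have ha₄ : W.a₄ ∈ A := (A.valuation_le_one_iff _).mp hlt.le
  exact eq_zero_of_prime_nsmul_eq_zero h2 ha₁ ha₂ ha₃ ha₄ ha₆ hp hp5 hμ hμp
    (cruxAt h2 ha₁ ha₂ ha₃ ha₄0 hlt ha₆ hp (by omega)) hpT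

end NoCrux

/-! ### a valuation subring of `ℚ` over `2` -/

/-- the `2`-adic valuation subring of `ℚ`. -/
noncomputable def A2 : ValuationSubring ℚ :=
  haveI : Fact (Nat.Prime 2) := ⟨Nat.prime_two⟩
  (Rat.padicValuation 2).valuationSubring

theorem two_mem_nonunits_A2 : ((2 : ℕ) : ℚ) ∈ A2.nonunits := by
  have : Fact (Nat.Prime 2) := ⟨Nat.prime_two⟩
  have h : ((2 : ℕ) : ℚ) = ((2 : ℚ)⁻¹)⁻¹ := by norm_num
  rw [h, ValuationSubring.inv_mem_nonunits_iff]
  right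
  intro hmem
  have h1 : Rat.padicValuation 2 ((2 : ℚ)⁻¹) ≤ 1 :=
    (Valuation.mem_valuationSubring_iff _ _).mp hmem
  rw [Rat.padicValuation_le_one_iff] at h1
  apply h1
  have : ((2 : ℚ)⁻¹).den = 2 := by norm_num
  rw [this]

/-! ### descent of Galois-fixed points -/

section Descent

variable (W' : WeierstrassCurve ℚ)

/-- a point of `W'` over `Qbar` fixed by the whole Galois group comes from a point over `ℚ`. -/
theorem exists_rat_point (T : (W'⁄Qbar).Point)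
    (hfix : ∀ σ : Qbar ≃ₐ[ℚ] Qbar, σ • T = T) :
    ∃ T₀ : (W'⁄ℚ).Point, Point.map (W' := W') (Algebra.ofId ℚ Qbar) T₀ = T := by
  cases T with
  | zero => exact ⟨0, rfl⟩
  | some x y h =>
    have hxy : ∀ σ : Qbar ≃ₐ[ℚ] Qbar, σ x = x ∧ σ y = y := fun σ => by
      have := hfix σ
      rw [algEquiv_smul_def, Point.map_some] at this
      exact Point.some.inj this
    obtain ⟨qx, rfl⟩ := Fermat.Agent.S51.mem_range_of_forall_algEquiv_fixed x (fun σ => (hxy σ).1)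
    obtain ⟨qy, rfl⟩ := Fermat.Agent.S51.mem_range_of_forall_algEquiv_fixed y (fun σ => (hxy σ).2)
    have h' : (W'⁄ℚ).Nonsingular qx qy :=
      (WeierstrassCurve.Affine.baseChange_nonsingular W' (Algebra.ofId ℚ Qbar).injective qx qy).mp h
    exact ⟨Point.some qx qy h', rfl⟩

/-- if the rational points have no `p`-torsion, then Galois-fixed points have no `p`-torsion. -/
theorem eq_zero_of_fixed {p : ℕ}
    (hrat : ∀ T₀ : (W'⁄ℚ).Point, p • T₀ = 0 → T₀ = 0)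
    (T : (W'⁄Qbar).Point) (hpT : p • T = 0)
    (hfix : ∀ σ : Qbar ≃ₐ[ℚ] Qbar, σ • T = T) : T = 0 := by
  obtain ⟨T₀, rfl⟩ := exists_rat_point W' T hfix
  have h0 : p • T₀ = 0 := by
    apply Point.map_injective (W' := W') (Algebra.ofId ℚ Qbar)
    rw [map_nsmul, hpT, _root_.map_zero]
  rw [hrat T₀ h0, _root_.map_zero]

end Descent

/-! ### the Frey model over `ℚ` at `2` -/

section FreyQ

variable (P : FreyPackage)

theorem freyQ_a₁ : (P.freyCurve⁄ℚ).a₁ = 1 := by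
  simp [WeierstrassCurve.baseChange, WeierstrassCurve.map, FreyPackage.freyCurve]

theorem freyQ_a₃ : (P.freyCurve⁄ℚ).a₃ = 0 := by
  simp [WeierstrassCurve.baseChange, WeierstrassCurve.map, FreyPackage.freyCurve]

theorem freyQ_a₆ : (P.freyCurve⁄ℚ).a₆ = 0 := by
  simp [WeierstrassCurve.baseChange, WeierstrassCurve.map, FreyPackage.freyCurve]

theorem freyQ_a₂' :
    (P.freyCurve⁄ℚ).a₂ = (((P.b : ℚ)) ^ P.p - 1 - ((P.a : ℚ)) ^ P.p) / 4 := by
  simp [WeierstrassCurve.baseChange, WeierstrassCurve.map, FreyPackage.freyCurve]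

theorem freyQ_a₄' :
    (P.freyCurve⁄ℚ).a₄ = -(((P.a : ℚ)) ^ P.p) * ((P.b : ℚ)) ^ P.p / 16 := by
  simp [WeierstrassCurve.baseChange, WeierstrassCurve.map, FreyPackage.freyCurve]

theorem freyQ_a₂ : (P.freyCurve⁄ℚ).a₂ = ((FreyModel.n₂ P : ℤ) : ℚ) := by
  rw [freyQ_a₂']
  have h := congrArg (fun z : ℤ => (z : ℚ)) (FreyModel.four_mul_n₂ P)
  simp only [Int.cast_mul, Int.cast_sub, Int.cast_pow, Int.cast_one, Int.cast_ofNat] at h
  rw [← h]
  ring

theorem freyQ_a₄_ne_zero : (P.freyCurve⁄ℚ).a₄ ≠ 0 := by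
  rw [freyQ_a₄' P]
  have ha : (P.a : ℚ) ≠ 0 := Int.cast_ne_zero.mpr P.ha0
  have hb : (P.b : ℚ) ≠ 0 := Int.cast_ne_zero.mpr P.hb0
  exact div_ne_zero (mul_ne_zero (neg_ne_zero.mpr (pow_ne_zero _ ha)) (pow_ne_zero _ hb))
    (by norm_num)

/-- `v(a₄) = v(2)^μ` with `μ = p e - 4 > 0` prime to `p`, where `2^e ∥ b`. -/
theorem freyQ_exists_val_a₄ {A : ValuationSubring ℚ} (hA : ((2 : ℕ) : ℚ) ∈ A.nonunits) :
    ∃ μ : ℤ, 0 < μ ∧ ¬ (P.p : ℤ) ∣ μ ∧
      A.valuation (P.freyCurve⁄ℚ).a₄ = A.valuation (2 : ℚ) ^ μ := by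
  obtain ⟨e, b', he, hb', hb⟩ := FreyModel.exists_b_eq P
  have hp5 := P.hp5
  have hpe : 4 < P.p * e := by nlinarith
  refine ⟨((P.p * e - 4 : ℕ) : ℤ), by omega, ?_, ?_⟩
  · intro hd
    have h1 : (P.p : ℤ) ∣ ((P.p * e : ℕ) : ℤ) := by
      push_cast
      exact dvd_mul_right _ _
    have h2 : ((P.p * e - 4 : ℕ) : ℤ) = ((P.p * e : ℕ) : ℤ) - 4 := by omega
    rw [h2] at hd
    have h4 : (P.p : ℤ) ∣ 4 := by
      have := dvd_sub h1 hd
      simpa using this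
    have h4' : P.p ∣ 4 := by exact_mod_cast h4
    have := Nat.le_of_dvd (by norm_num) h4'
    omega
  · have hva : A.valuation ((P.a : ℚ) ^ P.p) = 1 :=
      val_intCast_pow_eq_one A Nat.prime_two hA (by exact_mod_cast FreyModel.not_two_dvd_a P) _
    have hvb' : A.valuation ((b' : ℚ) ^ P.p) = 1 :=
      val_intCast_pow_eq_one A Nat.prime_two hA (by exact_mod_cast hb') _
    have key : (P.freyCurve⁄ℚ).a₄ =
        -((P.a : ℚ) ^ P.p) * (b' : ℚ) ^ P.p * (2 : ℚ) ^ (P.p * e - 4) := by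
      rw [freyQ_a₄' P, hb]
      push_cast
      have h16 : (16 : ℚ) = 2 ^ 4 := by norm_num
      have hsplit : ((2 : ℚ) ^ e) ^ P.p = 2 ^ (P.p * e - 4) * 2 ^ 4 := by
        rw [← pow_mul, ← pow_add]
        congr 1
        have : e * P.p = P.p * e := Nat.mul_comm _ _
        omega
      rw [mul_pow, hsplit, h16]
      field_simp
    rw [key, map_mul, map_mul, Valuation.map_neg, hva, hvb', one_mul, one_mul, map_pow,
      zpow_natCast]

/-- **The Frey curve has no rational `p`-torsion.** -/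
theorem freyQ_torsion_free (T₀ : (P.freyCurve⁄ℚ).Point) (h : P.p • T₀ = 0) : T₀ = 0 := by
  have h2 := two_mem_nonunits_A2
  obtain ⟨μ, hμ0, hμp, hμ⟩ := freyQ_exists_val_a₄ P h2
  have ha₂ : (P.freyCurve⁄ℚ).a₂ ∈ A2 := by
    rw [freyQ_a₂]; exact intCast_mem A2 _
  exact eq_zero_of_prime_nsmul_eq_zero' (W := (P.freyCurve⁄ℚ)) h2 (freyQ_a₁ P) ha₂ (freyQ_a₃ P)
    (freyQ_a₄_ne_zero P) (freyQ_a₆ P) P.pp P.hp5 hμ0 hμ hμp h

end FreyQ

/-- **(I2) = B2.rational**: a `p`-torsion point of the Frey curve over `Qbar` which is fixed by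
the whole Galois group is zero. -/
theorem main (P : FreyPackage) (T : (P.freyCurve⁄Qbar).Point) (hpT : P.p • T = 0)
    (hfix : ∀ σ : Qbar ≃ₐ[ℚ] Qbar, σ • T = T) : T = 0 :=
  eq_zero_of_fixed P.freyCurve (freyQ_torsion_free P) T hpT hfix

/-- `main` in the notation of `S13/Defs` (exact shape of interface (I2)). -/
theorem i2 (P : FreyPackage) :
    ∀ T : (P.freyCurve⁄Fermat.Agent.S13.Qbar).Point, P.p • T = 0 →
      (∀ σ : Fermat.Agent.S13.GQ, σ • T = T) → T = 0 :=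
  fun T h1 h2 => main P T h1 h2

end Fermat.Agent.S13.B2Rational
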