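/-
S13 helper file (helper8): the local theorem at the prime `p` itself.

This is `S05/LocalMain.main` WITHOUT the `NoTorsionE1` steps (which need `v p = 1`): for an
"inertia-like" field endomorphism `σ` and a `p`-torsion point `T` of
`y² = x (x - α) (x + β)` with integral abscissa, the point `σ T - T` is `0` or lies in the kernel
of reduction (non-integral abscissa).
-/
import Fermat.Agent.S05.LocalMain

set_option autoImplicit false

namespace Fermat.Agent.S13.BpLocal

open WeierstrassCurve WeierstrassCurve.Affine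
open Fermat.Agent.S05

variable {K : Type*} [Field K] [DecidableEq K]
  {Γ₀ : Type*} [LinearOrderedCommGroupWithZero Γ₀] (v : Valuation K Γ₀)

omit [DecidableEq K] in
/-- integrality of `y` from integrality of `x` on `y² = x (x - α) (x + β)`. -/
lemma val_y_le_one {α β x y : K} (hα1 : v α ≤ 1) (hβ1 : v β ≤ 1) (hx : v x ≤ 1)
    (hE : y ^ 2 = x * (x - α) * (x + β)) : v y ≤ 1 := by
  have h1 : v (y ^ 2) ≤ 1 := by
    rw [hE, map_mul, map_mul]
    have h2 : v (x - α) ≤ 1 := le_trans (v.map_sub _ _) (max_le hx hα1)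
    have h3 : v (x + β) ≤ 1 := le_trans (v.map_add _ _) (max_le hx hβ1)
    calc v x * v (x - α) * v (x + β) ≤ 1 * 1 * 1 := by gcongr
      _ = 1 := by simp
  rw [map_pow] at h1
  by_contra hcon
  rw [not_le] at hcon
  have : 1 < v y ^ 2 := one_lt_pow₀ hcon two_ne_zero
  exact absurd h1 (not_le.mpr this)

/-- **Local theorem at `p`.** No hypothesis `v p = 1`. -/
theorem main (σ : K →+* K) (hσI : ∀ x, v x ≤ 1 → v (σ x - x) < 1)
    {a₂ a₄ α β a0 : K} (ha₂ : a₂ = β - α) (ha₄ : a₄ = -(α * β))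
    (hσa0 : σ a0 = a0)
    (h2 : v (2 : K) = 1) {p : ℕ} (hp : p.Prime) (hp2 : p ≠ 2)
    (hβ : v β = 1) (hαβ : v (α + β) = 1)
    (hα : v α = 1 ∨ (α = a0 ^ p ∧ v α < 1 ∧ α ≠ 0))
    {T T' : (shortW a₂ a₄).toAffine.Point} (hpT : p • T = 0)
    (hT : T ≠ 0) (hT' : T' ≠ 0) (hx' : xc T' = σ (xc T)) (hy' : yc T' = σ (yc T))
    (hxi : v (xc T) ≤ 1) :
    T' - T = 0 ∨ 1 < v (xc (T' - T)) := by
  subst ha₂ ha₄
  have hα1 : v α ≤ 1 := by
    rcases hα with h | ⟨-, h, -⟩
    · exact h.le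
    · exact h.le
  have ha₂v : v (β - α) ≤ 1 := le_trans (v.map_sub _ _) (max_le hβ.le hα1)
  have ha₄v : v (-(α * β)) ≤ 1 := by
    rw [Valuation.map_neg, map_mul, hβ, mul_one]; exact hα1
  have hE : yc T ^ 2 = xc T * (xc T - α) * (xc T + β) := by
    rw [equation_xc_yc hT]; ring
  have hyi : v (yc T) ≤ 1 := val_y_le_one v hα1 hβ.le hxi hE
  by_cases hgood : v α = 1 ∨ v (xc T) = 1
  · -- nonsingular reduction
    have hns := LocalMain.nonsing_red v hβ hαβ hα1 hxi hyi hE hgood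
    refine ClosePoints.main v h2 ha₂v ha₄v hT hT' hxi hyi ?_ ?_ hns
    · rw [hx']; exact hσI _ hxi
    · rw [hy']; exact hσI _ hyi
  · -- reduction to the node
    push Not at hgood
    obtain ⟨hαne, hxne⟩ := hgood
    have hxlt : v (xc T) < 1 := lt_of_le_of_ne hxi hxne
    rcases hα with h | ⟨hαa0, hαlt, hα0⟩
    · exact absurd h hαne
    obtain ⟨hlt, k, hk⟩ := CruxPoint.main v hα0 hαlt hβ h2 hp hp2 hT hpT hxlt
    have hvα0 : v α ≠ 0 := (Valuation.ne_zero_iff v).mpr hα0
    have ha00 : a0 ≠ 0 := by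
      intro h
      rw [h, zero_pow hp.ne_zero] at hαa0
      exact hα0 hαa0
    have hva0 : v a0 ≠ 0 := (Valuation.ne_zero_iff v).mpr ha00
    have hvx0 : v (xc T) ≠ 0 := ne_of_gt (lt_trans (zero_lt_iff.mpr hvα0) hlt)
    have hx0 : xc T ≠ 0 := (Valuation.ne_zero_iff v).mp hvx0
    -- v x = v (a0 ^ (2k))
    have hvx : v (xc T) = v a0 ^ (2 * k) := by
      have h1 : v (xc T) ^ p = (v a0 ^ (2 * k)) ^ p := by
        rw [hk, hαa0, map_pow, ← zpow_natCast (v a0 ^ (2 * k)), ← zpow_mul, ← zpow_natCast (v a0),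
          ← zpow_mul, mul_comm]
      exact (pow_left_inj₀ zero_le zero_le hp.ne_zero).mp h1
    -- v y = v x
    have hvy : v (yc T) = v (xc T) := by
      have h1 : v (yc T) ^ 2 = v (xc T) ^ 2 := by
        rw [← map_pow, hE, map_mul, map_mul, LocalMain.val_sub_eq_of_lt v hlt,
          show xc T + β = β + xc T by ring,
          LocalMain.val_add_eq_of_lt v (by rw [hβ]; exact hxlt), hβ, mul_one, sq]
      exact (pow_left_inj₀ zero_le zero_le two_ne_zero).mp h1
    have hy0 : yc T ≠ 0 := (Valuation.ne_zero_iff v).mp (by rw [hvy]; exact hvx0)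
    set c : K := a0 ^ (2 * k) with hc
    have hc0 : c ≠ 0 := zpow_ne_zero _ ha00
    have hvc : v c = v (xc T) := by rw [hc, map_zpow₀, hvx]
    have hσc : σ c = c := by rw [hc, map_zpow₀, hσa0]
    -- generic unit trick
    have unit_trick : ∀ z : K, v z = v c → ∃ ε : K, v ε < 1 ∧ σ z = z * (1 + ε) := by
      intro z hz
      have hz0 : z ≠ 0 := (Valuation.ne_zero_iff v).mp (by rw [hz, hvc]; exact hvx0)
      set w : K := z / c with hw
      have hw0 : w ≠ 0 := div_ne_zero hz0 hc0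
      have hvw : v w = 1 := by
        rw [hw, map_div₀, hz, div_self ((Valuation.ne_zero_iff v).mpr hc0)]
      have hzw : z = c * w := by rw [hw]; field_simp
      refine ⟨(σ w - w) / w, ?_, ?_⟩
      · rw [map_div₀, hvw, div_one]; exact hσI w hvw.le
      · rw [hzw, map_mul, hσc]; field_simp; ring
    obtain ⟨ε, hε, hσx⟩ := unit_trick (xc T) hvc.symm
    obtain ⟨ε', hε', hσy⟩ := unit_trick (yc T) (by rw [hvy, hvc])
    exact NodeFinal.main v h2 ha₂v hT hT' hx0 hy0 hvy hxi hε hε' (by rw [hx', hσx])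
      (by rw [hy', hσy])

end Fermat.Agent.S13.BpLocal
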