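import Fermat.Agent.S13.BpCore
import Fermat.Agent.S13.E1Subgroup

/-!
# S13, block (Bp): the submodule `F_A = E[p] ∩ E₁(A)` and `(σ - 1) E[p] ⊆ F_A` for `σ ∈ I_A`, `A ∣ p`
-/

set_option autoImplicit false

namespace Fermat.Agent.S13.BpSub

open WeierstrassCurve WeierstrassCurve.Affine WeierstrassCurve.Affine.Point
open FreyPackage Fermat.Agent.S05 Fermat.Agent.S13

/-- `Qbar`. -/
local notation "Qbar" => AlgebraicClosure ℚ

/-- The `p`-torsion of the Frey curve over `Qbar`, exactly as in the frozen statement. -/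
abbrev Vp (P : FreyPackage) : Type :=
  Submodule.torsionBy ℤ (P.freyCurve⁄Qbar).Point P.p

section coeffs

variable (P : FreyPackage) (A : ValuationSubring Qbar) (hA : A.LiesOverPrime P.p)
include hA

lemma inv_two_mem : (2 : Qbar)⁻¹ ∈ A := by
  have hq : P.p.Prime := P.pp
  have hp2 : P.p ≠ 2 := by have := P.hp5; omega
  have h2v : A.valuation (2 : Qbar) = 1 := by
    have := FreyArith.val_natCast_eq_one A hq hA (n := 2)
      (fun h => hp2 ((Nat.prime_dvd_prime_iff_eq hq Nat.prime_two).mp h))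
    simpa using this
  rw [← A.valuation_le_one_iff, map_inv₀, h2v, inv_one]

lemma frey_a₂_mem : (P.freyCurve⁄Qbar).a₂ ∈ A := by
  rw [frey_a₂]
  have h2 := inv_two_mem P A hA
  have e : (((P.b : Qbar)) ^ P.p - 1 - ((P.a : Qbar)) ^ P.p) / 4 =
      (((P.b : Qbar)) ^ P.p - 1 - ((P.a : Qbar)) ^ P.p) * ((2 : Qbar)⁻¹ * (2 : Qbar)⁻¹) := by
    field_simp; norm_num
  rw [e]
  refine mul_mem (sub_mem (sub_mem ?_ (one_mem A)) ?_) (mul_mem h2 h2)
  · exact pow_mem (Inertia.intCast_mem' A P.b) _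
  · exact pow_mem (Inertia.intCast_mem' A P.a) _

lemma frey_a₄_mem : (P.freyCurve⁄Qbar).a₄ ∈ A := by
  rw [frey_a₄]
  have h2 := inv_two_mem P A hA
  have e : -(((P.a : Qbar)) ^ P.p) * ((P.b : Qbar)) ^ P.p / 16 =
      -(((P.a : Qbar)) ^ P.p) * ((P.b : Qbar)) ^ P.p *
        (((2 : Qbar)⁻¹ * (2 : Qbar)⁻¹) * ((2 : Qbar)⁻¹ * (2 : Qbar)⁻¹)) := by
    field_simp; norm_num
  rw [e]
  refine mul_mem (mul_mem (neg_mem ?_) ?_)
    (mul_mem (mul_mem h2 h2) (mul_mem h2 h2))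
  · exact pow_mem (Inertia.intCast_mem' A P.a) _
  · exact pow_mem (Inertia.intCast_mem' A P.b) _

lemma frey_b_mem : (P.freyCurve⁄Qbar).b₂ ∈ A ∧ (P.freyCurve⁄Qbar).b₄ ∈ A ∧
    (P.freyCurve⁄Qbar).b₆ ∈ A ∧ (P.freyCurve⁄Qbar).b₈ ∈ A := by
  refine E1Subgroup.b_mem_of_a_mem A ?_ (frey_a₂_mem P A hA) ?_ (frey_a₄_mem P A hA) ?_
  · rw [frey_a₁]; exact one_mem A
  · rw [frey_a₃]; exact zero_mem A
  · rw [frey_a₆]; exact zero_mem A

end coeffs

/-- The kernel of reduction of the Frey curve at a place `A` over `p`. -/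
noncomputable def E1A (P : FreyPackage) (A : ValuationSubring Qbar) (hA : A.LiesOverPrime P.p) :
    AddSubgroup (P.freyCurve⁄Qbar).Point :=
  E1Subgroup.E1 A (P.freyCurve.baseChange Qbar) (frey_b_mem P A hA).1 (frey_b_mem P A hA).2.1
    (frey_b_mem P A hA).2.2.1 (frey_b_mem P A hA).2.2.2

lemma mem_E1A_iff (P : FreyPackage) (A : ValuationSubring Qbar) (hA : A.LiesOverPrime P.p)
    (T : (P.freyCurve⁄Qbar).Point) :
    T ∈ E1A P A hA ↔ T = 0 ∨ XOnlyGen.xc T ∉ A := Iff.rfl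

/-- scalar multiplication by `ZMod n` on a `ZMod n`-module is repeated addition. -/
lemma zmod_smul_eq_nsmul {n : ℕ} [NeZero n] {M : Type*} [AddCommGroup M] [Module (ZMod n) M]
    (c : ZMod n) (x : M) : c • x = c.val • x := by
  conv_lhs => rw [← ZMod.natCast_zmod_val c]
  exact Nat.cast_smul_eq_nsmul (ZMod n) c.val x

/-- `F_A = E[p] ∩ E₁(A)` as an `𝔽_p`-subspace of `E[p]`. -/
noncomputable def FSub (P : FreyPackage) (A : ValuationSubring Qbar) (hA : A.LiesOverPrime P.p) :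
    Submodule (ZMod P.p) (Vp P) where
  carrier := {x | (x : (P.freyCurve⁄Qbar).Point) ∈ E1A P A hA}
  zero_mem' := (E1A P A hA).zero_mem
  add_mem' := fun hx hy => (E1A P A hA).add_mem hx hy
  smul_mem' := by
    intro c x hx
    have : NeZero P.p := ⟨P.pp.ne_zero⟩
    change ((c • x : Vp P) : (P.freyCurve⁄Qbar).Point) ∈ E1A P A hA
    rw [zmod_smul_eq_nsmul c x]
    have : ((c.val • x : Vp P) : (P.freyCurve⁄Qbar).Point) =
        c.val • (x : (P.freyCurve⁄Qbar).Point) := by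
      simp
    rw [this]
    exact (E1A P A hA).nsmul_mem hx _

lemma mem_FSub_iff (P : FreyPackage) (A : ValuationSubring Qbar) (hA : A.LiesOverPrime P.p)
    (x : Vp P) : x ∈ FSub P A hA ↔
      (x : (P.freyCurve⁄Qbar).Point) = 0 ∨ XOnlyGen.xc (x : (P.freyCurve⁄Qbar).Point) ∉ A :=
  Iff.rfl

/-- abscissa of `σ • T`. -/
lemma xc_smul (P : FreyPackage) (σ : Qbar ≃ₐ[ℚ] Qbar) (T : (P.freyCurve⁄Qbar).Point) :
    XOnlyGen.xc (σ • T) = σ (XOnlyGen.xc T) := by
  cases T with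
  | zero => exact (map_zero σ).symm
  | some x y h => rfl

lemma smul_eq_zero_iff (P : FreyPackage) (σ : Qbar ≃ₐ[ℚ] Qbar) (T : (P.freyCurve⁄Qbar).Point) :
    σ • T = 0 ↔ T = 0 := by
  cases T with
  | zero => exact ⟨fun _ => rfl, fun _ => rfl⟩
  | some x y h =>
    constructor
    · intro h0
      exact absurd h0 (Point.some_ne_zero _)
    · intro h0
      exact absurd h0 (Point.some_ne_zero _)

/-- **(Bp).** For `σ` in the inertia group of a place `A` over `p`: `(σ - 1) E[p] ⊆ F_A`. -/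
theorem smul_sub_mem (P : FreyPackage) (A : ValuationSubring Qbar) (hA : A.LiesOverPrime P.p)
    {σ : Qbar ≃ₐ[ℚ] Qbar} (hσ : σ ∈ A.inertiaSubgroupIn ℚ) (x : Vp P) :
    σ • x - x ∈ FSub P A hA := by
  have hx : P.p • (x : (P.freyCurve⁄Qbar).Point) = 0 := by
    have := (Submodule.mem_torsionBy_iff _ _).mp x.2
    rwa [natCast_zsmul] at this
  have hcoe : ((σ • x - x : Vp P) : (P.freyCurve⁄Qbar).Point) =
      σ • (x : (P.freyCurve⁄Qbar).Point) - (x : (P.freyCurve⁄Qbar).Point) := rfl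
  change ((σ • x - x : Vp P) : (P.freyCurve⁄Qbar).Point) ∈ E1A P A hA
  rw [hcoe]
  set T : (P.freyCurve⁄Qbar).Point := (x : (P.freyCurve⁄Qbar).Point) with hTdef
  by_cases hT0 : T = 0
  · rw [hT0, sub_zero]
    exact Or.inl ((smul_eq_zero_iff P σ 0).mpr rfl)
  by_cases hxT : XOnlyGen.xc T ∈ A
  · exact BpCore.core_p P A hA σ hσ T hx hT0 hxT
  · -- `T ∈ E₁`, hence `σ T ∈ E₁`, hence the difference is in `E₁`
    have h1 : T ∈ E1A P A hA := Or.inr hxT
    have h2 : σ • T ∈ E1A P A hA := by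
      right
      rw [xc_smul]
      intro hmem
      exact hxT ((Inertia.apply_mem_iff hσ).mp hmem)
    exact (E1A P A hA).sub_mem h2 h1

/-- `F_A = ⊤` iff every nonzero `p`-torsion point has non-integral abscissa at `A`. -/
theorem FSub_eq_top_iff (P : FreyPackage) (A : ValuationSubring Qbar) (hA : A.LiesOverPrime P.p) :
    FSub P A hA = ⊤ ↔ ∀ T : (P.freyCurve⁄Qbar).Point, P.p • T = 0 → T ≠ 0 →
      XOnlyGen.xc T ∉ A := by
  constructor
  · intro h T hT hT0
    have hmem : T ∈ Submodule.torsionBy ℤ (P.freyCurve⁄Qbar).Point P.p := by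
      rw [Submodule.mem_torsionBy_iff, natCast_zsmul]; exact hT
    have : (⟨T, hmem⟩ : Vp P) ∈ FSub P A hA := by rw [h]; exact Submodule.mem_top
    exact ((mem_FSub_iff P A hA _).mp this).resolve_left hT0
  · intro h
    rw [eq_top_iff]
    intro x _
    rw [mem_FSub_iff]
    by_cases hx0 : (x : (P.freyCurve⁄Qbar).Point) = 0
    · exact Or.inl hx0
    · right
      refine h _ ?_ hx0
      have := (Submodule.mem_torsionBy_iff _ _).mp x.2
      rwa [natCast_zsmul] at this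

end Fermat.Agent.S13.BpSub
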