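import Fermat.Agent.S13.XOnlyGen

/-!
# The branch (sign) lemma at a node

Model `y² + a₁xy = x³ + a₂x² + a₄x` over a field `K` with a valuation subring `A`,
`v(a₄) < 1`, and `α, β ∈ A` the two roots of `s² + a₁ s - a₂`, distinct modulo the maximal
ideal.  For a point `P = (x, y)` put `s(P) = y - αx`, `t(P) = y - βx`.  If `v(a₄) < v(x) < 1`
(the point reduces to the node and lies on a component strictly between `0` and `μ`) then
`v(s) ≠ v(t)`; which one is smaller is the *branch* of `P`.  Adding a point of `E₀`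
(abscissa a unit or non-integral) does not change the branch.
-/

set_option autoImplicit false

namespace Fermat.Agent.S13.Branch

open WeierstrassCurve WeierstrassCurve.Affine
open Fermat.Agent.S13.XOnlyGen

variable {K : Type*} [Field K]

/-- Vieta-type identity for the three intersection points of a line `y = λx + ν` with the
cubic, in terms of `m = λ - α`, `n = λ - β`. -/
lemma key_identity (x1 x2 m n ν a4 : K) (hne : x1 ≠ x2)
    (h1 : x1 ^ 3 - m * n * x1 ^ 2 - ((m + n) * ν - a4) * x1 - ν ^ 2 = 0)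
    (h2 : x2 ^ 3 - m * n * x2 ^ 2 - ((m + n) * ν - a4) * x2 - ν ^ 2 = 0) :
    (n * x1 + ν) * (n * x2 + ν) * (n * (m * n - x1 - x2) + ν) = ν * (ν ^ 2 + a4 * n ^ 2) ∧
    x1 * x2 * (m * n - x1 - x2) = ν ^ 2 := by
  have hd : x1 - x2 ≠ 0 := sub_ne_zero.mpr hne
  have E1 : x1 ^ 2 + x1 * x2 + x2 ^ 2 - m * n * (x1 + x2) - ((m + n) * ν - a4) = 0 := by
    apply mul_left_cancel₀ hd
    linear_combination h1 - h2
  have E2 : x1 * x2 * (x1 + x2) - m * n * x1 * x2 + ν ^ 2 = 0 := by
    apply mul_left_cancel₀ hd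
    linear_combination x2 * h1 - x1 * h2
  constructor
  · linear_combination (-n ^ 3) * E2 + (-n ^ 2 * ν) * E1
  · linear_combination -E2

/-- The hypotheses on the model. -/
structure NodeSetup (A : ValuationSubring K) (W : WeierstrassCurve K) (α β : K) : Prop where
  a₃ : W.a₃ = 0
  a₆ : W.a₆ = 0
  hα : α ∈ A
  hβ : β ∈ A
  sum : α + β = -W.a₁
  prod : α * β = -W.a₂
  unit : A.valuation (α - β) = 1
  a₄_lt : A.valuation W.a₄ < 1

namespace NodeSetup

variable {A : ValuationSubring K} {W : WeierstrassCurve K} {α β : K}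

lemma symm (h : NodeSetup A W α β) : NodeSetup A W β α where
  a₃ := h.a₃
  a₆ := h.a₆
  hα := h.hβ
  hβ := h.hα
  sum := by rw [add_comm]; exact h.sum
  prod := by rw [mul_comm]; exact h.prod
  unit := by rw [← neg_sub, Valuation.map_neg]; exact h.unit
  a₄_lt := h.a₄_lt

lemma vα (h : NodeSetup A W α β) : A.valuation α ≤ 1 := (A.valuation_le_one_iff α).mpr h.hα
lemma vβ (h : NodeSetup A W α β) : A.valuation β ≤ 1 := (A.valuation_le_one_iff β).mpr h.hβ

lemma va₁ (h : NodeSetup A W α β) : A.valuation W.a₁ ≤ 1 := by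
  have : W.a₁ = -(α + β) := by rw [h.sum, neg_neg]
  rw [this, Valuation.map_neg]
  exact (A.valuation.map_add _ _).trans (max_le h.vα h.vβ)

lemma va₂ (h : NodeSetup A W α β) : A.valuation W.a₂ ≤ 1 := by
  have : W.a₂ = -(α * β) := by rw [h.prod, neg_neg]
  rw [this, Valuation.map_neg, map_mul]
  exact mul_le_one' h.vα h.vβ

lemma st_mul (h : NodeSetup A W α β) {x y : K} (e : W.toAffine.Equation x y) :
    (y - α * x) * (y - β * x) = x * (x ^ 2 + W.a₄) := by
  have e' := (Affine.equation_iff x y).mp e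
  linear_combination e' - x * y * h.sum + x ^ 2 * h.prod - y * h.a₃ + h.a₆

/-- `v(x² + a₄) < v(x)` when `v(a₄) < v(x) < 1`. -/
lemma v_sq_add_lt (_h : NodeSetup A W α β) {x : K} (hx1 : A.valuation x < 1)
    (hx2 : A.valuation W.a₄ < A.valuation x) :
    A.valuation (x ^ 2 + W.a₄) < A.valuation x := by
  have hpos : 0 < A.valuation x := lt_of_le_of_lt zero_le hx2
  refine lt_of_le_of_lt (A.valuation.map_add _ _) (max_lt ?_ hx2)
  rw [map_pow]
  exact pow_lt_self_of_lt_one₀ hpos hx1 (by norm_num)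

/-- The dichotomy: for a point reducing to the node strictly between the components `0`
and `μ`, exactly one of `s = y - αx`, `t = y - βx` has the valuation of `x`, the other one
is strictly smaller. -/
lemma dichotomy (h : NodeSetup A W α β) {x y : K} (e : W.toAffine.Equation x y)
    (hx1 : A.valuation x < 1) (hx2 : A.valuation W.a₄ < A.valuation x) :
    A.valuation (y - α * x) ≠ A.valuation (y - β * x) ∧
      max (A.valuation (y - α * x)) (A.valuation (y - β * x)) = A.valuation x := by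
  have hpos : 0 < A.valuation x := lt_of_le_of_lt zero_le hx2
  have hprod : A.valuation (y - α * x) * A.valuation (y - β * x) <
      A.valuation x * A.valuation x := by
    rw [← map_mul, h.st_mul e, map_mul]
    exact mul_lt_mul_of_pos_left (h.v_sq_add_lt hx1 hx2) hpos
  have hsub : A.valuation ((y - α * x) - (y - β * x)) = A.valuation x := by
    have : (y - α * x) - (y - β * x) = -((α - β) * x) := by ring
    rw [this, Valuation.map_neg, map_mul, h.unit, one_mul]
  have hne : A.valuation (y - α * x) ≠ A.valuation (y - β * x) := by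
    intro heq
    have hle : A.valuation x ≤ A.valuation (y - α * x) := by
      rw [← hsub]
      exact (A.valuation.map_sub _ _).trans (by rw [← heq, max_self])
    have : A.valuation x * A.valuation x ≤
        A.valuation (y - α * x) * A.valuation (y - β * x) := by
      rw [← heq]; exact mul_le_mul' hle hle
    exact absurd hprod (not_lt.mpr this)
  refine ⟨hne, ?_⟩
  have key := A.valuation.map_add_of_distinct_val (x := y - α * x) (y := -(y - β * x))
    (by rwa [Valuation.map_neg])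
  rw [Valuation.map_neg, ← sub_eq_add_neg] at key
  rw [← key, hsub]

/-- the Weierstrass equation in the form `y (y + a₁ x) = x³ + a₂ x² + a₄ x`. -/
lemma eqn' (h : NodeSetup A W α β) {x y : K} (e : W.toAffine.Equation x y) :
    y * (y + W.a₁ * x) = x ^ 3 + (W.a₂ * x ^ 2 + W.a₄ * x) := by
  have e' := (Affine.equation_iff x y).mp e
  linear_combination e' - y * h.a₃ + h.a₆

/-- integrality of `y` for integral `x`. -/
lemma vy_le_one (h : NodeSetup A W α β) {x y : K} (e : W.toAffine.Equation x y)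
    (hx : A.valuation x ≤ 1) : A.valuation y ≤ 1 := by
  by_contra hy
  rw [not_le] at hy
  have h1 : A.valuation (W.a₁ * x) ≤ 1 := by
    rw [map_mul]; exact mul_le_one' h.va₁ hx
  have h2 : A.valuation (y + W.a₁ * x) = A.valuation y :=
    A.valuation.map_add_eq_of_lt_left (lt_of_le_of_lt h1 hy)
  have h3 : A.valuation (y * (y + W.a₁ * x)) = A.valuation y * A.valuation y := by
    rw [map_mul, h2]
  have h4 : 1 < A.valuation y * A.valuation y := by
    calc (1 : A.ValueGroup) = 1 * 1 := (one_mul 1).symm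
      _ < A.valuation y * A.valuation y :=
        mul_lt_mul'' hy hy zero_le_one zero_le_one
  have h5 : A.valuation (x ^ 3 + (W.a₂ * x ^ 2 + W.a₄ * x)) ≤ 1 := by
    refine (A.valuation.map_add _ _).trans (max_le ?_ ?_)
    · rw [map_pow]; exact pow_le_one' hx 3
    · refine (A.valuation.map_add _ _).trans (max_le ?_ ?_)
      · rw [map_mul, map_pow]; exact mul_le_one' h.va₂ (pow_le_one' hx 2)
      · rw [map_mul]; exact mul_le_one' h.a₄_lt.le hx
  rw [h.eqn' e] at h3
  rw [h3] at h5
  exact absurd h4 (not_lt.mpr h5)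

/-- a point with non-integral abscissa: `v(x) < v(y)` and `v(y)² = v(x)³`. -/
lemma vy_of_one_lt (h : NodeSetup A W α β) {x y : K} (e : W.toAffine.Equation x y)
    (hx : 1 < A.valuation x) :
    A.valuation x < A.valuation y ∧ A.valuation y ^ 2 = A.valuation x ^ 3 := by
  have hpos : 0 < A.valuation x := lt_trans zero_lt_one hx
  have h23 : A.valuation x ^ 2 < A.valuation x ^ 3 := pow_lt_pow_right₀ hx (by norm_num)
  have h12 : A.valuation x < A.valuation x ^ 2 := lt_self_pow₀ hx (by norm_num)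
  have hr : A.valuation (W.a₂ * x ^ 2 + W.a₄ * x) < A.valuation (x ^ 3) := by
    rw [map_pow]
    refine lt_of_le_of_lt (A.valuation.map_add _ _) (max_lt ?_ ?_)
    · rw [map_mul, map_pow]
      exact lt_of_le_of_lt (mul_le_of_le_one_left' h.va₂) h23
    · rw [map_mul]
      exact lt_of_le_of_lt (mul_le_of_le_one_left' h.a₄_lt.le) (h12.trans h23)
  have hR : A.valuation (x ^ 3 + (W.a₂ * x ^ 2 + W.a₄ * x)) = A.valuation x ^ 3 := by
    rw [A.valuation.map_add_eq_of_lt_left hr, map_pow]
  have h1 : A.valuation (W.a₁ * x) ≤ A.valuation x := by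
    rw [map_mul]; exact mul_le_of_le_one_left' h.va₁
  have hxy : A.valuation x < A.valuation y := by
    by_contra hy
    rw [not_lt] at hy
    have h2 : A.valuation (y + W.a₁ * x) ≤ A.valuation x :=
      (A.valuation.map_add _ _).trans (max_le hy h1)
    have h3 : A.valuation (y * (y + W.a₁ * x)) ≤ A.valuation x ^ 2 := by
      rw [map_mul, sq]; exact mul_le_mul' hy h2
    rw [h.eqn' e, hR] at h3
    exact absurd h23 (not_lt.mpr h3)
  refine ⟨hxy, ?_⟩
  have h2 : A.valuation (y + W.a₁ * x) = A.valuation y :=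
    A.valuation.map_add_eq_of_lt_left (lt_of_le_of_lt h1 hxy)
  rw [← hR, ← h.eqn' e, map_mul, h2, sq]

end NodeSetup

/-- purely algebraic form of the line identity. -/
lemma line_identity_aux (x1 y1 x2 y2 ℓ α β a4 : K) (hx : x1 ≠ x2)
    (e1 : y1 * (y1 + -(α + β) * x1) = x1 ^ 3 + (-(α * β) * x1 ^ 2 + a4 * x1))
    (e2 : y2 * (y2 + -(α + β) * x2) = x2 ^ 3 + (-(α * β) * x2 ^ 2 + a4 * x2))
    (hℓ : ℓ * (x1 - x2) = y1 - y2) :
    (y1 - β * x1) * (y2 - β * x2) *
        ((ℓ * ((ℓ ^ 2 + -(α + β) * ℓ - -(α * β) - x1 - x2) - x1) + y1) -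
          β * (ℓ ^ 2 + -(α + β) * ℓ - -(α * β) - x1 - x2)) =
      (y1 - ℓ * x1) * ((y1 - ℓ * x1) ^ 2 + a4 * (ℓ - β) ^ 2) ∧
    x1 * x2 * (ℓ ^ 2 + -(α + β) * ℓ - -(α * β) - x1 - x2) = (y1 - ℓ * x1) ^ 2 := by
  have hy2 : y2 = y1 - ℓ * (x1 - x2) := by rw [hℓ]; ring
  subst hy2
  obtain ⟨k1, k2⟩ := key_identity x1 x2 (ℓ - α) (ℓ - β) (y1 - ℓ * x1) a4 hx
    (by linear_combination -e1) (by linear_combination -e2)
  constructor
  · linear_combination k1
  · linear_combination k2

namespace NodeSetup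

variable {A : ValuationSubring K} {W : WeierstrassCurve K} {α β : K}

/-- the line identity for the model. -/
lemma line_identity (h : NodeSetup A W α β) {x1 y1 x2 y2 ℓ : K}
    (e1 : W.toAffine.Equation x1 y1) (e2 : W.toAffine.Equation x2 y2) (hx : x1 ≠ x2)
    (hℓ : ℓ * (x1 - x2) = y1 - y2) :
    (y1 - β * x1) * (y2 - β * x2) *
        (W.toAffine.negAddY x1 x2 y1 ℓ - β * W.toAffine.addX x1 x2 ℓ) =
      (y1 - ℓ * x1) * ((y1 - ℓ * x1) ^ 2 + W.a₄ * (ℓ - β) ^ 2) ∧
    x1 * x2 * W.toAffine.addX x1 x2 ℓ = (y1 - ℓ * x1) ^ 2 := by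
  have ha1 : W.a₁ = -(α + β) := by rw [h.sum, neg_neg]
  have ha2 : W.a₂ = -(α * β) := by rw [h.prod, neg_neg]
  have e1' := h.eqn' e1
  have e2' := h.eqn' e2
  simp only [Affine.negAddY, Affine.addX]
  rw [ha1, ha2] at e1' e2' ⊢
  exact line_identity_aux x1 y1 x2 y2 ℓ α β W.a₄ hx e1' e2' hℓ

/-- `v(y) ≤ v(x)` for a point with `v(a₄) < v(x) < 1`. -/
lemma vy_le_vx (h : NodeSetup A W α β) {x y : K} (e : W.toAffine.Equation x y)
    (hx1 : A.valuation x < 1) (hx2 : A.valuation W.a₄ < A.valuation x) :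
    A.valuation y ≤ A.valuation x := by
  have hd := (h.dichotomy e hx1 hx2).2
  have ht : A.valuation (y - β * x) ≤ A.valuation x := by
    rw [← hd]; exact le_max_right _ _
  have hb : A.valuation (β * x) ≤ A.valuation x := by
    rw [map_mul]; exact mul_le_of_le_one_left' h.vβ
  have : y = (y - β * x) + β * x := by ring
  rw [this]
  exact (A.valuation.map_add _ _).trans (max_le ht hb)

/-- the uniform scale `L` (`= 1` when `x₂` is a unit, `= v(ℓ)` when `x₂` is not integral). -/
lemma exists_L (h : NodeSetup A W α β) {x1 y1 x2 y2 ℓ : K}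
    (e1 : W.toAffine.Equation x1 y1) (e2 : W.toAffine.Equation x2 y2)
    (hx1 : A.valuation x1 < 1) (hx1' : A.valuation W.a₄ < A.valuation x1)
    (hx2 : 1 ≤ A.valuation x2) (hℓ : ℓ * (x1 - x2) = y1 - y2) :
    ∃ L : A.ValueGroup, 1 ≤ L ∧ A.valuation (y1 - ℓ * x1) ≤ L * A.valuation x1 ∧
      A.valuation (ℓ - β) ≤ L ∧ A.valuation (y2 - β * x2) = L ^ 3 ∧
      A.valuation x2 = L ^ 2 := by
  have F1 : A.valuation y1 ≤ A.valuation x1 := h.vy_le_vx e1 hx1 hx1'
  rcases hx2.eq_or_lt with hx2 | hx2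
  · -- `x₂` is a unit
    have vy2 : A.valuation y2 ≤ 1 := h.vy_le_one e2 hx2.symm.le
    have vd : A.valuation (x1 - x2) = 1 := by
      rw [A.valuation.map_sub_eq_of_lt_right (hx1.trans_eq hx2), ← hx2]
    have vℓ : A.valuation ℓ ≤ 1 := by
      have := congrArg A.valuation hℓ
      rw [map_mul, vd, mul_one] at this
      rw [this]
      exact A.valuation.map_sub_le (F1.trans hx1.le) vy2
    refine ⟨1, le_rfl, ?_, ?_, ?_, ?_⟩
    · rw [one_mul]
      refine A.valuation.map_sub_le F1 ?_
      rw [map_mul]; exact mul_le_of_le_one_left' vℓ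
    · exact A.valuation.map_sub_le vℓ h.vβ
    · rw [one_pow]
      have hs : A.valuation (y2 - α * x2) ≤ 1 := by
        refine A.valuation.map_sub_le vy2 ?_
        rw [map_mul, ← hx2, mul_one]; exact h.vα
      have ht : A.valuation (y2 - β * x2) ≤ 1 := by
        refine A.valuation.map_sub_le vy2 ?_
        rw [map_mul, ← hx2, mul_one]; exact h.vβ
      have hprod : A.valuation (y2 - α * x2) * A.valuation (y2 - β * x2) = 1 := by
        rw [← map_mul, h.st_mul e2, map_mul, ← hx2, one_mul]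
        have : A.valuation W.a₄ < A.valuation (x2 ^ 2) := by
          rw [map_pow, ← hx2, one_pow]; exact h.a₄_lt
        rw [A.valuation.map_add_eq_of_lt_left this, map_pow, ← hx2, one_pow]
      rcases ht.lt_or_eq with ht' | ht'
      · exact absurd hprod (ne_of_lt (Right.mul_lt_one_of_le_of_lt hs ht'))
      · exact ht'
    · rw [one_pow, ← hx2]
  · -- `x₂` is not integral
    obtain ⟨hxy, hsq⟩ := h.vy_of_one_lt e2 hx2
    have hx2pos : 0 < A.valuation x2 := lt_trans zero_lt_one hx2
    have vd : A.valuation (x1 - x2) = A.valuation x2 :=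
      A.valuation.map_sub_eq_of_lt_right (hx1.trans hx2)
    have vy : A.valuation (y1 - y2) = A.valuation y2 :=
      A.valuation.map_sub_eq_of_lt_right (lt_of_le_of_lt F1 (hx1.trans (hx2.trans hxy)))
    have hℓv : A.valuation ℓ * A.valuation x2 = A.valuation y2 := by
      have := congrArg A.valuation hℓ
      rwa [map_mul, vd, vy] at this
    have hL1 : 1 < A.valuation ℓ := by
      by_contra hcon
      rw [not_lt] at hcon
      have : A.valuation ℓ * A.valuation x2 ≤ A.valuation x2 := mul_le_of_le_one_left' hcon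
      rw [hℓv] at this
      exact absurd hxy (not_lt.mpr this)
    have hL2 : A.valuation x2 = A.valuation ℓ ^ 2 := by
      have h1 : A.valuation ℓ ^ 2 * A.valuation x2 ^ 2 = A.valuation x2 * A.valuation x2 ^ 2 := by
        rw [← mul_pow, hℓv, hsq]; exact pow_succ' _ 2
      have hne : A.valuation x2 ^ 2 ≠ 0 := pow_ne_zero _ hx2pos.ne'
      exact (mul_right_cancel₀ hne h1).symm
    have hL3 : A.valuation y2 = A.valuation ℓ ^ 3 := by
      rw [← hℓv, hL2]; exact (pow_succ' _ 2).symm
    refine ⟨A.valuation ℓ, hL1.le, ?_, ?_, ?_, hL2⟩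
    · refine A.valuation.map_sub_le ?_ (by rw [map_mul])
      exact F1.trans (le_mul_of_one_le_left' hL1.le)
    · exact A.valuation.map_sub_le le_rfl (h.vβ.trans hL1.le)
    · rw [← hL3]
      refine A.valuation.map_sub_eq_of_lt_left ?_
      rw [map_mul]
      exact lt_of_le_of_lt (mul_le_of_le_one_left' h.vβ) hxy

/-- The core estimate: for `P₁ = (x₁, y₁)` with `v(a₄) < v(x₁) < 1` and `P₂ = (x₂, y₂)` with
`1 ≤ v(x₂)`, the third intersection point `(x₃, y₃')` of the line through them satisfies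
`v(x₃) ≤ v(x₁)` and `v(t₁) v(t₃') < v(x₁)²`. -/
lemma core (h : NodeSetup A W α β) {x1 y1 x2 y2 ℓ : K}
    (e1 : W.toAffine.Equation x1 y1) (e2 : W.toAffine.Equation x2 y2)
    (hx1 : A.valuation x1 < 1) (hx1' : A.valuation W.a₄ < A.valuation x1)
    (hx2 : 1 ≤ A.valuation x2) (hℓ : ℓ * (x1 - x2) = y1 - y2) :
    A.valuation (W.toAffine.addX x1 x2 ℓ) ≤ A.valuation x1 ∧
    A.valuation (y1 - β * x1) *
      A.valuation (W.toAffine.negAddY x1 x2 y1 ℓ - β * W.toAffine.addX x1 x2 ℓ) <
        A.valuation x1 * A.valuation x1 := by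
  have hx : x1 ≠ x2 := by
    intro hxx; rw [hxx] at hx1; exact absurd hx1 (not_lt.mpr hx2)
  obtain ⟨L, hL1, hν, hn, ht2, hX2⟩ := h.exists_L (β := β) e1 e2 hx1 hx1' hx2 hℓ
  obtain ⟨k1, k2⟩ := h.line_identity e1 e2 hx hℓ
  have hapos : 0 < A.valuation x1 := lt_of_le_of_lt zero_le hx1'
  have hLpos : 0 < L := lt_of_lt_of_le zero_lt_one hL1
  have hL2pos : 0 < L ^ 2 := pow_pos hLpos 2
  have hL3pos : 0 < L ^ 3 := pow_pos hLpos 3
  have hN2 : A.valuation (y1 - ℓ * x1) ^ 2 ≤ L ^ 2 * (A.valuation x1 * A.valuation x1) := by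
    calc A.valuation (y1 - ℓ * x1) ^ 2 ≤ (L * A.valuation x1) ^ 2 := pow_le_pow_left' hν 2
      _ = L ^ 2 * (A.valuation x1 * A.valuation x1) := by rw [mul_pow, sq (A.valuation x1)]
  constructor
  · have hk2 : A.valuation x1 * L ^ 2 * A.valuation (W.toAffine.addX x1 x2 ℓ) =
        A.valuation (y1 - ℓ * x1) ^ 2 := by
      rw [← hX2, ← map_mul, ← map_mul, k2, map_pow]
    have hle : A.valuation x1 * L ^ 2 * A.valuation (W.toAffine.addX x1 x2 ℓ) ≤
        A.valuation x1 * L ^ 2 * A.valuation x1 := by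
      rw [hk2]
      refine hN2.trans (le_of_eq ?_)
      rw [mul_comm (A.valuation x1) (L ^ 2), mul_assoc]
    exact le_of_mul_le_mul_left hle (mul_pos hapos hL2pos)
  · have hk1 : A.valuation (y1 - β * x1) * L ^ 3 *
          A.valuation (W.toAffine.negAddY x1 x2 y1 ℓ - β * W.toAffine.addX x1 x2 ℓ) =
        A.valuation (y1 - ℓ * x1) *
          A.valuation ((y1 - ℓ * x1) ^ 2 + W.a₄ * (ℓ - β) ^ 2) := by
      rw [← ht2, ← map_mul, ← map_mul, k1, map_mul]
    have hsq : A.valuation x1 * A.valuation x1 < A.valuation x1 := by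
      have := pow_lt_self_of_lt_one₀ hapos hx1 (n := 2) (by norm_num)
      rwa [sq] at this
    have hB : A.valuation ((y1 - ℓ * x1) ^ 2 + W.a₄ * (ℓ - β) ^ 2) <
        L ^ 2 * A.valuation x1 := by
      refine lt_of_le_of_lt (A.valuation.map_add _ _) (max_lt ?_ ?_)
      · rw [map_pow]
        exact lt_of_le_of_lt hN2 (mul_lt_mul_of_pos_left hsq hL2pos)
      · rw [map_mul, map_pow, mul_comm]
        calc A.valuation (ℓ - β) ^ 2 * A.valuation W.a₄
            ≤ L ^ 2 * A.valuation W.a₄ := mul_le_mul' (pow_le_pow_left' hn 2) le_rfl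
          _ < L ^ 2 * A.valuation x1 := mul_lt_mul_of_pos_left hx1' hL2pos
    have hlt : L ^ 3 * (A.valuation (y1 - β * x1) *
          A.valuation (W.toAffine.negAddY x1 x2 y1 ℓ - β * W.toAffine.addX x1 x2 ℓ)) <
        L ^ 3 * (A.valuation x1 * A.valuation x1) := by
      calc L ^ 3 * (A.valuation (y1 - β * x1) *
            A.valuation (W.toAffine.negAddY x1 x2 y1 ℓ - β * W.toAffine.addX x1 x2 ℓ))
          = A.valuation (y1 - β * x1) * L ^ 3 *
            A.valuation (W.toAffine.negAddY x1 x2 y1 ℓ - β * W.toAffine.addX x1 x2 ℓ) := by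
            rw [mul_comm (A.valuation (y1 - β * x1)) (L ^ 3), mul_assoc]
        _ = A.valuation (y1 - ℓ * x1) *
            A.valuation ((y1 - ℓ * x1) ^ 2 + W.a₄ * (ℓ - β) ^ 2) := hk1
        _ ≤ (L * A.valuation x1) *
            A.valuation ((y1 - ℓ * x1) ^ 2 + W.a₄ * (ℓ - β) ^ 2) := mul_le_mul' hν le_rfl
        _ < (L * A.valuation x1) * (L ^ 2 * A.valuation x1) :=
            mul_lt_mul_of_pos_left hB (mul_pos hLpos hapos)
        _ = L ^ 3 * (A.valuation x1 * A.valuation x1) := by
            rw [pow_succ' L 2]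
            simp only [mul_assoc, mul_left_comm, mul_comm]
    exact lt_of_mul_lt_mul_left' hlt

end NodeSetup

/-! ### Point level -/

/-- `s_α(P) = y(P) - α x(P)`. -/
def sF {W : WeierstrassCurve K} (α : K) (P : W.toAffine.Point) : K := yc P - α * xc P

namespace NodeSetup

variable {A : ValuationSubring K} {W : WeierstrassCurve K} {α β : K}

lemma sF_neg (h : NodeSetup A W α β) {P : W.toAffine.Point} (hP : P ≠ 0) :
    sF α (-P) = -sF β P := by
  have ha1 : W.a₁ = -(α + β) := by rw [h.sum, neg_neg]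
  simp only [sF, xc_neg, yc_neg hP, h.a₃, ha1]
  ring

variable [DecidableEq K]

/-- coordinates of a sum, `x₁ ≠ x₂`. -/
lemma add_coords {x1 y1 x2 y2 : K} (h1 : W.toAffine.Nonsingular x1 y1)
    (h2 : W.toAffine.Nonsingular x2 y2) (hx : x1 ≠ x2) :
    ∃ ℓ : K, ℓ * (x1 - x2) = y1 - y2 ∧
      W.toAffine.Equation (W.toAffine.addX x1 x2 ℓ) (W.toAffine.negAddY x1 x2 y1 ℓ) ∧
      Point.some x1 y1 h1 + Point.some x2 y2 h2 ≠ 0 ∧
      xc (Point.some x1 y1 h1 + Point.some x2 y2 h2) = W.toAffine.addX x1 x2 ℓ ∧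
      yc (Point.some x1 y1 h1 + Point.some x2 y2 h2) =
        W.toAffine.negY (W.toAffine.addX x1 x2 ℓ) (W.toAffine.negAddY x1 x2 y1 ℓ) := by
  refine ⟨W.toAffine.slope x1 x2 y1 y2, ?_, ?_, ?_, ?_, ?_⟩
  · rw [slope_of_X_ne hx]
    field_simp [sub_ne_zero.mpr hx]
  · exact (nonsingular_negAdd h1 h2 fun hxy => hx hxy.left).1
  · rw [Point.add_of_X_ne hx]; exact Point.some_ne_zero _
  · rw [Point.add_of_X_ne hx]; rfl
  · rw [Point.add_of_X_ne hx]; rfl

omit [DecidableEq K] in
lemma equation_xc_yc' {P : W.toAffine.Point} (hP : P ≠ 0) :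
    W.toAffine.Equation (xc P) (yc P) := (nonsingular_xc_yc hP).1

/-- first estimates for a sum `P + Q`, `P` reducing to the node (strictly inside), `Q ∈ E₀`. -/
lemma add_core (h : NodeSetup A W α β) {P Q : W.toAffine.Point} (hP : P ≠ 0) (hQ : Q ≠ 0)
    (hP1 : A.valuation (xc P) < 1) (hP2 : A.valuation W.a₄ < A.valuation (xc P))
    (hQ1 : 1 ≤ A.valuation (xc Q)) :
    P + Q ≠ 0 ∧ A.valuation (xc (P + Q)) ≤ A.valuation (xc P) ∧
      A.valuation (sF β P) * A.valuation (sF α (P + Q)) <
        A.valuation (xc P) * A.valuation (xc P) := by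
  cases P with
  | zero => exact absurd rfl hP
  | some x1 y1 h1 =>
    cases Q with
    | zero => exact absurd rfl hQ
    | some x2 y2 h2 =>
      simp only [xc_some] at hP1 hP2 hQ1
      have hx : x1 ≠ x2 := by
        intro hxx; rw [hxx] at hP1; exact absurd hP1 (not_lt.mpr hQ1)
      obtain ⟨ℓ, hℓ, -, hne, hxc, hyc⟩ := add_coords h1 h2 hx
      obtain ⟨c1, c2⟩ := h.core (β := β) h1.1 h2.1 hP1 hP2 hQ1 hℓ
      refine ⟨hne, ?_, ?_⟩
      · rw [hxc]; exact c1
      · have ha1 : W.a₁ = -(α + β) := by rw [h.sum, neg_neg]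
        have : sF α (Point.some x1 y1 h1 + Point.some x2 y2 h2) =
            -(W.toAffine.negAddY x1 x2 y1 ℓ - β * W.toAffine.addX x1 x2 ℓ) := by
          simp only [sF, hxc, hyc, Affine.negY, h.a₃, ha1]
          ring
        rw [this, Valuation.map_neg]
        exact c2

/-- `v(x(P + Q)) = v(x(P))` for `P` strictly inside the node region and `Q ∈ E₀`. -/
lemma xval_add_eq (h : NodeSetup A W α β) {P Q : W.toAffine.Point} (hP : P ≠ 0) (hQ : Q ≠ 0)
    (hP1 : A.valuation (xc P) < 1) (hP2 : A.valuation W.a₄ < A.valuation (xc P))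
    (hQ1 : 1 ≤ A.valuation (xc Q)) :
    A.valuation (xc (P + Q)) = A.valuation (xc P) := by
  have hx : xc P ≠ xc Q := by
    intro hxx; rw [hxx] at hP1; exact absurd hP1 (not_lt.mpr hQ1)
  have hnQ : -Q ≠ 0 := neg_ne_zero.mpr hQ
  obtain ⟨-, le3, -⟩ := h.add_core hP hQ hP1 hP2 hQ1
  obtain ⟨-, le4, -⟩ := h.add_core hP hnQ hP1 hP2 (by rwa [xc_neg])
  rw [← sub_eq_add_neg] at le4
  obtain ⟨-, -, -, hprod⟩ := xc_add_sub hP hQ hx
  have hb4 : W.b₄ = 2 * W.a₄ := by simp only [WeierstrassCurve.b₄, h.a₃]; ring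
  have hb6 : W.b₆ = 0 := by simp only [WeierstrassCurve.b₆, h.a₃, h.a₆]; ring
  have hb8 : W.b₈ = -W.a₄ ^ 2 := by simp only [WeierstrassCurve.b₈, h.a₃, h.a₆]; ring
  have hprod' : xc (P + Q) * xc (P - Q) * (xc P - xc Q) ^ 2 = (xc P * xc Q - W.a₄) ^ 2 := by
    rw [hprod, hb4, hb6, hb8]; ring
  have hapos : 0 < A.valuation (xc P) := lt_of_le_of_lt zero_le hP2
  have hqpos : 0 < A.valuation (xc Q) := lt_of_lt_of_le zero_lt_one hQ1
  have v1 : A.valuation (xc P - xc Q) = A.valuation (xc Q) :=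
    A.valuation.map_sub_eq_of_lt_right (lt_of_lt_of_le hP1 hQ1)
  have v2 : A.valuation (xc P * xc Q - W.a₄) = A.valuation (xc P) * A.valuation (xc Q) := by
    rw [← map_mul]
    refine A.valuation.map_sub_eq_of_lt_left ?_
    rw [map_mul]
    exact lt_of_lt_of_le hP2 (le_mul_of_one_le_right' hQ1)
  have hv := congrArg A.valuation hprod'
  rw [map_mul, map_mul, map_pow, map_pow, v1, v2, mul_pow] at hv
  have hv' : A.valuation (xc (P + Q)) * A.valuation (xc (P - Q)) =
      A.valuation (xc P) ^ 2 := mul_right_cancel₀ (pow_ne_zero 2 hqpos.ne') hv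
  rcases le3.lt_or_eq with hlt | heq
  · exfalso
    have : A.valuation (xc (P + Q)) * A.valuation (xc (P - Q)) < A.valuation (xc P) ^ 2 := by
      calc A.valuation (xc (P + Q)) * A.valuation (xc (P - Q))
          ≤ A.valuation (xc (P + Q)) * A.valuation (xc P) := mul_le_mul' le_rfl le4
        _ < A.valuation (xc P) * A.valuation (xc P) := by
            rw [mul_comm (A.valuation (xc (P + Q)))]
            exact mul_lt_mul_of_pos_left hlt hapos
        _ = A.valuation (xc P) ^ 2 := (sq _).symm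
    exact absurd hv' (ne_of_lt this)
  · exact heq

/-- **Branch lemma**: adding a point of `E₀` does not change the branch. -/
theorem branch_add (h : NodeSetup A W α β) {P Q : W.toAffine.Point} (hP : P ≠ 0) (hQ : Q ≠ 0)
    (hP1 : A.valuation (xc P) < 1) (hP2 : A.valuation W.a₄ < A.valuation (xc P))
    (hQ1 : 1 ≤ A.valuation (xc Q))
    (hbr : A.valuation (sF α P) < A.valuation (sF β P)) :
    A.valuation (sF α (P + Q)) < A.valuation (sF β (P + Q)) := by
  obtain ⟨hne, -, hlt⟩ := h.add_core hP hQ hP1 hP2 hQ1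
  have hxeq := h.xval_add_eq hP hQ hP1 hP2 hQ1
  have hapos : 0 < A.valuation (xc P) := lt_of_le_of_lt zero_le hP2
  -- `v(t(P)) = v(x(P))`
  have hd1 := h.dichotomy (equation_xc_yc' hP) hP1 hP2
  have ht1 : A.valuation (sF β P) = A.valuation (xc P) := by
    rw [← hd1.2]; exact (max_eq_right hbr.le).symm
  rw [ht1] at hlt
  have hs3 : A.valuation (sF α (P + Q)) < A.valuation (xc (P + Q)) := by
    rw [hxeq]; exact lt_of_mul_lt_mul_left' hlt
  have hd3 := h.dichotomy (equation_xc_yc' hne) (by rw [hxeq]; exact hP1)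
    (by rw [hxeq]; exact hP2)
  have hmax : max (A.valuation (sF α (P + Q))) (A.valuation (sF β (P + Q))) =
      A.valuation (xc (P + Q)) := hd3.2
  rcases le_total (A.valuation (sF β (P + Q))) (A.valuation (sF α (P + Q))) with hle | hle
  · rw [max_eq_left hle] at hmax
    exact absurd hmax (ne_of_lt hs3)
  · rw [max_eq_right hle] at hmax
    rw [hmax]; exact hs3

omit [DecidableEq K] in
/-- the two branches are distinguished: `v(s) ≠ v(t)`. -/
lemma sF_val_ne (h : NodeSetup A W α β) {P : W.toAffine.Point} (hP : P ≠ 0)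
    (hP1 : A.valuation (xc P) < 1) (hP2 : A.valuation W.a₄ < A.valuation (xc P)) :
    A.valuation (sF α P) ≠ A.valuation (sF β P) :=
  (h.dichotomy (equation_xc_yc' hP) hP1 hP2).1

/-- one-sided version of the consumer lemma. -/
lemma sign_aux (h : NodeSetup A W α β) {T T' : W.toAffine.Point} (hT : T ≠ 0)
    (hT1 : A.valuation (xc T) < 1) (hT2 : A.valuation W.a₄ < A.valuation (xc T))
    (hs : A.valuation (sF α T') = A.valuation (sF α T))
    (ht : A.valuation (sF β T') = A.valuation (sF β T))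
    (hbr : A.valuation (sF α T) < A.valuation (sF β T))
    (hsum : T' + T = 0 ∨ 1 ≤ A.valuation (xc (T' + T))) : False := by
  have hnT : -T ≠ 0 := neg_ne_zero.mpr hT
  have hsn : A.valuation (sF α (-T)) = A.valuation (sF β T) := by
    rw [h.sF_neg hT, Valuation.map_neg]
  have htn : A.valuation (sF β (-T)) = A.valuation (sF α T) := by
    rw [h.symm.sF_neg hT, Valuation.map_neg]
  by_cases h0 : T' + T = 0
  · have hT' : T' = -T := eq_neg_of_add_eq_zero_left h0
    rw [hT', hsn] at hs
    exact absurd hs (ne_of_gt hbr)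
  · have hR : 1 ≤ A.valuation (xc (T' + T)) := hsum.resolve_left h0
    have hT' : T' = -T + (T' + T) := by abel
    have key := h.symm.branch_add hnT h0 (by rwa [xc_neg]) (by rwa [xc_neg]) hR
      (by rw [hsn, htn]; exact hbr)
    rw [← hT', hs, ht] at key
    exact absurd key (not_lt.mpr hbr.le)

/-- **Sign lemma (consumer form).**  Let `T` reduce to the node strictly between the
components `0` and `μ` (`v(a₄) < v(x_T) < 1`), and let `T'` be a point with the same
valuations of `s` and `t` (e.g. `T' = σ T` with `σ` in the inertia group).  Then `T' + T`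
is not in `E₀` (it is neither `0` nor a point with `1 ≤ v(x)`). -/
theorem sign (h : NodeSetup A W α β) {T T' : W.toAffine.Point} (hT : T ≠ 0)
    (hT1 : A.valuation (xc T) < 1) (hT2 : A.valuation W.a₄ < A.valuation (xc T))
    (hs : A.valuation (sF α T') = A.valuation (sF α T))
    (ht : A.valuation (sF β T') = A.valuation (sF β T))
    (hsum : T' + T = 0 ∨ 1 ≤ A.valuation (xc (T' + T))) : False := by
  rcases lt_or_gt_of_ne (h.sF_val_ne hT hT1 hT2) with hbr | hbr
  · exact h.sign_aux hT hT1 hT2 hs ht hbr hsum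
  · exact h.symm.sign_aux hT hT1 hT2 ht hs hbr hsum

/-! ### Automorphism form -/

omit [DecidableEq K] in
/-- a ring endomorphism fixing `a₁, a₂` permutes the roots `α, β`. -/
lemma map_root (h : NodeSetup A W α β) (σ : K →+* K) (h1 : σ W.a₁ = W.a₁)
    (h2 : σ W.a₂ = W.a₂) : σ α = α ∨ σ α = β := by
  have ha1 : W.a₁ = -(α + β) := by rw [h.sum, neg_neg]
  have ha2 : W.a₂ = -(α * β) := by rw [h.prod, neg_neg]
  have h0 : α ^ 2 + W.a₁ * α - W.a₂ = 0 := by rw [ha1, ha2]; ring
  have h0' := congrArg σ h0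
  rw [map_sub, map_add, map_mul, map_pow, h1, h2, map_zero] at h0'
  have : (σ α - α) * (σ α - β) = 0 := by
    rw [ha1, ha2] at h0'
    linear_combination h0'
  rcases mul_eq_zero.mp this with h' | h'
  · exact Or.inl (sub_eq_zero.mp h')
  · exact Or.inr (sub_eq_zero.mp h')

omit [DecidableEq K] in
/-- an endomorphism fixing `a₁, a₂` and acting trivially modulo the maximal ideal fixes the
roots `α` and `β` (they are distinct modulo the maximal ideal). -/
lemma map_root_eq (h : NodeSetup A W α β) (σ : K →+* K) (h1 : σ W.a₁ = W.a₁)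
    (h2 : σ W.a₂ = W.a₂) (hin : ∀ z ∈ A, A.valuation (σ z - z) < 1) :
    σ α = α ∧ σ β = β := by
  constructor
  · rcases h.map_root σ h1 h2 with h' | h'
    · exact h'
    · exfalso
      have := hin α h.hα
      rw [h', ← neg_sub, Valuation.map_neg, h.unit] at this
      exact lt_irrefl _ this
  · rcases h.symm.map_root σ h1 h2 with h' | h'
    · exact h'
    · exfalso
      have := hin β h.hβ
      rw [h', h.unit] at this
      exact lt_irrefl _ this

/-- **Sign lemma, automorphism form.**  `σ` a ring endomorphism of `K` preserving the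
valuation, fixing `a₁, a₂`, and trivial modulo the maximal ideal of `A` (e.g. an element of
the inertia group).  If `T' = σ(T)` coordinatewise, and `T` reduces to the node strictly
between the components `0` and `μ`, then `σ T + T ∉ E₀`. -/
theorem sign_map (h : NodeSetup A W α β) (σ : K →+* K) (h1 : σ W.a₁ = W.a₁)
    (h2 : σ W.a₂ = W.a₂) (hv : ∀ z, A.valuation (σ z) = A.valuation z)
    (hin : ∀ z ∈ A, A.valuation (σ z - z) < 1)
    {T T' : W.toAffine.Point} (hT : T ≠ 0)
    (hT1 : A.valuation (xc T) < 1) (hT2 : A.valuation W.a₄ < A.valuation (xc T))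
    (hx : xc T' = σ (xc T)) (hy : yc T' = σ (yc T))
    (hsum : T' + T = 0 ∨ 1 ≤ A.valuation (xc (T' + T))) : False := by
  obtain ⟨hα, hβ⟩ := h.map_root_eq σ h1 h2 hin
  refine h.sign hT hT1 hT2 ?_ ?_ hsum
  · have : sF α T' = σ (sF α T) := by
      simp only [sF, hx, hy, map_sub, map_mul, hα]
    rw [this, hv]
  · have : sF β T' = σ (sF β T) := by
      simp only [sF, hx, hy, map_sub, map_mul, hβ]
    rw [this, hv]

end NodeSetup

end Fermat.Agent.S13.Branch
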