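import Fermat.Agent.S13.VLawGen

/-!
# S13 / B2.branch (chord version): the sign lemma at a node

Model `y² + a₁xy = x³ + a₂x² + a₄x` (`a₃ = a₆ = 0`), `α + β = -a₁`, `α β = -a₂` (the two tangent
directions at the node `(0,0)` of the reduction), `v (α - β) = 1`, `v a₄ < 1`.
With `s = y - αx`, `t = y - βx` the curve reads `s² + (α - β) x s = x³ + a₄x`, `t = s + (α-β)x`.

For two points `T`, `T'` with the same `v x ∈ (v a₄, 1)`, the same `v s` and the same `v t`
("same branch"), `T' ≠ T`: the sum `T' + T` does **not** reduce to a nonsingular point, hence (folding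
law) the difference `T' - T` does.

Proof: the chord `y = λX + ν` through `T`, `T'` cuts the cubic in a third point with
`x · x' · x₃ = ν²` (constant term), and `ν = s - x (s' - s)/(x' - x)` is small because
`(s' - s)(s' + s + δx) = (x' - x)(x'² + x'x + x² + a₄ - δ s')`.
-/

set_option autoImplicit false

namespace Fermat.Agent.S13.BranchChord

open WeierstrassCurve WeierstrassCurve.Affine Fermat.Agent.S13.XOnlyGen Fermat.Agent.S13.VLawGen

variable {K : Type*} [Field K]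
  {Γ₀ : Type*} [LinearOrderedCommGroupWithZero Γ₀] (v : Valuation K Γ₀)

section FieldLevel

/-- the curve equation in the coordinate `s = y - αx`. -/
lemma curve_s {a₁ a₂ a₄ α β x y : K} (h1 : α + β = -a₁) (h2 : α * β = -a₂)
    (e : y ^ 2 + a₁ * x * y = x ^ 3 + a₂ * x ^ 2 + a₄ * x) :
    (y - α * x) ^ 2 + (α - β) * x * (y - α * x) = x ^ 3 + a₄ * x := by
  have ha₁ : a₁ = -(α + β) := by rw [h1, neg_neg]
  have ha₂ : a₂ = -(α * β) := by rw [h2, neg_neg]
  subst ha₁ ha₂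
  linear_combination e

/-- constant term of the chord cubic: `x x' x₃ (x - x')² = (y' x - y x')²`. -/
lemma chord_const {a₁ a₂ a₄ x y x' y' : K}
    (e : y ^ 2 + a₁ * x * y = x ^ 3 + a₂ * x ^ 2 + a₄ * x)
    (e' : y' ^ 2 + a₁ * x' * y' = x' ^ 3 + a₂ * x' ^ 2 + a₄ * x')
    (hx : x' - x ≠ 0) :
    x * x' * (((y' - y) / (x' - x)) ^ 2 + a₁ * ((y' - y) / (x' - x)) - a₂ - x' - x) * (x' - x) ^ 2 =
      (y * x' - y' * x) ^ 2 := by
  have key : (((y' - y) / (x' - x)) ^ 2 + a₁ * ((y' - y) / (x' - x)) - a₂ - x' - x) * (x' - x) ^ 2 =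
      (y' - y) ^ 2 + a₁ * (y' - y) * (x' - x) - (a₂ + x' + x) * (x' - x) ^ 2 := by
    field_simp
    ring
  rw [mul_assoc, key]
  linear_combination (x' * (x - x')) * e - (x * (x - x')) * e'

omit v in
/-- `ν (x' - x) = s (x' - x) - x (s' - s)`. -/
lemma nu_eq {α x y x' y' : K} :
    y * x' - y' * x = (y - α * x) * (x' - x) - x * ((y' - α * x') - (y - α * x)) := by
  ring

/-- the difference identity `(s' - s)(s' + s + δx) = (x' - x)(x'² + x'x + x² + a₄ - δ s')`. -/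
lemma diff_id {a₄ δ x s x' s' : K}
    (e : s ^ 2 + δ * x * s = x ^ 3 + a₄ * x) (e' : s' ^ 2 + δ * x' * s' = x' ^ 3 + a₄ * x') :
    (s' - s) * (s' + s + δ * x) = (x' - x) * (x' ^ 2 + x' * x + x ^ 2 + a₄ - δ * s') := by
  linear_combination e' - e

/-- **core estimate**: on the branch where `s` is small, the chord through two points with the same
`v x` has small constant term `ν`: `v (y x' - y' x) < v x * v (x' - x)`. -/
lemma val_nu_lt {a₄ δ x s x' s' : K} {ξ : Γ₀}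
    (e : s ^ 2 + δ * x * s = x ^ 3 + a₄ * x) (e' : s' ^ 2 + δ * x' * s' = x' ^ 3 + a₄ * x')
    (hδ : v δ = 1) (hx : v x = ξ) (hx' : v x' = ξ) (hξ1 : ξ < 1) (ha₄ : v a₄ < ξ)
    (hs : v s < ξ) (hs' : v s' < ξ) (hne : x' - x ≠ 0) :
    v (s * (x' - x) - x * (s' - s)) < ξ * v (x' - x) := by
  have hξ0 : 0 < ξ := lt_of_le_of_lt zero_le ha₄
  have hξne : ξ ≠ 0 := hξ0.ne'
  have hd0 : 0 < v (x' - x) := zero_lt_iff.mpr ((Valuation.ne_zero_iff v).mpr hne)
  have hξ2 : ξ * ξ < ξ := by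
    calc ξ * ξ < ξ * 1 := mul_lt_mul_of_pos_left hξ1 hξ0
      _ = ξ := mul_one _
  -- `A = s' + s + δ x` has valuation `ξ`
  have hA : v (s' + s + δ * x) = ξ := by
    have h1 : v (δ * x) = ξ := by rw [map_mul, hδ, one_mul, hx]
    have h2 : v (s' + s) < ξ := lt_of_le_of_lt (v.map_add _ _) (max_lt hs' hs)
    rw [add_comm, Valuation.map_add_eq_of_lt_left v (by rw [h1]; exact h2), h1]
  -- `B = x'² + x'x + x² + a₄ - δ s'` has valuation `< ξ`
  have hB : v (x' ^ 2 + x' * x + x ^ 2 + a₄ - δ * s') < ξ := by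
    have t1 : v (x' ^ 2) < ξ := by rw [map_pow, hx', sq]; exact hξ2
    have t2 : v (x' * x) < ξ := by rw [map_mul, hx', hx]; exact hξ2
    have t3 : v (x ^ 2) < ξ := by rw [map_pow, hx, sq]; exact hξ2
    have t5 : v (δ * s') < ξ := by rw [map_mul, hδ, one_mul]; exact hs'
    have u1 : v (x' ^ 2 + x' * x) < ξ := lt_of_le_of_lt (v.map_add _ _) (max_lt t1 t2)
    have u2 : v (x' ^ 2 + x' * x + x ^ 2) < ξ := lt_of_le_of_lt (v.map_add _ _) (max_lt u1 t3)
    have u3 : v (x' ^ 2 + x' * x + x ^ 2 + a₄) < ξ :=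
      lt_of_le_of_lt (v.map_add _ _) (max_lt u2 ha₄)
    exact lt_of_le_of_lt (v.map_sub _ _) (max_lt u3 t5)
  -- hence `v (s' - s) < v (x' - x)`
  have hid := diff_id e e'
  have hds : v (s' - s) * ξ = v (x' - x) * v (x' ^ 2 + x' * x + x ^ 2 + a₄ - δ * s') := by
    rw [← hA, ← map_mul, ← map_mul, hid]
  have hds' : v (s' - s) * ξ < v (x' - x) * ξ := by
    rw [hds]; exact mul_lt_mul_of_pos_left hB hd0
  have hds'' : v (s' - s) < v (x' - x) := lt_of_mul_lt_mul_right hds' zero_le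
  -- conclusion
  have h1 : v (s * (x' - x)) < ξ * v (x' - x) := by
    rw [map_mul]; exact mul_lt_mul_of_pos_right hs hd0
  have h2 : v (x * (s' - s)) < ξ * v (x' - x) := by
    rw [map_mul, hx]; exact mul_lt_mul_of_pos_left hds'' hξ0
  exact lt_of_le_of_lt (v.map_sub _ _) (max_lt h1 h2)

/-- field-level chord lemma: the third intersection point has `v x₃ < 1`. -/
lemma val_addX_lt_one {a₁ a₂ a₄ α β x y x' y' : K} (h1 : α + β = -a₁) (h2 : α * β = -a₂)
    (e : y ^ 2 + a₁ * x * y = x ^ 3 + a₂ * x ^ 2 + a₄ * x)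
    (e' : y' ^ 2 + a₁ * x' * y' = x' ^ 3 + a₂ * x' ^ 2 + a₄ * x')
    (hδ : v (α - β) = 1) (hξ1 : v x < 1) (ha₄ : v a₄ < v x) (hx' : v x' = v x)
    (hs : v (y - α * x) < v x) (hs' : v (y' - α * x') < v x) (hne : x' - x ≠ 0) :
    v (((y' - y) / (x' - x)) ^ 2 + a₁ * ((y' - y) / (x' - x)) - a₂ - x' - x) < 1 := by
  set ξ := v x with hξ
  have hξ0 : 0 < ξ := lt_of_le_of_lt zero_le ha₄
  have hd0 : 0 < v (x' - x) := zero_lt_iff.mpr ((Valuation.ne_zero_iff v).mpr hne)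
  have es := curve_s h1 h2 e
  have es' := curve_s h1 h2 e'
  have hν := val_nu_lt v es es' hδ hξ.symm hx' hξ1 ha₄ hs hs' hne
  rw [← nu_eq] at hν
  have hc := chord_const e e' hne
  have hv := congrArg v hc
  rw [map_mul, map_mul, map_mul, map_pow, map_pow, hx', ← hξ] at hv
  set X3 := ((y' - y) / (x' - x)) ^ 2 + a₁ * ((y' - y) / (x' - x)) - a₂ - x' - x with hX3
  by_contra hcon
  rw [not_lt] at hcon
  have hsq : (ξ * v (x' - x)) ^ 2 ≤ v (y * x' - y' * x) ^ 2 := by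
    rw [← hv]
    calc (ξ * v (x' - x)) ^ 2 = ξ * ξ * 1 * v (x' - x) ^ 2 := by rw [mul_pow, mul_one, sq ξ]
      _ ≤ ξ * ξ * v X3 * v (x' - x) ^ 2 := by gcongr
  have := pow_lt_pow_left₀ hν zero_le two_ne_zero
  exact absurd hsq (not_le.mpr this)

/-- dichotomy: exactly one of `s = y - αx`, `t = y - βx` is smaller than `x`. -/
lemma dichotomy {a₁ a₂ a₄ α β x y : K} (h1 : α + β = -a₁) (h2 : α * β = -a₂)
    (e : y ^ 2 + a₁ * x * y = x ^ 3 + a₂ * x ^ 2 + a₄ * x)
    (hδ : v (α - β) = 1) (hξ1 : v x < 1) (ha₄ : v a₄ < v x) :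
    (v (y - α * x) < v x ∨ v (y - β * x) < v x) ∧ v (y - α * x) ≠ v (y - β * x) := by
  set ξ := v x with hξ
  have hξ0 : 0 < ξ := lt_of_le_of_lt zero_le ha₄
  have hξ2 : ξ * ξ < ξ := by
    calc ξ * ξ < ξ * 1 := mul_lt_mul_of_pos_left hξ1 hξ0
      _ = ξ := mul_one _
  have es := curve_s h1 h2 e
  have hprod : (y - α * x) * (y - β * x) = x * (x ^ 2 + a₄) := by linear_combination es
  have hB : v (x ^ 2 + a₄) < ξ := by
    have t3 : v (x ^ 2) < ξ := by rw [map_pow, ← hξ, sq]; exact hξ2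
    exact lt_of_le_of_lt (v.map_add _ _) (max_lt t3 ha₄)
  have hlt : v (y - α * x) * v (y - β * x) < ξ * ξ := by
    rw [← map_mul, hprod, map_mul, ← hξ]
    exact mul_lt_mul_of_pos_left hB hξ0
  have hor : v (y - α * x) < ξ ∨ v (y - β * x) < ξ := by
    by_contra hcon
    push Not at hcon
    exact absurd (mul_le_mul' hcon.1 hcon.2) (not_le.mpr hlt)
  refine ⟨hor, fun heq => ?_⟩
  have hdiff : (y - β * x) - (y - α * x) = (α - β) * x := by ring
  have hξle : ξ ≤ v (y - α * x) := by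
    have h := v.map_sub (y - β * x) (y - α * x)
    rw [hdiff, map_mul, hδ, one_mul, ← hξ, ← heq, max_self] at h
    exact h
  rcases hor with h | h
  · exact absurd hξle (not_le.mpr h)
  · rw [← heq] at h
    exact absurd hξle (not_le.mpr h)

end FieldLevel

section PointLevel

variable [DecidableEq K] {W : WeierstrassCurve K}

omit [DecidableEq K] in
/-- the curve equation of a nonzero point when `a₃ = a₆ = 0`. -/
lemma equation' (ha₃ : W.a₃ = 0) (ha₆ : W.a₆ = 0) {P : W.toAffine.Point} (hP : P ≠ 0) :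
    yc P ^ 2 + W.a₁ * xc P * yc P = xc P ^ 3 + W.a₂ * xc P ^ 2 + W.a₄ * xc P := by
  have := equation_xc_yc hP
  rw [ha₃, ha₆] at this
  linear_combination this

/-- x-coordinate of the sum of two points with distinct x-coordinates. -/
lemma xc_add_of_ne {P Q : W.toAffine.Point} (hP : P ≠ 0) (hQ : Q ≠ 0) (hx : xc P ≠ xc Q) :
    P + Q ≠ 0 ∧ xc (P + Q) = ((yc P - yc Q) / (xc P - xc Q)) ^ 2 +
      W.a₁ * ((yc P - yc Q) / (xc P - xc Q)) - W.a₂ - xc P - xc Q := by
  cases P with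
  | zero => exact absurd rfl hP
  | some x₁ y₁ h₁ =>
    cases Q with
    | zero => exact absurd rfl hQ
    | some x₂ y₂ h₂ =>
      simp only [xc_some] at hx
      have hadd := Point.add_of_X_ne (h₁ := h₁) (h₂ := h₂) hx
      rw [hadd]
      refine ⟨Point.some_ne_zero _, ?_⟩
      simp only [xc_some, yc_some, addX, slope_of_X_ne hx]

/-- **Sign lemma (chord form).** Two distinct points on the same branch near the node: their sum
is not in `E₀` (it is nonzero with non-unit integral abscissa). -/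
theorem add_not_E0 (ha₃ : W.a₃ = 0) (ha₆ : W.a₆ = 0) {α β : K} (h1 : α + β = -W.a₁)
    (h2 : α * β = -W.a₂) (hδ : v (α - β) = 1)
    {T T' : W.toAffine.Point} (hT : T ≠ 0) (hT' : T' ≠ 0)
    (hξ0 : v W.a₄ < v (xc T)) (hξ1 : v (xc T) < 1) (hx : v (xc T') = v (xc T))
    (hs : v (yc T' - α * xc T') = v (yc T - α * xc T))
    (ht : v (yc T' - β * xc T') = v (yc T - β * xc T)) (hne : T' ≠ T) :
    T' + T ≠ 0 ∧ v (xc (T' + T)) < 1 := by
  have e := equation' ha₃ ha₆ hT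
  have e' := equation' ha₃ ha₆ hT'
  obtain ⟨hor, hneq⟩ := dichotomy v h1 h2 e hδ hξ1 hξ0
  -- the abscissae differ
  have hxne : xc T' ≠ xc T := by
    intro hxx
    rcases eq_or_eq_neg_of_xc_eq hT' hT hxx with h | h
    · exact hne h
    · apply hneq
      have hy : yc T' = -yc T - W.a₁ * xc T - W.a₃ := by rw [h]; exact yc_neg hT
      have hs' : yc T' - α * xc T' = -(yc T - β * xc T) := by
        rw [hy, hxx, ha₃]
        linear_combination (-(xc T)) * h1
      rw [← hs, hs', Valuation.map_neg]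
  obtain ⟨hne0, hxc⟩ := xc_add_of_ne hT' hT hxne
  refine ⟨hne0, ?_⟩
  rw [hxc]
  have hd : xc T' - xc T ≠ 0 := sub_ne_zero.mpr hxne
  rcases hor with h | h
  · exact val_addX_lt_one v h1 h2 e e' hδ hξ1 hξ0 hx h (hs ▸ h) hd
  · have h1' : β + α = -W.a₁ := by rw [add_comm]; exact h1
    have h2' : β * α = -W.a₂ := by rw [mul_comm]; exact h2
    have hδ' : v (β - α) = 1 := by rw [← Valuation.map_neg, neg_sub]; exact hδ
    exact val_addX_lt_one v h1' h2' e e' hδ' hξ1 hξ0 hx h (ht ▸ h) hd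

/-- **Sign lemma, consumer form**: under the hypotheses of the folding law, the *difference* of two
distinct points on the same branch reduces to a nonsingular point: `Vc v (T' - T) = 1`. -/
theorem Vc_sub_eq_one (ha₃ : W.a₃ = 0) (ha₆ : W.a₆ = 0) (hb₂ : v W.b₂ = 1)
    (ha₄0 : W.a₄ ≠ 0) (ha₄ : v W.a₄ < 1) {α β : K} (h1 : α + β = -W.a₁)
    (h2 : α * β = -W.a₂) (hδ : v (α - β) = 1)
    {T T' : W.toAffine.Point} (hT : T ≠ 0) (hT' : T' ≠ 0)
    (hξ0 : v W.a₄ < v (xc T)) (hξ1 : v (xc T) < 1) (hx : v (xc T') = v (xc T))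
    (hs : v (yc T' - α * xc T') = v (yc T - α * xc T))
    (ht : v (yc T' - β * xc T') = v (yc T - β * xc T)) (hne : T' ≠ T) :
    Vc v (T' - T) = 1 := by
  obtain ⟨hsum0, hsum1⟩ := add_not_E0 v ha₃ ha₆ h1 h2 hδ hT hT' hξ0 hξ1 hx hs ht hne
  have hvx0 : v (xc T) ≠ 0 := ne_of_gt (lt_of_le_of_lt zero_le hξ0)
  have hxT : xc T ≠ 0 := (Valuation.ne_zero_iff v).mp hvx0
  have hxT' : xc T' ≠ 0 := (Valuation.ne_zero_iff v).mp (by rw [hx]; exact hvx0)
  have hxne : xc T' ≠ xc T := by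
    intro hxx
    rcases eq_or_eq_neg_of_xc_eq hT' hT hxx with h | h
    · exact hne h
    · apply hsum0
      rw [h, neg_add_cancel]
  have hVsum : Vc v (T' + T) ≠ 1 := by
    rw [Ne, Vc_eq_one_iff v ha₄ hsum0, not_le]
    exact hsum1
  have hVeq : Vc v T' = Vc v T := by
    rw [Vc_of_ne_zero v hT', Vc_of_ne_zero v hT, hx]
  have hV0 : Vc v T ≠ 0 := by
    have hpos : 0 < v W.a₄ := zero_lt_iff.mpr ((Valuation.ne_zero_iff v).mpr ha₄0)
    exact ne_of_gt (lt_of_lt_of_le hpos (Vc_range v ha₄.le T).1)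
  rcases add_sub v ha₃ ha₆ hb₂ ha₄0 ha₄ hT' hT hxT' hxT hxne hξ1 with ⟨-, h⟩ | ⟨h, -⟩
  · rw [h, hVeq, div_self hV0, min_self]
  · exfalso
    apply hVsum
    rw [h, hVeq, div_self hV0, min_self]

end PointLevel

end Fermat.Agent.S13.BranchChord
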