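/-
S13 helper file (helper8): elementary degree bound for valuations.

If `z` lies in a finite Galois-stable subset `O` of a Galois extension `K/ℚ` and `A` is a valuation
subring of `K` over `p`, then `v(z)^m ∈ v(p)^ℤ` for some `1 ≤ m ≤ #O`. This replaces the
tame-ramification lemma in the supersingular case of S13: a point `T` of a Galois-stable line of
`E[p]` has at most `p - 1` conjugates, so `v(z(T))^(p²-1) = v(p)` is impossible.
-/
import Mathlib
import Fermat.Prelude.Def_FLTPrelim_Ramification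
import Fermat.Agent.S05.Inertia

set_option autoImplicit false

open Polynomial

namespace Fermat.Agent.S13.DegreeVal

section Elem

variable {K L : Type*} [Field K] [Field L] [Algebra K L] {Γ₀ : Type*}
  [LinearOrderedCommGroupWithZero Γ₀] (v : Valuation L Γ₀)

/-- In a vanishing finite sum of elements, the maximal valuation is attained at least twice. -/
theorem exists_ne_valuation_eq {ι : Type*} [DecidableEq ι] {s : Finset ι} {f : ι → L}
    (hs : s.Nonempty) (hf : ∀ i ∈ s, f i ≠ 0) (hsum : ∑ i ∈ s, f i = 0) :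
    ∃ i ∈ s, ∃ j ∈ s, i ≠ j ∧ v (f i) = v (f j) := by
  obtain ⟨j, hj, hmax⟩ := Finset.exists_max_image s (fun i => v (f i)) hs
  by_contra hcon
  push Not at hcon
  have hlt : ∀ i ∈ s \ {j}, v (f i) < v (f j) := by
    intro i hi
    rw [Finset.mem_sdiff, Finset.mem_singleton] at hi
    exact lt_of_le_of_ne (hmax i hi.1) (hcon i hi.1 j hj hi.2)
  have h1 := v.map_sum_eq_of_lt hj hlt
  rw [hsum, map_zero] at h1
  exact hf j hj ((map_eq_zero v).1 h1.symm)

/-- **Elementary ramification bound.** If `z ≠ 0` is a root of a nonzero polynomial `f` over `K`,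
then some power `v z ^ m` with `1 ≤ m ≤ deg f` is the valuation of a nonzero element of `K`. -/
theorem exists_pow_valuation_eq (f : K[X]) (hf : f ≠ 0) (z : L) (hz : z ≠ 0)
    (hroot : aeval z f = 0) :
    ∃ m : ℕ, 0 < m ∧ m ≤ f.natDegree ∧ ∃ c : K, c ≠ 0 ∧ v z ^ m = v (algebraMap K L c) := by
  classical
  have hsum : ∑ i ∈ f.support, algebraMap K L (f.coeff i) * z ^ i = 0 := by
    rw [← hroot, aeval_def, eval₂_eq_sum, Polynomial.sum_def]
  have hne : ∀ i ∈ f.support, algebraMap K L (f.coeff i) * z ^ i ≠ 0 := by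
    intro i hi
    have : f.coeff i ≠ 0 := Polynomial.mem_support_iff.1 hi
    exact mul_ne_zero ((_root_.map_ne_zero _).2 this) (pow_ne_zero _ hz)
  have hsupp : f.support.Nonempty := Polynomial.nonempty_support_iff.2 hf
  obtain ⟨i, hi, j, hj, hij, hv⟩ := exists_ne_valuation_eq v hsupp hne hsum
  -- wlog i < j
  have key : ∀ i ∈ f.support, ∀ j ∈ f.support, i < j →
      v (algebraMap K L (f.coeff i) * z ^ i) = v (algebraMap K L (f.coeff j) * z ^ j) →
      ∃ m : ℕ, 0 < m ∧ m ≤ f.natDegree ∧ ∃ c : K, c ≠ 0 ∧ v z ^ m = v (algebraMap K L c) := by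
    intro i hi j hj hlt hv
    have hci : f.coeff i ≠ 0 := Polynomial.mem_support_iff.1 hi
    have hcj : f.coeff j ≠ 0 := Polynomial.mem_support_iff.1 hj
    refine ⟨j - i, Nat.sub_pos_of_lt hlt, ?_, f.coeff i / f.coeff j, div_ne_zero hci hcj, ?_⟩
    · exact (Nat.sub_le _ _).trans (Polynomial.le_natDegree_of_mem_supp j hj)
    · have hvz : v z ≠ 0 := (Valuation.ne_zero_iff v).2 hz
      have hvcj : v (algebraMap K L (f.coeff j)) ≠ 0 :=
        (Valuation.ne_zero_iff v).2 ((_root_.map_ne_zero _).2 hcj)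
      rw [map_mul, map_mul, map_pow, map_pow] at hv
      rw [map_div₀, map_div₀, eq_div_iff hvcj]
      have : v z ^ j = v z ^ (j - i) * v z ^ i := by
        rw [← pow_add, Nat.sub_add_cancel hlt.le]
      rw [this] at hv
      have hvzi : v z ^ i ≠ 0 := pow_ne_zero _ hvz
      have h2 : v (algebraMap K L (f.coeff i)) * v z ^ i
          = (v z ^ (j - i) * v (algebraMap K L (f.coeff j))) * v z ^ i := by
        rw [hv, mul_comm (v z ^ (j - i)) (v (algebraMap K L (f.coeff j))), mul_assoc]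
      exact (mul_right_cancel₀ hvzi h2).symm
  rcases lt_or_gt_of_ne hij with h | h
  · exact key i hi j hj h hv
  · exact key j hj i hi h hv.symm

end Elem

section Arith

variable {L : Type*} [Field L] [CharZero L] {A : ValuationSubring L}

open Fermat.Agent.S05.Inertia

omit [CharZero L] in
/-- For `A` over the prime `q`, the valuation of a nonzero natural number is a power of `v(q)`. -/
theorem valuation_natCast_eq_pow {q : ℕ} (hq : q.Prime) (hA : A.LiesOverPrime q) {n : ℕ}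
    (hn : n ≠ 0) : ∃ e : ℕ, A.valuation (n : L) = A.valuation (q : L) ^ e := by
  obtain ⟨e, n', hn', rfl⟩ := Nat.exists_eq_pow_mul_and_not_dvd hn q hq.ne_one
  refine ⟨e, ?_⟩
  have h1 : A.valuation (((n' : ℤ)) : L) = 1 :=
    valuation_intCast_eq_one_of_not_dvd hq hA (by exact_mod_cast hn')
  rw [Int.cast_natCast] at h1
  push_cast
  rw [map_mul, map_pow, h1, mul_one]

/-- For `A` over the prime `q`, the valuation of a nonzero rational is an integral power of
`v(q)`. -/
theorem valuation_ratCast_eq_zpow {q : ℕ} (hq : q.Prime) (hA : A.LiesOverPrime q) {c : ℚ}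
    (hc : c ≠ 0) : ∃ a : ℤ, A.valuation (c : L) = A.valuation (q : L) ^ a := by
  have hnum : c.num.natAbs ≠ 0 := Int.natAbs_ne_zero.2 (Rat.num_ne_zero.2 hc)
  obtain ⟨e1, h1⟩ := valuation_natCast_eq_pow (L := L) hq hA hnum
  obtain ⟨e2, h2⟩ := valuation_natCast_eq_pow (L := L) hq hA c.den_nz
  have h3 : A.valuation ((c.num : ℤ) : L) = A.valuation ((c.num.natAbs : ℕ) : L) := by
    rcases Int.natAbs_eq c.num with h | h
    · conv_lhs => rw [h]
      rw [Int.cast_natCast]
    · conv_lhs => rw [h]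
      rw [Int.cast_neg, Int.cast_natCast, Valuation.map_neg]
  refine ⟨(e1 : ℤ) - e2, ?_⟩
  have hvq : A.valuation (q : L) ≠ 0 :=
    (Valuation.ne_zero_iff _).2 (by exact_mod_cast hq.ne_zero)
  rw [Rat.cast_def, map_div₀, h3, h1, h2, zpow_sub₀ hvq, zpow_natCast, zpow_natCast]

/-- `v(q)^a = v(q)^b` forces `a = b`. -/
theorem zpow_valuation_prime_injective {q : ℕ} (hq : q.Prime) (hA : A.LiesOverPrime q) {a b : ℤ}
    (h : A.valuation (q : L) ^ a = A.valuation (q : L) ^ b) : a = b := by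
  have hvq : A.valuation (q : L) ≠ 0 :=
    (Valuation.ne_zero_iff _).2 (by exact_mod_cast hq.ne_zero)
  have hlt : A.valuation (q : L) < 1 := valuation_prime_lt_one hA
  exact (zpow_right_inj₀ (zero_lt_iff.2 hvq) hlt.ne).1 h

end Arith

section Galois

variable {k K : Type*} [Field k] [Field K] [Algebra k K] [IsGalois k K]

/-- A finite Galois-stable set of elements is the root set of a monic polynomial over the base
field whose degree is the cardinality of the set. -/
theorem exists_monic_of_stable (O : Finset K) (hO : ∀ σ : K ≃ₐ[k] K, ∀ o ∈ O, σ o ∈ O) :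
    ∃ f : k[X], f.Monic ∧ f.natDegree = O.card ∧
      f.map (algebraMap k K) = ∏ o ∈ O, (X - C o) := by
  classical
  set g : K[X] := ∏ o ∈ O, (X - C o) with hg
  have hgmonic : g.Monic := monic_prod_of_monic _ _ (fun o _ => monic_X_sub_C o)
  have hgdeg : g.natDegree = O.card := by
    rw [hg, natDegree_prod_of_monic _ _ (fun o _ => monic_X_sub_C o)]
    simp
  have hinv : ∀ σ : K ≃ₐ[k] K, g.map (σ : K →+* K) = g := by
    intro σ
    rw [hg, Polynomial.map_prod]
    have himg : O.image σ = O := by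
      apply Finset.eq_of_subset_of_card_le
      · intro x hx
        obtain ⟨o, ho, rfl⟩ := Finset.mem_image.1 hx
        exact hO σ o ho
      · rw [Finset.card_image_of_injective _ σ.injective]
    conv_rhs => rw [← himg]
    rw [Finset.prod_image (fun x _ y _ h => σ.injective h)]
    refine Finset.prod_congr rfl (fun o _ => ?_)
    simp
  have hlift : g ∈ Polynomial.lifts (algebraMap k K) := by
    rw [Polynomial.lifts_iff_coeff_lifts]
    intro n
    have : g.coeff n ∈ Set.range (algebraMap k K) := by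
      rw [InfiniteGalois.mem_range_algebraMap_iff_fixed]
      intro σ
      have := congrArg (fun q => q.coeff n) (hinv σ)
      simpa [Polynomial.coeff_map] using this
    exact this
  obtain ⟨f, hf, hfdeg, hfmonic⟩ := Polynomial.lifts_and_natDegree_eq_and_monic hlift hgmonic
  exact ⟨f, hfmonic, hfdeg.trans hgdeg, hf⟩

/-- Elements of a finite Galois-stable set have degree at most the cardinality of the set. -/
theorem exists_monic_aeval_eq_zero_of_stable (O : Finset K)
    (hO : ∀ σ : K ≃ₐ[k] K, ∀ o ∈ O, σ o ∈ O) {z : K} (hz : z ∈ O) :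
    ∃ f : k[X], f.Monic ∧ f.natDegree = O.card ∧ aeval z f = 0 := by
  obtain ⟨f, hfm, hfd, hf⟩ := exists_monic_of_stable O hO
  refine ⟨f, hfm, hfd, ?_⟩
  rw [aeval_def, ← eval_map, hf, eval_prod]
  exact Finset.prod_eq_zero hz (by simp)

end Galois

section Main

variable {K : Type*} [Field K] [Algebra ℚ K] [IsGalois ℚ K] {A : ValuationSubring K}

/-- **Degree bound for valuations.** Let `A` be a valuation subring of a Galois extension `K` of
`ℚ` lying over `p`, and let `z ≠ 0` belong to a finite Galois-stable subset `O` of `K`. Then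
`v(z)^m = v(p)^a` for some `1 ≤ m ≤ #O` and `a : ℤ`. -/
theorem exists_pow_valuation_eq_zpow_of_stable {p : ℕ} (hp : p.Prime) (hA : A.LiesOverPrime p)
    (O : Finset K) (hO : ∀ σ : K ≃ₐ[ℚ] K, ∀ o ∈ O, σ o ∈ O) {z : K} (hz : z ∈ O) (hz0 : z ≠ 0) :
    ∃ m : ℕ, 0 < m ∧ m ≤ O.card ∧ ∃ a : ℤ, A.valuation z ^ m = A.valuation (p : K) ^ a := by
  have : CharZero K := algebraRat.charZero K
  obtain ⟨f, hfm, hfd, hf⟩ := exists_monic_aeval_eq_zero_of_stable (k := ℚ) O hO hz
  obtain ⟨m, hm0, hmle, c, hc, hv⟩ :=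
    exists_pow_valuation_eq A.valuation f hfm.ne_zero z hz0 hf
  obtain ⟨a, ha⟩ := valuation_ratCast_eq_zpow (L := K) hp hA hc
  refine ⟨m, hm0, hfd ▸ hmle, a, ?_⟩
  rw [hv, eq_ratCast, ha]

/-- General consumer shape: if `v(z)^N = v(p)^b` and `N ∤ m * b` for every `1 ≤ m ≤ #O`, then `z`
cannot belong to a finite Galois-stable set `O`. -/
theorem false_of_stable_of_pow_valuation_eq {p : ℕ} (hp : p.Prime) (hA : A.LiesOverPrime p)
    (O : Finset K) (hO : ∀ σ : K ≃ₐ[ℚ] K, ∀ o ∈ O, σ o ∈ O) {z : K} (hz : z ∈ O) (hz0 : z ≠ 0)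
    (N : ℕ) (b : ℤ) (hv : A.valuation z ^ N = A.valuation (p : K) ^ b)
    (hb : ∀ m : ℕ, 0 < m → m ≤ O.card → ¬ (N : ℤ) ∣ m * b) : False := by
  have : CharZero K := algebraRat.charZero K
  obtain ⟨m, hm0, hmle, a, ha⟩ := exists_pow_valuation_eq_zpow_of_stable hp hA O hO hz hz0
  apply hb m hm0 hmle
  have h1 : A.valuation (p : K) ^ (a * N) = A.valuation (p : K) ^ (m * b) := by
    calc A.valuation (p : K) ^ (a * N) = (A.valuation (p : K) ^ a) ^ N := by
          rw [zpow_mul, zpow_natCast]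
      _ = (A.valuation z ^ N) ^ m := by rw [← ha, ← pow_mul, ← pow_mul, mul_comm]
      _ = A.valuation (p : K) ^ (m * b) := by
          rw [hv, ← zpow_natCast, ← zpow_mul, mul_comm]
  have h2 := zpow_valuation_prime_injective (L := K) hp hA h1
  exact ⟨a, by rw [← h2, mul_comm]⟩

/-- Supersingular contradiction, `z`-version: a nonzero `z` with `v(z)^(p²-1) = v(p)` cannot
lie in a Galois-stable set with at most `p - 1` elements. -/
theorem false_of_stable_of_pow_eq {p : ℕ} (hp : p.Prime) (hA : A.LiesOverPrime p)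
    (O : Finset K) (hO : ∀ σ : K ≃ₐ[ℚ] K, ∀ o ∈ O, σ o ∈ O) (hcard : O.card ≤ p - 1)
    {z : K} (hz : z ∈ O) (hz0 : z ≠ 0)
    (hv : A.valuation z ^ (p ^ 2 - 1) = A.valuation (p : K)) : False := by
  refine false_of_stable_of_pow_valuation_eq hp hA O hO hz hz0 (p ^ 2 - 1) 1 (by simpa using hv) ?_
  intro m hm0 hmle hdvd
  rw [mul_one] at hdvd
  have h1 : p ^ 2 - 1 ∣ m := Int.natCast_dvd_natCast.1 hdvd
  have h2 : p ^ 2 - 1 ≤ m := Nat.le_of_dvd hm0 h1
  have hp2 : 2 ≤ p := hp.two_le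
  have h3 : p - 1 < p ^ 2 - 1 := by
    have : p < p ^ 2 := by nlinarith
    omega
  omega

/-- Supersingular contradiction, `x`-version: a nonzero `x` with `v(x)^(p²-1) = v(p)^(-2)` cannot
lie in a Galois-stable set with at most `(p - 1) / 2` elements. -/
theorem false_of_stable_of_pow_eq_inv_sq {p : ℕ} (hp : p.Prime) (hA : A.LiesOverPrime p)
    (O : Finset K) (hO : ∀ σ : K ≃ₐ[ℚ] K, ∀ o ∈ O, σ o ∈ O) (hcard : 2 * O.card ≤ p - 1)
    {x : K} (hx : x ∈ O) (hx0 : x ≠ 0)
    (hv : A.valuation x ^ (p ^ 2 - 1) = A.valuation (p : K) ^ (-2 : ℤ)) : False := by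
  refine false_of_stable_of_pow_valuation_eq hp hA O hO hx hx0 (p ^ 2 - 1) (-2) hv ?_
  intro m hm0 hmle hdvd
  have h0 : ((p ^ 2 - 1 : ℕ) : ℤ) ∣ ((2 * m : ℕ) : ℤ) := by
    have : (m : ℤ) * (-2) = -((2 * m : ℕ) : ℤ) := by push_cast; ring
    rw [this] at hdvd
    exact (Int.dvd_neg).1 hdvd
  have h1 : p ^ 2 - 1 ∣ 2 * m := Int.natCast_dvd_natCast.1 h0
  have h2 : p ^ 2 - 1 ≤ 2 * m := Nat.le_of_dvd (by omega) h1
  have hp2 : 2 ≤ p := hp.two_le
  have h3 : p - 1 < p ^ 2 - 1 := by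
    have : p < p ^ 2 := by nlinarith
    omega
  omega

end Main

section Qbar

/-- `AlgebraicClosure ℚ` is Galois over `ℚ` (for the default `ℚ`-algebra structure). -/
theorem isGalois_qbar : IsGalois ℚ (AlgebraicClosure ℚ) :=
  have : IsAlgClosure ℚ (AlgebraicClosure ℚ) :=
    ⟨inferInstance,
      (inferInstance : @Algebra.IsAlgebraic ℚ (AlgebraicClosure ℚ) _ _
        (AlgebraicClosure.instAlgebra ℚ))⟩
  IsAlgClosure.isGalois ℚ (AlgebraicClosure ℚ)

variable {A : ValuationSubring (AlgebraicClosure ℚ)}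

/-- `exists_pow_valuation_eq_zpow_of_stable` for `AlgebraicClosure ℚ`. -/
theorem exists_pow_valuation_eq_zpow_of_stable_qbar {p : ℕ} (hp : p.Prime)
    (hA : A.LiesOverPrime p) (O : Finset (AlgebraicClosure ℚ))
    (hO : ∀ σ : AlgebraicClosure ℚ ≃ₐ[ℚ] AlgebraicClosure ℚ, ∀ o ∈ O, σ o ∈ O)
    {z : AlgebraicClosure ℚ} (hz : z ∈ O) (hz0 : z ≠ 0) :
    ∃ m : ℕ, 0 < m ∧ m ≤ O.card ∧
      ∃ a : ℤ, A.valuation z ^ m = A.valuation (p : AlgebraicClosure ℚ) ^ a :=
  have := isGalois_qbar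
  exists_pow_valuation_eq_zpow_of_stable hp hA O hO hz hz0

/-- `false_of_stable_of_pow_valuation_eq` for `AlgebraicClosure ℚ`. -/
theorem false_of_stable_of_pow_valuation_eq_qbar {p : ℕ} (hp : p.Prime)
    (hA : A.LiesOverPrime p) (O : Finset (AlgebraicClosure ℚ))
    (hO : ∀ σ : AlgebraicClosure ℚ ≃ₐ[ℚ] AlgebraicClosure ℚ, ∀ o ∈ O, σ o ∈ O)
    {z : AlgebraicClosure ℚ} (hz : z ∈ O) (hz0 : z ≠ 0) (N : ℕ) (b : ℤ)
    (hv : A.valuation z ^ N = A.valuation (p : AlgebraicClosure ℚ) ^ b)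
    (hb : ∀ m : ℕ, 0 < m → m ≤ O.card → ¬ (N : ℤ) ∣ m * b) : False :=
  have := isGalois_qbar
  false_of_stable_of_pow_valuation_eq hp hA O hO hz hz0 N b hv hb

/-- `false_of_stable_of_pow_eq` for `AlgebraicClosure ℚ`: a nonzero `z` with
`v(z)^(p²-1) = v(p)` has more than `p - 1` Galois conjugates. -/
theorem false_of_stable_of_pow_eq_qbar {p : ℕ} (hp : p.Prime)
    (hA : A.LiesOverPrime p) (O : Finset (AlgebraicClosure ℚ))
    (hO : ∀ σ : AlgebraicClosure ℚ ≃ₐ[ℚ] AlgebraicClosure ℚ, ∀ o ∈ O, σ o ∈ O)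
    (hcard : O.card ≤ p - 1) {z : AlgebraicClosure ℚ} (hz : z ∈ O) (hz0 : z ≠ 0)
    (hv : A.valuation z ^ (p ^ 2 - 1) = A.valuation (p : AlgebraicClosure ℚ)) : False :=
  have := isGalois_qbar
  false_of_stable_of_pow_eq hp hA O hO hcard hz hz0 hv

/-- `false_of_stable_of_pow_eq_inv_sq` for `AlgebraicClosure ℚ`: a nonzero `x` with
`v(x)^(p²-1) = v(p)^(-2)` has more than `(p - 1) / 2` Galois conjugates. -/
theorem false_of_stable_of_pow_eq_inv_sq_qbar {p : ℕ} (hp : p.Prime)
    (hA : A.LiesOverPrime p) (O : Finset (AlgebraicClosure ℚ))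
    (hO : ∀ σ : AlgebraicClosure ℚ ≃ₐ[ℚ] AlgebraicClosure ℚ, ∀ o ∈ O, σ o ∈ O)
    (hcard : 2 * O.card ≤ p - 1) {x : AlgebraicClosure ℚ} (hx : x ∈ O) (hx0 : x ≠ 0)
    (hv : A.valuation x ^ (p ^ 2 - 1) = A.valuation (p : AlgebraicClosure ℚ) ^ (-2 : ℤ)) :
    False :=
  have := isGalois_qbar
  false_of_stable_of_pow_eq_inv_sq hp hA O hO hcard hx hx0 hv

end Qbar

end Fermat.Agent.S13.DegreeVal
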