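/-
S13 / GLUE: abstract case analysis for a reducible two-dimensional `𝔽_p[G]`-module.

`G` a group acting additively on an `𝔽_p`-vector space `V` with `finrank ≤ 2`; `X` a proper nonzero
`G`-stable subspace (so a line, and `V ⧸ X` a line).  Hypotheses:
* `hnofix`: no nonzero `G`-fixed vector ("no rational point of order `p`");
* `S₁ ⊆ G`: elements acting unipotently on `V` ("inertia away from `p`");
* `S₂ ⊆ G`: elements with `(σ - 1) V ⊆ F` for a subspace `F` ("inertia at one place above `p`"),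
  and `F` is at most a line as soon as it contains an `S₂`-stable line;
* `Mink`: a normal subgroup of `G` containing the kernel of the action, `S₁` and `S₂` is everything
  ("an everywhere unramified character of `G_ℚ` is trivial").
Conclusion: `G` acts trivially on `V ⧸ X`, i.e. `X` is a cofixed line.
Everything here is Mathlib-only.
-/
import Mathlib

set_option autoImplicit false

namespace Fermat.Agent.S13.Glue

open Module

variable {G V : Type*} [Group G] [AddCommGroup V] [DistribMulAction G V]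
variable {p : ℕ} [Fact p.Prime] [Module (ZMod p) V]

/-- The `G`-action commutes with the `ZMod p`-scalars (automatic: scalars are multiples). -/
theorem smul_zmod_smul (σ : G) (c : ZMod p) (x : V) : σ • (c • x) = c • (σ • x) := by
  obtain ⟨n, rfl⟩ : ∃ n : ℕ, (n : ZMod p) = c := ⟨c.val, ZMod.natCast_zmod_val c⟩
  rw [Nat.cast_smul_eq_nsmul, Nat.cast_smul_eq_nsmul]
  exact (DistribSMul.toAddMonoidHom V σ).map_nsmul n x

/-- `G`-stability of a subspace. -/
def Stable (G : Type*) {V : Type*} [Group G] [AddCommGroup V] [DistribMulAction G V]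
    {p : ℕ} [Module (ZMod p) V] (N : Submodule (ZMod p) V) : Prop :=
  ∀ σ : G, ∀ x ∈ N, σ • x ∈ N

theorem smul_sub' (σ : G) (x y : V) : σ • (x - y) = σ • x - σ • y := smul_sub σ x y

/-- Pointwise fixator of a stable subspace, as a subgroup. -/
def fixator (X : Submodule (ZMod p) V) : Subgroup G where
  carrier := {σ | ∀ x ∈ X, σ • x = x}
  one_mem' := fun x _ => one_smul G x
  mul_mem' := by
    intro σ τ hσ hτ x hx
    rw [mul_smul, hτ x hx, hσ x hx]
  inv_mem' := by
    intro σ hσ x hx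
    conv_lhs => rw [← hσ x hx]
    rw [inv_smul_smul]

theorem mem_fixator {X : Submodule (ZMod p) V} {σ : G} :
    σ ∈ fixator (G := G) X ↔ ∀ x ∈ X, σ • x = x := Iff.rfl

theorem fixator_normal {X : Submodule (ZMod p) V} (hX : Stable G X) :
    (fixator (G := G) X).Normal := by
  refine ⟨fun σ hσ τ x hx => ?_⟩
  rw [mul_smul, mul_smul, hσ _ (hX τ⁻¹ x hx), smul_inv_smul]

/-- Elements acting trivially on the quotient by a stable subspace, as a subgroup. -/
def cofixator {X : Submodule (ZMod p) V} (hX : Stable G X) : Subgroup G where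
  carrier := {σ | ∀ x : V, σ • x - x ∈ X}
  one_mem' := fun x => by simp
  mul_mem' := by
    intro σ τ hσ hτ x
    have h1 : (σ * τ) • x - x = σ • (τ • x - x) + (σ • x - x) := by
      rw [mul_smul, smul_sub]; abel
    rw [h1]
    exact X.add_mem (hX σ _ (hτ x)) (hσ x)
  inv_mem' := by
    intro σ hσ x
    have h1 : σ⁻¹ • x - x = - (σ⁻¹ • (σ • x - x)) := by
      rw [smul_sub, inv_smul_smul]; abel
    rw [h1]
    exact X.neg_mem (hX σ⁻¹ _ (hσ x))

theorem mem_cofixator {X : Submodule (ZMod p) V} (hX : Stable G X) {σ : G} :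
    σ ∈ cofixator hX ↔ ∀ x : V, σ • x - x ∈ X := Iff.rfl

theorem cofixator_normal {X : Submodule (ZMod p) V} (hX : Stable G X) :
    (cofixator hX).Normal := by
  refine ⟨fun σ hσ τ x => ?_⟩
  have h1 : (τ * σ * τ⁻¹) • x - x = τ • (σ • (τ⁻¹ • x) - τ⁻¹ • x) := by
    rw [mul_smul, mul_smul, smul_sub, smul_inv_smul]
  rw [h1]
  exact hX τ _ (hσ _)

/-- `σ - 1` as a linear endomorphism of `V`. -/
def subOne (σ : G) : V →ₗ[ZMod p] V where
  toFun x := σ • x - x
  map_add' x y := by rw [smul_add]; abel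
  map_smul' c x := by
    simp only [RingHom.id_apply]
    rw [smul_zmod_smul, smul_sub]

@[simp] theorem subOne_apply (σ : G) (x : V) : subOne (p := p) σ x = σ • x - x := rfl

/-- A unipotent element acts trivially on a stable atom. -/
theorem unipotent_mem_fixator {X : Submodule (ZMod p) V} (hX : Stable G X) (hat : IsAtom X)
    {σ : G} (hσ : ∀ x : V, σ • (σ • x - x) = σ • x - x) : σ ∈ fixator (G := G) X := by
  -- `K := X ⊓ ker (σ - 1)` is `⊥` or `X`.
  rcases hat.le_iff.mp (inf_le_left : X ⊓ LinearMap.ker (subOne (p := p) σ) ≤ X) with h | h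
  · -- then `σ - 1` is injective on `X`, but `(σ-1)((σ-1)x) = 0`
    exfalso
    apply hat.1
    rw [eq_bot_iff]
    intro x hx
    have h1 : σ • x - x ∈ X := X.sub_mem (hX σ x hx) hx
    have h2 : σ • x - x ∈ X ⊓ LinearMap.ker (subOne (p := p) σ) := by
      refine Submodule.mem_inf.mpr ⟨h1, ?_⟩
      rw [LinearMap.mem_ker, subOne_apply, hσ x, sub_self]
    rw [h] at h2
    have h3 : σ • x - x = 0 := (Submodule.mem_bot _).mp h2
    have h4 : x ∈ X ⊓ LinearMap.ker (subOne (p := p) σ) :=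
      Submodule.mem_inf.mpr ⟨hx, by rw [LinearMap.mem_ker, subOne_apply, h3]⟩
    rw [h] at h4
    exact h4
  · intro x hx
    have : x ∈ X ⊓ LinearMap.ker (subOne (p := p) σ) := by rw [h]; exact hx
    have h2 := (Submodule.mem_inf.mp this).2
    rw [LinearMap.mem_ker, subOne_apply] at h2
    exact sub_eq_zero.mp h2

/-- A unipotent element acts trivially modulo a stable coatom. -/
theorem unipotent_mem_cofixator {X : Submodule (ZMod p) V} (hX : Stable G X) (hco : IsCoatom X)
    {σ : G} (hσ : ∀ x : V, σ • (σ • x - x) = σ • x - x) : σ ∈ cofixator hX := by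
  -- `W := (σ - 1)⁻¹ X ⊇ X + (σ-1)V`
  set W : Submodule (ZMod p) V := X.comap (subOne (p := p) σ) with hW
  have hXW : X ≤ W := by
    intro x hx
    rw [hW, Submodule.mem_comap, subOne_apply]
    exact X.sub_mem (hX σ x hx) hx
  have hrange : ∀ y : V, σ • y - y ∈ W := by
    intro y
    rw [hW, Submodule.mem_comap, subOne_apply, hσ y, sub_self]
    exact X.zero_mem
  rcases eq_or_lt_of_le hXW with h | h
  · intro x
    have := hrange x
    rw [← h] at this
    exact this
  · have htop : W = ⊤ := hco.2 W h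
    intro x
    have : x ∈ W := by rw [htop]; trivial
    rw [hW, Submodule.mem_comap, subOne_apply] at this
    exact this

/-- **Core case analysis.** -/
theorem core {X : Submodule (ZMod p) V} (hX : Stable G X) (hat : IsAtom X) (hco : IsCoatom X)
    (hnofix : ∀ x : V, (∀ σ : G, σ • x = x) → x = 0)
    (S₁ S₂ : Set G) (F : Submodule (ZMod p) V)
    (h₁ : ∀ σ ∈ S₁, ∀ x : V, σ • (σ • x - x) = σ • x - x)
    (h₂ : ∀ σ ∈ S₂, ∀ x : V, σ • x - x ∈ F)
    (hF : X ≤ F → F ≤ X)
    (Mink : ∀ H : Subgroup G, H.Normal → (∀ σ : G, (∀ x : V, σ • x = x) → σ ∈ H) →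
      S₁ ⊆ H → S₂ ⊆ H → H = ⊤) :
    ∀ σ : G, ∀ x : V, σ • x - x ∈ X := by
  rcases hat.le_iff.mp (inf_le_left : X ⊓ F ≤ X) with h | h
  · -- `X ⊓ F = ⊥`: `S₂` fixes `X` pointwise, so everything does: contradiction
    exfalso
    have hH : fixator (G := G) X = ⊤ := by
      apply Mink _ (fixator_normal hX)
      · intro σ hσ x _; exact hσ x
      · intro σ hσ; exact unipotent_mem_fixator hX hat (h₁ σ hσ)
      · intro σ hσ x hx
        have h1 : σ • x - x ∈ X ⊓ F :=
          Submodule.mem_inf.mpr ⟨X.sub_mem (hX σ x hx) hx, h₂ σ hσ x⟩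
        rw [h] at h1
        exact sub_eq_zero.mp ((Submodule.mem_bot _).mp h1)
    apply hat.1
    rw [eq_bot_iff]
    intro x hx
    rw [Submodule.mem_bot]
    apply hnofix x
    intro σ
    have : σ ∈ fixator (G := G) X := by rw [hH]; trivial
    exact this x hx
  · -- `X ≤ F`, hence `F = X`, and `S₂` acts trivially on `V ⧸ X`
    have hXF : X ≤ F := by rw [← h]; exact inf_le_right
    have hFX : F ≤ X := hF hXF
    have hH : cofixator hX = ⊤ := by
      apply Mink _ (cofixator_normal hX)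
      · intro σ hσ x; rw [hσ x, sub_self]; exact X.zero_mem
      · intro σ hσ; exact unipotent_mem_cofixator hX hco (h₁ σ hσ)
      · intro σ hσ x; exact hFX (h₂ σ hσ x)
    intro σ x
    have : σ ∈ cofixator hX := by rw [hH]; trivial
    exact this x

/-- In a space of `finrank ≤ 2`, a proper nonzero subspace is an atom. -/
theorem isAtom_of_finrank_le_two [Module.Finite (ZMod p) V] (hfr : finrank (ZMod p) V ≤ 2)
    {X : Submodule (ZMod p) V} (h0 : X ≠ ⊥) (h1 : X ≠ ⊤) : IsAtom X := by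
  refine ⟨h0, fun W hW => ?_⟩
  have h2 : finrank (ZMod p) W < finrank (ZMod p) X := Submodule.finrank_lt_finrank_of_lt hW
  have h3 : finrank (ZMod p) X < finrank (ZMod p) V := Submodule.finrank_lt h1
  have h4 : finrank (ZMod p) W = 0 := by omega
  exact Submodule.finrank_eq_zero.mp h4

/-- In a space of `finrank ≤ 2`, a proper nonzero subspace is a coatom. -/
theorem isCoatom_of_finrank_le_two [Module.Finite (ZMod p) V] (hfr : finrank (ZMod p) V ≤ 2)
    {X : Submodule (ZMod p) V} (h0 : X ≠ ⊥) (h1 : X ≠ ⊤) : IsCoatom X := by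
  refine ⟨h1, fun W hW => ?_⟩
  have h2 : finrank (ZMod p) X < finrank (ZMod p) W := Submodule.finrank_lt_finrank_of_lt hW
  have h3 : 0 < finrank (ZMod p) X := by
    rw [Nat.pos_iff_ne_zero]
    intro h
    exact h0 (Submodule.finrank_eq_zero.mp h)
  have h4 : finrank (ZMod p) W ≤ finrank (ZMod p) V := Submodule.finrank_le W
  apply Submodule.eq_top_of_finrank_eq
  omega

/-- `finrank ≤ 2` from `card ≤ p ^ 2`. -/
theorem finrank_le_two_of_card [Finite V] (hcard : Nat.card V ≤ p ^ 2) :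
    finrank (ZMod p) V ≤ 2 := by
  have h1 : Nat.card V = Nat.card (ZMod p) ^ finrank (ZMod p) V := Module.natCard_eq_pow_finrank
  rw [Nat.card_zmod] at h1
  rw [h1] at hcard
  exact (Nat.pow_le_pow_iff_right (Fact.out : p.Prime).one_lt).mp hcard

/-- **GLUE**, `finrank` form.  The conclusion is literally the body of the frozen
`HasGaloisStableCofixedLine`, the hypothesis `hred` literally the negation of the body of the frozen
`GaloisRepIsIrreducible`. -/
theorem glue [Module.Finite (ZMod p) V] (hfr : finrank (ZMod p) V ≤ 2)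
    (hV : Nontrivial V)
    (hred : ¬ (Nontrivial V ∧ ∀ N : Submodule (ZMod p) V,
      (∀ σ : G, ∀ x ∈ N, σ • x ∈ N) → N = ⊥ ∨ N = ⊤))
    (hnofix : ∀ x : V, (∀ σ : G, σ • x = x) → x = 0)
    (S₁ S₂ : Set G) (F : Submodule (ZMod p) V)
    (h₁ : ∀ σ ∈ S₁, ∀ x : V, σ • (σ • x - x) = σ • x - x)
    (h₂ : ∀ σ ∈ S₂, ∀ x : V, σ • x - x ∈ F)
    (hF : ∀ X : Submodule (ZMod p) V, IsAtom X → (∀ σ ∈ S₂, ∀ x ∈ X, σ • x ∈ X) → X ≤ F → F ≤ X)
    (Mink : ∀ H : Subgroup G, H.Normal → (∀ σ : G, (∀ x : V, σ • x = x) → σ ∈ H) →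
      S₁ ⊆ H → S₂ ⊆ H → H = ⊤) :
    ∃ N : Submodule (ZMod p) V, (∀ σ : G, ∀ x ∈ N, σ • x ∈ N) ∧ N ≠ ⊥ ∧ N ≠ ⊤ ∧
      ∀ σ : G, ∀ x : V, σ • x - x ∈ N := by
  have h : ∃ N : Submodule (ZMod p) V, (∀ σ : G, ∀ x ∈ N, σ • x ∈ N) ∧ N ≠ ⊥ ∧ N ≠ ⊤ := by
    by_contra hcon
    apply hred
    refine ⟨hV, fun N hN => ?_⟩
    by_contra h'
    rw [not_or] at h'
    exact hcon ⟨N, hN, h'.1, h'.2⟩
  obtain ⟨X, hX, h0, h1⟩ := h
  have hat := isAtom_of_finrank_le_two hfr h0 h1
  have hco := isCoatom_of_finrank_le_two hfr h0 h1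
  exact ⟨X, hX, h0, h1, core (G := G) hX hat hco hnofix S₁ S₂ F h₁ h₂
    (hF X hat (fun σ _ x hx => hX σ x hx)) Mink⟩

/-- **GLUE**, cardinality form, with the simplest hypothesis `F ≠ ⊤` at `p`. -/
theorem glue_card [Finite V] (hcard : Nat.card V ≤ p ^ 2)
    (hV : Nontrivial V)
    (hred : ¬ (Nontrivial V ∧ ∀ N : Submodule (ZMod p) V,
      (∀ σ : G, ∀ x ∈ N, σ • x ∈ N) → N = ⊥ ∨ N = ⊤))
    (hnofix : ∀ x : V, (∀ σ : G, σ • x = x) → x = 0)
    (S₁ S₂ : Set G) (F : Submodule (ZMod p) V)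
    (h₁ : ∀ σ ∈ S₁, ∀ x : V, σ • (σ • x - x) = σ • x - x)
    (h₂ : ∀ σ ∈ S₂, ∀ x : V, σ • x - x ∈ F)
    (hF : F ≠ ⊤)
    (Mink : ∀ H : Subgroup G, H.Normal → (∀ σ : G, (∀ x : V, σ • x = x) → σ ∈ H) →
      S₁ ⊆ H → S₂ ⊆ H → H = ⊤) :
    ∃ N : Submodule (ZMod p) V, (∀ σ : G, ∀ x ∈ N, σ • x ∈ N) ∧ N ≠ ⊥ ∧ N ≠ ⊤ ∧
      ∀ σ : G, ∀ x : V, σ • x - x ∈ N := by
  have hfr := finrank_le_two_of_card (p := p) hcard
  refine glue (G := G) hfr hV hred hnofix S₁ S₂ F h₁ h₂ ?_ Mink
  intro X hat _ hXF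
  -- `X` is an atom in a space of finrank ≤ 2 containing it properly (`F ≠ ⊤`): `F = X`.
  by_contra hcon
  have hlt : X < F := lt_of_le_of_ne hXF (fun h => hcon (h ▸ le_rfl))
  have h2 : finrank (ZMod p) X < finrank (ZMod p) F := Submodule.finrank_lt_finrank_of_lt hlt
  have h3 : finrank (ZMod p) F < finrank (ZMod p) V :=
    Submodule.finrank_lt hF
  have h4 : 0 < finrank (ZMod p) X := by
    rw [Nat.pos_iff_ne_zero]
    intro h
    exact hat.1 (Submodule.finrank_eq_zero.mp h)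
  omega

end Fermat.Agent.S13.Glue
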