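import Mathlib

/-!
# S13, block GLUE (abstract part): characters of a reducible two-dimensional `𝔽_p[G]`-module

`G` is a group acting additively (`DistribMulAction`) on a `ZMod p`-module `V` with
`Nat.card V = p ^ 2`.  No compatibility between the two structures is assumed: it is automatic
(`smul_zmod_smul`), exactly as for the Galois action on `E[p]` in the Prelude.

For a `G`-stable submodule `X ≠ ⊥, ⊤` we construct the two characters
`θX, θY : G →* (ZMod p)ˣ` on `X` and on `V ⧸ X` and prove the formal lemmas used in the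
case analysis of S13.
-/

namespace Fermat.Agent.S13.GlueChars

variable {p : ℕ} [hp : Fact p.Prime] {G : Type*} [Group G] {V : Type*} [AddCommGroup V]
  [Module (ZMod p) V] [DistribMulAction G V]

/-- The group action commutes with the `ZMod p`-scalar multiplication (automatic). -/
theorem smul_zmod_smul (σ : G) (c : ZMod p) (v : V) : σ • (c • v) = c • (σ • v) := by
  have hc : (c.val : ZMod p) = c := ZMod.natCast_zmod_val c
  rw [← hc, Nat.cast_smul_eq_nsmul, Nat.cast_smul_eq_nsmul]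
  exact map_nsmul (DistribSMul.toAddMonoidHom V σ) c.val v

/-- `X` is stable under `G`. -/
def Stable (G : Type*) [Group G] [DistribMulAction G V] (X : Submodule (ZMod p) V) : Prop :=
  ∀ σ : G, ∀ x ∈ X, σ • x ∈ X

/-! ### Dimension bookkeeping -/

omit [AddCommGroup V] [Module (ZMod p) V] in
theorem finite_of_card (hV : Nat.card V = p ^ 2) : Finite V :=
  Nat.finite_of_card_ne_zero (by rw [hV]; exact pow_ne_zero _ hp.out.ne_zero)

theorem finrank_eq_two (hV : Nat.card V = p ^ 2) : Module.finrank (ZMod p) V = 2 := by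
  have := finite_of_card hV
  have h := Module.natCard_eq_pow_finrank (K := ZMod p) (V := V)
  rw [hV, Nat.card_zmod] at h
  exact (Nat.pow_right_injective hp.out.two_le h).symm

/-- A proper nonzero submodule of a two-dimensional space is a line. -/
theorem finrank_of_proper (hV : Nat.card V = p ^ 2) (X : Submodule (ZMod p) V)
    (h0 : X ≠ ⊥) (h1 : X ≠ ⊤) : Module.finrank (ZMod p) X = 1 := by
  have := finite_of_card hV
  have h2 := finrank_eq_two hV
  have hle : Module.finrank (ZMod p) X ≤ 2 := h2 ▸ Submodule.finrank_le X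
  have hne0 : Module.finrank (ZMod p) X ≠ 0 := by
    intro h
    exact h0 (Submodule.finrank_eq_zero.1 h)
  have hne2 : Module.finrank (ZMod p) X ≠ 2 := by
    intro h
    exact h1 (Submodule.eq_top_of_finrank_eq (h.trans h2.symm))
  omega

theorem finrank_quotient_of_proper (hV : Nat.card V = p ^ 2) (X : Submodule (ZMod p) V)
    (h0 : X ≠ ⊥) (h1 : X ≠ ⊤) : Module.finrank (ZMod p) (V ⧸ X) = 1 := by
  have := finite_of_card hV
  have h := Submodule.finrank_quotient_add_finrank X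
  rw [finrank_eq_two hV, finrank_of_proper hV X h0 h1] at h
  omega

theorem card_of_proper (hV : Nat.card V = p ^ 2) (X : Submodule (ZMod p) V)
    (h0 : X ≠ ⊥) (h1 : X ≠ ⊤) : Nat.card X = p := by
  have := finite_of_card hV
  have h := Module.natCard_eq_pow_finrank (K := ZMod p) (V := X)
  rw [finrank_of_proper hV X h0 h1, Nat.card_zmod, pow_one] at h
  exact h

/-- In a line `X`, every element is a multiple of any nonzero element. -/
theorem exists_smul_eq_of_line {X : Submodule (ZMod p) V}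
    (hX : Module.finrank (ZMod p) X = 1) {x₀ : V} (hx₀ : x₀ ∈ X) (hne : x₀ ≠ 0) {x : V}
    (hx : x ∈ X) : ∃ c : ZMod p, c • x₀ = x := by
  have hne' : (⟨x₀, hx₀⟩ : X) ≠ 0 := fun h => hne (congrArg Subtype.val h)
  obtain ⟨c, hc⟩ := (finrank_eq_one_iff_of_nonzero' (⟨x₀, hx₀⟩ : X) hne').1 hX ⟨x, hx⟩
  exact ⟨c, congrArg Subtype.val hc⟩

/-- If `V ⧸ X` is a line and `v₀ ∉ X` then every `v` is congruent to a multiple of `v₀`. -/
theorem exists_smul_sub_mem_of_quotient_line {X : Submodule (ZMod p) V}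
    (hX : Module.finrank (ZMod p) (V ⧸ X) = 1) {v₀ : V} (hv₀ : v₀ ∉ X) (v : V) :
    ∃ c : ZMod p, v - c • v₀ ∈ X := by
  have hne : (Submodule.Quotient.mk v₀ : V ⧸ X) ≠ 0 := by
    rwa [Ne, Submodule.Quotient.mk_eq_zero]
  obtain ⟨c, hc⟩ := (finrank_eq_one_iff_of_nonzero' _ hne).1 hX (Submodule.Quotient.mk v)
  refine ⟨c, ?_⟩
  rw [← Submodule.Quotient.mk_eq_zero, Submodule.Quotient.mk_sub, Submodule.Quotient.mk_smul, hc,
    sub_self]

theorem exists_ne_zero_mem {X : Submodule (ZMod p) V} (h0 : X ≠ ⊥) : ∃ x ∈ X, x ≠ 0 :=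
  (Submodule.ne_bot_iff X).1 h0

theorem exists_not_mem {X : Submodule (ZMod p) V} (h1 : X ≠ ⊤) : ∃ v : V, v ∉ X := by
  by_contra h
  rw [not_exists] at h
  exact h1 (eq_top_iff.2 fun v _ => not_not.1 (h v))

/-- A multiplicative function `G → ZMod p` lifts to a character with values in the units. -/
theorem exists_char_of_mul (c : G → ZMod p) (h1 : c 1 = 1) (hmul : ∀ σ τ, c (σ * τ) = c σ * c τ) :
    ∃ θ : G →* (ZMod p)ˣ, ∀ σ, ((θ σ : (ZMod p)ˣ) : ZMod p) = c σ := by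
  let f : G →* ZMod p := { toFun := c, map_one' := h1, map_mul' := hmul }
  exact ⟨f.toHomUnits, fun σ => rfl⟩

/-! ### The two characters -/

/-- The character of `G` on a stable line `X`. -/
theorem exists_char_sub {X : Submodule (ZMod p) V} (hst : Stable G X)
    (hX : Module.finrank (ZMod p) X = 1) :
    ∃ θ : G →* (ZMod p)ˣ, ∀ σ : G, ∀ x ∈ X, σ • x = ((θ σ : (ZMod p)ˣ) : ZMod p) • x := by
  have h0 : X ≠ ⊥ := by
    intro h
    rw [h, finrank_bot] at hX
    exact zero_ne_one hX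
  obtain ⟨x₀, hx₀, hne⟩ := exists_ne_zero_mem h0
  have hex : ∀ σ : G, ∃ c : ZMod p, c • x₀ = σ • x₀ := fun σ =>
    exists_smul_eq_of_line hX hx₀ hne (hst σ x₀ hx₀)
  choose c hc using hex
  have hinj : ∀ a b : ZMod p, a • x₀ = b • x₀ → a = b := fun a b h =>
    smul_left_injective (ZMod p) hne h
  have hc1 : c 1 = 1 := hinj _ _ (by rw [hc, one_smul, one_smul])
  have hcmul : ∀ σ τ, c (σ * τ) = c σ * c τ := by
    intro σ τ
    apply hinj
    rw [hc, mul_smul, ← hc τ, smul_zmod_smul, ← hc σ, smul_smul, mul_comm]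
  obtain ⟨θ, hθ⟩ := exists_char_of_mul c hc1 hcmul
  refine ⟨θ, fun σ x hx => ?_⟩
  obtain ⟨a, rfl⟩ := exists_smul_eq_of_line hX hx₀ hne hx
  rw [smul_zmod_smul, ← hc σ, hθ, smul_smul, smul_smul, mul_comm]

/-- The character of `G` on the quotient line `V ⧸ X`. -/
theorem exists_char_quot {X : Submodule (ZMod p) V} (hst : Stable G X)
    (hX : Module.finrank (ZMod p) (V ⧸ X) = 1) :
    ∃ θ : G →* (ZMod p)ˣ, ∀ σ : G, ∀ v : V, σ • v - ((θ σ : (ZMod p)ˣ) : ZMod p) • v ∈ X := by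
  have h1 : X ≠ ⊤ := by
    intro h
    have : Subsingleton (V ⧸ X) := by
      rw [h]; exact Submodule.Quotient.subsingleton_iff.2 rfl
    rw [Module.finrank_zero_of_subsingleton] at hX
    exact zero_ne_one hX
  obtain ⟨v₀, hv₀⟩ := exists_not_mem h1
  have hex : ∀ σ : G, ∃ c : ZMod p, σ • v₀ - c • v₀ ∈ X := fun σ =>
    exists_smul_sub_mem_of_quotient_line hX hv₀ (σ • v₀)
  choose c hc using hex
  have hinj : ∀ a b : ZMod p, a • v₀ - b • v₀ ∈ X → a = b := by
    intro a b h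
    by_contra hab
    rw [← sub_smul] at h
    have hunit : a - b ≠ 0 := sub_ne_zero.2 hab
    have : v₀ ∈ X := by
      have := X.smul_mem (a - b)⁻¹ h
      rwa [smul_smul, inv_mul_cancel₀ hunit, one_smul] at this
    exact hv₀ this
  have hc1 : c 1 = 1 := by
    apply hinj
    have := hc 1
    rw [one_smul] at this
    rw [one_smul]
    have h2 : c 1 • v₀ - v₀ = -(v₀ - c 1 • v₀) := by abel
    rw [h2]
    exact X.neg_mem this
  have hcmul : ∀ σ τ, c (σ * τ) = c σ * c τ := by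
    intro σ τ
    apply hinj
    -- `(στ) v₀ ≡ c(στ) v₀` and `(στ) v₀ = σ (τ v₀) ≡ σ (c τ v₀) = c τ • σ v₀ ≡ c τ c σ v₀`
    have e1 := hc (σ * τ)
    have e2 : σ • (τ • v₀ - c τ • v₀) ∈ X := hst σ _ (hc τ)
    rw [smul_sub, smul_zmod_smul, ← mul_smul] at e2
    have e3 : c τ • (σ • v₀ - c σ • v₀) ∈ X := X.smul_mem _ (hc σ)
    rw [smul_sub, smul_smul] at e3
    have : c (σ * τ) • v₀ - (c σ * c τ) • v₀ =
        -((σ * τ) • v₀ - c (σ * τ) • v₀) + ((σ * τ) • v₀ - c τ • σ • v₀)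
          + (c τ • σ • v₀ - (c τ * c σ) • v₀) := by
      rw [mul_comm (c σ) (c τ)]; abel
    rw [this]
    exact X.add_mem (X.add_mem (X.neg_mem e1) e2) e3
  obtain ⟨θ, hθ⟩ := exists_char_of_mul c hc1 hcmul
  refine ⟨θ, fun σ v => ?_⟩
  obtain ⟨a, ha⟩ := exists_smul_sub_mem_of_quotient_line hX hv₀ v
  rw [hθ]
  -- `v = a v₀ + x`
  have e1 : σ • (v - a • v₀) ∈ X := hst σ _ ha
  rw [smul_sub, smul_zmod_smul] at e1
  have e2 : a • (σ • v₀ - c σ • v₀) ∈ X := X.smul_mem _ (hc σ)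
  rw [smul_sub, smul_smul] at e2
  have e3 : c σ • (v - a • v₀) ∈ X := X.smul_mem _ ha
  rw [smul_sub, smul_smul] at e3
  have : σ • v - c σ • v =
      (σ • v - a • σ • v₀) + (a • σ • v₀ - (a * c σ) • v₀) - (c σ • v - (c σ * a) • v₀) := by
    rw [mul_comm a (c σ)]; abel
  rw [this]
  exact X.sub_mem (X.add_mem e1 e2) e3

/-- Both characters at once, for a proper nonzero stable submodule of a module of order `p²`. -/
theorem exists_chars (hV : Nat.card V = p ^ 2) {X : Submodule (ZMod p) V} (hst : Stable G X)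
    (h0 : X ≠ ⊥) (h1 : X ≠ ⊤) :
    ∃ θX θY : G →* (ZMod p)ˣ,
      (∀ σ : G, ∀ x ∈ X, σ • x = ((θX σ : (ZMod p)ˣ) : ZMod p) • x) ∧
      (∀ σ : G, ∀ v : V, σ • v - ((θY σ : (ZMod p)ˣ) : ZMod p) • v ∈ X) := by
  obtain ⟨θX, hθX⟩ := exists_char_sub hst (finrank_of_proper hV X h0 h1)
  obtain ⟨θY, hθY⟩ := exists_char_quot hst (finrank_quotient_of_proper hV X h0 h1)
  exact ⟨θX, θY, hθX, hθY⟩

section Formal

variable {X : Submodule (ZMod p) V} {θX θY : G →* (ZMod p)ˣ}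

/-- The value of the sub character is detected on any nonzero vector of `X`. -/
theorem thetaX_eq_of (hθX : ∀ σ : G, ∀ x ∈ X, σ • x = ((θX σ : (ZMod p)ˣ) : ZMod p) • x)
    {σ : G} {x : V} (hx : x ∈ X) (hne : x ≠ 0) {a : ZMod p} (h : σ • x = a • x) :
    ((θX σ : (ZMod p)ˣ) : ZMod p) = a :=
  smul_left_injective (ZMod p) hne ((hθX σ x hx).symm.trans h)

theorem thetaX_eq_one_of_fixed
    (hθX : ∀ σ : G, ∀ x ∈ X, σ • x = ((θX σ : (ZMod p)ˣ) : ZMod p) • x)
    {σ : G} {x : V} (hx : x ∈ X) (hne : x ≠ 0) (h : σ • x = x) : θX σ = 1 := by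
  have := thetaX_eq_of hθX (σ := σ) hx hne (a := 1) (by rw [one_smul, h])
  exact Units.ext this

/-- The value of the quotient character is detected on any vector outside `X`. -/
theorem thetaY_eq_of (hθY : ∀ σ : G, ∀ v : V, σ • v - ((θY σ : (ZMod p)ˣ) : ZMod p) • v ∈ X)
    {σ : G} {v : V} (hv : v ∉ X) {a : ZMod p} (h : σ • v - a • v ∈ X) :
    ((θY σ : (ZMod p)ˣ) : ZMod p) = a := by
  by_contra hne
  have h2 : (a - ((θY σ : (ZMod p)ˣ) : ZMod p)) • v ∈ X := by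
    have := X.sub_mem (hθY σ v) h
    have e : σ • v - ((θY σ : (ZMod p)ˣ) : ZMod p) • v - (σ • v - a • v) =
        (a - ((θY σ : (ZMod p)ˣ) : ZMod p)) • v := by
      rw [sub_smul]; abel
    rwa [e] at this
  have hunit : a - ((θY σ : (ZMod p)ˣ) : ZMod p) ≠ 0 := sub_ne_zero.2 (Ne.symm hne)
  have := X.smul_mem (a - ((θY σ : (ZMod p)ˣ) : ZMod p))⁻¹ h2
  rw [smul_smul, inv_mul_cancel₀ hunit, one_smul] at this
  exact hv this

theorem thetaY_eq_one_of_sub_mem
    (hθY : ∀ σ : G, ∀ v : V, σ • v - ((θY σ : (ZMod p)ˣ) : ZMod p) • v ∈ X)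
    {σ : G} {v : V} (hv : v ∉ X) (h : σ • v - v ∈ X) : θY σ = 1 := by
  have := thetaY_eq_of hθY (σ := σ) hv (a := 1) (by rwa [one_smul])
  exact Units.ext this

/-- If the quotient character is trivial, `X` is a cofixed line. -/
theorem cofixed_of_thetaY_eq_one
    (hθY : ∀ σ : G, ∀ v : V, σ • v - ((θY σ : (ZMod p)ˣ) : ZMod p) • v ∈ X)
    (h : ∀ σ, θY σ = 1) (σ : G) (v : V) : σ • v - v ∈ X := by
  have := hθY σ v
  rwa [h σ, Units.val_one, one_smul] at this

/-- If the sub character is trivial, `X` is fixed pointwise. -/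
theorem fixed_of_thetaX_eq_one
    (hθX : ∀ σ : G, ∀ x ∈ X, σ • x = ((θX σ : (ZMod p)ˣ) : ZMod p) • x)
    (h : ∀ σ, θX σ = 1) (σ : G) {x : V} (hx : x ∈ X) : σ • x = x := by
  rw [hθX σ x hx, h σ, Units.val_one, one_smul]

/-- **Local case analysis, sub character.** If `σ v - v ∈ F` for all `v` and `F ∩ X = 0`,
then the sub character is trivial at `σ`. -/
theorem thetaX_eq_one_of_disjoint
    (hθX : ∀ σ : G, ∀ x ∈ X, σ • x = ((θX σ : (ZMod p)ˣ) : ZMod p) • x) (hst : Stable G X)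
    (h0 : X ≠ ⊥) {F : Set V} {σ : G} (hσ : ∀ v : V, σ • v - v ∈ F)
    (hFX : ∀ x ∈ F, x ∈ X → x = 0) : θX σ = 1 := by
  obtain ⟨x, hx, hne⟩ := exists_ne_zero_mem h0
  refine thetaX_eq_one_of_fixed hθX hx hne ?_
  exact sub_eq_zero.1 (hFX _ (hσ x) (X.sub_mem (hst σ x hx) hx))

/-- **Local case analysis, quotient character.** If `σ v - v ∈ F` for all `v` and `F ⊆ X`,
then the quotient character is trivial at `σ`. -/
theorem thetaY_eq_one_of_le
    (hθY : ∀ σ : G, ∀ v : V, σ • v - ((θY σ : (ZMod p)ˣ) : ZMod p) • v ∈ X)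
    (h1 : X ≠ ⊤) {F : Set V} {σ : G} (hσ : ∀ v : V, σ • v - v ∈ F)
    (hFX : ∀ x ∈ F, x ∈ X) : θY σ = 1 := by
  obtain ⟨v, hv⟩ := exists_not_mem h1
  exact thetaY_eq_one_of_sub_mem hθY hv (hFX _ (hσ v))

/-- **Unipotent flag lemma.** If `σ` acts trivially on `F` and on `V / F` (for any subset `F`),
then both characters are trivial at `σ`. -/
theorem thetas_eq_one_of_unipotent
    (hθX : ∀ σ : G, ∀ x ∈ X, σ • x = ((θX σ : (ZMod p)ˣ) : ZMod p) • x)
    (hθY : ∀ σ : G, ∀ v : V, σ • v - ((θY σ : (ZMod p)ˣ) : ZMod p) • v ∈ X)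
    (h0 : X ≠ ⊥) (h1 : X ≠ ⊤) {F : Set V} {σ : G} (hσ : ∀ v : V, σ • v - v ∈ F)
    (hF : ∀ f ∈ F, σ • f = f) : θX σ = 1 ∧ θY σ = 1 := by
  -- `(σ - 1)² = 0`
  have hsq : ∀ v : V, σ • (σ • v - v) = σ • v - v := fun v => hF _ (hσ v)
  have hX1 : θX σ = 1 := by
    obtain ⟨x, hx, hne⟩ := exists_ne_zero_mem h0
    set t : ZMod p := ((θX σ : (ZMod p)ˣ) : ZMod p) with ht
    have e1 : σ • x = t • x := hθX σ x hx
    have e2 := hsq x
    rw [e1, smul_sub, smul_zmod_smul, e1, smul_smul] at e2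
    -- `(t*t) x - t x = t x - x`, i.e. `(t - 1)² x = 0`
    have e3 : ((t - 1) * (t - 1)) • x = 0 := by
      have : ((t - 1) * (t - 1)) • x = (t * t) • x - t • x - (t • x - x) := by
        rw [show (t - 1) * (t - 1) = t * t - t - (t - 1) by ring, sub_smul, sub_smul, sub_smul,
          one_smul]
      rw [this, e2, sub_self]
    have e4 : (t - 1) * (t - 1) = 0 := by
      by_contra h
      exact hne ((smul_eq_zero.1 e3).resolve_left h)
    have e5 : t = 1 := sub_eq_zero.1 (mul_self_eq_zero.1 e4)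
    exact Units.ext e5
  refine ⟨hX1, ?_⟩
  obtain ⟨v, hv⟩ := exists_not_mem h1
  obtain ⟨s, hs⟩ : ∃ s : ZMod p, s = ((θY σ : (ZMod p)ˣ) : ZMod p) := ⟨_, rfl⟩
  -- `σ v = s v + x₁`
  obtain ⟨x₁, hx₁⟩ : ∃ x₁ : V, x₁ = σ • v - s • v := ⟨_, rfl⟩
  have hx₁X : x₁ ∈ X := by rw [hx₁, hs]; exact hθY σ v
  have hσx₁ : σ • x₁ = x₁ := by
    rw [hθX σ x₁ hx₁X, hX1, Units.val_one, one_smul]
  have e0 : σ • v = s • v + x₁ := by rw [hx₁]; abel
  have e2 := hsq v
  rw [smul_sub, e0, smul_add, smul_zmod_smul, e0, hσx₁] at e2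
  have key : ((s - 1) * (s - 1)) • v = (1 - s) • x₁ := by
    have e3 : ((s - 1) * (s - 1)) • v - (1 - s) • x₁ =
        (s • (s • v + x₁) + x₁ - (s • v + x₁)) - (s • v + x₁ - v) := by module
    rw [e2, sub_self] at e3
    exact sub_eq_zero.1 e3
  have e4 : (s - 1) * (s - 1) = 0 := by
    by_contra h
    have hmem : ((s - 1) * (s - 1)) • v ∈ X := by rw [key]; exact X.smul_mem _ hx₁X
    have := X.smul_mem ((s - 1) * (s - 1))⁻¹ hmem
    rw [smul_smul, inv_mul_cancel₀ h, one_smul] at this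
    exact hv this
  have e5 : s = 1 := sub_eq_zero.1 (mul_self_eq_zero.1 e4)
  exact Units.ext (hs ▸ e5)

/-- Characters are conjugation invariant (the target is abelian). -/
theorem char_conj (θ : G →* (ZMod p)ˣ) (g σ : G) : θ (g * σ * g⁻¹) = θ σ := by
  rw [map_mul, map_mul, map_inv, mul_comm (θ g), mul_assoc, mul_inv_cancel, mul_one]

end Formal

/-! ### Submodules of a plane -/

/-- A submodule of a module of order `p²` is `⊥`, a line, or `⊤`. -/
theorem eq_bot_or_finrank_eq_one_or_eq_top (hV : Nat.card V = p ^ 2) (F : Submodule (ZMod p) V) :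
    F = ⊥ ∨ Module.finrank (ZMod p) F = 1 ∨ F = ⊤ := by
  by_cases h0 : F = ⊥
  · exact Or.inl h0
  by_cases h1 : F = ⊤
  · exact Or.inr (Or.inr h1)
  exact Or.inr (Or.inl (finrank_of_proper hV F h0 h1))

/-- Two lines are equal or meet trivially. -/
theorem eq_or_disjoint_of_lines {F X : Submodule (ZMod p) V}
    (hF : Module.finrank (ZMod p) F = 1) (hX : Module.finrank (ZMod p) X = 1) :
    F = X ∨ ∀ x ∈ F, x ∈ X → x = 0 := by
  by_cases h : ∀ x ∈ F, x ∈ X → x = 0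
  · exact Or.inr h
  left
  rw [not_forall] at h
  obtain ⟨x, hx⟩ := h
  rw [Classical.not_imp, Classical.not_imp] at hx
  obtain ⟨hxF, hxX, hne⟩ := hx
  apply le_antisymm
  · intro y hy
    obtain ⟨c, rfl⟩ := exists_smul_eq_of_line hF hxF hne hy
    exact X.smul_mem c hxX
  · intro y hy
    obtain ⟨c, rfl⟩ := exists_smul_eq_of_line hX hxX hne hy
    exact F.smul_mem c hxF

/-! ### Abstract final assembly

`ι` indexes the primes, `κ ℓ` the places over `ℓ`, `I ℓ A ⊆ G` the inertia group of `A`.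
`Good θ` is the regularity property of characters (open kernel) under which "unramified
everywhere implies trivial" (`hMK`) is available. -/

theorem cofixed_of_local_data (hV : Nat.card V = p ^ 2) {X : Submodule (ZMod p) V}
    (h0 : X ≠ ⊥) {θX θY : G →* (ZMod p)ˣ}
    (hθX : ∀ σ : G, ∀ x ∈ X, σ • x = ((θX σ : (ZMod p)ˣ) : ZMod p) • x)
    (hθY : ∀ σ : G, ∀ v : V, σ • v - ((θY σ : (ZMod p)ˣ) : ZMod p) • v ∈ X)
    {ι : Type*} {κ : ι → Type*} (I : ∀ ℓ, κ ℓ → Set G) (Good : (G →* (ZMod p)ˣ) → Prop)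
    (hMK : ∀ θ : G →* (ZMod p)ˣ, Good θ → (∀ ℓ, ∃ A : κ ℓ, ∀ σ ∈ I ℓ A, θ σ = 1) → θ = 1)
    (hgX : Good θX) (hgY : Good θY) (ℓ₀ : ι)
    (hloc : ∀ ℓ, ℓ ≠ ℓ₀ → ∃ A : κ ℓ, ∀ σ ∈ I ℓ A, θX σ = 1 ∧ θY σ = 1)
    (hp₀ : ∃ A : κ ℓ₀, (∀ σ ∈ I ℓ₀ A, θX σ = 1) ∨ (∀ σ ∈ I ℓ₀ A, θY σ = 1))
    (hnofix : ∀ v : V, (∀ σ : G, σ • v = v) → v = 0) :
    ∀ (σ : G) (v : V), σ • v - v ∈ X := by
  have _ := hV
  obtain ⟨A₀, hA₀⟩ := hp₀
  have hY : θY = 1 := by
    rcases hA₀ with hA₀ | hA₀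
    · -- then `θX` is unramified everywhere, hence trivial, hence `X` has a fixed vector
      exfalso
      have hX : θX = 1 := by
        refine hMK θX hgX fun ℓ => ?_
        by_cases hℓ : ℓ = ℓ₀
        · subst hℓ; exact ⟨A₀, hA₀⟩
        · obtain ⟨A, hA⟩ := hloc ℓ hℓ
          exact ⟨A, fun σ hσ => (hA σ hσ).1⟩
      obtain ⟨x, hx, hne⟩ := exists_ne_zero_mem h0
      exact hne (hnofix x fun σ =>
        fixed_of_thetaX_eq_one hθX (fun τ => by rw [hX]; rfl) σ hx)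
    · refine hMK θY hgY fun ℓ => ?_
      by_cases hℓ : ℓ = ℓ₀
      · subst hℓ; exact ⟨A₀, hA₀⟩
      · obtain ⟨A, hA⟩ := hloc ℓ hℓ
        exact ⟨A, fun σ hσ => (hA σ hσ).2⟩
  exact cofixed_of_thetaY_eq_one hθY (fun τ => by rw [hY]; rfl)

end Fermat.Agent.S13.GlueChars
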