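/-
S13 / GLUE, instantiated at the frozen types: from the abstract case analysis of `Glue.lean` to
`HasGaloisStableCofixedLine ℚ P.freyCurve P.p` for a Frey package `P`.
-/
import Fermat.Prelude.Def_FLTPrelim_FreyPackage
import Fermat.Prelude.Def_FLTPrelim_GaloisRep
import Fermat.Prelude.Def_FLTPrelim_CofixedLine
import Fermat.Agent.S13.Glue

set_option autoImplicit false
open WeierstrassCurve WeierstrassCurve.Affine WeierstrassCurve.Affine.Point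
open FreyPackage

namespace Fermat.Agent.S13.GlueFrey

/-- `Qbar`. -/
abbrev Qbar : Type := AlgebraicClosure ℚ

/-- `G_ℚ`. -/
abbrev GQ : Type := Qbar ≃ₐ[ℚ] Qbar

/-- The `p`-torsion of the Frey curve over `Qbar`, exactly as in the frozen statement. -/
abbrev Vp (P : FreyPackage) : Type :=
  Submodule.torsionBy ℤ (P.freyCurve⁄Qbar).Point P.p

/-- Frozen `S13` from the abstract blocks.  `S₁` = union of the inertia groups away from `p`
(unipotent on `V`), `S₂` = inertia at one place over `p` (`(σ - 1)V ⊆ F`), `Mink` = Minkowski in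
subgroup form. -/
theorem hasCofixedLine_of_blocks (P : FreyPackage)
    (hred : ¬ GaloisRepIsIrreducible (K := AlgebraicClosure ℚ) ℚ P.freyCurve P.p)
    (hV : Nontrivial (Vp P)) (hfin : Finite (Vp P)) (hcard : Nat.card (Vp P) ≤ P.p ^ 2)
    (hnofix : ∀ x : Vp P, (∀ σ : GQ, σ • x = x) → x = 0)
    (S₁ S₂ : Set GQ) (F : Submodule (ZMod P.p) (Vp P))
    (h₁ : ∀ σ ∈ S₁, ∀ x : Vp P, σ • (σ • x - x) = σ • x - x)
    (h₂ : ∀ σ ∈ S₂, ∀ x : Vp P, σ • x - x ∈ F)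
    (hF : ∀ X : Submodule (ZMod P.p) (Vp P), IsAtom X → (∀ σ ∈ S₂, ∀ x ∈ X, σ • x ∈ X) →
      X ≤ F → F ≤ X)
    (Mink : ∀ H : Subgroup GQ, H.Normal → (∀ σ : GQ, (∀ x : Vp P, σ • x = x) → σ ∈ H) →
      S₁ ⊆ H → S₂ ⊆ H → H = ⊤) :
    HasGaloisStableCofixedLine (K := AlgebraicClosure ℚ) ℚ P.freyCurve P.p := by
  have : Fact P.p.Prime := ⟨P.pp⟩
  have hfr := Glue.finrank_le_two_of_card (p := P.p) (V := Vp P) hcard
  exact Glue.glue (G := GQ) (V := Vp P) (p := P.p) hfr hV hred hnofix S₁ S₂ F h₁ h₂ hF Mink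

/-- Same with the simplest hypothesis `F ≠ ⊤` at `p`. -/
theorem hasCofixedLine_of_blocks' (P : FreyPackage)
    (hred : ¬ GaloisRepIsIrreducible (K := AlgebraicClosure ℚ) ℚ P.freyCurve P.p)
    (hV : Nontrivial (Vp P)) (hfin : Finite (Vp P)) (hcard : Nat.card (Vp P) ≤ P.p ^ 2)
    (hnofix : ∀ x : Vp P, (∀ σ : GQ, σ • x = x) → x = 0)
    (S₁ S₂ : Set GQ) (F : Submodule (ZMod P.p) (Vp P))
    (h₁ : ∀ σ ∈ S₁, ∀ x : Vp P, σ • (σ • x - x) = σ • x - x)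
    (h₂ : ∀ σ ∈ S₂, ∀ x : Vp P, σ • x - x ∈ F)
    (hF : F ≠ ⊤)
    (Mink : ∀ H : Subgroup GQ, H.Normal → (∀ σ : GQ, (∀ x : Vp P, σ • x = x) → σ ∈ H) →
      S₁ ⊆ H → S₂ ⊆ H → H = ⊤) :
    HasGaloisStableCofixedLine (K := AlgebraicClosure ℚ) ℚ P.freyCurve P.p := by
  have : Fact P.p.Prime := ⟨P.pp⟩
  exact Glue.glue_card (G := GQ) (V := Vp P) (p := P.p) hcard hV hred hnofix S₁ S₂ F h₁ h₂ hF Mink

end Fermat.Agent.S13.GlueFrey
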