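/-
S13 / GLUE (hedge assembly): the frozen statement `S13` from the six interfaces (I0)–(I5) of the
architect's block map (report 899) and the landed `S05`.  Uses the abstract lemmas of `Glue.lean`.
-/
import Fermat.Statements.S13
import Fermat.Agent.S05
import Fermat.Agent.S13.Glue

set_option autoImplicit false
open WeierstrassCurve WeierstrassCurve.Affine WeierstrassCurve.Affine.Point
open FreyPackage

namespace Fermat.Agent.S13.GlueInterfaces

/-- `Qbar`. -/
abbrev Qbar : Type := AlgebraicClosure ℚ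

/-- `G_ℚ`. -/
abbrev GQ : Type := Qbar ≃ₐ[ℚ] Qbar

/-- The Frey curve over `Qbar` (the `a₁ = 1` model, no change of variables). -/
noncomputable abbrev E (P : FreyPackage) : Affine Qbar := (P.freyCurve⁄Qbar)

/-- The `p`-torsion of the Frey curve over `Qbar`, exactly as in the frozen statement. -/
abbrev Vp (P : FreyPackage) : Type :=
  Submodule.torsionBy ℤ (E P).Point P.p

/-- The coordinates of a point. -/
def coords (P : FreyPackage) : (E P).Point → Set Qbar
  | .zero => ∅
  | .some x y _ => {x, y}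

theorem finite_coords (P : FreyPackage) (T : (E P).Point) : (coords P T).Finite := by
  cases T with
  | zero => exact Set.finite_empty
  | some x y h => exact (Set.finite_singleton y).insert x

theorem smul_eq_of_fixes_coords (P : FreyPackage) (σ : GQ) (T : (E P).Point)
    (h : ∀ z ∈ coords P T, σ z = z) : σ • T = T := by
  cases T with
  | zero => rfl
  | some x y hxy =>
    rw [Point.algEquiv_smul_def, Point.map_some _ hxy]
    have hx : σ x = x := h x (by simp [coords])
    have hy : σ y = y := h y (by simp [coords])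
    rw [Point.some.injEq]
    exact ⟨hx, hy⟩

/-- The kernel of the action of `G_ℚ` on a finite `V` contains an open subgroup; hence any
subgroup containing that kernel is open. -/
theorem isOpen_of_kernel_le (P : FreyPackage) [Finite (Vp P)] (H : Subgroup GQ)
    (hH : ∀ σ : GQ, (∀ x : Vp P, σ • x = x) → σ ∈ H) : IsOpen (H : Set GQ) := by
  classical
  set S : Set Qbar := ⋃ x : Vp P, coords P x.1 with hS
  have hSfin : S.Finite := Set.finite_iUnion fun x => finite_coords P x.1
  have : Finite S := hSfin.to_subtype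
  have hint : ∀ z ∈ S, IsIntegral ℚ z :=
    fun z _ => ((AlgebraicClosure.isAlgebraic ℚ).isAlgebraic z).isIntegral
  have : FiniteDimensional ℚ (IntermediateField.adjoin ℚ S) :=
    IntermediateField.finiteDimensional_adjoin hint
  have hopen := IntermediateField.fixingSubgroup_isOpen (IntermediateField.adjoin ℚ S)
  refine Subgroup.isOpen_mono ?_ hopen
  intro σ hσ
  apply hH
  intro x
  apply Subtype.ext
  change σ • (x.1) = x.1
  apply smul_eq_of_fixes_coords
  intro z hz
  have hzS : z ∈ S := Set.mem_iUnion.mpr ⟨x, hz⟩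
  have hzM : z ∈ IntermediateField.adjoin ℚ S := IntermediateField.subset_adjoin ℚ S hzS
  exact (IntermediateField.mem_fixingSubgroup_iff _ _).mp hσ z hzM

/-- **Frozen S13 from the interfaces (I0)–(I5) of report 899 and the landed S05.** -/
theorem s13_of_interfaces (P : FreyPackage)
    (I0 : ∃ T : (E P).Point, T ≠ 0 ∧ P.p • T = 0)
    (I1 : Finite (Vp P) ∧ Nat.card (Vp P) ≤ P.p ^ 2)
    (I2 : ∀ T : (E P).Point, P.p • T = 0 → (∀ σ : GQ, σ • T = T) → T = 0)
    (I3 : ∀ A : ValuationSubring Qbar, A.LiesOverPrime 2 → ∀ σ ∈ A.inertiaSubgroupIn ℚ,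
      ∀ T : (E P).Point, P.p • T = 0 → σ • (σ • T - T) = σ • T - T)
    (I4 : ∀ X : Submodule (ZMod P.p) (Vp P), IsGaloisStable ℚ X → X ≠ ⊥ → X ≠ ⊤ →
      (∀ A : ValuationSubring Qbar, A.LiesOverPrime P.p → ∀ σ ∈ A.inertiaSubgroupIn ℚ,
        ∀ x ∈ X, σ • x = x) ∨
      (∀ A : ValuationSubring Qbar, A.LiesOverPrime P.p → ∀ σ ∈ A.inertiaSubgroupIn ℚ,
        ∀ x : Vp P, σ • x - x ∈ X))
    (I5 : ∀ H : Subgroup GQ, H.Normal → IsOpen (H : Set GQ) →
      (∀ ℓ : ℕ, ℓ.Prime → ∀ A : ValuationSubring Qbar, A.LiesOverPrime ℓ →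
        A.inertiaSubgroupIn ℚ ≤ H) → H = ⊤)
    (hred : ¬ GaloisRepIsIrreducible (K := AlgebraicClosure ℚ) ℚ P.freyCurve P.p) :
    HasGaloisStableCofixedLine (K := AlgebraicClosure ℚ) ℚ P.freyCurve P.p := by
  classical
  have : Fact P.p.Prime := ⟨P.pp⟩
  obtain ⟨hfin, hcard⟩ := I1
  have : Finite (Vp P) := hfin
  -- nontriviality
  have hV : Nontrivial (Vp P) := by
    obtain ⟨T, hT0, hT⟩ := I0
    have hmem : T ∈ Submodule.torsionBy ℤ (E P).Point P.p := by
      rw [Submodule.mem_torsionBy_iff, natCast_zsmul]; exact hT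
    refine ⟨⟨⟨T, hmem⟩, 0, ?_⟩⟩
    intro h
    exact hT0 (congrArg Subtype.val h)
  -- a stable proper nonzero `X`
  obtain ⟨X, hX, h0, h1⟩ : ∃ N : Submodule (ZMod P.p) (Vp P),
      IsGaloisStable ℚ N ∧ N ≠ ⊥ ∧ N ≠ ⊤ := by
    by_contra hcon
    apply hred
    refine ⟨hV, fun N hN => ?_⟩
    by_contra h'
    rw [not_or] at h'
    exact hcon ⟨N, hN, h'.1, h'.2⟩
  have hXs : Glue.Stable GQ X := fun σ x hx => hX σ x hx
  have hfr := Glue.finrank_le_two_of_card (p := P.p) (V := Vp P) hcard
  have hat := Glue.isAtom_of_finrank_le_two hfr h0 h1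
  have hco := Glue.isCoatom_of_finrank_le_two hfr h0 h1
  -- inertia away from `p` is unipotent on `V`
  have hunip : ∀ ℓ : ℕ, ℓ.Prime → ℓ ≠ P.p → ∀ A : ValuationSubring Qbar, A.LiesOverPrime ℓ →
      ∀ σ ∈ A.inertiaSubgroupIn ℚ, ∀ x : Vp P, σ • (σ • x - x) = σ • x - x := by
    intro ℓ hℓ hℓp A hA σ hσ x
    by_cases h2 : ℓ = 2
    · subst h2
      have hx : P.p • x.1 = 0 := by
        have := (Submodule.mem_torsionBy_iff _ _).mp x.2
        rwa [natCast_zsmul] at this
      apply Subtype.ext
      exact I3 A hA σ hσ x.1 hx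
    · have hfix : ∀ y : Vp P, σ • y = y :=
        fun y => Fermat.Agent.S05.result P hℓ h2 hℓp A hA σ hσ y
      rw [hfix x, sub_self, smul_zero]
  refine ⟨X, hX, h0, h1, ?_⟩
  rcases I4 X hX h0 h1 with hp | hp
  · -- all inertia fixes `X` pointwise: `X` consists of rational points, contradiction
    exfalso
    have hH : Glue.fixator (G := GQ) X = ⊤ := by
      apply I5 _ (Glue.fixator_normal hXs)
      · exact isOpen_of_kernel_le P _ (fun σ hσ x _ => hσ x)
      · intro ℓ hℓ A hA σ hσ
        by_cases hℓp : ℓ = P.p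
        · subst hℓp
          exact hp A hA σ hσ
        · exact Glue.unipotent_mem_fixator hXs hat (hunip ℓ hℓ hℓp A hA σ hσ)
    obtain ⟨x, hxX, hx0⟩ := Submodule.exists_mem_ne_zero_of_ne_bot h0
    apply hx0
    apply Subtype.ext
    have hx : P.p • x.1 = 0 := by
      have := (Submodule.mem_torsionBy_iff _ _).mp x.2
      rwa [natCast_zsmul] at this
    apply I2 x.1 hx
    intro σ
    have hσ : σ ∈ Glue.fixator (G := GQ) X := by rw [hH]; trivial
    exact congrArg Subtype.val (hσ x hxX)
  · -- all inertia is trivial on `V ⧸ X`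
    have hH : Glue.cofixator hXs = ⊤ := by
      apply I5 _ (Glue.cofixator_normal hXs)
      · exact isOpen_of_kernel_le P _
          (fun σ hσ x => by rw [hσ x, sub_self]; exact X.zero_mem)
      · intro ℓ hℓ A hA σ hσ
        by_cases hℓp : ℓ = P.p
        · subst hℓp
          exact hp A hA σ hσ
        · exact Glue.unipotent_mem_cofixator hXs hco (hunip ℓ hℓ hℓp A hA σ hσ)
    intro σ x
    have hσ : σ ∈ Glue.cofixator hXs := by rw [hH]; trivial
    exact hσ x

end Fermat.Agent.S13.GlueInterfaces
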