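/-
S13 / GLUE variants (requested by helper41, report 949): the hypothesis `hF` at `p` quantified over
`G`-stable atoms (the supersingular block kills `F = ⊤` using a `G_ℚ`-stable line, via a rational
product, not merely an inertia-stable one).
-/
import Fermat.Prelude.Def_FLTPrelim_FreyPackage
import Fermat.Prelude.Def_FLTPrelim_GaloisRep
import Fermat.Prelude.Def_FLTPrelim_CofixedLine
import Fermat.Agent.S13.Glue

set_option autoImplicit false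
open WeierstrassCurve WeierstrassCurve.Affine WeierstrassCurve.Affine.Point
open FreyPackage Module

namespace Fermat.Agent.S13.GlueVariants

variable {G V : Type*} [Group G] [AddCommGroup V] [DistribMulAction G V]
variable {p : ℕ} [Fact p.Prime] [Module (ZMod p) V]

/-- `Glue.glue` with `hF` quantified over `G`-stable atoms. -/
theorem glue' [Module.Finite (ZMod p) V] (hfr : finrank (ZMod p) V ≤ 2)
    (hV : Nontrivial V)
    (hred : ¬ (Nontrivial V ∧ ∀ N : Submodule (ZMod p) V,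
      (∀ σ : G, ∀ x ∈ N, σ • x ∈ N) → N = ⊥ ∨ N = ⊤))
    (hnofix : ∀ x : V, (∀ σ : G, σ • x = x) → x = 0)
    (S₁ S₂ : Set G) (F : Submodule (ZMod p) V)
    (h₁ : ∀ σ ∈ S₁, ∀ x : V, σ • (σ • x - x) = σ • x - x)
    (h₂ : ∀ σ ∈ S₂, ∀ x : V, σ • x - x ∈ F)
    (hF : ∀ X : Submodule (ZMod p) V, IsAtom X → (∀ σ : G, ∀ x ∈ X, σ • x ∈ X) → X ≤ F → F ≤ X)
    (Mink : ∀ H : Subgroup G, H.Normal → (∀ σ : G, (∀ x : V, σ • x = x) → σ ∈ H) →
      S₁ ⊆ H → S₂ ⊆ H → H = ⊤) :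
    ∃ N : Submodule (ZMod p) V, (∀ σ : G, ∀ x ∈ N, σ • x ∈ N) ∧ N ≠ ⊥ ∧ N ≠ ⊤ ∧
      ∀ σ : G, ∀ x : V, σ • x - x ∈ N := by
  have h : ∃ N : Submodule (ZMod p) V, (∀ σ : G, ∀ x ∈ N, σ • x ∈ N) ∧ N ≠ ⊥ ∧ N ≠ ⊤ := by
    by_contra hcon
    apply hred
    refine ⟨hV, fun N hN => ?_⟩
    by_contra h'
    rw [not_or] at h'
    exact hcon ⟨N, hN, h'.1, h'.2⟩
  obtain ⟨X, hX, h0, h1⟩ := h
  have hat := Glue.isAtom_of_finrank_le_two hfr h0 h1
  have hco := Glue.isCoatom_of_finrank_le_two hfr h0 h1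
  exact ⟨X, hX, h0, h1, Glue.core (G := G) hX hat hco hnofix S₁ S₂ F h₁ h₂
    (hF X hat hX) Mink⟩

/-- In a space of `finrank ≤ 2`: if `F ≠ ⊤` then an atom `X ≤ F` equals `F`. -/
theorem le_of_atom_le_of_ne_top [Module.Finite (ZMod p) V] (hfr : finrank (ZMod p) V ≤ 2)
    {X F : Submodule (ZMod p) V} (hat : IsAtom X) (hXF : X ≤ F) (hF : F ≠ ⊤) : F ≤ X := by
  by_contra hcon
  have hlt : X < F := lt_of_le_of_ne hXF (fun h => hcon (h ▸ le_rfl))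
  have h2 : finrank (ZMod p) X < finrank (ZMod p) F := Submodule.finrank_lt_finrank_of_lt hlt
  have h3 : finrank (ZMod p) F < finrank (ZMod p) V := Submodule.finrank_lt hF
  have h4 : 0 < finrank (ZMod p) X := by
    rw [Nat.pos_iff_ne_zero]
    intro h
    exact hat.1 (Submodule.finrank_eq_zero.mp h)
  omega

/-- The variant with: `F = ⊤` is impossible as soon as there is a `G`-stable atom. -/
theorem glue'' [Module.Finite (ZMod p) V] (hfr : finrank (ZMod p) V ≤ 2)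
    (hV : Nontrivial V)
    (hred : ¬ (Nontrivial V ∧ ∀ N : Submodule (ZMod p) V,
      (∀ σ : G, ∀ x ∈ N, σ • x ∈ N) → N = ⊥ ∨ N = ⊤))
    (hnofix : ∀ x : V, (∀ σ : G, σ • x = x) → x = 0)
    (S₁ S₂ : Set G) (F : Submodule (ZMod p) V)
    (h₁ : ∀ σ ∈ S₁, ∀ x : V, σ • (σ • x - x) = σ • x - x)
    (h₂ : ∀ σ ∈ S₂, ∀ x : V, σ • x - x ∈ F)
    (hF : F = ⊤ → ∀ X : Submodule (ZMod p) V, IsAtom X → (∀ σ : G, ∀ x ∈ X, σ • x ∈ X) → False)
    (Mink : ∀ H : Subgroup G, H.Normal → (∀ σ : G, (∀ x : V, σ • x = x) → σ ∈ H) →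
      S₁ ⊆ H → S₂ ⊆ H → H = ⊤) :
    ∃ N : Submodule (ZMod p) V, (∀ σ : G, ∀ x ∈ N, σ • x ∈ N) ∧ N ≠ ⊥ ∧ N ≠ ⊤ ∧
      ∀ σ : G, ∀ x : V, σ • x - x ∈ N := by
  refine glue' (G := G) hfr hV hred hnofix S₁ S₂ F h₁ h₂ ?_ Mink
  intro X hat hX hXF
  by_cases hFt : F = ⊤
  · exact (hF hFt X hat hX).elim
  · exact le_of_atom_le_of_ne_top hfr hat hXF hFt

/-- `Qbar`. -/
abbrev Qbar : Type := AlgebraicClosure ℚ

/-- `G_ℚ`. -/
abbrev GQ : Type := Qbar ≃ₐ[ℚ] Qbar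

/-- The `p`-torsion of the Frey curve over `Qbar`, exactly as in the frozen statement. -/
abbrev Vp (P : FreyPackage) : Type :=
  Submodule.torsionBy ℤ (P.freyCurve⁄Qbar).Point P.p

/-- Frozen `S13` from the abstract blocks, `hF` over `G_ℚ`-stable atoms. -/
theorem hasCofixedLine_of_blocks'' (P : FreyPackage)
    (hred : ¬ GaloisRepIsIrreducible (K := AlgebraicClosure ℚ) ℚ P.freyCurve P.p)
    (hV : Nontrivial (Vp P)) (hfin : Finite (Vp P)) (hcard : Nat.card (Vp P) ≤ P.p ^ 2)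
    (hnofix : ∀ x : Vp P, (∀ σ : GQ, σ • x = x) → x = 0)
    (S₁ S₂ : Set GQ) (F : Submodule (ZMod P.p) (Vp P))
    (h₁ : ∀ σ ∈ S₁, ∀ x : Vp P, σ • (σ • x - x) = σ • x - x)
    (h₂ : ∀ σ ∈ S₂, ∀ x : Vp P, σ • x - x ∈ F)
    (hF : ∀ X : Submodule (ZMod P.p) (Vp P), IsAtom X → IsGaloisStable ℚ X → X ≤ F → F ≤ X)
    (Mink : ∀ H : Subgroup GQ, H.Normal → (∀ σ : GQ, (∀ x : Vp P, σ • x = x) → σ ∈ H) →
      S₁ ⊆ H → S₂ ⊆ H → H = ⊤) :
    HasGaloisStableCofixedLine (K := AlgebraicClosure ℚ) ℚ P.freyCurve P.p := by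
  have : Fact P.p.Prime := ⟨P.pp⟩
  have hfr := Glue.finrank_le_two_of_card (p := P.p) (V := Vp P) hcard
  exact glue' (G := GQ) (V := Vp P) (p := P.p) hfr hV hred hnofix S₁ S₂ F h₁ h₂
    (fun X hat hX => hF X hat hX) Mink

/-- Frozen `S13` from the abstract blocks; at `p`: `F = ⊤` is incompatible with a `G_ℚ`-stable
line (the supersingular exclusion in its natural shape). -/
theorem hasCofixedLine_of_blocks''' (P : FreyPackage)
    (hred : ¬ GaloisRepIsIrreducible (K := AlgebraicClosure ℚ) ℚ P.freyCurve P.p)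
    (hV : Nontrivial (Vp P)) (hfin : Finite (Vp P)) (hcard : Nat.card (Vp P) ≤ P.p ^ 2)
    (hnofix : ∀ x : Vp P, (∀ σ : GQ, σ • x = x) → x = 0)
    (S₁ S₂ : Set GQ) (F : Submodule (ZMod P.p) (Vp P))
    (h₁ : ∀ σ ∈ S₁, ∀ x : Vp P, σ • (σ • x - x) = σ • x - x)
    (h₂ : ∀ σ ∈ S₂, ∀ x : Vp P, σ • x - x ∈ F)
    (hF : F = ⊤ → ∀ X : Submodule (ZMod P.p) (Vp P), IsAtom X → IsGaloisStable ℚ X → False)
    (Mink : ∀ H : Subgroup GQ, H.Normal → (∀ σ : GQ, (∀ x : Vp P, σ • x = x) → σ ∈ H) →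
      S₁ ⊆ H → S₂ ⊆ H → H = ⊤) :
    HasGaloisStableCofixedLine (K := AlgebraicClosure ℚ) ℚ P.freyCurve P.p := by
  have : Fact P.p.Prime := ⟨P.pp⟩
  have hfr := Glue.finrank_le_two_of_card (p := P.p) (V := Vp P) hcard
  exact glue'' (G := GQ) (V := Vp P) (p := P.p) hfr hV hred hnofix S₁ S₂ F h₁ h₂
    (fun hFt X hat hX => hF hFt X hat hX) Mink

end Fermat.Agent.S13.GlueVariants
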