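/-
S13, interface (I4) with NO open hypothesis besides (I1) (finiteness and `#E[p] ≤ p²`):
`AtPFinal.I4_of_sigma` (helper92) fed with `SigmaFrey.sigma_frey` (helper30).
-/
import Fermat.Agent.S13.AtPFinal
import Fermat.Agent.S13.SigmaFrey

set_option autoImplicit false
open WeierstrassCurve WeierstrassCurve.Affine WeierstrassCurve.Affine.Point

namespace Fermat.Agent.S13.I4Final

local notation "Qbar" => AlgebraicClosure ℚ

/-- **Interface (I4)**, unconditional given (I1). -/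
theorem I4 (P : FreyPackage)
    (hfin : Finite (Submodule.torsionBy ℤ (P.freyCurve⁄Qbar).Point P.p))
    (hcard : Nat.card (Submodule.torsionBy ℤ (P.freyCurve⁄Qbar).Point P.p) ≤ P.p ^ 2) :
    ∀ X : Submodule (ZMod P.p) (Submodule.torsionBy ℤ (P.freyCurve⁄Qbar).Point P.p),
      IsGaloisStable ℚ X → X ≠ ⊥ → X ≠ ⊤ →
      (∀ A : ValuationSubring Qbar, A.LiesOverPrime P.p → ∀ σ ∈ A.inertiaSubgroupIn ℚ,
        ∀ x ∈ X, σ • x = x) ∨
      (∀ A : ValuationSubring Qbar, A.LiesOverPrime P.p → ∀ σ ∈ A.inertiaSubgroupIn ℚ,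
        ∀ x : Submodule.torsionBy ℤ (P.freyCurve⁄Qbar).Point P.p, σ • x - x ∈ X) :=
  AtPFinal.I4_of_sigma P hfin hcard fun A hA => SigmaFrey.sigma_frey P A hA

end Fermat.Agent.S13.I4Final
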