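import Fermat.Agent.S13.Unipotent2

/-!
# S13, block (B2), interface (I2), generic part: no "rational" `p`-torsion at a node of residue
field `𝔽₂`

`W : y² + a₁xy = x³ + a₂x² + a₄x` over a valued field `(K, A)` (`a₃ = a₆ = 0`, `a₁ a₂` integral,
`b₂` a unit, `0 < v a₄ < 1`), `p ≥ 5` a prime which is a unit.  `R ⊆ K` is a set of "rational"
elements: the valuation of a nonzero element of `R` is an INTEGRAL power of `v π`
(`v a₄ = v π ^ μ`), and an integral element of `R` is congruent to `0` or `1` modulo the maximal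
ideal (residue field `𝔽₂`).  If `p c = 2 μ k` has no solution with `0 < c < μ`, then a
`p`-torsion point `T` all of whose multiples have coordinates in `R` is `0`:

* no multiple `jT ≠ 0` has a non-integral abscissa (`NoTorsionE1Gen`);
* no multiple reduces to the node (`CruxGen.main` + the arithmetic hypothesis);
* so `T, 2T, 3T` reduce to nonsingular points with coordinates in `𝔽₂`, with abscissa `1`:
  two of them have the same reduction, so their difference (`T` or `2T`) is in the kernel of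
  reduction (`ClosePointsGen.main`): contradiction.
-/

set_option autoImplicit false

namespace Fermat.Agent.S13.NoRatTorsion

open WeierstrassCurve WeierstrassCurve.Affine Fermat.Agent.S13.XOnlyGen

variable {K : Type*} [Field K] [DecidableEq K] (A : ValuationSubring K) {W : WeierstrassCurve K}

/-- the arithmetic input for the Frey curve: `μ = p e - 4`, `p ≥ 5` prime. -/
theorem no_multiple {p e : ℕ} (hp : p.Prime) (hp5 : 5 ≤ p) (he : 4 < p * e) (c k : ℤ)
    (h : (p : ℤ) * c = 2 * ((p * e - 4 : ℕ) : ℤ) * k) (hc0 : 0 < c)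
    (hc : c < ((p * e - 4 : ℕ) : ℤ)) : False := by
  have hμ : ((p * e - 4 : ℕ) : ℤ) = (p : ℤ) * e - 4 := by
    rw [Nat.cast_sub he.le]; push_cast; ring
  rw [hμ] at h hc
  have hpZ : Prime (p : ℤ) := Nat.prime_iff_prime_int.mp hp
  -- `p ∣ 8 k`
  have hdvd : (p : ℤ) ∣ 8 * k := by
    refine ⟨2 * e * k - c, ?_⟩
    linear_combination h
  have hpk : (p : ℤ) ∣ k := by
    rcases hpZ.dvd_or_dvd hdvd with h8 | hk
    · exfalso
      have h8' : p ∣ 8 := by exact_mod_cast h8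
      have hle : p ≤ 8 := Nat.le_of_dvd (by norm_num) h8'
      have : p = 5 ∨ p = 6 ∨ p = 7 ∨ p = 8 := by omega
      rcases this with rfl | rfl | rfl | rfl
      · exact absurd h8' (by decide)
      · exact absurd h8' (by decide)
      · exact absurd h8' (by decide)
      · exact absurd hp (by decide)
    · exact hk
  obtain ⟨k', rfl⟩ := hpk
  have hp0 : (p : ℤ) ≠ 0 := by exact_mod_cast hp.ne_zero
  have hc' : c = 2 * ((p : ℤ) * e - 4) * k' := by
    apply mul_left_cancel₀ hp0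
    rw [h]; ring
  have hμpos : 0 < (p : ℤ) * e - 4 := by
    have : (4 : ℤ) < (p : ℤ) * e := by exact_mod_cast he
    linarith
  rw [hc'] at hc0 hc
  have hk1 : 0 < k' := by
    by_contra hk
    push Not at hk
    nlinarith
  nlinarith

section generic

variable (ha₁ : A.valuation W.a₁ ≤ 1) (ha₂ : A.valuation W.a₂ ≤ 1)
  (ha₃ : W.a₃ = 0) (ha₆ : W.a₆ = 0) (ha₄0 : W.a₄ ≠ 0) (ha₄ : A.valuation W.a₄ < 1)
  (hb₂ : A.valuation W.b₂ = 1)
  {p : ℕ} (hp : p.Prime) (hp2 : p ≠ 2) (hpA : A.valuation (p : K) = 1)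

include ha₁ ha₂ ha₃ ha₆ ha₄ hp hp2 hpA in
/-- a nonzero `p`-torsion point has integral abscissa. -/
theorem xc_le_one {Q : W.toAffine.Point} (hpQ : p • Q = 0) : A.valuation (xc Q) ≤ 1 := by
  have ha₃' : A.valuation W.a₃ ≤ 1 := by rw [ha₃, map_zero]; exact zero_le_one
  have ha₆' : A.valuation W.a₆ ≤ 1 := by rw [ha₆, map_zero]; exact zero_le_one
  obtain ⟨hb2, hb4, hb6, hb8⟩ := NoTorsionE1Gen.b_mem_of_a_mem A
    ((A.valuation_le_one_iff _).mp ha₁)
    ((A.valuation_le_one_iff _).mp ha₂) ((A.valuation_le_one_iff _).mp ha₃')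
    ((A.valuation_le_one_iff _).mp ha₄.le) ((A.valuation_le_one_iff _).mp ha₆')
  have hpA' : (p : K) ∉ A.nonunits := by
    intro h
    have : A.valuation (p : K) < 1 := h
    rw [hpA] at this
    exact lt_irrefl _ this
  exact (A.valuation_le_one_iff _).mpr
    (NoTorsionE1Gen.xc_mem_of_prime_nsmul_eq_zero A hb2 hb4 hb6 hb8 hp hp2 hpA' hpQ)

include ha₁ ha₂ ha₃ ha₆ ha₄0 ha₄ hb₂ hp hp2 hpA in
/-- **No rational `p`-torsion point reduces to the node.** -/
theorem val_xc_eq_one {π : K} (hπ0 : π ≠ 0) (hπ : A.valuation π < 1) {μ : ℕ}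
    (hμ : A.valuation W.a₄ = A.valuation π ^ μ)
    (hno : ∀ c k : ℤ, (p : ℤ) * c = 2 * (μ : ℤ) * k → 0 < c → c < μ → False)
    {Q : W.toAffine.Point} (hQ : Q ≠ 0) (hpQ : p • Q = 0)
    (hR : xc Q ≠ 0 → ∃ c : ℤ, A.valuation (xc Q) = A.valuation π ^ c) :
    A.valuation (xc Q) = 1 := by
  have hle := xc_le_one A ha₁ ha₂ ha₃ ha₆ ha₄ hp hp2 hpA hpQ
  by_contra hne
  have hlt : A.valuation (xc Q) < 1 := lt_of_le_of_ne hle hne
  obtain ⟨hm, k, hk⟩ := CruxGen.main A.valuation ha₃ ha₆ hb₂ ha₄0 ha₄ hp hp2 hQ hpQ hlt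
  have hx0 : xc Q ≠ 0 := by
    intro h0
    rw [h0, map_zero] at hm
    exact absurd hm (not_lt.mpr zero_le)
  obtain ⟨c, hc⟩ := hR hx0
  have hπpos : 0 < A.valuation π := (Valuation.pos_iff _).mpr hπ0
  rw [hc, hμ] at hk hm
  rw [hc] at hlt
  have e1 : (A.valuation π ^ c) ^ p = A.valuation π ^ (c * (p : ℤ)) := by
    rw [zpow_mul, zpow_natCast]
  have e2 : (A.valuation π ^ μ) ^ (2 * k) = A.valuation π ^ ((μ : ℤ) * (2 * k)) := by
    rw [zpow_mul (A.valuation π) (μ : ℤ) (2 * k), zpow_natCast]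
  rw [e1, e2] at hk
  have hinj := zpow_right_injective₀ hπpos hπ.ne hk
  have hc0 : 0 < c := (zpow_lt_one_iff_right_of_lt_one₀ hπpos hπ).mp hlt
  have hcμ : c < μ := by
    rw [← zpow_natCast] at hm
    exact (zpow_lt_zpow_iff_right_of_lt_one₀ hπpos hπ).mp hm
  refine hno c k ?_ hc0 hcμ
  have hinj' : c * (p : ℤ) = (μ : ℤ) * (2 * k) := hinj
  linear_combination hinj'

include ha₁ ha₂ ha₃ ha₆ ha₄ hb₂ hp hp2 hpA in
/-- two distinct integral points with unit abscissa and the same reduction cannot differ by a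
`p`-torsion point. -/
theorem false_of_close {P Q : W.toAffine.Point} (hP : P ≠ 0) (hQ : Q ≠ 0) (hPQ : Q - P ≠ 0)
    (hpPQ : p • (Q - P) = 0) (hxP : A.valuation (xc P) = 1)
    (hx : A.valuation (xc Q - xc P) < 1) (hy : A.valuation (yc Q - yc P) < 1) : False := by
  have ha₃' : A.valuation W.a₃ ≤ 1 := by rw [ha₃, map_zero]; exact zero_le_one
  have ha₆' : A.valuation W.a₆ ≤ 1 := by rw [ha₆, map_zero]; exact zero_le_one
  have hE : W.toAffine.Equation (xc P) (yc P) :=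
    (Affine.equation_iff _ _).mpr (equation_xc_yc hP)
  have hyP : A.valuation (yc P) ≤ 1 :=
    Unipotent2.y_integral A ha₁ ha₂ ha₃' ha₄.le ha₆' hxP.le hE
  have hns := Unipotent2.nonsing_of_unit A ha₁ ha₂ ha₃ ha₆ ha₄ hb₂ hxP hyP hE
  rcases ClosePointsGen.main A.valuation ha₁ ha₂ hP hQ hxP.le hyP hx hy hns with h | h
  · exact hPQ h
  · exact absurd (xc_le_one A ha₁ ha₂ ha₃ ha₆ ha₄ hp hp2 hpA hpPQ) (not_le.mpr h)

include ha₁ ha₂ ha₃ ha₆ ha₄0 ha₄ hb₂ hp hpA in
/-- **No rational `p`-torsion** (generic form). -/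
theorem main (hp5 : 5 ≤ p) {π : K} (hπ0 : π ≠ 0) (hπ : A.valuation π < 1) {μ : ℕ}
    (hμ : A.valuation W.a₄ = A.valuation π ^ μ)
    (hno : ∀ c k : ℤ, (p : ℤ) * c = 2 * (μ : ℤ) * k → 0 < c → c < μ → False)
    (R : Set K)
    (hR1 : ∀ r ∈ R, r ≠ 0 → ∃ c : ℤ, A.valuation r = A.valuation π ^ c)
    (hR2 : ∀ r ∈ R, A.valuation r ≤ 1 → A.valuation r < 1 ∨ A.valuation (r - 1) < 1)
    {T : W.toAffine.Point} (hpT : p • T = 0)
    (hTR : ∀ j : ℕ, j • T ≠ 0 → xc (j • T) ∈ R ∧ yc (j • T) ∈ R) : T = 0 := by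
  by_contra hT
  have hp2 : p ≠ 2 := by omega
  have ha₃' : A.valuation W.a₃ ≤ 1 := by rw [ha₃, map_zero]; exact zero_le_one
  have ha₆' : A.valuation W.a₆ ≤ 1 := by rw [ha₆, map_zero]; exact zero_le_one
  have hne : ∀ j : ℕ, 1 ≤ j → j < p → j • T ≠ 0 := fun j h1 hj =>
    (CruxGen.nsmul_facts hp hp2 hT hpT h1 hj).1
  have hpj : ∀ j : ℕ, p • (j • T) = 0 := fun j => by
    rw [← mul_nsmul, mul_comm, mul_nsmul, hpT, nsmul_zero]
  -- the reduction data of `j • T`
  have hdata : ∀ j : ℕ, 1 ≤ j → j < p →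
      A.valuation (xc (j • T)) = 1 ∧ A.valuation (xc (j • T) - 1) < 1 ∧
        (A.valuation (yc (j • T)) < 1 ∨ A.valuation (yc (j • T) - 1) < 1) := by
    intro j h1 hj
    have hj0 := hne j h1 hj
    obtain ⟨hxR, hyR⟩ := hTR j hj0
    have hx1 : A.valuation (xc (j • T)) = 1 :=
      val_xc_eq_one A ha₁ ha₂ ha₃ ha₆ ha₄0 ha₄ hb₂ hp hp2 hpA hπ0 hπ hμ hno hj0 (hpj j)
        (fun h0 => hR1 _ hxR h0)
    have hE : W.toAffine.Equation (xc (j • T)) (yc (j • T)) :=
      (Affine.equation_iff _ _).mpr (equation_xc_yc hj0)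
    have hy1 : A.valuation (yc (j • T)) ≤ 1 :=
      Unipotent2.y_integral A ha₁ ha₂ ha₃' ha₄.le ha₆' hx1.le hE
    refine ⟨hx1, ?_, hR2 _ hyR hy1⟩
    rcases hR2 _ hxR hx1.le with h | h
    · rw [hx1] at h; exact absurd h (lt_irrefl _)
    · exact h
  -- two multiples with the same reduction
  have hpair : ∀ i j : ℕ, 1 ≤ i → i < j → j < p →
      ¬ ((A.valuation (yc (i • T)) < 1 ∧ A.valuation (yc (j • T)) < 1) ∨
        (A.valuation (yc (i • T) - 1) < 1 ∧ A.valuation (yc (j • T) - 1) < 1)) := by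
    intro i j hi hij hj hsame
    obtain ⟨hxi, hxi1, -⟩ := hdata i hi (by omega)
    obtain ⟨-, hxj1, -⟩ := hdata j (by omega) hj
    have hdiff : j • T - i • T = (j - i) • T := (sub_nsmul T hij.le).symm
    have hx : A.valuation (xc (j • T) - xc (i • T)) < 1 := by
      have : xc (j • T) - xc (i • T) = (xc (j • T) - 1) - (xc (i • T) - 1) := by ring
      rw [this]
      exact lt_of_le_of_lt (Valuation.map_sub _ _ _) (max_lt hxj1 hxi1)
    have hy : A.valuation (yc (j • T) - yc (i • T)) < 1 := by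
      rcases hsame with ⟨h1, h2⟩ | ⟨h1, h2⟩
      · exact lt_of_le_of_lt (Valuation.map_sub _ _ _) (max_lt h2 h1)
      · have : yc (j • T) - yc (i • T) = (yc (j • T) - 1) - (yc (i • T) - 1) := by ring
        rw [this]
        exact lt_of_le_of_lt (Valuation.map_sub _ _ _) (max_lt h2 h1)
    refine false_of_close A ha₁ ha₂ ha₃ ha₆ ha₄ hb₂ hp hp2 hpA (hne i hi (by omega))
      (hne j (by omega) hj) ?_ ?_ hxi hx hy
    · rw [hdiff]; exact hne (j - i) (by omega) (by omega)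
    · rw [hdiff]; exact hpj _
  obtain ⟨-, -, h1⟩ := hdata 1 le_rfl (by omega)
  obtain ⟨-, -, h2⟩ := hdata 2 (by omega) (by omega)
  obtain ⟨-, -, h3⟩ := hdata 3 (by omega) (by omega)
  have p12 := hpair 1 2 le_rfl (by omega) (by omega)
  have p13 := hpair 1 3 le_rfl (by omega) (by omega)
  have p23 := hpair 2 3 (by omega) (by omega) (by omega)
  rcases h1 with h1 | h1 <;> rcases h2 with h2 | h2 <;> rcases h3 with h3 | h3
  · exact p12 (Or.inl ⟨h1, h2⟩)
  · exact p12 (Or.inl ⟨h1, h2⟩)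
  · exact p13 (Or.inl ⟨h1, h3⟩)
  · exact p23 (Or.inr ⟨h2, h3⟩)
  · exact p23 (Or.inl ⟨h2, h3⟩)
  · exact p13 (Or.inr ⟨h1, h3⟩)
  · exact p12 (Or.inr ⟨h1, h2⟩)
  · exact p12 (Or.inr ⟨h1, h2⟩)

end generic

end Fermat.Agent.S13.NoRatTorsion
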