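import Fermat.Agent.S13.NoRatTorsion
import Fermat.Agent.S13.FreyModel
import Fermat.Agent.S51.GalFixed

/-!
# S13, interface (I2): the Frey curve has no nonzero rational `p`-torsion point

`T : (P.freyCurve⁄Qbar).Point` with `P.p • T = 0`, fixed by all of `Gal(Qbar/ℚ)`, is `0`.
Instantiation of `NoRatTorsion.main` at a valuation subring `A` of `Qbar` over `2`, with
`R := ℚ ⊆ Qbar`, `π := 2`, `μ := p e - 4` (`2^e ∥ b`).
-/

set_option autoImplicit false

namespace Fermat.Agent.S13.NoRatTorsionFrey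

open WeierstrassCurve WeierstrassCurve.Affine Fermat.Agent.S13.XOnlyGen

local notation "Qbar" => AlgebraicClosure ℚ

/-! ### a valuation subring of `Qbar` over `2` -/

/-- there is a valuation subring of a field of characteristic `0` over any prime `q`. -/
theorem exists_liesOverPrime {L : Type*} [Field L] [CharZero L] {q : ℕ} (hq : q.Prime) :
    ∃ A : ValuationSubring L, A.LiesOverPrime q := by
  let B : Subring L := (Int.castRingHom L).range
  have hqB : (q : L) ∈ B := ⟨(q : ℤ), by simp⟩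
  let I : Ideal B := Ideal.span {⟨(q : L), hqB⟩}
  have hI : I ≠ ⊤ := by
    intro h
    have h1 : (1 : B) ∈ I := by rw [h]; exact Submodule.mem_top
    obtain ⟨a, ha⟩ := Ideal.mem_span_singleton'.mp h1
    obtain ⟨n, hn⟩ := a.2
    have h2 : ((n : ℤ) : L) * (q : L) = 1 := by
      have := congrArg (Subtype.val) ha
      simp only [Subring.coe_mul, Subring.coe_one] at this
      rw [← this, ← hn]; rfl
    have h3 : (n * (q : ℤ) : ℤ) = 1 := by
      have : ((n * (q : ℤ) : ℤ) : L) = ((1 : ℤ) : L) := by push_cast; exact h2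
      exact Int.cast_injective this
    have hdvd : (q : ℤ) ∣ 1 := ⟨n, by rw [mul_comm]; exact h3.symm⟩
    have hq1 : q = 1 := by
      have := Int.natAbs_dvd_natAbs.mpr hdvd
      simpa using this
    exact hq.one_lt.ne' hq1
  obtain ⟨A, -, hA⟩ := Ideal.image_subset_nonunits_valuationSubring I hI
  refine ⟨A, ?_⟩
  have : (q : L) ∈ A.nonunits :=
    hA ⟨⟨(q : L), hqB⟩, Ideal.subset_span rfl, rfl⟩
  exact this

/-! ### rational numbers at a place over `2` -/

section rat

variable {L : Type*} [Field L] [CharZero L] (A : ValuationSubring L)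

/-- a nonzero integer is a power of `2` times an odd integer. -/
theorem int_decomp {n : ℤ} (hn : n ≠ 0) : ∃ (a : ℕ) (u : ℤ), ¬ (2 : ℤ) ∣ u ∧ n = 2 ^ a * u := by
  have hfin : FiniteMultiplicity (2 : ℤ) n := Int.finiteMultiplicity_iff.mpr ⟨by decide, hn⟩
  obtain ⟨c, hc, hndvd⟩ := hfin.exists_eq_pow_mul_and_not_dvd
  exact ⟨_, c, hndvd, hc⟩

/-- a nonzero rational number is `2 ^ c * (u / w)` with `u`, `w` odd integers. -/
theorem rat_decomp {r : ℚ} (hr : r ≠ 0) : ∃ (c : ℤ) (u w : ℤ), ¬ (2 : ℤ) ∣ u ∧ ¬ (2 : ℤ) ∣ w ∧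
    (r : L) = (2 : L) ^ c * ((u : L) / (w : L)) := by
  have hnum : r.num ≠ 0 := Rat.num_ne_zero.mpr hr
  have hden : (r.den : ℤ) ≠ 0 := by exact_mod_cast r.den_ne_zero
  obtain ⟨a, u, hu, hau⟩ := int_decomp hnum
  obtain ⟨b, w, hw, hbw⟩ := int_decomp hden
  refine ⟨(a : ℤ) - b, u, w, hu, hw, ?_⟩
  have hw0 : (w : L) ≠ 0 := by
    intro h0
    have : w = 0 := by exact_mod_cast h0
    exact hw (this ▸ dvd_zero _)
  have h2 : (2 : L) ≠ 0 := two_ne_zero
  have hr' : (r : L) = (r.num : L) / ((r.den : ℤ) : L) := by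
    rw [Int.cast_natCast]; exact Rat.cast_def r
  rw [hr', hau, hbw]
  push_cast
  rw [zpow_sub₀ h2, zpow_natCast, zpow_natCast]
  field_simp

variable {A}

omit [CharZero L] in
theorem val_odd (hA : A.LiesOverPrime 2) {u : ℤ} (hu : ¬ (2 : ℤ) ∣ u) :
    A.valuation (u : L) = 1 :=
  Fermat.Agent.S05.FreyArith.val_intCast_eq_one A Nat.prime_two hA (by exact_mod_cast hu)

omit [CharZero L] in
theorem val_two_lt_one (hA : A.LiesOverPrime 2) : A.valuation (2 : L) < 1 := by
  have := (A.mem_nonunits_iff).mp hA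
  simpa using this

/-- rational numbers have integral `2`-adic valuation. -/
theorem val_ratCast (hA : A.LiesOverPrime 2) {r : ℚ} (hr : r ≠ 0) :
    ∃ c : ℤ, A.valuation (r : L) = A.valuation (2 : L) ^ c := by
  obtain ⟨c, u, w, hu, hw, h⟩ := rat_decomp (L := L) hr
  refine ⟨c, ?_⟩
  rw [h, map_mul, map_div₀, map_zpow₀, val_odd hA hu, val_odd hA hw, div_one, mul_one]

/-- the residue field at `2` is `𝔽₂` on rational numbers. -/
theorem val_ratCast_res (hA : A.LiesOverPrime 2) (r : ℚ) (hr : A.valuation (r : L) ≤ 1) :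
    A.valuation (r : L) < 1 ∨ A.valuation ((r : L) - 1) < 1 := by
  rcases eq_or_ne r 0 with rfl | hr0
  · left; simp
  obtain ⟨c, u, w, hu, hw, h⟩ := rat_decomp (L := L) hr0
  have h2 := val_two_lt_one hA
  have h2pos : 0 < A.valuation (2 : L) := (Valuation.pos_iff _).mpr two_ne_zero
  have hv : A.valuation (r : L) = A.valuation (2 : L) ^ c := by
    rw [h, map_mul, map_div₀, map_zpow₀, val_odd hA hu, val_odd hA hw, div_one, mul_one]
  rcases lt_trichotomy c 0 with hc | hc | hc
  · exfalso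
    rw [hv] at hr
    have : 1 < A.valuation (2 : L) ^ c := by
      have := (zpow_lt_zpow_iff_right_of_lt_one₀ h2pos h2 (m := 0) (n := c)).mpr hc
      simpa using this
    exact absurd hr (not_le.mpr this)
  · right
    subst hc
    rw [zpow_zero, one_mul] at h
    have hw0 : (w : L) ≠ 0 := by
      intro h0
      have : w = 0 := by exact_mod_cast h0
      exact hw (this ▸ dvd_zero _)
    have hsub : (r : L) - 1 = ((u - w : ℤ) : L) / (w : L) := by
      rw [h]; push_cast; field_simp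
    have heven : (2 : ℤ) ∣ u - w := by omega
    rw [hsub, map_div₀, val_odd hA hw, div_one]
    exact Fermat.Agent.S05.FreyArith.val_intCast_lt_one A hA (by exact_mod_cast heven)
  · left
    rw [hv]
    exact (zpow_lt_one_iff_right_of_lt_one₀ h2pos h2).mpr hc

end rat

/-! ### the Galois action on coordinates -/

lemma xc_smul (P : FreyPackage) (σ : Qbar ≃ₐ[ℚ] Qbar) (T : (P.freyCurve⁄Qbar).Point) :
    xc (σ • T) = σ (xc T) := by
  cases T with
  | zero => exact (map_zero σ).symm
  | some x y h => rfl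

lemma yc_smul (P : FreyPackage) (σ : Qbar ≃ₐ[ℚ] Qbar) (T : (P.freyCurve⁄Qbar).Point) :
    yc (σ • T) = σ (yc T) := by
  cases T with
  | zero => exact (map_zero σ).symm
  | some x y h => rfl

/-- coordinates of a Galois-fixed point are rational. -/
theorem rational_of_fixed (P : FreyPackage) (T : (P.freyCurve⁄Qbar).Point)
    (hT : ∀ σ : Qbar ≃ₐ[ℚ] Qbar, σ • T = T) :
    xc T ∈ Set.range ((↑) : ℚ → Qbar) ∧ yc T ∈ Set.range ((↑) : ℚ → Qbar) := by
  constructor
  · obtain ⟨q, hq⟩ := Fermat.Agent.S51.mem_range_of_forall_algEquiv_fixed (xc T)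
      (fun σ => by rw [← xc_smul, hT σ])
    exact ⟨q, by rw [← hq, eq_ratCast]⟩
  · obtain ⟨q, hq⟩ := Fermat.Agent.S51.mem_range_of_forall_algEquiv_fixed (yc T)
      (fun σ => by rw [← yc_smul, hT σ])
    exact ⟨q, by rw [← hq, eq_ratCast]⟩

/-- **Interface (I2).** The Frey curve has no nonzero rational point of order `p`. -/
theorem main (P : FreyPackage) (T : (P.freyCurve⁄Qbar).Point) (hpT : P.p • T = 0)
    (hfix : ∀ σ : Qbar ≃ₐ[ℚ] Qbar, σ • T = T) : T = 0 := by
  classical
  obtain ⟨A, hA⟩ := exists_liesOverPrime (L := Qbar) Nat.prime_two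
  obtain ⟨e, he0, hpe, hva₄⟩ := FreyModel.exists_val_a₄ (P := P) hA
  have hp2 : ¬ 2 ∣ P.p := by
    intro h
    have := (Nat.prime_dvd_prime_iff_eq Nat.prime_two P.pp).mp h
    have := P.hp5
    omega
  have hpA : A.valuation ((P.p : ℕ) : Qbar) = 1 :=
    Fermat.Agent.S05.FreyArith.val_natCast_eq_one A Nat.prime_two hA hp2
  refine NoRatTorsion.main A (FreyModel.val_a₁_le (P := P) A) (FreyModel.val_a₂_le (P := P) A)
    (FreyModel.a₃_eq P) (FreyModel.a₆_eq P) (FreyModel.a₄_ne_zero P)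
    (FreyModel.val_a₄_lt_one hA) (FreyModel.val_b₂_eq_one hA) P.pp hpA P.hp5
    (π := (2 : Qbar)) two_ne_zero (val_two_lt_one hA) (μ := P.p * e - 4) hva₄
    (fun c k h hc0 hc => NoRatTorsion.no_multiple P.pp P.hp5 hpe c k h hc0 hc)
    (Set.range ((↑) : ℚ → Qbar)) ?_ ?_ hpT ?_
  · rintro _ ⟨r, rfl⟩ hr0
    exact val_ratCast hA (fun h => hr0 (by rw [h, Rat.cast_zero]))
  · rintro _ ⟨r, rfl⟩ hr
    exact val_ratCast_res hA r hr
  · intro j _
    refine rational_of_fixed P (j • T) (fun σ => ?_)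
    have := map_nsmul (DistribSMul.toAddMonoidHom (P.freyCurve⁄Qbar).Point σ) j T
    simp only [DistribSMul.toAddMonoidHom_apply] at this
    rw [this, hfix σ]

end Fermat.Agent.S13.NoRatTorsionFrey
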