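/-
S13 helper (helper23): REDUCTION of the frozen statement S13 to five inputs
(`H0`, `H2`, `Hp`, `HQ`, `HM` below), using the landed S05 (inertia at odd `ℓ ≠ p` is trivial)
and the abstract linear-algebra core.  Sorry-free.
-/
import Fermat.Statements.S13
import Fermat.Agent.S05
import Fermat.Agent.S13.AbstractCore

set_option autoImplicit false
open WeierstrassCurve WeierstrassCurve.Affine WeierstrassCurve.Affine.Point

namespace Fermat.Agent.S13.ReductionCore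

local notation "Qbar" => AlgebraicClosure ℚ
local notation "GQ" => (AlgebraicClosure ℚ ≃ₐ[ℚ] AlgebraicClosure ℚ)

/-- The `p`-torsion of the Frey curve over `Qbar` (as in the frozen statement). -/
abbrev Tors (P : FreyPackage) : Type :=
  Submodule.torsionBy ℤ ((P.freyCurve : Affine ℚ)⁄Qbar).Point P.p

/-- **Reduction of S13.**
* `H0`: `#E[p] = p²`;
* `H2`: inertia at `2` acts unipotently on `E[p]`;
* `Hp`: for ONE place `A | p`: inertia acts trivially modulo a proper submodule, or there is no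
  inertia-stable line at all;
* `HQ`: no nonzero `G_ℚ`-fixed `p`-torsion point;
* `HM`: a character of `G_ℚ` factoring through the action on `E[p]`, trivial on all inertia groups
  at `ℓ ≠ p` and on the inertia group of one place over `p`, is trivial (Minkowski). -/
theorem main (P : FreyPackage)
    (H0 : Nat.card (Tors P) = P.p ^ 2)
    (H2 : ∀ A : ValuationSubring Qbar, A.LiesOverPrime 2 → ∀ σ ∈ A.inertiaSubgroupIn ℚ,
      ∀ x : Tors P, σ • (σ • x - x) = σ • x - x)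
    (Hp : ∃ A : ValuationSubring Qbar, A.LiesOverPrime P.p ∧
      ((∃ L : Submodule (ZMod P.p) (Tors P), L ≠ ⊤ ∧
          ∀ σ ∈ A.inertiaSubgroupIn ℚ, ∀ x : Tors P, σ • x - x ∈ L) ∨
        (∀ N' : Submodule (ZMod P.p) (Tors P),
          (∀ σ ∈ A.inertiaSubgroupIn ℚ, ∀ x ∈ N', σ • x ∈ N') → N' = ⊥ ∨ N' = ⊤)))
    (HQ : ∀ x : Tors P, (∀ σ : GQ, σ • x = x) → x = 0)
    (HM : ∀ χ : GQ →* (ZMod P.p)ˣ,
      (∀ σ : GQ, (∀ x : Tors P, σ • x = x) → χ σ = 1) →
      (∀ ℓ : ℕ, ℓ.Prime → ℓ ≠ P.p → ∀ A : ValuationSubring Qbar, A.LiesOverPrime ℓ →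
        ∀ σ ∈ A.inertiaSubgroupIn ℚ, χ σ = 1) →
      (∃ A : ValuationSubring Qbar, A.LiesOverPrime P.p ∧
        ∀ σ ∈ A.inertiaSubgroupIn ℚ, χ σ = 1) →
      ∀ σ, χ σ = 1)
    (hred : ¬ GaloisRepIsIrreducible (K := Qbar) ℚ P.freyCurve P.p) :
    HasGaloisStableCofixedLine (K := Qbar) ℚ P.freyCurve P.p := by
  classical
  have : Fact P.p.Prime := ⟨P.pp⟩
  -- nontriviality
  have hfin : Finite (Tors P) := AbstractCore.finite_of_card (p := P.p) H0
  have hnt : Nontrivial (Tors P) := by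
    rw [← Finite.one_lt_card_iff_nontrivial, H0]
    exact one_lt_pow₀ P.pp.one_lt (by norm_num)
  -- a stable line
  obtain ⟨N, hNst, hN0, hN1⟩ : ∃ N : Submodule (ZMod P.p) (Tors P),
      IsGaloisStable ℚ N ∧ N ≠ ⊥ ∧ N ≠ ⊤ := by
    by_contra h
    apply hred
    refine ⟨hnt, fun N hN => ?_⟩
    by_contra h'
    push Not at h'
    exact h ⟨N, hN, h'.1, h'.2⟩
  obtain ⟨Ap, hAp, hIp⟩ := Hp
  refine ⟨N, hNst, hN0, hN1, ?_⟩
  -- the set of inertia elements at primes different from `p`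
  let U : Set GQ := {σ | ∃ ℓ : ℕ, ℓ.Prime ∧ ℓ ≠ P.p ∧ ∃ A : ValuationSubring Qbar,
    A.LiesOverPrime ℓ ∧ σ ∈ A.inertiaSubgroupIn ℚ}
  have hU : ∀ σ ∈ U, ∀ x : Tors P, σ • (σ • x - x) = σ • x - x := by
    rintro σ ⟨ℓ, hℓ, hℓp, A, hA, hσ⟩ x
    by_cases h2 : ℓ = 2
    · subst h2
      exact H2 A hA σ hσ x
    · have hS05 := Fermat.Agent.S05.result P hℓ h2 hℓp
      have hfix : ∀ y : Tors P, σ • y = y := fun y => hS05 A hA σ hσ y
      rw [hfix x, sub_self, smul_zero]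
  exact AbstractCore.core (p := P.p) H0 N (fun σ x hx => hNst σ x hx) hN0 hN1 U hU
    ((Ap.inertiaSubgroupIn ℚ : Subgroup GQ) : Set GQ) hIp HQ
    (fun χ h1 h2 h3 => HM χ h1
      (fun ℓ hℓ hℓp A hA σ hσ => h2 σ ⟨ℓ, hℓ, hℓp, A, hA, hσ⟩)
      ⟨Ap, hAp, h3⟩)

end Fermat.Agent.S13.ReductionCore
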