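/-
S13, block FG replacement (owner: helper30): UNNORMALISED DIVISION POLYNOMIALS.

For a Weierstrass curve `W` over a field `K` we define by the x-only SUM formula (cleared of
denominators, no exact division) polynomials `N_j, D_j` with
* `mul_formula`: `x(jP) · D_j(x_P) = N_j(x_P)` whenever `jP ≠ 0`, and `D_j(x_P) = 0` when `jP = 0`;
* `top_nd`: `deg N_j ≤ dg j + 1`, `deg D_j ≤ dg j`, with top coefficients `lc j`, `j² · lc j`,
  where `lc j` is a product of integers `< j` (`not_dvd_lc`).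
Hence `G = N_m D_{m+1} - N_{m+1} D_m` has top coefficient `(2m+1) · lc m · lc (m+1)` and vanishes at
`x(T)` for every nonzero `(2m+1)`-torsion point `T` (`eval_Gp_eq_zero`).  Consequences, for a
valuation subring `A` of `K` containing the `b`-invariants:
* `prod_image_inv_xc_dvd`, `valuation_le_prod_image` **(Σ)**: the product of the distinct values
  `x(T)⁻¹ ∈ A` over nonzero `p`-torsion points divides `p · unit`;
* `false_of_rational_prod`: if ALL nonzero `p`-torsion points of a finite set `V₀` have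
  non-integral `x`, no nonempty proper `±`-stable subset `X₀` has a rational product of its
  distinct `x(T)⁻¹` — this excludes a `G_ℚ`-stable line in the supersingular case
  (`exists_rat_eq_prod_of_stable`), replacing the formal group.
-/
import Mathlib
import Fermat.Agent.S13.XOnlyGen
import Fermat.Agent.S51.GalFixed

set_option autoImplicit false
set_option linter.unusedSectionVars false

namespace Fermat.Agent.S13.UDivPoly

open Polynomial WeierstrassCurve WeierstrassCurve.Affine Fermat.Agent.S13.XOnlyGen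

section Top

variable {R : Type*} [CommRing R]

/-- `P` has degree at most `d` and its coefficient of `X ^ d` is `a`. -/
def Top (P : R[X]) (d : ℕ) (a : R) : Prop := P.natDegree ≤ d ∧ P.coeff d = a

theorem Top.mul {P Q : R[X]} {d e : ℕ} {a b : R} (hP : Top P d a) (hQ : Top Q e b) :
    Top (P * Q) (d + e) (a * b) :=
  ⟨natDegree_mul_le_of_le hP.1 hQ.1, by
    rw [coeff_mul_add_eq_of_natDegree_le hP.1 hQ.1, hP.2, hQ.2]⟩

theorem Top.add {P Q : R[X]} {d : ℕ} {a b : R} (hP : Top P d a) (hQ : Top Q d b) :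
    Top (P + Q) d (a + b) :=
  ⟨natDegree_add_le_of_degree_le hP.1 hQ.1, by rw [coeff_add, hP.2, hQ.2]⟩

theorem Top.sub {P Q : R[X]} {d : ℕ} {a b : R} (hP : Top P d a) (hQ : Top Q d b) :
    Top (P - Q) d (a - b) :=
  ⟨(natDegree_sub_le_of_le hP.1 hQ.1).trans (by simp), by rw [coeff_sub, hP.2, hQ.2]⟩

theorem Top.sq {P : R[X]} {d : ℕ} {a : R} (hP : Top P d a) : Top (P ^ 2) (d + d) (a * a) := by
  rw [pow_two]; exact hP.mul hP

theorem Top.lift {P : R[X]} {d e : ℕ} {a : R} (hP : Top P d a) (h : d < e) : Top P e 0 :=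
  ⟨hP.1.trans h.le, coeff_eq_zero_of_natDegree_lt (lt_of_le_of_lt hP.1 h)⟩

theorem Top.X : Top (Polynomial.X : R[X]) 1 1 := ⟨natDegree_X_le, coeff_X_one⟩

theorem Top.C (a : R) : Top (Polynomial.C a) 0 a := ⟨(natDegree_C a).le, coeff_C_zero⟩

theorem Top.congr {P : R[X]} {d e : ℕ} {a b : R} (hP : Top P d a) (hd : d = e) (ha : a = b) :
    Top P e b := by subst hd; subst ha; exact hP

end Top

section Rec

variable {R : Type*} [CommRing R] (b₂ b₄ b₆ b₈ : R)

/-- The numerator of the x-only sum formula, homogenised: `S(N, D)`. -/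
noncomputable def sumNum (N D : R[X]) : R[X] :=
  C 2 * X * N * (N + X * D) + C b₂ * X * N * D + C b₄ * (N + X * D) * D + C b₆ * D ^ 2

/-- Unnormalised division polynomials `(N_j, D_j)`: `x(jP) = N_j(x) / D_j(x)`. -/
noncomputable def nd : ℕ → R[X] × R[X]
  | 0 => (1, 0)
  | 1 => (X, 1)
  | 2 => (X ^ 4 - C b₄ * X ^ 2 - C (2 * b₆) * X - C b₈,
      C 4 * X ^ 3 + C b₂ * X ^ 2 + C (2 * b₄) * X + C b₆)
  | (j + 3) =>
      (sumNum b₂ b₄ b₆ (nd (j + 2)).1 (nd (j + 2)).2 * (nd (j + 1)).2 -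
          (nd (j + 1)).1 * ((nd (j + 2)).1 - X * (nd (j + 2)).2) ^ 2,
        ((nd (j + 2)).1 - X * (nd (j + 2)).2) ^ 2 * (nd (j + 1)).2)

/-- `N_j`. -/
noncomputable def Nn (j : ℕ) : R[X] := (nd b₂ b₄ b₆ b₈ j).1

/-- `D_j`. -/
noncomputable def Dn (j : ℕ) : R[X] := (nd b₂ b₄ b₆ b₈ j).2

theorem Nn_one : Nn b₂ b₄ b₆ b₈ 1 = X := rfl
theorem Dn_one : Dn b₂ b₄ b₆ b₈ 1 = 1 := rfl
theorem Nn_two : Nn b₂ b₄ b₆ b₈ 2 = X ^ 4 - C b₄ * X ^ 2 - C (2 * b₆) * X - C b₈ := rfl
theorem Dn_two : Dn b₂ b₄ b₆ b₈ 2 = C 4 * X ^ 3 + C b₂ * X ^ 2 + C (2 * b₄) * X + C b₆ := rfl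

theorem Nn_succ (j : ℕ) : Nn b₂ b₄ b₆ b₈ (j + 3) =
    sumNum b₂ b₄ b₆ (Nn b₂ b₄ b₆ b₈ (j + 2)) (Dn b₂ b₄ b₆ b₈ (j + 2)) * Dn b₂ b₄ b₆ b₈ (j + 1) -
      Nn b₂ b₄ b₆ b₈ (j + 1) *
        (Nn b₂ b₄ b₆ b₈ (j + 2) - X * Dn b₂ b₄ b₆ b₈ (j + 2)) ^ 2 := rfl

theorem Dn_succ (j : ℕ) : Dn b₂ b₄ b₆ b₈ (j + 3) =
    (Nn b₂ b₄ b₆ b₈ (j + 2) - X * Dn b₂ b₄ b₆ b₈ (j + 2)) ^ 2 * Dn b₂ b₄ b₆ b₈ (j + 1) := rfl

end Rec

theorem two_step {P : ℕ → Prop} (h1 : P 1) (h2 : P 2)
    (hs : ∀ j, P (j + 1) → P (j + 2) → P (j + 3)) : ∀ j, 1 ≤ j → P j := by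
  have key : ∀ j, P (j + 1) ∧ P (j + 2) := by
    intro j
    induction j with
    | zero => exact ⟨h1, h2⟩
    | succ j ih => exact ⟨ih.2, hs j ih.1 ih.2⟩
  intro j hj
  obtain ⟨k, rfl⟩ := Nat.exists_eq_add_of_le' hj
  exact (key k).1

section Lead

/-- Degree bound of `D_j`. -/
def dg : ℕ → ℕ
  | 0 => 0
  | 1 => 0
  | 2 => 3
  | (j + 3) => 2 * (dg (j + 2) + 1) + dg (j + 1)

/-- Leading coefficient of `N_j` (a product of integers `< j`). -/
def lc : ℕ → ℕ
  | 0 => 1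
  | 1 => 1
  | 2 => 1
  | (j + 3) => (j + 1) ^ 4 * lc (j + 2) ^ 2 * lc (j + 1)

theorem dg_succ (j : ℕ) : dg (j + 3) = 2 * (dg (j + 2) + 1) + dg (j + 1) := rfl
theorem lc_succ (j : ℕ) : lc (j + 3) = (j + 1) ^ 4 * lc (j + 2) ^ 2 * lc (j + 1) := rfl

variable {R : Type*} [CommRing R] (b₂ b₄ b₆ b₈ : R)

theorem top_sumNum {N D : R[X]} {e : ℕ} {α δ : R} (hN : Top N (e + 1) α) (hD : Top D e δ) :
    Top (sumNum b₂ b₄ b₆ N D) (2 * e + 3) (2 * α * (α + δ)) := by
  have hXD : Top (X * D) (e + 1) δ := (Top.X.mul hD).congr (by ring) (by ring)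
  have hsum : Top (N + X * D) (e + 1) (α + δ) := hN.add hXD
  have t1 : Top (C 2 * X * N * (N + X * D)) (2 * e + 3) (2 * α * (α + δ)) :=
    ((((Top.C (2 : R)).mul Top.X).mul hN).mul hsum).congr (by ring) (by ring)
  have t2 : Top (C b₂ * X * N * D) (2 * e + 3) 0 :=
    ((((Top.C b₂).mul Top.X).mul hN).mul hD).lift (by omega)
  have t3 : Top (C b₄ * (N + X * D) * D) (2 * e + 3) 0 :=
    (((Top.C b₄).mul hsum).mul hD).lift (by omega)
  have t4 : Top (C b₆ * D ^ 2) (2 * e + 3) 0 :=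
    ((Top.C b₆).mul hD.sq).lift (by omega)
  have := ((t1.add t2).add t3).add t4
  unfold sumNum
  exact this.congr rfl (by ring)

theorem top_nd : ∀ j, 1 ≤ j →
    Top (Nn b₂ b₄ b₆ b₈ j) (dg j + 1) (lc j : R) ∧
      Top (Dn b₂ b₄ b₆ b₈ j) (dg j) ((j ^ 2 * lc j : ℕ) : R) := by
  apply two_step
  · refine ⟨?_, ?_⟩
    · rw [Nn_one]
      exact Top.X.congr rfl (by simp [lc])
    · rw [Dn_one]
      have := Top.C (1 : R)
      rw [map_one] at this
      exact this.congr rfl (by simp [lc])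
  · refine ⟨?_, ?_⟩
    · rw [Nn_two]
      have h4 : Top (X ^ 4 : R[X]) 4 1 := by
        have : (X : R[X]) ^ 4 = X ^ 2 * X ^ 2 := by ring
        rw [this]
        exact (Top.X.sq.mul Top.X.sq).congr rfl (by ring)
      have t2 : Top (C b₄ * X ^ 2 : R[X]) 4 0 := ((Top.C b₄).mul Top.X.sq).lift (by omega)
      have t3 : Top (C (2 * b₆) * X : R[X]) 4 0 := ((Top.C (2 * b₆)).mul Top.X).lift (by omega)
      have t4 : Top (C b₈ : R[X]) 4 0 := (Top.C b₈).lift (by omega)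
      exact (((h4.sub t2).sub t3).sub t4).congr rfl (by simp [lc])
    · rw [Dn_two]
      have h3 : Top (X ^ 3 : R[X]) 3 1 := by
        have : (X : R[X]) ^ 3 = X ^ 2 * X := by ring
        rw [this]
        exact (Top.X.sq.mul Top.X).congr rfl (by ring)
      have t1 : Top (C 4 * X ^ 3 : R[X]) 3 4 := ((Top.C (4 : R)).mul h3).congr (by ring) (by ring)
      have t2 : Top (C b₂ * X ^ 2 : R[X]) 3 0 := ((Top.C b₂).mul Top.X.sq).lift (by omega)
      have t3 : Top (C (2 * b₄) * X : R[X]) 3 0 := ((Top.C (2 * b₄)).mul Top.X).lift (by omega)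
      have t4 : Top (C b₆ : R[X]) 3 0 := (Top.C b₆).lift (by omega)
      exact (((t1.add t2).add t3).add t4).congr rfl (by simp [lc])
  · intro j ⟨hN', hD'⟩ ⟨hN, hD⟩
    -- `n = j + 2`, `n - 1 = j + 1`
    have hXD : Top (X * Dn b₂ b₄ b₆ b₈ (j + 2)) (dg (j + 2) + 1)
        (((j + 2) ^ 2 * lc (j + 2) : ℕ) : R) := (Top.X.mul hD).congr (by ring) (by ring)
    have hdiff := (hN.sub hXD).sq
    have hS := top_sumNum b₂ b₄ b₆ hN hD
    refine ⟨?_, ?_⟩
    · rw [Nn_succ, dg_succ, lc_succ]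
      have t1 := hS.mul hD'
      have t2 := hN'.mul hdiff
      refine ((t1.congr ?_ rfl).sub (t2.congr ?_ rfl)).congr rfl ?_
      · ring
      · ring
      · push_cast
        ring
    · rw [Dn_succ, dg_succ, lc_succ]
      refine (hdiff.mul hD').congr (by ring) ?_
      push_cast
      ring

end Lead

section Points

variable {K : Type*} [Field K] [DecidableEq K] (W : WeierstrassCurve K)

omit [DecidableEq K] in
theorem eval_sumNum (b₂ b₄ b₆ : K) (N D : K[X]) (x : K) :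
    (sumNum b₂ b₄ b₆ N D).eval x =
      2 * x * N.eval x * (N.eval x + x * D.eval x) + b₂ * x * N.eval x * D.eval x +
        b₄ * (N.eval x + x * D.eval x) * D.eval x + b₆ * D.eval x ^ 2 := by
  simp [sumNum]

/-- `N_j` of the curve `W`. -/
noncomputable abbrev NW (j : ℕ) : K[X] := Nn W.b₂ W.b₄ W.b₆ W.b₈ j

/-- `D_j` of the curve `W`. -/
noncomputable abbrev DW (j : ℕ) : K[X] := Dn W.b₂ W.b₄ W.b₆ W.b₈ j

/-- **Weak multiplication formula.**  `x(jP) · D_j(x_P) = N_j(x_P)` whenever `jP ≠ 0`, and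
`D_j(x_P) = 0` whenever `jP = 0`. -/
theorem mul_formula : ∀ j, 1 ≤ j → ∀ P : W.toAffine.Point, P ≠ 0 →
    (j • P ≠ 0 → xc (j • P) * (DW W j).eval (xc P) = (NW W j).eval (xc P)) ∧
      (j • P = 0 → (DW W j).eval (xc P) = 0) := by
  apply two_step
  · intro P hP
    refine ⟨fun _ => ?_, fun h => ?_⟩
    · rw [one_nsmul]
      simp [NW, DW, Nn_one, Dn_one]
    · rw [one_nsmul] at h
      exact absurd h hP
  · intro P hP
    rw [two_nsmul]
    refine ⟨fun h => ?_, fun h => ?_⟩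
    · have hy : 2 * yc P + W.a₁ * xc P + W.a₃ ≠ 0 := fun hy =>
        h ((add_self_eq_zero_iff hP).mpr hy)
      obtain ⟨-, hf⟩ := xc_add_self hP hy
      simp only [NW, DW, Nn_two, Dn_two, eval_add, eval_sub, eval_mul, eval_pow, eval_C, eval_X]
      linear_combination hf
    · have hy := (add_self_eq_zero_iff hP).mp h
      have hE := equation_xc_yc hP
      simp only [DW, Dn_two, eval_add, eval_mul, eval_pow, eval_C, eval_X]
      simp only [WeierstrassCurve.b₂, WeierstrassCurve.b₄, WeierstrassCurve.b₆]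
      linear_combination (2 * yc P + W.a₁ * xc P + W.a₃) * hy - 4 * hE
  · intro j ih1 ih2 P hP
    obtain ⟨ih1a, ih1b⟩ := ih1 P hP
    obtain ⟨ih2a, ih2b⟩ := ih2 P hP
    set Q := (j + 2) • P with hQ
    have hQp : (j + 3) • P = Q + P := by rw [hQ, ← succ_nsmul]
    have hQm : (j + 1) • P = Q - P := by
      rw [hQ, show j + 2 = (j + 1) + 1 by ring, succ_nsmul P (j + 1), add_sub_cancel_right]
    rw [hQp]
    rw [hQm] at ih1a ih1b
    simp only [NW, DW] at ih1a ih1b ih2a ih2b ⊢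
    rw [Nn_succ, Dn_succ]
    simp only [eval_sub, eval_mul, eval_pow, eval_X, eval_sumNum]
    set x := xc P with hx
    set Nn' := (Nn W.b₂ W.b₄ W.b₆ W.b₈ (j + 2)).eval x with hNn
    set Dn' := (Dn W.b₂ W.b₄ W.b₆ W.b₈ (j + 2)).eval x with hDn
    set N1 := (Nn W.b₂ W.b₄ W.b₆ W.b₈ (j + 1)).eval x with hN1
    set D1 := (Dn W.b₂ W.b₄ W.b₆ W.b₈ (j + 1)).eval x with hD1
    refine ⟨fun hne => ?_, fun h0 => ?_⟩
    · by_cases hQ0 : Q = 0
      · -- case (b): `nP = 0`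
        have hD0 : Dn' = 0 := ih2b hQ0
        have hm : Q - P = -P := by rw [hQ0, zero_sub]
        have hmne : Q - P ≠ 0 := by rw [hm]; exact neg_ne_zero.mpr hP
        have h1 := ih1a hmne
        rw [hm, xc_neg] at h1
        rw [hQ0, zero_add, hD0]
        linear_combination (-(Nn' ^ 2)) * h1
      · by_cases hQm0 : Q - P = 0
        · -- case (c): `(n-1)P = 0`
          have hD0 : D1 = 0 := ih1b hQm0
          have hQP : Q = P := sub_eq_zero.mp hQm0
          have h2 := ih2a hQ0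
          rw [hQP] at h2
          have h3 : Nn' - x * Dn' = 0 := by linear_combination -h2
          rw [hD0, h3]
          ring
        · -- case (a)
          have hxne : xc Q ≠ xc P := by
            intro hx'
            rcases eq_or_eq_neg_of_xc_eq hQ0 hP hx' with h | h
            · exact hQm0 (sub_eq_zero.mpr h)
            · exact hne (by rw [h, neg_add_cancel])
          obtain ⟨-, -, hsum, -⟩ := xc_add_sub hQ0 hP hxne
          have h2 := ih2a hQ0
          have h1 := ih1a hQm0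
          rw [← h2, ← h1]
          linear_combination (Dn' ^ 2 * D1) * hsum
    · -- `(n+1)P = 0`
      have hQP : Q = -P := eq_neg_of_add_eq_zero_left h0
      have hQ0 : Q ≠ 0 := by rw [hQP]; exact neg_ne_zero.mpr hP
      have h2 := ih2a hQ0
      rw [hQP, xc_neg] at h2
      have h3 : Nn' - x * Dn' = 0 := by linear_combination -h2
      rw [h3]
      ring

end Points

section Map

variable {R S : Type*} [CommRing R] [CommRing S] (f : R →+* S) (b₂ b₄ b₆ b₈ : R)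

theorem sumNum_map (N D : R[X]) :
    (sumNum b₂ b₄ b₆ N D).map f = sumNum (f b₂) (f b₄) (f b₆) (N.map f) (D.map f) := by
  simp [sumNum, map_ofNat]

theorem nd_map : ∀ j, (Nn b₂ b₄ b₆ b₈ j).map f = Nn (f b₂) (f b₄) (f b₆) (f b₈) j ∧
    (Dn b₂ b₄ b₆ b₈ j).map f = Dn (f b₂) (f b₄) (f b₆) (f b₈) j := by
  have key : ∀ j, ((Nn b₂ b₄ b₆ b₈ j).map f = Nn (f b₂) (f b₄) (f b₆) (f b₈) j ∧
      (Dn b₂ b₄ b₆ b₈ j).map f = Dn (f b₂) (f b₄) (f b₆) (f b₈) j) ∧
      ((Nn b₂ b₄ b₆ b₈ (j + 1)).map f = Nn (f b₂) (f b₄) (f b₆) (f b₈) (j + 1) ∧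
      (Dn b₂ b₄ b₆ b₈ (j + 1)).map f = Dn (f b₂) (f b₄) (f b₆) (f b₈) (j + 1)) ∧
      ((Nn b₂ b₄ b₆ b₈ (j + 2)).map f = Nn (f b₂) (f b₄) (f b₆) (f b₈) (j + 2) ∧
      (Dn b₂ b₄ b₆ b₈ (j + 2)).map f = Dn (f b₂) (f b₄) (f b₆) (f b₈) (j + 2)) := by
    intro j
    induction j with
    | zero =>
      refine ⟨⟨?_, ?_⟩, ⟨?_, ?_⟩, ⟨?_, ?_⟩⟩
      · simp [Nn, nd]
      · simp [Dn, nd]
      · simp [Nn_one]
      · simp [Dn_one]
      · simp [Nn_two, map_ofNat]
      · simp [Dn_two, map_ofNat]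
    | succ j ih =>
      obtain ⟨-, ⟨h1N, h1D⟩, ⟨h2N, h2D⟩⟩ := ih
      refine ⟨⟨h1N, h1D⟩, ⟨h2N, h2D⟩, ⟨?_, ?_⟩⟩
      · rw [Nn_succ, Nn_succ]
        simp only [Polynomial.map_sub, Polynomial.map_mul, Polynomial.map_pow, Polynomial.map_X,
          sumNum_map, h1N, h1D, h2N, h2D]
      · rw [Dn_succ, Dn_succ]
        simp only [Polynomial.map_sub, Polynomial.map_mul, Polynomial.map_pow, Polynomial.map_X,
          h1D, h2N, h2D]
  exact fun j => (key j).1

end Map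

section G

variable {R : Type*} [CommRing R] (b₂ b₄ b₆ b₈ : R)

/-- The polynomial `G = N_m D_{m+1} - N_{m+1} D_m`, vanishing at the `x`-coordinates of the
`(2m+1)`-torsion points; its top coefficient is `(2m+1)` times a product of small integers. -/
noncomputable def Gp (m : ℕ) : R[X] :=
  Nn b₂ b₄ b₆ b₈ m * Dn b₂ b₄ b₆ b₈ (m + 1) - Nn b₂ b₄ b₆ b₈ (m + 1) * Dn b₂ b₄ b₆ b₈ m

theorem top_Gp (m : ℕ) (hm : 1 ≤ m) :
    Top (Gp b₂ b₄ b₆ b₈ m) (dg m + 1 + dg (m + 1))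
      (((2 * m + 1) * (lc m * lc (m + 1)) : ℕ) : R) := by
  obtain ⟨hN, hD⟩ := top_nd b₂ b₄ b₆ b₈ m hm
  obtain ⟨hN', hD'⟩ := top_nd b₂ b₄ b₆ b₈ (m + 1) (by omega)
  have t1 := hN.mul hD'
  have t2 := hN'.mul hD
  refine (t1.sub (t2.congr (by ring) rfl)).congr rfl ?_
  push_cast
  ring

theorem Gp_map {S : Type*} [CommRing S] (f : R →+* S) (m : ℕ) :
    (Gp b₂ b₄ b₆ b₈ m).map f = Gp (f b₂) (f b₄) (f b₆) (f b₈) m := by
  simp only [Gp, Polynomial.map_sub, Polynomial.map_mul, (nd_map f b₂ b₄ b₆ b₈ _).1,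
    (nd_map f b₂ b₄ b₆ b₈ _).2]

end G

section Vanish

variable {K : Type*} [Field K] [DecidableEq K] (W : WeierstrassCurve K)

/-- `G` vanishes at the `x`-coordinate of every nonzero `(2m+1)`-torsion point. -/
theorem eval_Gp_eq_zero (m : ℕ) (hm : 1 ≤ m) {T : W.toAffine.Point} (hT : T ≠ 0)
    (hpT : (2 * m + 1) • T = 0) :
    (Gp W.b₂ W.b₄ W.b₆ W.b₈ m).eval (xc T) = 0 := by
  have hsum : m • T + (m + 1) • T = 0 := by
    rw [← add_nsmul, show m + (m + 1) = 2 * m + 1 by ring]; exact hpT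
  have hm0 : m • T ≠ 0 := by
    intro h
    rw [h, zero_add, succ_nsmul, h, zero_add] at hsum
    exact hT hsum
  have hm1 : (m + 1) • T ≠ 0 := by
    intro h
    rw [h, add_zero] at hsum
    exact hm0 hsum
  have hneg : (m + 1) • T = -(m • T) := (neg_eq_of_add_eq_zero_right hsum).symm
  obtain ⟨h1, -⟩ := mul_formula W m hm T hT
  obtain ⟨h2, -⟩ := mul_formula W (m + 1) (by omega) T hT
  have e1 := h1 hm0
  have e2 := h2 hm1
  rw [hneg, xc_neg] at e2
  simp only [Gp, eval_sub, eval_mul]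
  simp only [NW, DW] at e1 e2
  rw [← e1, ← e2]
  ring

end Vanish

section Sigma

variable {K : Type*} [Field K] [DecidableEq K] (A : ValuationSubring K) (W : WeierstrassCurve K)

/-- **(Σ), divisibility form.**  Let `n = 2m+1`, let the `b`-invariants of `W` lie in the
valuation ring `A`, and let `V₀` be a finite set of nonzero `n`-torsion points all of whose
`x`-coordinates are nonzero with inverse in `A`.  Then the product of the DISTINCT values
`x(T)⁻¹`, `T ∈ V₀`, divides `n · lc m · lc (m+1)` in `A`. -/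
theorem prod_image_inv_xc_dvd (hb₂ : W.b₂ ∈ A) (hb₄ : W.b₄ ∈ A) (hb₆ : W.b₆ ∈ A)
    (hb₈ : W.b₈ ∈ A) (m : ℕ) (hm : 1 ≤ m) (V₀ : Finset W.toAffine.Point)
    (hV : ∀ T ∈ V₀, T ≠ 0 ∧ (2 * m + 1) • T = 0 ∧ xc T ≠ 0 ∧ (xc T)⁻¹ ∈ A) :
    ∃ c ∈ A, (((2 * m + 1) * (lc m * lc (m + 1)) : ℕ) : K) =
      c * ∏ a ∈ V₀.image (fun T => (xc T)⁻¹), a := by
  classical
  set u : ℕ := (2 * m + 1) * (lc m * lc (m + 1)) with hu
  by_cases hu0 : (u : K) = 0
  · exact ⟨0, A.zero_mem, by rw [hu0, zero_mul]⟩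
  -- lift the `b`-invariants to `A`
  set i : A →+* K := A.subtype with hi
  have hinjA : Function.Injective i := Subtype.val_injective
  let b₂' : A := ⟨W.b₂, hb₂⟩
  let b₄' : A := ⟨W.b₄, hb₄⟩
  let b₆' : A := ⟨W.b₆, hb₆⟩
  let b₈' : A := ⟨W.b₈, hb₈⟩
  set GA : Polynomial A := Gp b₂' b₄' b₆' b₈' m with hGA
  have hGmap : GA.map i = Gp W.b₂ W.b₄ W.b₆ W.b₈ m := Gp_map b₂' b₄' b₆' b₈' i m
  set d : ℕ := dg m + 1 + dg (m + 1) with hd
  obtain ⟨hdeg, hcoeff⟩ := top_Gp b₂' b₄' b₆' b₈' m hm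
  set gA : Polynomial A := reflect d GA with hgA
  have hg0 : gA.coeff 0 = ((u : ℕ) : A) := by
    rw [hgA, coeff_reflect, revAt_zero]
    exact hcoeff
  have hgne : gA ≠ 0 := by
    intro h
    rw [h, coeff_zero] at hg0
    apply hu0
    have := congrArg i hg0
    rw [map_zero, map_natCast] at this
    exact this.symm
  -- the roots
  let ξ : W.toAffine.Point → A := fun T => if h : (xc T)⁻¹ ∈ A then ⟨(xc T)⁻¹, h⟩ else 0
  have hξ : ∀ T ∈ V₀, i (ξ T) = (xc T)⁻¹ := by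
    intro T hT
    simp only [ξ, dif_pos (hV T hT).2.2.2]
    rfl
  have hroot : ∀ T ∈ V₀, gA.IsRoot (ξ T) := by
    intro T hT
    obtain ⟨hT0, hpT, hx0, -⟩ := hV T hT
    have hev : (Gp W.b₂ W.b₄ W.b₆ W.b₈ m).eval (xc T) = 0 := eval_Gp_eq_zero W m hm hT0 hpT
    rw [← hGmap, eval_map] at hev
    let _ : Invertible (xc T) := invertibleOfNonzero hx0
    have h1 := eval₂_reflect_mul_pow i (xc T) d GA hdeg
    rw [hev, invOf_eq_inv, ← hξ T hT] at h1
    have h2 : eval₂ i (i (ξ T)) gA = 0 := by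
      rcases mul_eq_zero.mp h1 with h | h
      · exact h
      · exact absurd h (pow_ne_zero _ hx0)
    rw [eval₂_at_apply] at h2
    exact hinjA (by rw [h2, map_zero])
  -- the finite set of distinct roots
  set Ξ : Finset A := V₀.image ξ with hΞ
  have hle : Ξ.val ≤ gA.roots := by
    rw [Multiset.le_iff_subset Ξ.nodup]
    intro a ha
    obtain ⟨T, hT, rfl⟩ := Finset.mem_image.mp (Finset.mem_val.mp ha)
    exact (mem_roots hgne).mpr (hroot T hT)
  have hdvd := (Multiset.prod_X_sub_C_dvd_iff_le_roots hgne Ξ.val).mpr hle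
  obtain ⟨q, hq⟩ := hdvd
  have hq0 := congrArg (fun P : Polynomial A => P.eval 0) hq
  simp only [eval_mul] at hq0
  rw [← coeff_zero_eq_eval_zero, hg0] at hq0
  have hprod : ((Ξ.val.map fun a => (X : Polynomial A) - C a).prod).eval 0 = ∏ a ∈ Ξ, (-a) := by
    rw [← coe_evalRingHom, map_multiset_prod, Multiset.map_map, Finset.prod_eq_multiset_prod]
    congr 1
    refine Multiset.map_congr rfl fun a _ => ?_
    simp
  rw [hprod] at hq0
  have himage : V₀.image (fun T => (xc T)⁻¹) = Ξ.image i := by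
    rw [hΞ, Finset.image_image]
    exact Finset.image_congr fun T hT => (hξ T hT).symm
  refine ⟨(-1) ^ Ξ.card * i (q.eval 0), ?_, ?_⟩
  · exact A.mul_mem _ _ (pow_mem (neg_mem A.one_mem) _) (q.eval 0).2
  · have h3 := congrArg i hq0
    rw [map_natCast, map_mul, map_prod] at h3
    rw [h3, himage, Finset.prod_image (fun a _ b _ h => hinjA h)]
    have h4 : ∏ a ∈ Ξ, i (-a) = (-1) ^ Ξ.card * ∏ a ∈ Ξ, i a := by
      rw [← Finset.prod_const, ← Finset.prod_mul_distrib]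
      refine Finset.prod_congr rfl fun a _ => ?_
      rw [map_neg]; ring
    rw [h4]
    ring

/-- **(Σ), divisibility form, with a set of representatives.** -/
theorem prod_inv_xc_dvd (hb₂ : W.b₂ ∈ A) (hb₄ : W.b₄ ∈ A) (hb₆ : W.b₆ ∈ A) (hb₈ : W.b₈ ∈ A)
    (m : ℕ) (hm : 1 ≤ m) (S : Finset W.toAffine.Point)
    (hS : ∀ T ∈ S, T ≠ 0 ∧ (2 * m + 1) • T = 0 ∧ xc T ≠ 0 ∧ (xc T)⁻¹ ∈ A)
    (hinj : ∀ T ∈ S, ∀ T' ∈ S, xc T = xc T' → T = T') :
    ∃ c ∈ A, (((2 * m + 1) * (lc m * lc (m + 1)) : ℕ) : K) = c * ∏ T ∈ S, (xc T)⁻¹ := by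
  obtain ⟨c, hc, h⟩ := prod_image_inv_xc_dvd A W hb₂ hb₄ hb₆ hb₈ m hm S hS
  refine ⟨c, hc, ?_⟩
  rw [h, Finset.prod_image]
  intro T hT T' hT' hTT'
  exact hinj T hT T' hT' (inv_injective hTT')

end Sigma

section Arith

/-- The leading coefficients `lc j` only involve prime factors `≤ j - 2`. -/
theorem not_dvd_lc {p : ℕ} (hp : p.Prime) : ∀ j, j ≤ p + 1 → ¬ p ∣ lc j := by
  intro j
  induction j using Nat.strong_induction_on with
  | _ j ih =>
    intro hj
    match j, ih, hj with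
    | 0, _, _ => simpa [lc] using hp.one_lt.ne'
    | 1, _, _ => simpa [lc] using hp.one_lt.ne'
    | 2, _, _ => simpa [lc] using hp.one_lt.ne'
    | (k + 3), ih, hj =>
      rw [lc_succ]
      intro h
      rcases (Nat.Prime.dvd_mul hp).mp h with h | h
      · rcases (Nat.Prime.dvd_mul hp).mp h with h | h
        · have := Nat.le_of_dvd (by omega) (hp.dvd_of_dvd_pow h)
          omega
        · exact ih (k + 2) (by omega) (by omega) (hp.dvd_of_dvd_pow h)
      · exact ih (k + 1) (by omega) (by omega) h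

variable {K : Type*} [Field K] (A : ValuationSubring K)

/-- A natural number prime to the residue characteristic is a unit of `A`. -/
theorem valuation_natCast_eq_one {p : ℕ} (hp : p.Prime) (hpA : (p : K) ∈ A.nonunits) {n : ℕ}
    (hn : ¬ p ∣ n) : A.valuation (n : K) = 1 := by
  have hle : A.valuation (n : K) ≤ 1 := (A.valuation_le_one_iff _).mpr (natCast_mem A n)
  refine le_antisymm hle (not_lt.mp fun hlt => ?_)
  have hcop : IsCoprime (n : ℤ) (p : ℤ) := by
    rw [Int.isCoprime_iff_gcd_eq_one, Int.gcd_natCast_natCast]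
    exact (Nat.Coprime.symm ((Nat.Prime.coprime_iff_not_dvd hp).mpr hn))
  obtain ⟨a, b, hab⟩ := hcop
  have hK : (a : K) * (n : K) + (b : K) * (p : K) = 1 := by exact_mod_cast congrArg (Int.cast : ℤ → K) hab
  have ha : A.valuation (a : K) ≤ 1 := (A.valuation_le_one_iff _).mpr (intCast_mem A a)
  have hb : A.valuation (b : K) ≤ 1 := (A.valuation_le_one_iff _).mpr (intCast_mem A b)
  have hpv : A.valuation (p : K) < 1 := (ValuationSubring.mem_nonunits_iff _).mp hpA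
  have h1 : A.valuation ((a : K) * (n : K)) < 1 := by
    rw [map_mul]; exact mul_lt_one_of_nonneg_of_lt_one_right ha zero_le hlt
  have h2 : A.valuation ((b : K) * (p : K)) < 1 := by
    rw [map_mul]; exact mul_lt_one_of_nonneg_of_lt_one_right hb zero_le hpv
  have h3 : A.valuation ((a : K) * (n : K) + (b : K) * (p : K)) < 1 :=
    lt_of_le_of_lt (Valuation.map_add _ _ _) (max_lt h1 h2)
  rw [hK, map_one] at h3
  exact lt_irrefl _ h3

end Arith

section SigmaVal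

variable {K : Type*} [Field K] [DecidableEq K] (A : ValuationSubring K) (W : WeierstrassCurve K)

/-- **(Σ), valuation form.**  `p = 2m+1` a prime in the maximal ideal of `A`, `W` with
`b`-invariants in `A`, `V₀` a finite set of nonzero `p`-torsion points whose `x`-coordinates do
not lie in `A`.  Then `v(p) ≤ ∏ v(x(T)⁻¹)`, the product over the DISTINCT values `x(T)⁻¹`. -/
theorem valuation_le_prod_image (hb₂ : W.b₂ ∈ A) (hb₄ : W.b₄ ∈ A) (hb₆ : W.b₆ ∈ A)
    (hb₈ : W.b₈ ∈ A) {p : ℕ} (hp : p.Prime) (m : ℕ) (hm : 1 ≤ m) (hpm : p = 2 * m + 1)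
    (hpA : (p : K) ∈ A.nonunits) (V₀ : Finset W.toAffine.Point)
    (hV : ∀ T ∈ V₀, T ≠ 0 ∧ p • T = 0 ∧ 1 < A.valuation (xc T)) :
    A.valuation (p : K) ≤ ∏ a ∈ V₀.image (fun T => (xc T)⁻¹), A.valuation a := by
  have hV' : ∀ T ∈ V₀, T ≠ 0 ∧ (2 * m + 1) • T = 0 ∧ xc T ≠ 0 ∧ (xc T)⁻¹ ∈ A := by
    intro T hT
    obtain ⟨h0, hpT, hx⟩ := hV T hT
    have hx0 : xc T ≠ 0 := by
      intro h; rw [h, map_zero] at hx; exact not_lt.mpr zero_le hx
    refine ⟨h0, hpm ▸ hpT, hx0, ?_⟩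
    rw [← A.valuation_le_one_iff, map_inv₀]
    exact inv_le_one_of_one_le₀ hx.le
  obtain ⟨c, hc, h⟩ := prod_image_inv_xc_dvd A W hb₂ hb₄ hb₆ hb₈ m hm V₀ hV'
  have hu : A.valuation (((lc m * lc (m + 1) : ℕ)) : K) = 1 := by
    apply valuation_natCast_eq_one A hp hpA
    intro hdvd
    rcases (Nat.Prime.dvd_mul hp).mp hdvd with h1 | h1
    · exact not_dvd_lc hp m (by omega) h1
    · exact not_dvd_lc hp (m + 1) (by omega) h1
  have h' := congrArg A.valuation h
  rw [Nat.cast_mul, map_mul, hu, mul_one, map_mul, map_prod, ← hpm] at h'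
  rw [h']
  calc A.valuation c * ∏ a ∈ V₀.image (fun T => (xc T)⁻¹), A.valuation a
      ≤ 1 * ∏ a ∈ V₀.image (fun T => (xc T)⁻¹), A.valuation a :=
        mul_le_mul_left ((A.valuation_le_one_iff c).mpr hc) _
    _ = _ := one_mul _

end SigmaVal

section RatVal

variable {K : Type*} [Field K] [CharZero K] (A : ValuationSubring K)

theorem valuation_intCast_eq_natAbs (z : ℤ) :
    A.valuation ((z : ℤ) : K) = A.valuation ((z.natAbs : ℕ) : K) := by
  rcases Int.natAbs_eq z with h | h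
  · conv_lhs => rw [h]
    simp
  · conv_lhs => rw [h]
    simp

/-- A rational number in the maximal ideal of `A` (over `p`) has valuation at most `v(p)`. -/
theorem valuation_ratCast_le {p : ℕ} (hp : p.Prime) (hpA : (p : K) ∈ A.nonunits) (q : ℚ)
    (hq : A.valuation (q : K) < 1) : A.valuation (q : K) ≤ A.valuation (p : K) := by
  have hden0 : ((q.den : ℕ) : K) ≠ 0 := Nat.cast_ne_zero.mpr q.den_ne_zero
  have hqK : (q : K) = ((q.num : ℤ) : K) / ((q.den : ℕ) : K) := by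
    rw [Rat.cast_def]
  have hdenle : A.valuation ((q.den : ℕ) : K) ≤ 1 :=
    (A.valuation_le_one_iff _).mpr (natCast_mem A _)
  have hdenpos : 0 < A.valuation ((q.den : ℕ) : K) :=
    (Valuation.pos_iff _).mpr hden0
  rw [hqK, map_div₀, div_lt_one₀ hdenpos] at hq
  have hnumlt : A.valuation ((q.num.natAbs : ℕ) : K) < 1 := by
    rw [← valuation_intCast_eq_natAbs]; exact lt_of_lt_of_le hq hdenle
  have hpnum : p ∣ q.num.natAbs := by
    by_contra h
    rw [valuation_natCast_eq_one A hp hpA h] at hnumlt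
    exact lt_irrefl _ hnumlt
  have hpden : ¬ p ∣ q.den := by
    intro h
    have := Nat.eq_one_of_dvd_coprimes q.reduced hpnum h
    exact hp.one_lt.ne' this
  have hden1 : A.valuation ((q.den : ℕ) : K) = 1 := valuation_natCast_eq_one A hp hpA hpden
  obtain ⟨k, hk⟩ := hpnum
  rw [hqK, map_div₀, hden1, div_one, valuation_intCast_eq_natAbs, hk, Nat.cast_mul, map_mul]
  calc A.valuation (p : K) * A.valuation (k : K) ≤ A.valuation (p : K) * 1 :=
        mul_le_mul_right ((A.valuation_le_one_iff _).mpr (natCast_mem A k)) _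
    _ = _ := mul_one _

end RatVal

section Exclusion

variable {K : Type*} [Field K] [DecidableEq K] [CharZero K] (A : ValuationSubring K)
  (W : WeierstrassCurve K)

/-- **Exclusion of a rational proper subset.**  `p = 2m+1` a prime in the maximal ideal of `A`;
`V₀` a finite set of nonzero `p`-torsion points all of whose `x`-coordinates lie outside `A`;
`X₀ ⊆ V₀` nonempty, proper, closed under negation.  Then the product of the distinct values
`x(T)⁻¹`, `T ∈ X₀`, is NOT a rational number. -/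
theorem false_of_rational_prod (hb₂ : W.b₂ ∈ A) (hb₄ : W.b₄ ∈ A) (hb₆ : W.b₆ ∈ A)
    (hb₈ : W.b₈ ∈ A) {p : ℕ} (hp : p.Prime) (m : ℕ) (hm : 1 ≤ m) (hpm : p = 2 * m + 1)
    (hpA : (p : K) ∈ A.nonunits) (V₀ X₀ : Finset W.toAffine.Point)
    (hV : ∀ T ∈ V₀, T ≠ 0 ∧ p • T = 0 ∧ 1 < A.valuation (xc T))
    (hXV : X₀ ⊆ V₀) (hXne : X₀.Nonempty) (hneg : ∀ T ∈ X₀, -T ∈ X₀)
    (hproper : ∃ T ∈ V₀, T ∉ X₀)
    (hrat : ∃ q : ℚ, (q : K) = ∏ a ∈ X₀.image (fun T => (xc T)⁻¹), a) : False := by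
  classical
  set f : W.toAffine.Point → K := fun T => (xc T)⁻¹ with hf
  have hSig := valuation_le_prod_image A W hb₂ hb₄ hb₆ hb₈ hp m hm hpm hpA V₀ hV
  have hsub : X₀.image f ⊆ V₀.image f := Finset.image_subset_image hXV
  have hval : ∀ a ∈ V₀.image f, A.valuation a < 1 ∧ a ≠ 0 := by
    intro a ha
    obtain ⟨T, hT, rfl⟩ := Finset.mem_image.mp ha
    obtain ⟨-, -, hx⟩ := hV T hT
    have hx0 : xc T ≠ 0 := by
      intro h; rw [h, map_zero] at hx; exact not_lt.mpr zero_le hx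
    refine ⟨?_, inv_ne_zero hx0⟩
    rw [hf, map_inv₀]
    exact inv_lt_one_of_one_lt₀ hx
  have hle1 : ∀ a ∈ V₀.image f, A.valuation a ≤ 1 := fun a ha => (hval a ha).1.le
  -- an element outside `X₀`
  obtain ⟨T₀, hT₀V, hT₀X⟩ := hproper
  have ha₀V : f T₀ ∈ V₀.image f := Finset.mem_image_of_mem f hT₀V
  have ha₀X : f T₀ ∉ X₀.image f := by
    intro h
    obtain ⟨T', hT', hTT'⟩ := Finset.mem_image.mp h
    have hxeq : xc T' = xc T₀ := inv_injective hTT'
    rcases eq_or_eq_neg_of_xc_eq (hV T' (hXV hT')).1 (hV T₀ hT₀V).1 hxeq with h1 | h1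
    · exact hT₀X (h1 ▸ hT')
    · have : T₀ = -T' := by rw [h1, neg_neg]
      exact hT₀X (this ▸ hneg T' hT')
  have ha₀ : f T₀ ∈ V₀.image f \ X₀.image f := Finset.mem_sdiff.mpr ⟨ha₀V, ha₀X⟩
  -- split the product
  have hsplit : ∏ a ∈ V₀.image f, A.valuation a =
      (∏ a ∈ V₀.image f \ X₀.image f, A.valuation a) * ∏ a ∈ X₀.image f, A.valuation a :=
    (Finset.prod_sdiff hsub).symm
  have hrest : ∏ a ∈ V₀.image f \ X₀.image f, A.valuation a ≤ A.valuation (f T₀) := by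
    rw [← Finset.mul_prod_erase _ _ ha₀]
    calc A.valuation (f T₀) * ∏ a ∈ (V₀.image f \ X₀.image f).erase (f T₀), A.valuation a
        ≤ A.valuation (f T₀) * 1 := by
          refine mul_le_mul_right (Finset.prod_le_one' fun a ha => ?_) _
          exact hle1 a (Finset.mem_sdiff.mp (Finset.mem_of_mem_erase ha)).1
      _ = _ := mul_one _
  have hXpos : 0 < ∏ a ∈ X₀.image f, A.valuation a := by
    rw [pos_iff_ne_zero, Finset.prod_ne_zero_iff]
    intro a ha
    exact (Valuation.ne_zero_iff _).mpr (hval a (hsub ha)).2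
  have hlt : ∏ a ∈ V₀.image f, A.valuation a < ∏ a ∈ X₀.image f, A.valuation a := by
    rw [hsplit]
    calc (∏ a ∈ V₀.image f \ X₀.image f, A.valuation a) * ∏ a ∈ X₀.image f, A.valuation a
        ≤ A.valuation (f T₀) * ∏ a ∈ X₀.image f, A.valuation a := mul_le_mul_left hrest _
      _ < 1 * ∏ a ∈ X₀.image f, A.valuation a :=
          mul_lt_mul_of_pos_right (hval _ ha₀V).1 hXpos
      _ = _ := one_mul _
  -- the rational product
  obtain ⟨q, hq⟩ := hrat
  have hqval : A.valuation (q : K) = ∏ a ∈ X₀.image f, A.valuation a := by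
    rw [hq, map_prod]
  obtain ⟨T₁, hT₁⟩ := hXne
  have ha₁ : f T₁ ∈ X₀.image f := Finset.mem_image_of_mem f hT₁
  have hq1 : A.valuation (q : K) < 1 := by
    rw [hqval, ← Finset.mul_prod_erase _ _ ha₁]
    calc A.valuation (f T₁) * ∏ a ∈ (X₀.image f).erase (f T₁), A.valuation a
        ≤ A.valuation (f T₁) * 1 := by
          refine mul_le_mul_right (Finset.prod_le_one' fun a ha => ?_) _
          exact hle1 a (hsub (Finset.mem_of_mem_erase ha))
      _ = A.valuation (f T₁) := mul_one _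
      _ < 1 := (hval _ (hsub ha₁)).1
  have hqp := valuation_ratCast_le A hp hpA q hq1
  rw [hqval] at hqp
  exact lt_irrefl _ (lt_of_le_of_lt hSig (lt_of_lt_of_le hlt hqp))

end Exclusion

section Qbar

variable [DecidableEq (AlgebraicClosure ℚ)] (W : WeierstrassCurve (AlgebraicClosure ℚ))

/-- A finite set of points stable under `Gal(ℚ̄/ℚ)` (on `x`-coordinates) has a rational product
of distinct values `x(T)⁻¹`. -/
theorem exists_rat_eq_prod_of_stable (X₀ : Finset W.toAffine.Point)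
    (hstab : ∀ σ : AlgebraicClosure ℚ ≃ₐ[ℚ] AlgebraicClosure ℚ, ∀ T ∈ X₀,
      ∃ T' ∈ X₀, xc T' = σ (xc T)) :
    ∃ q : ℚ, ((q : ℚ) : AlgebraicClosure ℚ) = ∏ a ∈ X₀.image (fun T => (xc T)⁻¹), a := by
  classical
  set f : W.toAffine.Point → AlgebraicClosure ℚ := fun T => (xc T)⁻¹ with hf
  have hfix : ∀ σ : AlgebraicClosure ℚ ≃ₐ[ℚ] AlgebraicClosure ℚ,
      σ (∏ a ∈ X₀.image f, a) = ∏ a ∈ X₀.image f, a := by
    intro σ
    rw [map_prod]
    have himg : (X₀.image f).image σ = X₀.image f := by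
      apply Finset.eq_of_subset_of_card_le
      · intro b hb
        obtain ⟨a, ha, rfl⟩ := Finset.mem_image.mp hb
        obtain ⟨T, hT, rfl⟩ := Finset.mem_image.mp ha
        obtain ⟨T', hT', hx⟩ := hstab σ T hT
        refine Finset.mem_image.mpr ⟨T', hT', ?_⟩
        rw [hf]
        simp only
        rw [hx, map_inv₀]
      · rw [Finset.card_image_of_injective _ σ.injective]
    conv_rhs => rw [← himg]
    rw [Finset.prod_image fun a _ b _ h => σ.injective h]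
  obtain ⟨q, hq⟩ := Fermat.Agent.S51.mem_range_of_forall_algEquiv_fixed _ hfix
  exact ⟨q, by rw [← hq, eq_ratCast]⟩

/-- **Supersingular exclusion.**  `A` a valuation subring of `ℚ̄` over the prime `p = 2m+1`, `W`
with `b`-invariants in `A`, `V₀` a finite set of nonzero `p`-torsion points all of whose
`x`-coordinates lie outside `A`.  Then `V₀` has no nonempty proper subset `X₀`, closed under
negation, which is stable under `Gal(ℚ̄/ℚ)` (on `x`-coordinates). -/
theorem false_of_stable_subset (A : ValuationSubring (AlgebraicClosure ℚ))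
    (hb₂ : W.b₂ ∈ A) (hb₄ : W.b₄ ∈ A) (hb₆ : W.b₆ ∈ A) (hb₈ : W.b₈ ∈ A)
    {p : ℕ} (hp : p.Prime) (m : ℕ) (hm : 1 ≤ m) (hpm : p = 2 * m + 1)
    (hpA : (p : AlgebraicClosure ℚ) ∈ A.nonunits) (V₀ X₀ : Finset W.toAffine.Point)
    (hV : ∀ T ∈ V₀, T ≠ 0 ∧ p • T = 0 ∧ 1 < A.valuation (xc T))
    (hXV : X₀ ⊆ V₀) (hXne : X₀.Nonempty) (hneg : ∀ T ∈ X₀, -T ∈ X₀)
    (hproper : ∃ T ∈ V₀, T ∉ X₀)
    (hstab : ∀ σ : AlgebraicClosure ℚ ≃ₐ[ℚ] AlgebraicClosure ℚ, ∀ T ∈ X₀,
      ∃ T' ∈ X₀, xc T' = σ (xc T)) : False :=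
  false_of_rational_prod A W hb₂ hb₄ hb₆ hb₈ hp m hm hpm hpA V₀ X₀ hV hXV hXne hneg hproper
    (exists_rat_eq_prod_of_stable W X₀ hstab)

end Qbar

end Fermat.Agent.S13.UDivPoly
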