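/-
S13 / block Bp, piece SS, final wiring (helper36): the hypothesis `(Σ)` of `Supersingular.frey`
is discharged by helper30's `UDivPoly.valuation_le_prod_image`; the integrality of the
`b`-invariants of the Frey model at `A | p` is helper41's `BpSub.frey_b_mem`.
-/
import Fermat.Agent.S13.Supersingular
import Fermat.Agent.S13.UDivPoly
import Fermat.Agent.S13.BpSub
import Fermat.Agent.S13.AtP

set_option autoImplicit false
open WeierstrassCurve WeierstrassCurve.Affine WeierstrassCurve.Affine.Point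

namespace Fermat.Agent.S13.SupersingularFrey

open Fermat.Agent.S13.XOnlyGen

local notation "Qbar" => AlgebraicClosure ℚ

section Sigma

variable {K : Type*} [Field K] [DecidableEq K] (A : ValuationSubring K) (W : WeierstrassCurve K)

/-- **(Σ)** in the shape consumed by `Supersingular.not_forall_xc_not_mem`: for a finite set `S`
of abscissas of nonzero `p`-torsion points, none in `A`:  `∏_{r ∈ S} v(r) ≤ v(p)⁻¹`. -/
theorem sigma (hb₂ : W.b₂ ∈ A) (hb₄ : W.b₄ ∈ A) (hb₆ : W.b₆ ∈ A) (hb₈ : W.b₈ ∈ A)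
    {p : ℕ} (hp : p.Prime) (hp2 : p ≠ 2) (hp0 : (p : K) ≠ 0) (hpA : (p : K) ∈ A.nonunits)
    (S : Finset K) (hS : ∀ r ∈ S, ∃ T : W.toAffine.Point, T ≠ 0 ∧ p • T = 0 ∧ xc T = r)
    (hn : ∀ r ∈ S, r ∉ A) :
    ∏ r ∈ S, A.valuation r ≤ (A.valuation (p : K))⁻¹ := by
  classical
  -- `p = 2m + 1`
  obtain ⟨m, hm⟩ : ∃ m, p = 2 * m + 1 := by
    rcases hp.eq_two_or_odd with h | h
    · exact absurd h hp2
    · exact ⟨p / 2, by omega⟩
  have hm1 : 1 ≤ m := by
    have := hp.two_le
    omega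
  -- choose points
  choose! T hT using hS
  set V₀ : Finset W.toAffine.Point := S.image T with hV₀
  have hbig : ∀ r ∈ S, 1 < A.valuation r := by
    intro r hr
    have h := hn r hr
    rw [← A.valuation_le_one_iff] at h
    exact not_le.mp h
  have hV : ∀ P ∈ V₀, P ≠ 0 ∧ p • P = 0 ∧ 1 < A.valuation (xc P) := by
    intro P hP
    obtain ⟨r, hr, rfl⟩ := Finset.mem_image.mp hP
    obtain ⟨h0, h1, h2⟩ := hT r hr
    refine ⟨h0, h1, ?_⟩
    rw [h2]
    exact hbig r hr
  have hmain := UDivPoly.valuation_le_prod_image A W hb₂ hb₄ hb₆ hb₈ hp m hm1 hm hpA V₀ hV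
  have himg : V₀.image (fun P => (xc P)⁻¹) = S.image (fun r => r⁻¹) := by
    rw [hV₀, Finset.image_image]
    refine Finset.image_congr fun r hr => ?_
    simp only [Function.comp]
    rw [(hT r hr).2.2]
  rw [himg, Finset.prod_image (fun a _ b _ h => inv_injective h)] at hmain
  simp only [map_inv₀] at hmain
  rw [Finset.prod_inv_distrib] at hmain
  have hpos : 0 < ∏ r ∈ S, A.valuation r := by
    rw [pos_iff_ne_zero, Finset.prod_ne_zero_iff]
    intro r hr h
    have := hbig r hr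
    rw [h] at this
    exact not_lt.mpr zero_le this
  have hppos : 0 < A.valuation (p : K) := by
    rw [pos_iff_ne_zero]
    exact (Valuation.ne_zero_iff _).mpr hp0
  exact (le_inv_comm₀ hppos hpos).mp hmain

end Sigma

section Frey

/-- `(Σ)` for the Frey curve at a place `A | p`. -/
theorem frey_sigma (P : FreyPackage) (A : ValuationSubring Qbar) (hA : A.LiesOverPrime P.p)
    (S : Finset Qbar)
    (hS : ∀ r ∈ S, ∃ T : (P.freyCurve⁄Qbar).Point, T ≠ 0 ∧ P.p • T = 0 ∧ xc T = r)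
    (hn : ∀ r ∈ S, r ∉ A) :
    ∏ r ∈ S, A.valuation r ≤ (A.valuation (P.p : Qbar))⁻¹ := by
  obtain ⟨h2, h4, h6, h8⟩ := BpSub.frey_b_mem P A hA
  have hp2 : P.p ≠ 2 := by have := P.hp5; omega
  have hp0 : ((P.p : ℕ) : Qbar) ≠ 0 := Nat.cast_ne_zero.mpr P.hp0
  exact sigma A (P.freyCurve⁄Qbar) h2 h4 h6 h8 P.pp hp2 hp0 hA S hS hn

/-- **SS for the Frey curve** (block map #899, final form): at a place `A | p`, if `E[p]` (finite)
has a `G_ℚ`-stable proper nonzero submodule, then not all nonzero `p`-torsion points have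
non-integral abscissa. -/
theorem frey (P : FreyPackage) (A : ValuationSubring Qbar) (hA : A.LiesOverPrime P.p)
    (X : Submodule (ZMod P.p) (Submodule.torsionBy ℤ (P.freyCurve⁄Qbar).Point P.p))
    (hX : IsGaloisStable ℚ X) (hbot : X ≠ ⊥) (htop : X ≠ ⊤)
    (hfin : Finite (Submodule.torsionBy ℤ (P.freyCurve⁄Qbar).Point P.p)) :
    ¬ ∀ T : (P.freyCurve⁄Qbar).Point, T ≠ 0 → P.p • T = 0 → xc T ∉ A :=
  Supersingular.frey P A hA X hX hbot htop hfin (frey_sigma P A hA)

/-- Positive form. -/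
theorem frey_exists_integral (P : FreyPackage) (A : ValuationSubring Qbar)
    (hA : A.LiesOverPrime P.p)
    (X : Submodule (ZMod P.p) (Submodule.torsionBy ℤ (P.freyCurve⁄Qbar).Point P.p))
    (hX : IsGaloisStable ℚ X) (hbot : X ≠ ⊥) (htop : X ≠ ⊤)
    (hfin : Finite (Submodule.torsionBy ℤ (P.freyCurve⁄Qbar).Point P.p)) :
    ∃ T : (P.freyCurve⁄Qbar).Point, T ≠ 0 ∧ P.p • T = 0 ∧ xc T ∈ A :=
  Supersingular.frey_exists_integral P A hA X hX hbot htop hfin (frey_sigma P A hA)

/-- **Interface (I4)** of the S13 block map, from (I1) alone: for a `G_ℚ`-stable line `X` of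
`V = E[p]`, either all inertia groups at places over `p` act trivially on `X`, or all of them act
trivially on `V / X`.  (`AtP.atP` + `BpCore.core_p` + the supersingular exclusion `frey`.) -/
theorem interface_I4 (P : FreyPackage)
    (I1 : Finite (Submodule.torsionBy ℤ (P.freyCurve⁄Qbar).Point P.p) ∧
      Nat.card (Submodule.torsionBy ℤ (P.freyCurve⁄Qbar).Point P.p) ≤ P.p ^ 2)
    (X : Submodule (ZMod P.p) (Submodule.torsionBy ℤ (P.freyCurve⁄Qbar).Point P.p))
    (hX : IsGaloisStable ℚ X) (hbot : X ≠ ⊥) (htop : X ≠ ⊤) :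
    (∀ A : ValuationSubring Qbar, A.LiesOverPrime P.p →
      ∀ σ ∈ A.inertiaSubgroupIn ℚ, ∀ x ∈ X, σ • x = x) ∨
    (∀ A : ValuationSubring Qbar, A.LiesOverPrime P.p →
      ∀ σ ∈ A.inertiaSubgroupIn ℚ,
        ∀ x : Submodule.torsionBy ℤ (P.freyCurve⁄Qbar).Point P.p, σ • x - x ∈ X) :=
  AtP.atP P I1.1 I1.2
    (fun A hA σ hσ T hT0 hpT hxT => BpCore.core_p P A hA σ hσ T hpT hT0 hxT)
    (fun A hA => frey P A hA X hX hbot htop I1.1) X hX hbot htop

end Frey

end Fermat.Agent.S13.SupersingularFrey
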