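import Fermat.Agent.S13.Unipotent2
import Fermat.Agent.S13.BranchDirect
import Fermat.Agent.S13.FreyModel
import Fermat.Agent.S13.Defs
import Fermat.Agent.S05.Inertia

/-!
# S13, interface (I3) `B2.unipotent`: inertia at `2` acts unipotently on the `p`-torsion of the
Frey curve

* `main_of_sub`: the generic unipotence statement of `Unipotent2` with the branch lemma in the
  "difference" form `φ T - T ∈ E₀` (the shape exported by `BranchDirect`);
* `main_generic`: the same with the branch lemma discharged by `BranchDirect.sigma_sub_of_b₂`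
  (algebraically closed field);
* `unipotent`: the Frey instantiation, in exactly the shape of interface (I3) of
  `GlueInterfaces.s13_of_interfaces`.
-/

set_option autoImplicit false

namespace Fermat.Agent.S13.Unipotent2Frey

open WeierstrassCurve WeierstrassCurve.Affine Fermat.Agent.S13.XOnlyGen

section Generic

variable {K : Type*} [Field K] [DecidableEq K] (A : ValuationSubring K) {W : WeierstrassCurve K}

/-- **Unipotence at a node**, branch lemma in the difference form. -/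
theorem main_of_sub (ha₁ : A.valuation W.a₁ ≤ 1) (ha₂ : A.valuation W.a₂ ≤ 1)
    (ha₃ : W.a₃ = 0) (ha₆ : W.a₆ = 0) (ha₄0 : W.a₄ ≠ 0) (ha₄ : A.valuation W.a₄ < 1)
    (hb₂ : A.valuation W.b₂ = 1)
    {p : ℕ} (hp : p.Prime) (hp2 : p ≠ 2) (hpA : A.valuation (p : K) = 1)
    (σ : K →+* K) (hσI : ∀ x, A.valuation x ≤ 1 → A.valuation (σ x - x) < 1)
    (φ : W.toAffine.Point →+ W.toAffine.Point)
    (hφ : ∀ P : W.toAffine.Point, P ≠ 0 →
      φ P ≠ 0 ∧ xc (φ P) = σ (xc P) ∧ yc (φ P) = σ (yc P))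
    (hsub : ∀ T : W.toAffine.Point, T ≠ 0 → A.valuation W.a₄ < A.valuation (xc T) →
      A.valuation (xc T) < 1 → (φ T - T = 0 ∨ 1 ≤ A.valuation (xc (φ T - T))))
    {T : W.toAffine.Point} (hpT : p • T = 0) : φ (φ T - T) = φ T - T := by
  have ha₃' : A.valuation W.a₃ ≤ 1 := by rw [ha₃, map_zero]; exact zero_le_one
  have ha₆' : A.valuation W.a₆ ≤ 1 := by rw [ha₆, map_zero]; exact zero_le_one
  obtain ⟨hb2, hb4, hb6, hb8⟩ := NoTorsionE1Gen.b_mem_of_a_mem A
    ((A.valuation_le_one_iff _).mp ha₁) ((A.valuation_le_one_iff _).mp ha₂)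
    ((A.valuation_le_one_iff _).mp ha₃') ((A.valuation_le_one_iff _).mp ha₄.le)
    ((A.valuation_le_one_iff _).mp ha₆')
  have hpA' : (p : K) ∉ A.nonunits := by
    intro h
    have : A.valuation (p : K) < 1 := h
    rw [hpA] at this
    exact lt_irrefl _ this
  -- integrality of `p`-torsion
  have hint : ∀ S : W.toAffine.Point, p • S = 0 → A.valuation (xc S) ≤ 1 := fun S hS =>
    (A.valuation_le_one_iff _).mpr
      (NoTorsionE1Gen.xc_mem_of_prime_nsmul_eq_zero A hb2 hb4 hb6 hb8 hp hp2 hpA' hS)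
  -- the nonsingular case, for any `p`-torsion point
  have hfix : ∀ S : W.toAffine.Point, p • S = 0 → (S = 0 ∨ 1 ≤ A.valuation (xc S)) → φ S = S := by
    intro S hS h
    by_cases hS0 : S = 0
    · rw [hS0, map_zero]
    · have hx1 : A.valuation (xc S) = 1 := by
        rcases h with h | h
        · exact absurd h hS0
        · exact le_antisymm (hint S hS) h
      obtain ⟨h1, h2, h3⟩ := hφ S hS0
      have hpS' : p • φ S = 0 := by rw [← map_nsmul, hS, map_zero]
      exact Unipotent2.fixed_of_unit A ha₁ ha₂ ha₃ ha₆ ha₄ hb₂ hp hp2 hpA σ hσI hS0 h1 h2 h3 hS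
        hpS' hx1
  by_cases hT0 : T = 0
  · rw [hT0, map_zero, sub_zero, map_zero]
  have hpT' : p • φ T = 0 := by rw [← map_nsmul, hpT, map_zero]
  have hpD : p • (φ T - T) = 0 := by rw [nsmul_sub, hpT, hpT', sub_zero]
  rcases le_or_gt 1 (A.valuation (xc T)) with h1 | h1
  · -- `T` has nonsingular reduction: `φ T = T`
    rw [hfix T hpT (Or.inr h1), sub_self, map_zero]
  -- `T` reduces to the node
  have hlt := (CruxGen.main A.valuation ha₃ ha₆ hb₂ ha₄0 ha₄ hp hp2 hT0 hpT h1).1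
  exact hfix _ hpD (hsub T hT0 hlt h1)

/-- **Unipotence at a node**, algebraically closed field: no hypothesis left besides the
arithmetic of the model and the inertia-like behaviour of `σ`. -/
theorem main_generic [IsAlgClosed K] (ha₁ : A.valuation W.a₁ ≤ 1) (ha₂ : A.valuation W.a₂ ≤ 1)
    (ha₃ : W.a₃ = 0) (ha₆ : W.a₆ = 0) (ha₄0 : W.a₄ ≠ 0) (ha₄ : A.valuation W.a₄ < 1)
    (hb₂ : A.valuation W.b₂ = 1)
    {p : ℕ} (hp : p.Prime) (hp2 : p ≠ 2) (hpA : A.valuation (p : K) = 1)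
    (σ : K →+* K) (hσI : ∀ x, A.valuation x ≤ 1 → A.valuation (σ x - x) < 1)
    (hσv : ∀ x, A.valuation (σ x) = A.valuation x)
    (hσa₁ : σ W.a₁ = W.a₁) (hσa₂ : σ W.a₂ = W.a₂)
    (φ : W.toAffine.Point →+ W.toAffine.Point)
    (hφ : ∀ P : W.toAffine.Point, P ≠ 0 →
      φ P ≠ 0 ∧ xc (φ P) = σ (xc P) ∧ yc (φ P) = σ (yc P))
    {T : W.toAffine.Point} (hpT : p • T = 0) : φ (φ T - T) = φ T - T := by
  refine main_of_sub A ha₁ ha₂ ha₃ ha₆ ha₄0 ha₄ hb₂ hp hp2 hpA σ hσI φ hφ ?_ hpT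
  intro S hS0 hlt h1
  obtain ⟨h1', h2', h3'⟩ := hφ S hS0
  exact BranchDirect.sigma_sub_of_b₂ A.valuation ha₃ ha₆ σ hσv hσI hσa₁ hσa₂ ha₁ ha₂ hb₂
    hS0 h1' h2' h3' h1 hlt

end Generic

section Frey

/-- **Interface (I3) `B2.unipotent`.** For a place `A` of `Qbar` over `2` and `σ` in its inertia
group, `(σ - 1)² = 0` on the `p`-torsion of the Frey curve. -/
theorem unipotent (P : FreyPackage) (A : ValuationSubring Qbar) (hA : A.LiesOverPrime 2)
    (σ : GQ) (hσ : σ ∈ A.inertiaSubgroupIn ℚ) (T : (P.freyCurve⁄Qbar).Point)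
    (hT : P.p • T = 0) : σ • (σ • T - T) = σ • T - T := by
  classical
  have := isAlgebraic_Qbar
  have hp : P.p.Prime := P.pp
  have hp2 : P.p ≠ 2 := FreyModel.p_ne_two P
  have hpA : A.valuation ((P.p : ℕ) : Qbar) = 1 := by
    refine Fermat.Agent.S05.FreyArith.val_natCast_eq_one A Nat.prime_two
      (FreyModel.two_mem_nonunits hA) ?_
    intro h2
    exact hp2 ((Nat.prime_dvd_prime_iff_eq Nat.prime_two hp).mp h2).symm
  have hσa₁ : (σ : Qbar →+* Qbar) (P.freyCurve⁄Qbar).a₁ = (P.freyCurve⁄Qbar).a₁ := by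
    rw [FreyModel.a₁_eq]; exact map_one _
  have hσa₂ : (σ : Qbar →+* Qbar) (P.freyCurve⁄Qbar).a₂ = (P.freyCurve⁄Qbar).a₂ := by
    rw [FreyModel.a₂_eq]; exact map_intCast _ _
  have key := main_generic (W := (P.freyCurve⁄Qbar)) A (FreyModel.val_a₁_le A)
    (FreyModel.val_a₂_le A) (FreyModel.a₃_eq P) (FreyModel.a₆_eq P) (FreyModel.a₄_ne_zero P)
    (FreyModel.val_a₄_lt_one hA) (FreyModel.val_b₂_eq_one hA) hp hp2 hpA
    (σ : Qbar →+* Qbar) (Fermat.Agent.S05.Inertia.sub_mem A hσ)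
    (fun x => Fermat.Agent.S05.Inertia.valuation_apply_eq hσ x) hσa₁ hσa₂
    (DistribSMul.toAddMonoidHom (P.freyCurve⁄Qbar).Point σ) ?_ hT
  · exact key
  · intro Q hQ
    cases Q with
    | zero => exact absurd rfl hQ
    | some x y h =>
      refine ⟨?_, rfl, rfl⟩
      obtain ⟨h', e⟩ := smul_some P σ h
      show σ • (Point.some x y h : (P.freyCurve⁄Qbar).Point) ≠ 0
      rw [e]
      exact Point.some_ne_zero _

end Frey

end Fermat.Agent.S13.Unipotent2Frey
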