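/-
S13 helper file (helper8): hedge for interface (I3) — inertia at `2` acts unipotently on the
`p`-torsion of the Frey curve.  Assembles `Unipotent2.fixed_of_unit` (helper95),
`BranchDirect.sigma_sub_of_b₂` (helper66), `CruxGen.main` (helper39), `NoTorsionE1Gen` (helper10)
and `FreyAt2` (helper5).
-/
import Fermat.Agent.S13.Unipotent2
import Fermat.Agent.S13.BranchDirect
import Fermat.Agent.S13.CruxGen
import Fermat.Agent.S13.FreyAt2

set_option autoImplicit false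

namespace Fermat.Agent.S13.Unipotent2Hedge

open WeierstrassCurve WeierstrassCurve.Affine Fermat.Agent.S13.XOnlyGen

section Generic

variable {K : Type*} [Field K] [IsAlgClosed K] [DecidableEq K] (A : ValuationSubring K)
  {W : WeierstrassCurve K}

/-- Generic form: an "inertia-like" endomorphism `σ` (acting on points through `φ`) satisfies
`(φ - 1)² = 0` on the `p`-torsion of a nodal model `y² + a₁xy = x³ + a₂x² + a₄x` with `b₂` a unit
and `p` a unit. -/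
theorem main (ha₁ : A.valuation W.a₁ ≤ 1) (ha₂ : A.valuation W.a₂ ≤ 1)
    (ha₃ : W.a₃ = 0) (ha₆ : W.a₆ = 0) (ha₄0 : W.a₄ ≠ 0) (ha₄ : A.valuation W.a₄ < 1)
    (hb₂ : A.valuation W.b₂ = 1)
    (hb₂' : W.b₂ ∈ A) (hb₄' : W.b₄ ∈ A) (hb₆' : W.b₆ ∈ A) (hb₈' : W.b₈ ∈ A)
    {p : ℕ} (hp : p.Prime) (hp2 : p ≠ 2) (hpA : A.valuation (p : K) = 1)
    (σ : K →+* K) (hσI : ∀ x, A.valuation x ≤ 1 → A.valuation (σ x - x) < 1)
    (hσv : ∀ x, A.valuation (σ x) = A.valuation x)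
    (hσa₁ : σ W.a₁ = W.a₁) (hσa₂ : σ W.a₂ = W.a₂)
    (φ : W.toAffine.Point →+ W.toAffine.Point)
    (hφ : ∀ P : W.toAffine.Point, P ≠ 0 →
      φ P ≠ 0 ∧ xc (φ P) = σ (xc P) ∧ yc (φ P) = σ (yc P))
    {T : W.toAffine.Point} (hpT : p • T = 0) : φ (φ T - T) = φ T - T := by
  have hpA' : (p : K) ∉ A.nonunits := by
    rw [ValuationSubring.mem_nonunits_iff, hpA]; exact lt_irrefl _
  -- integrality of torsion abscissae
  have hint : ∀ S : W.toAffine.Point, p • S = 0 → A.valuation (xc S) ≤ 1 := fun S hS =>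
    (A.valuation_le_one_iff _).mpr
      (NoTorsionE1Gen.xc_mem_of_prime_nsmul_eq_zero A hb₂' hb₄' hb₆' hb₈' hp hp2 hpA' hS)
  -- points with unit abscissa are fixed
  have hfix : ∀ S : W.toAffine.Point, S ≠ 0 → p • S = 0 → A.valuation (xc S) = 1 → φ S = S := by
    intro S hS hpS hx
    obtain ⟨h0, hx', hy'⟩ := hφ S hS
    have hpS' : p • φ S = 0 := by rw [← map_nsmul, hpS, map_zero]
    exact Unipotent2.fixed_of_unit A ha₁ ha₂ ha₃ ha₆ ha₄ hb₂ hp hp2 hpA σ hσI hS h0 hx' hy'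
      hpS hpS' hx
  by_cases hT : T = 0
  · rw [hT, map_zero, sub_zero, map_zero]
  obtain ⟨hT'0, hx', hy'⟩ := hφ T hT
  have hpT' : p • φ T = 0 := by rw [← map_nsmul, hpT, map_zero]
  rcases lt_or_eq_of_le (hint T hpT) with hlt | heq
  · -- reduction to the node
    have hm : A.valuation W.a₄ < A.valuation (xc T) :=
      (CruxGen.main A.valuation ha₃ ha₆ hb₂ ha₄0 ha₄ hp hp2 hT hpT hlt).1
    have hD := BranchDirect.sigma_sub_of_b₂ A.valuation ha₃ ha₆ σ hσv hσI hσa₁ hσa₂ ha₁ ha₂ hb₂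
      hT hT'0 hx' hy' hlt hm
    rcases hD with hD | hD
    · rw [hD, map_zero]
    · have hpD : p • (φ T - T) = 0 := by rw [nsmul_sub, hpT, hpT', sub_zero]
      by_cases hD0 : φ T - T = 0
      · rw [hD0, map_zero]
      · exact hfix _ hD0 hpD (le_antisymm (hint _ hpD) hD)
  · -- unit abscissa
    rw [hfix T hT hpT heq, sub_self, map_zero]

end Generic

section Frey

local notation "Qbar" => AlgebraicClosure ℚ

/-- **Interface (I3).** Inertia at `2` acts unipotently on the `p`-torsion of the Frey curve. -/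
theorem frey (P : FreyPackage) (A : ValuationSubring Qbar) (hA : A.LiesOverPrime 2)
    (σ : Qbar ≃ₐ[ℚ] Qbar) (hσ : σ ∈ A.inertiaSubgroupIn ℚ)
    (T : (P.freyCurve⁄Qbar).Point) (hT : P.p • T = 0) :
    σ • (σ • T - T) = σ • T - T := by
  have hp : P.p.Prime := P.pp
  have hp2 : P.p ≠ 2 := by have := P.hp5; omega
  obtain ⟨n, hn⟩ := FreyAt2.a₂_eq_intCast P
  obtain ⟨hb₂', hb₄', hb₆', hb₈'⟩ := FreyAt2.b_mem A P
  have h := main A (W := (P.freyCurve⁄Qbar)) (FreyAt2.val_a₁ A P).le (FreyAt2.val_a₂_le_one A P)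
    (FreyAt2.a₃_eq P) (FreyAt2.a₆_eq P) (FreyAt2.a₄_ne_zero P) (FreyAt2.val_a₄_lt_one A P hA)
    (FreyAt2.val_b₂ A P hA) hb₂' hb₄' hb₆' hb₈' hp hp2 (FreyAt2.val_p A P hA)
    (σ : Qbar →+* Qbar) (FreyAt2.inertia_close A hσ) (FreyAt2.inertia_val_eq A hσ)
    (by rw [FreyAt2.a₁_eq P]; exact map_one _)
    (by rw [hn]; exact map_intCast _ n)
    (DistribSMul.toAddMonoidHom (P.freyCurve⁄Qbar).Point σ)
    (fun S hS => ⟨FreyAt2.smul_ne_zero σ hS, FreyAt2.xc_smul σ S, FreyAt2.yc_smul σ S⟩)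
    hT
  exact h

end Frey

end Fermat.Agent.S13.Unipotent2Hedge
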