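import Mathlib.RingTheory.Valuation.Basic
import Mathlib.Tactic
import Fermat.Agent.S05.VLawRawDefs
import Fermat.Agent.S13.VLawGenNe

/-!
# S13: raw valuation law, case "first point integral unit", and duplication

Port of `Fermat/Agent/S05/VLawRawOne.lean` to the x-only relations in `b`-invariants
(`b = b₂` a unit, `e = a₄` of valuation `< 1`), without the hypothesis `v 2 = 1`.
Pure valuation computations on field elements (no curves).
-/

set_option autoImplicit false
set_option linter.unusedVariables false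

namespace Fermat.Agent.S13.VLawGenOne

open Fermat.Agent.S05.VLawRaw Fermat.Agent.S13.VLawGenNe

variable {K : Type*} [Field K] {Γ₀ : Type*} [LinearOrderedCommGroupWithZero Γ₀] (v : Valuation K Γ₀)

/-- squaring is injective on a linearly ordered group with zero. -/
theorem sq_inj_aux {a b : Γ₀} (h : a ^ 2 = b ^ 2) : a = b := by
  rcases lt_trichotomy a b with hlt | heq | hgt
  · exfalso
    have hb : 0 < b := lt_of_le_of_lt zero_le hlt
    have h1 : a * a < b * b :=
      lt_of_le_of_lt (mul_le_mul_right hlt.le a) (mul_lt_mul_of_pos_right hlt hb)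
    rw [sq, sq] at h
    exact h1.ne h
  · exact heq
  · exfalso
    have ha : 0 < a := lt_of_le_of_lt zero_le hgt
    have h1 : b * b < a * a :=
      lt_of_le_of_lt (mul_le_mul_right hgt.le b) (mul_lt_mul_of_pos_right hgt ha)
    rw [sq, sq] at h
    exact h1.ne' h

/-- if sum and product are small then both numbers are small. -/
theorem both_le_aux {r₁ r₂ : K} {a : Γ₀} (hSm : v (r₁ + r₂) ≤ a) (hPr : v (r₁ * r₂) ≤ a ^ 2) :
    v r₁ ≤ a ∧ v r₂ ≤ a := by
  have key : ∀ s₁ s₂ : K, v (s₁ + s₂) ≤ a → v (s₁ * s₂) ≤ a ^ 2 → v s₁ ≤ a := by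
    intro s₁ s₂ h1 h2
    by_contra hcon
    rw [not_le] at hcon
    have hpos : 0 < v s₁ := lt_of_le_of_lt zero_le hcon
    rcases lt_or_ge (v s₂) (v s₁) with hlt | hge
    · have hs : v (s₁ + s₂) = v s₁ := Valuation.map_add_eq_of_lt_left v hlt
      rw [hs] at h1
      exact absurd h1 (not_le.mpr hcon)
    · have h3 : a * a < v s₁ * v s₂ :=
        lt_of_le_of_lt (mul_le_mul_right hcon.le a)
          (lt_of_lt_of_le (mul_lt_mul_of_pos_right hcon hpos) (mul_le_mul_right hge (v s₁)))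
      rw [map_mul, sq] at h2
      exact absurd h2 (not_le.mpr h3)
  refine ⟨key r₁ r₂ hSm hPr, key r₂ r₁ ?_ ?_⟩
  · rwa [add_comm]
  · rwa [mul_comm]

/-- multiplying by `4` does not increase the valuation. -/
theorem map_four_mul_le (x : K) : v (4 * x) ≤ v x := by
  have h : (4 : K) * x = 2 * (2 * x) := by ring
  rw [h]
  exact (map_two_mul_le v _).trans (map_two_mul_le v _)

theorem case_one {b e x₁ x₂ xp xm : K} (he0 : e ≠ 0) (he : v e < 1) (hb : v b = 1)
    (hx : x₁ ≠ x₂) (h₁ : 1 ≤ v x₁) (h₂ : v x₂ < 1) (hx₂ : x₂ ≠ 0)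
    (hS : (xp + xm) * (x₁ - x₂) ^ 2 =
      2 * x₁ * x₂ * (x₁ + x₂) + b * x₁ * x₂ + 2 * e * (x₁ + x₂))
    (hP : xp * xm * (x₁ - x₂) ^ 2 = (x₁ * x₂ - e) ^ 2) :
    clamp (v e) (v xp) = clamp (v e) (v x₂) ∧ clamp (v e) (v xm) = clamp (v e) (v x₂) := by
  -- notation
  set a := v e with ha
  set g₁ := v x₁ with hg₁
  set g₂ := v x₂ with hg₂
  have ha1 : a ≤ 1 := he.le
  have hg₁pos : 0 < g₁ := lt_of_lt_of_le zero_lt_one h₁
  have hg₁sq : 0 < g₁ ^ 2 := pow_pos hg₁pos 2
  have h21 : g₂ < g₁ := lt_of_lt_of_le h₂ h₁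
  have hd : v (x₁ - x₂) = g₁ := Valuation.map_sub_eq_of_lt_left v h21
  have hd2 : v ((x₁ - x₂) ^ 2) = g₁ ^ 2 := by rw [map_pow, hd]
  have hx12 : v (x₁ * x₂) = g₁ * g₂ := map_mul v x₁ x₂
  have hsum : v (2 * (x₁ + x₂)) ≤ g₁ :=
    (map_two_mul_le v _).trans (Valuation.map_add_le v le_rfl h21.le)
  have hNeq : 2 * x₁ * x₂ * (x₁ + x₂) + b * x₁ * x₂ + 2 * e * (x₁ + x₂) =
      2 * (x₁ + x₂) * (x₁ * x₂ + e) + b * x₁ * x₂ := by ring
  -- valuations of the two sides
  have hSv : v (xp + xm) * g₁ ^ 2 =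
      v (2 * (x₁ + x₂) * (x₁ * x₂ + e) + b * x₁ * x₂) := by
    have := congrArg v hS
    rwa [map_mul, hd2, hNeq] at this
  have hPv : v (xp * xm) * g₁ ^ 2 = v (x₁ * x₂ - e) ^ 2 := by
    have := congrArg v hP
    rwa [map_mul, hd2, map_pow] at this
  have hterm2 : v (b * x₁ * x₂) ≤ g₁ * g₂ := by
    rw [map_mul, map_mul, hb, one_mul]
  rcases lt_or_ge a (g₁ * g₂) with hcase | hcase
  · -- case (i): `v (x₁ x₂) > v e`
    have hq : v (x₁ * x₂ - e) = g₁ * g₂ := by
      rw [← hx12]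
      exact Valuation.map_sub_eq_of_lt_left v (by rw [hx12]; exact hcase)
    have hq' : v (x₁ * x₂ + e) ≤ g₁ * g₂ :=
      Valuation.map_add_le v hx12.le hcase.le
    have hPr : v (xp * xm) = g₂ ^ 2 := by
      rw [hq, mul_pow, mul_comm] at hPv
      exact mul_left_cancel₀ hg₁sq.ne' hPv
    have hN : v (2 * (x₁ + x₂) * (x₁ * x₂ + e) + b * x₁ * x₂) ≤ g₁ ^ 2 * g₂ := by
      refine Valuation.map_add_le v ?_ ?_
      · rw [map_mul, sq, mul_assoc]
        exact mul_le_mul' hsum hq'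
      · refine hterm2.trans ?_
        rw [sq, mul_assoc]
        exact le_mul_of_one_le_left' h₁
    have hSm : v (xp + xm) ≤ g₂ := by
      rw [← hSv, mul_comm] at hN
      exact le_of_mul_le_mul_left hN hg₁sq
    have hV := vieta_nonstrict v (r₁ := xp) (r₂ := xm)
      (by rw [hPr]; exact pow_le_pow_left' hSm 2)
    have hxp : v xp = g₂ := sq_inj_aux (by rw [hV.2, hPr])
    have hxm : v xm = g₂ := by rw [← hV.1, hxp]
    rw [hxp, hxm]
    exact ⟨rfl, rfl⟩
  · -- case (ii): `v (x₁ x₂) ≤ v e`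
    have hg₂a : g₂ ≤ a := (le_mul_of_one_le_left' h₁).trans hcase
    have hq : v (x₁ * x₂ - e) ≤ a :=
      Valuation.map_sub_le v (hx12.le.trans hcase) le_rfl
    have hq' : v (x₁ * x₂ + e) ≤ a :=
      Valuation.map_add_le v (hx12.le.trans hcase) le_rfl
    have hPr : v (xp * xm) ≤ a ^ 2 := by
      calc v (xp * xm) ≤ v (xp * xm) * g₁ ^ 2 := le_mul_of_one_le_right' (one_le_pow_of_one_le' h₁ 2)
        _ = v (x₁ * x₂ - e) ^ 2 := hPv
        _ ≤ a ^ 2 := pow_le_pow_left' hq 2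
    have hN : v (2 * (x₁ + x₂) * (x₁ * x₂ + e) + b * x₁ * x₂) ≤ a * g₁ := by
      refine Valuation.map_add_le v ?_ ?_
      · rw [map_mul, mul_comm]
        exact mul_le_mul' hq' hsum
      · exact (hterm2.trans hcase).trans (le_mul_of_one_le_right' h₁)
    have hSm : v (xp + xm) ≤ a := by
      have h3 : v (xp + xm) * g₁ * g₁ ≤ a * g₁ := by
        rw [mul_assoc, ← sq, hSv]
        exact hN
      have h4 : v (xp + xm) * g₁ ≤ a := le_of_mul_le_mul_right h3 hg₁pos
      exact (le_mul_of_one_le_right' h₁).trans h4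
    obtain ⟨hp, hm⟩ := both_le_aux v hSm hPr
    rw [clamp_of_le ha1 hp, clamp_of_le ha1 hm, clamp_of_le ha1 hg₂a]
    exact ⟨rfl, rfl⟩

theorem dbl {b e x x' : K} (he0 : e ≠ 0) (he : v e < 1) (hb : v b = 1)
    (h₁ : v x < 1) (hx0 : x ≠ 0)
    (hD : x' * (4 * x ^ 3 + b * x ^ 2 + 4 * e * x) = (x ^ 2 - e) ^ 2) :
    let c := clamp (v e) (v x); clamp (v e) (v x') = max (c ^ 2) (v e ^ 2 / c ^ 2) := by
  intro c
  set a := v e with ha
  set ε := v x with hε
  have ha1 : a ≤ 1 := he.le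
  have hapos : 0 < a := zero_lt_iff.mpr ((Valuation.ne_zero_iff v).mpr he0)
  have hepos : 0 < ε := zero_lt_iff.mpr ((Valuation.ne_zero_iff v).mpr hx0)
  have hΨ : 4 * x ^ 3 + b * x ^ 2 + 4 * e * x = x * (b * x + (4 * x ^ 2 + 4 * e)) := by ring
  have hbx : v (b * x) = ε := by rw [map_mul, hb, one_mul]
  have hx2 : v (x ^ 2) = ε ^ 2 := map_pow v x 2
  have h4x2 : v (4 * x ^ 2) ≤ ε ^ 2 := (map_four_mul_le v _).trans hx2.le
  have h4e : v (4 * e) ≤ a := map_four_mul_le v _
  have he2pos : 0 < ε ^ 2 := pow_pos hepos 2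
  have he2lt : ε ^ 2 < ε := by
    rw [sq]
    exact mul_lt_of_lt_one_left hepos h₁
  have hDv : v x' * (ε * v (b * x + (4 * x ^ 2 + 4 * e))) = v (x ^ 2 - e) ^ 2 := by
    have := congrArg v hD
    rwa [hΨ, map_mul, map_mul, map_pow v (x ^ 2 - e)] at this
  rcases lt_or_ge a ε with hcase | hcase
  · -- case A: `v e < v x`
    have hc : c = ε := clamp_of_mem hcase.le h₁.le
    have hfac : v (b * x + (4 * x ^ 2 + 4 * e)) = ε := by
      have hlt : v (4 * x ^ 2 + 4 * e) < v (b * x) := by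
        rw [hbx]
        exact lt_of_le_of_lt (Valuation.map_add v _ _)
          (max_lt (lt_of_le_of_lt h4x2 he2lt) (lt_of_le_of_lt h4e hcase))
      rw [Valuation.map_add_eq_of_lt_left v hlt, hbx]
    rw [hfac, ← sq] at hDv
    rw [hc]
    rcases lt_trichotomy a (ε ^ 2) with hlt | heq | hgt
    · -- A1
      have hq : v (x ^ 2 - e) = ε ^ 2 := by
        rw [← hx2]
        exact Valuation.map_sub_eq_of_lt_left v (by rw [hx2]; exact hlt)
      have hx' : v x' = ε ^ 2 := by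
        rw [hq, sq (ε ^ 2)] at hDv
        exact mul_right_cancel₀ he2pos.ne' hDv
      have he21 : ε ^ 2 ≤ 1 := pow_le_one' h₁.le 2
      rw [hx', clamp_of_mem hlt.le he21]
      symm
      apply max_eq_left
      rw [div_le_iff₀ he2pos, sq a]
      exact mul_le_mul' hlt.le hlt.le
    · -- A3 : `a = ε ^ 2`
      have hq : v (x ^ 2 - e) ≤ a := Valuation.map_sub_le v (by rw [hx2, heq]) le_rfl
      have hx' : v x' ≤ a := by
        have h5 : v x' * ε ^ 2 ≤ a * ε ^ 2 := by
          rw [hDv]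
          calc v (x ^ 2 - e) ^ 2 ≤ a ^ 2 := pow_le_pow_left' hq 2
            _ = a * ε ^ 2 := by rw [sq a, ← heq]
        exact le_of_mul_le_mul_right h5 he2pos
      rw [clamp_of_le ha1 hx', ← heq]
      symm
      have : a ^ 2 / a = a := by rw [sq, mul_div_assoc, div_self hapos.ne', mul_one]
      rw [this, max_self]
    · -- A2 : `ε ^ 2 < a`
      have hq : v (x ^ 2 - e) = a :=
        Valuation.map_sub_eq_of_lt_right v (by rw [hx2]; exact hgt)
      have hx' : v x' = a ^ 2 / ε ^ 2 := by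
        rw [hq] at hDv
        rw [eq_div_iff he2pos.ne']
        exact hDv
      have hle1 : a ≤ a ^ 2 / ε ^ 2 := by
        rw [le_div_iff₀ he2pos, sq a]
        exact mul_le_mul' le_rfl hgt.le
      have hle2 : a ^ 2 / ε ^ 2 ≤ 1 := by
        rw [div_le_iff₀ he2pos, one_mul]
        exact pow_le_pow_left' hcase.le 2
      rw [hx', clamp_of_mem hle1 hle2]
      symm
      apply max_eq_right
      rw [le_div_iff₀ he2pos, sq a]
      exact mul_le_mul' hgt.le hgt.le
  · -- case B: `v x ≤ v e`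
    have hc : c = a := clamp_of_le ha1 hcase
    rw [hc]
    have ha2pos : 0 < a ^ 2 := pow_pos hapos 2
    have hrhs : max (a ^ 2) (a ^ 2 / a ^ 2) = 1 := by
      rw [div_self ha2pos.ne']
      exact max_eq_right (pow_le_one' ha1 2)
    rw [hrhs]
    have hx2lt : v (x ^ 2) < a := by
      rw [hx2, sq]
      calc ε * ε ≤ a * ε := mul_le_mul' hcase le_rfl
        _ < a := mul_lt_of_lt_one_right hapos h₁
    have hq : v (x ^ 2 - e) = a :=
      Valuation.map_sub_eq_of_lt_right v hx2lt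
    have hfac : v (b * x + (4 * x ^ 2 + 4 * e)) ≤ a := by
      refine Valuation.map_add_le v (by rw [hbx]; exact hcase) ?_
      exact Valuation.map_add_le v (h4x2.trans (by rw [← hx2]; exact hx2lt.le)) h4e
    have hyle : ε * v (b * x + (4 * x ^ 2 + 4 * e)) ≤ a ^ 2 := by
      rw [sq a]
      exact mul_le_mul' hcase hfac
    rw [hq] at hDv
    have hx' : 1 ≤ v x' := by
      by_contra hcon
      rw [not_le] at hcon
      have h5 : v x' * (ε * v (b * x + (4 * x ^ 2 + 4 * e))) < a ^ 2 :=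
        lt_of_le_of_lt (mul_le_mul' le_rfl hyle) (mul_lt_of_lt_one_left ha2pos hcon)
      exact h5.ne hDv
    exact clamp_of_one_le ha1 hx'

end Fermat.Agent.S13.VLawGenOne
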