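import Fermat.Agent.S13.XOnlyGen
import Fermat.Agent.S13.VLawGenOne
import Fermat.Agent.S13.VLawGenNe
import Fermat.Agent.S13.VLawGenEq

/-!
# S13: the folding law for the clamped valuation of the x-coordinate (point level)

Port of `Fermat/Agent/S05/VLaw.lean` to a general Weierstrass curve `W` with `a₃ = a₆ = 0`
(so `b₄ = 2a₄`, `b₆ = 0`, `b₈ = -a₄²`), `v b₂ = 1`, `0 < v a₄ < 1`, and **any** residue
characteristic (no hypothesis `v 2 = 1`).  In particular it applies to the Frey model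
`y² + xy = x³ + a₂x² + a₄x` at a place above `2`.
-/

set_option autoImplicit false

namespace Fermat.Agent.S13.VLawGen

open WeierstrassCurve WeierstrassCurve.Affine Fermat.Agent.S05.VLawRaw
  Fermat.Agent.S13.XOnlyGen

variable {K : Type*} [Field K]
  {Γ₀ : Type*} [LinearOrderedCommGroupWithZero Γ₀] (v : Valuation K Γ₀)
  {W : WeierstrassCurve K}

/-- clamped valuation of the x-coordinate, multiplicative notation: values in `[v a₄, 1]`. -/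
def Vc : W.toAffine.Point → Γ₀
  | .zero => 1
  | .some x _ _ => clamp (v W.a₄) (v x)

lemma Vc_zero : Vc v (0 : W.toAffine.Point) = 1 := rfl

lemma Vc_some {x y : K} (h : W.toAffine.Nonsingular x y) :
    Vc v (Point.some x y h) = clamp (v W.a₄) (v x) := rfl

lemma Vc_of_ne_zero {P : W.toAffine.Point} (hP : P ≠ 0) :
    Vc v P = clamp (v W.a₄) (v (xc P)) := by
  cases P with
  | zero => exact absurd rfl hP
  | some x y h => rfl

lemma Vc_range (ha₄ : v W.a₄ ≤ 1) (P : W.toAffine.Point) :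
    v W.a₄ ≤ Vc v P ∧ Vc v P ≤ 1 := by
  cases P with
  | zero => exact ⟨ha₄, le_refl _⟩
  | some x y h => exact ⟨le_clamp _ _, clamp_le_one ha₄ _⟩

lemma Vc_neg (P : W.toAffine.Point) : Vc v (-P) = Vc v P := by
  cases P with
  | zero => rfl
  | some x y h => rfl

/-- `Vc P = 1` iff `P = 0` or `x(P)` is a unit or non-integral. -/
lemma Vc_eq_one_iff (ha₄ : v W.a₄ < 1) {P : W.toAffine.Point} (hP : P ≠ 0) :
    Vc v P = 1 ↔ 1 ≤ v (xc P) := by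
  rw [Vc_of_ne_zero v hP]
  constructor
  · intro h
    by_contra hlt
    rw [not_le] at hlt
    unfold clamp at h
    rw [min_eq_right hlt.le] at h
    rcases max_choice (v W.a₄) (v (xc P)) with h' | h'
    · rw [h'] at h; exact absurd h ha₄.ne
    · rw [h'] at h; exact absurd h hlt.ne
  · intro h
    exact clamp_of_one_le ha₄.le h

/-- the `b`-invariants of a curve with `a₃ = a₆ = 0`. -/
lemma b₄_eq (ha₃ : W.a₃ = 0) : W.b₄ = 2 * W.a₄ := by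
  simp only [b₄, ha₃]; ring

lemma b₆_eq (ha₃ : W.a₃ = 0) (ha₆ : W.a₆ = 0) : W.b₆ = 0 := by
  simp only [b₆, ha₃, ha₆]; ring

lemma b₈_eq (ha₃ : W.a₃ = 0) (ha₆ : W.a₆ = 0) : W.b₈ = -W.a₄ ^ 2 := by
  simp only [b₈, ha₃, ha₆]; ring

variable [DecidableEq K]

/-- the x-only sum and product relations in the form used by the raw valuation lemmas. -/
theorem xc_add_sub' (ha₃ : W.a₃ = 0) (ha₆ : W.a₆ = 0)
    {P Q : W.toAffine.Point} (hP : P ≠ 0) (hQ : Q ≠ 0) (hx : xc P ≠ xc Q) :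
    P + Q ≠ 0 ∧ P - Q ≠ 0 ∧
      (xc (P + Q) + xc (P - Q)) * (xc P - xc Q) ^ 2 =
        2 * xc P * xc Q * (xc P + xc Q) + W.b₂ * xc P * xc Q + 2 * W.a₄ * (xc P + xc Q) ∧
      xc (P + Q) * xc (P - Q) * (xc P - xc Q) ^ 2 = (xc P * xc Q - W.a₄) ^ 2 := by
  obtain ⟨hpq, hmq, hS, hPr⟩ := xc_add_sub hP hQ hx
  refine ⟨hpq, hmq, ?_, ?_⟩
  · rw [hS, b₄_eq ha₃, b₆_eq ha₃ ha₆]; ring
  · rw [hPr, b₄_eq ha₃, b₆_eq ha₃ ha₆, b₈_eq ha₃ ha₆]; ring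

/-- the x-only duplication relation in the form used by the raw valuation lemma. -/
theorem xc_add_self' (ha₃ : W.a₃ = 0) (ha₆ : W.a₆ = 0)
    {P : W.toAffine.Point} (hP : P ≠ 0) (hy : 2 * yc P + W.a₁ * xc P ≠ 0) :
    P + P ≠ 0 ∧
      xc (P + P) * (4 * xc P ^ 3 + W.b₂ * xc P ^ 2 + 4 * W.a₄ * xc P) =
        (xc P ^ 2 - W.a₄) ^ 2 := by
  have hy' : 2 * yc P + W.a₁ * xc P + W.a₃ ≠ 0 := by rwa [ha₃, add_zero]
  obtain ⟨hpp, hD⟩ := xc_add_self hP hy'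
  refine ⟨hpp, ?_⟩
  rw [b₄_eq ha₃, b₆_eq ha₃ ha₆, b₈_eq ha₃ ha₆] at hD
  linear_combination hD

theorem add_sub (ha₃ : W.a₃ = 0) (ha₆ : W.a₆ = 0) (hb₂ : v W.b₂ = 1)
    (ha₄0 : W.a₄ ≠ 0) (ha₄ : v W.a₄ < 1)
    {P Q : W.toAffine.Point} (hP : P ≠ 0) (hQ : Q ≠ 0)
    (hxP : xc P ≠ 0) (hxQ : xc Q ≠ 0) (hx : xc P ≠ xc Q) (hQ1 : v (xc Q) < 1) :
    (Vc v (P + Q) = max (Vc v P * Vc v Q) (v W.a₄ ^ 2 / (Vc v P * Vc v Q)) ∧
      Vc v (P - Q) = min (Vc v P / Vc v Q) (Vc v Q / Vc v P)) ∨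
    (Vc v (P + Q) = min (Vc v P / Vc v Q) (Vc v Q / Vc v P) ∧
      Vc v (P - Q) = max (Vc v P * Vc v Q) (v W.a₄ ^ 2 / (Vc v P * Vc v Q))) := by
  obtain ⟨hpq, hmq, hS, hPr⟩ := xc_add_sub' ha₃ ha₆ hP hQ hx
  rw [Vc_of_ne_zero v hpq, Vc_of_ne_zero v hmq, Vc_of_ne_zero v hP, Vc_of_ne_zero v hQ]
  have hvα0 : v W.a₄ ≠ 0 := (Valuation.ne_zero_iff v).mpr ha₄0
  have hc₂pos : clamp (v W.a₄) (v (xc Q)) ≠ 0 :=
    ne_of_gt (lt_of_lt_of_le (zero_lt_iff.mpr hvα0) (le_clamp _ _))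
  rcases le_or_gt 1 (v (xc P)) with h₁ | h₁
  · -- P has nonsingular reduction
    obtain ⟨e1, e2⟩ := VLawGenOne.case_one v ha₄0 ha₄ hb₂ hx h₁ hQ1 hxQ hS hPr
    left
    rw [e1, e2, clamp_of_one_le ha₄.le h₁, one_mul, one_div, div_one]
    have hc1 : clamp (v W.a₄) (v (xc Q)) ≤ 1 := clamp_le_one ha₄.le _
    have hcα : v W.a₄ ≤ clamp (v W.a₄) (v (xc Q)) := le_clamp _ _
    constructor
    · symm
      apply max_eq_left
      rw [div_le_iff₀ (zero_lt_iff.mpr hc₂pos), sq]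
      exact mul_le_mul' hcα hcα
    · symm
      apply min_eq_right
      calc clamp (v W.a₄) (v (xc Q)) ≤ 1 := hc1
        _ ≤ (clamp (v W.a₄) (v (xc Q)))⁻¹ := (one_le_inv₀ (zero_lt_iff.mpr hc₂pos)).mpr hc1
  · rcases lt_trichotomy (v (xc Q)) (v (xc P)) with h12 | h12 | h12
    · exact VLawGenNe.case_ne v ha₄0 ha₄ hb₂ h₁ h12 hxQ hS hPr
    · rcases VLawGenEq.case_eq v ha₄0 ha₄ hb₂ hx h₁ h12 hxQ hS hPr with ⟨e1, e2⟩ | ⟨e1, e2⟩
      · left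
        rw [e1, e2, h12, div_self (by rw [← h12]; exact hc₂pos), min_self]
        exact ⟨rfl, rfl⟩
      · right
        rw [e1, e2, h12, div_self (by rw [← h12]; exact hc₂pos), min_self]
        exact ⟨rfl, rfl⟩
    · have hS' : (xc (P + Q) + xc (P - Q)) * (xc Q - xc P) ^ 2 =
          2 * xc Q * xc P * (xc Q + xc P) + W.b₂ * xc Q * xc P + 2 * W.a₄ * (xc Q + xc P) := by
        linear_combination hS
      have hP' : xc (P + Q) * xc (P - Q) * (xc Q - xc P) ^ 2 = (xc Q * xc P - W.a₄) ^ 2 := by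
        linear_combination hPr
      have := VLawGenNe.case_ne v ha₄0 ha₄ hb₂ hQ1 h12 hxP hS' hP'
      simp only at this
      rw [mul_comm (clamp (v W.a₄) (v (xc Q))) (clamp (v W.a₄) (v (xc P))),
        min_comm (clamp (v W.a₄) (v (xc Q)) / clamp (v W.a₄) (v (xc P)))] at this
      exact this

theorem add_self (ha₃ : W.a₃ = 0) (ha₆ : W.a₆ = 0) (hb₂ : v W.b₂ = 1)
    (ha₄0 : W.a₄ ≠ 0) (ha₄ : v W.a₄ < 1)
    {Q : W.toAffine.Point} (hQ : Q ≠ 0)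
    (hxQ : xc Q ≠ 0) (hyQ : 2 * yc Q + W.a₁ * xc Q ≠ 0) (hQ1 : v (xc Q) < 1) :
    Vc v (Q + Q) = max (Vc v Q ^ 2) (v W.a₄ ^ 2 / Vc v Q ^ 2) := by
  obtain ⟨hqq, hD⟩ := xc_add_self' ha₃ ha₆ hQ hyQ
  rw [Vc_of_ne_zero v hqq, Vc_of_ne_zero v hQ]
  exact VLawGenOne.dbl v ha₄0 ha₄ hb₂ hQ1 hxQ hD

end Fermat.Agent.S13.VLawGen
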