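import Mathlib

/-!
# Coordinates, invariant derivation and pole-order calculus on the coordinate ring
of a Weierstrass curve (for the Wronskian of `L(n·O)`).
-/

set_option autoImplicit false

open Polynomial
open scoped Polynomial.Bivariate

namespace Fermat.Agent.S13.WronskianDiv

open WeierstrassCurve WeierstrassCurve.Affine

variable {K : Type*} [Field K] (W : WeierstrassCurve.Affine K)

/-- The polynomial `A = a₁ X + a₃`. -/
noncomputable def polyA : K[X] := C W.a₁ * X + C W.a₃

/-- The polynomial `B = X³ + a₂ X² + a₄ X + a₆`. -/
noncomputable def polyB : K[X] := X ^ 3 + C W.a₂ * X ^ 2 + C W.a₄ * X + C W.a₆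

lemma derivative_polyA : derivative (polyA W) = C W.a₁ := by
  simp [polyA]

lemma derivative_polyB : derivative (polyB W) = 3 * X ^ 2 + 2 * C W.a₂ * X + C W.a₄ := by
  simp only [polyB, derivative_add, derivative_mul, derivative_X_pow, derivative_C, derivative_X]
  norm_num
  rw [show (C (3:K)) = 3 from map_ofNat C 3, show (C (2:K)) = 2 from map_ofNat C 2]
  ring

/-- The element `u + v·Y` of the coordinate ring. -/
noncomputable def el (u v : K[X]) : W.CoordinateRing :=
  u • (1 : W.CoordinateRing) + v • CoordinateRing.mk W Y

lemma el_surj (f : W.CoordinateRing) : ∃ u v : K[X], f = el W u v := by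
  obtain ⟨p, q, h⟩ := CoordinateRing.exists_smul_basis_eq f
  exact ⟨p, q, h.symm⟩

lemma el_add (u v u' v' : K[X]) : el W u v + el W u' v' = el W (u + u') (v + v') := by
  simp only [el, add_smul]; abel

lemma el_sub (u v u' v' : K[X]) : el W u v - el W u' v' = el W (u - u') (v - v') := by
  simp only [el, sub_smul]; abel

lemma el_neg (u v : K[X]) : - el W u v = el W (-u) (-v) := by
  simp only [el, neg_smul]; abel

lemma el_zero : el W 0 0 = 0 := by simp [el]

lemma el_eq_zero {u v : K[X]} (h : el W u v = 0) : u = 0 ∧ v = 0 :=
  CoordinateRing.smul_basis_eq_zero h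

lemma el_inj {u v u' v' : K[X]} (h : el W u v = el W u' v') : u = u' ∧ v = v' := by
  have h0 : el W (u - u') (v - v') = 0 := by rw [← el_sub, h, sub_self]
  obtain ⟨h1, h2⟩ := el_eq_zero W h0
  exact ⟨sub_eq_zero.mp h1, sub_eq_zero.mp h2⟩

lemma el_smul (c : K) (u v : K[X]) : c • el W u v = el W (C c * u) (C c * v) := by
  simp only [el, smul_add]
  rw [← Polynomial.smul_eq_C_mul, ← Polynomial.smul_eq_C_mul, smul_assoc, smul_assoc]

lemma el_one : el W 1 0 = 1 := by simp [el]

lemma el_mul (u v u' v' : K[X]) :
    el W u v * el W u' v' =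
      el W (u * u' + v * v' * polyB W) (u * v' + u' * v - v * v' * polyA W) := by
  have h1 : el W u' v' = CoordinateRing.mk W (C u') +
      CoordinateRing.mk W (C v') * CoordinateRing.mk W Y := by
    simp only [el, CoordinateRing.smul, mul_one]
  rw [h1, mul_add, ← mul_assoc]
  simp only [el]
  rw [CoordinateRing.smul_basis_mul_C, CoordinateRing.smul_basis_mul_C,
    CoordinateRing.smul_basis_mul_Y]
  simp only [polyA, polyB]
  module

/-- First coordinate of an element of the coordinate ring in the basis `{1, Y}`. -/
noncomputable def cu (f : W.CoordinateRing) : K[X] := (CoordinateRing.basis W).repr f 0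

/-- Second coordinate of an element of the coordinate ring in the basis `{1, Y}`. -/
noncomputable def cv (f : W.CoordinateRing) : K[X] := (CoordinateRing.basis W).repr f 1

lemma el_cu_cv (f : W.CoordinateRing) : el W (cu W f) (cv W f) = f := by
  have h := (CoordinateRing.basis W).sum_repr f
  rw [Fin.sum_univ_two, CoordinateRing.basis_zero, CoordinateRing.basis_one] at h
  exact h

lemma cu_el (u v : K[X]) : cu W (el W u v) = u := (el_inj W (el_cu_cv W (el W u v))).1

lemma cv_el (u v : K[X]) : cv W (el W u v) = v := (el_inj W (el_cu_cv W (el W u v))).2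

lemma cu_add (f g : W.CoordinateRing) : cu W (f + g) = cu W f + cu W g := by
  conv_lhs => rw [← el_cu_cv W f, ← el_cu_cv W g, el_add, cu_el]

lemma cv_add (f g : W.CoordinateRing) : cv W (f + g) = cv W f + cv W g := by
  conv_lhs => rw [← el_cu_cv W f, ← el_cu_cv W g, el_add, cv_el]

lemma cu_smul (c : K) (f : W.CoordinateRing) : cu W (c • f) = C c * cu W f := by
  conv_lhs => rw [← el_cu_cv W f, el_smul, cu_el]

lemma cv_smul (c : K) (f : W.CoordinateRing) : cv W (c • f) = C c * cv W f := by
  conv_lhs => rw [← el_cu_cv W f, el_smul, cv_el]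

/-- The coordinate formula of the invariant derivation. -/
noncomputable def Dfun (f : W.CoordinateRing) : W.CoordinateRing :=
  el W (polyA W * derivative (cu W f) + 2 * polyB W * derivative (cv W f)
          + derivative (polyB W) * cv W f)
       (2 * derivative (cu W f) - polyA W * derivative (cv W f)
          - derivative (polyA W) * cv W f)

lemma Dfun_el (u v : K[X]) : Dfun W (el W u v) =
    el W (polyA W * derivative u + 2 * polyB W * derivative v + derivative (polyB W) * v)
       (2 * derivative u - polyA W * derivative v - derivative (polyA W) * v) := by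
  simp only [Dfun, cu_el, cv_el]

lemma Dfun_add (f g : W.CoordinateRing) : Dfun W (f + g) = Dfun W f + Dfun W g := by
  simp only [Dfun, cu_add, cv_add, el_add, derivative_add]
  congr 1 <;> ring

lemma Dfun_smul (c : K) (f : W.CoordinateRing) : Dfun W (c • f) = c • Dfun W f := by
  simp only [Dfun, cu_smul, cv_smul, el_smul, derivative_C_mul]
  congr 1 <;> ring

/-- `Dfun` as a `K`-linear map. -/
noncomputable def DLin : W.CoordinateRing →ₗ[K] W.CoordinateRing where
  toFun := Dfun W
  map_add' := Dfun_add W
  map_smul' := Dfun_smul W

lemma Dfun_mul (f g : W.CoordinateRing) : Dfun W (f * g) = f * Dfun W g + g * Dfun W f := by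
  obtain ⟨u, v, rfl⟩ := el_surj W f
  obtain ⟨u', v', rfl⟩ := el_surj W g
  simp only [el_mul, Dfun_el, el_add, derivative_mul, derivative_add, derivative_sub]
  generalize derivative u = du
  generalize derivative v = dv
  generalize derivative u' = du'
  generalize derivative v' = dv'
  generalize derivative (polyA W) = dA
  generalize derivative (polyB W) = dB
  generalize polyA W = A
  generalize polyB W = B
  have e1 : A * (du * u' + u * du' + ((dv * v' + v * dv') * B + v * v' * dB)) +
        2 * B * (du * v' + u * dv' + (du' * v + u' * dv) - ((dv * v' + v * dv') * A + v * v' * dA)) +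
      dB * (u * v' + u' * v - v * v' * A) =
      u * (A * du' + 2 * B * dv' + dB * v') + v * (2 * du' - A * dv' - dA * v') * B +
      (u' * (A * du + 2 * B * dv + dB * v) + v' * (2 * du - A * dv - dA * v) * B) := by ring
  have e2 : 2 * (du * u' + u * du' + ((dv * v' + v * dv') * B + v * v' * dB)) -
        A * (du * v' + u * dv' + (du' * v + u' * dv) - ((dv * v' + v * dv') * A + v * v' * dA)) -
      dA * (u * v' + u' * v - v * v' * A) =
      u * (2 * du' - A * dv' - dA * v') + (A * du' + 2 * B * dv' + dB * v') * v -
          v * (2 * du' - A * dv' - dA * v') * A +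
        (u' * (2 * du - A * dv - dA * v) + (A * du + 2 * B * dv + dB * v) * v' -
          v' * (2 * du - A * dv - dA * v) * A) := by ring
  rw [e1, e2]

/-- The invariant derivation `D` of the coordinate ring: `D X = 2Y + a₁X + a₃`,
`D Y = 3X² + 2a₂X + a₄ - a₁Y`. -/
noncomputable def D : Derivation K W.CoordinateRing W.CoordinateRing :=
  Derivation.mk' (DLin W) (fun a b => by
    change Dfun W (a * b) = a • Dfun W b + b • Dfun W a
    rw [Dfun_mul, smul_eq_mul, smul_eq_mul])

lemma D_el (u v : K[X]) : D W (el W u v) =
    el W (polyA W * derivative u + 2 * polyB W * derivative v + derivative (polyB W) * v)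
       (2 * derivative u - polyA W * derivative v - derivative (polyA W) * v) :=
  Dfun_el W u v

end Fermat.Agent.S13.WronskianDiv
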