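import Fermat.Agent.S13.WrSymbol

/-!
# The Wronskian of `L(n·O)`: pole order and leading coefficient
-/

set_option autoImplicit false

open Polynomial
open scoped Polynomial.Bivariate

namespace Fermat.Agent.S13.WronskianDiv

open WeierstrassCurve WeierstrassCurve.Affine

variable {K : Type*} [Field K] (W : WeierstrassCurve.Affine K)

lemma Fil_one : Fil W 0 (1 : W.CoordinateRing) ∧ sym W 0 (1 : W.CoordinateRing) = 1 := by
  have h1 : (1 : W.CoordinateRing) = el W 1 0 := (el_one W).symm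
  refine ⟨⟨?_, ?_⟩, ?_⟩
  · rw [h1, evenPart_el, map_one]
    exact VanishAbove.of_natDegree_le (n := 0) (by simp)
  · rw [h1, oddPart_el, map_zero, mul_zero]; exact VanishAbove.zero _
  · rw [sym, iota, h1, evenPart_el, oddPart_el, map_one, map_zero, mul_zero, add_zero, coeff_one_zero]

/-- Finite products: weights add and symbols multiply. -/
theorem Fil.prod {ι : Type*} (s : Finset ι) (w : ι → ℕ) (f : ι → W.CoordinateRing)
    (h : ∀ i ∈ s, Fil W (w i) (f i)) :
    Fil W ((∑ i ∈ s, w i : ℕ) : ℤ) (∏ i ∈ s, f i) ∧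
      sym W (∑ i ∈ s, w i) (∏ i ∈ s, f i) = ∏ i ∈ s, sym W (w i) (f i) := by
  classical
  induction s using Finset.induction_on with
  | empty => simpa using Fil_one W
  | insert a s ha ih =>
    rw [Finset.sum_insert ha, Finset.prod_insert ha, Finset.prod_insert ha]
    have h1 := h a (Finset.mem_insert_self a s)
    obtain ⟨h2, h3⟩ := ih fun i hi => h i (Finset.mem_insert_of_mem hi)
    obtain ⟨h4, h5⟩ := Fil.mul W h1 h2
    exact ⟨h4, by rw [h5, h3]⟩

/-- Iterating the derivation. -/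
theorem Fil.iterD {n : ℕ} {f : W.CoordinateRing} (hf : Fil W n f) (j : ℕ) :
    Fil W ((n + j : ℕ) : ℤ) ((WronskianDiv.D W)^[j] f) ∧
      sym W (n + j) ((WronskianDiv.D W)^[j] f) =
        (ascPochhammer K j).eval (n : K) * sym W n f := by
  induction j with
  | zero => simpa using hf
  | succ j ih =>
    obtain ⟨h1, h2⟩ := ih
    obtain ⟨h3, h4⟩ := Fil.D W h1
    rw [Function.iterate_succ_apply']
    refine ⟨h3, ?_⟩
    have : n + (j + 1) = n + j + 1 := rfl
    rw [this, h4, h2, ascPochhammer_succ_eval]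
    push_cast
    ring

/-- The monomial of weight `k` (meaningful for `k ≠ 1`): `X^(k/2)` or `X^((k-3)/2) Y`. -/
noncomputable def mono (k : ℕ) : W.CoordinateRing :=
  if Even k then el W (X ^ (k / 2)) 0 else el W 0 (X ^ ((k - 3) / 2))

lemma Fil_mono (k : ℕ) (hk : k ≠ 1) : Fil W k (mono W k) ∧ sym W k (mono W k) = 1 := by
  rcases Nat.even_or_odd k with he | ho
  · obtain ⟨a, rfl⟩ := he
    have h2 : (a + a) / 2 = a := by omega
    have hm : mono W (a + a) = el W (X ^ a) 0 := by rw [mono, if_pos ⟨a, rfl⟩, h2]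
    have hX : expand K 2 (X ^ a) = X ^ (a + a) := by
      rw [map_pow, expand_X, ← pow_mul, two_mul]
    refine ⟨⟨?_, ?_⟩, ?_⟩
    · rw [hm, evenPart_el, hX]
      exact VanishAbove.of_natDegree_le (natDegree_X_pow_le _)
    · rw [hm, oddPart_el, map_zero, mul_zero]; exact VanishAbove.zero _
    · rw [sym, iota, hm, evenPart_el, oddPart_el, map_zero, mul_zero, add_zero, hX, coeff_X_pow,
        if_pos rfl]
  · obtain ⟨a, rfl⟩ := ho
    have ha : 1 ≤ a := by omega
    obtain ⟨b, rfl⟩ : ∃ b, a = b + 1 := ⟨a - 1, by omega⟩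
    have h2 : (2 * (b + 1) + 1 - 3) / 2 = b := by omega
    have hne : ¬ Even (2 * (b + 1) + 1) := by
      rw [Nat.not_even_iff_odd]; exact ⟨b + 1, rfl⟩
    have hm : mono W (2 * (b + 1) + 1) = el W 0 (X ^ b) := by rw [mono, if_neg hne, h2]
    have hX : X ^ 3 * expand K 2 (X ^ b) = (X ^ (2 * (b + 1) + 1) : K[X]) := by
      rw [map_pow, expand_X, ← pow_mul, ← pow_add]; congr 1; ring
    refine ⟨⟨?_, ?_⟩, ?_⟩
    · rw [hm, evenPart_el, map_zero]; exact VanishAbove.zero _
    · rw [hm, oddPart_el, hX]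
      exact VanishAbove.of_natDegree_le (natDegree_X_pow_le _)
    · rw [sym, iota, hm, evenPart_el, oddPart_el, map_zero, zero_add, hX, coeff_X_pow,
        if_pos rfl]

/-- The weights `0, 2, 3, …, n` of the basis of `L(n·O)`, indexed by `0, …, n-1`. -/
def wgt (i : ℕ) : ℕ := if i = 0 then 0 else i + 1

lemma wgt_ne_one (i : ℕ) : wgt i ≠ 1 := by
  unfold wgt; split_ifs <;> omega

lemma wgt_injective : Function.Injective wgt := by
  intro i j h
  unfold wgt at h
  split_ifs at h <;> omega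

lemma wgt_le {n i : ℕ} (hi : i < n) : wgt i ≤ n := by
  unfold wgt; split_ifs <;> omega

/-- The Wronskian matrix `(D^j m_{w_i})`. -/
noncomputable def wrMatrix (n : ℕ) : Matrix (Fin n) (Fin n) W.CoordinateRing :=
  fun j i => (WronskianDiv.D W)^[(j : ℕ)] (mono W (wgt i))

/-- The Wronskian of the monomial basis of `L(n·O)` with respect to the invariant derivation. -/
noncomputable def Wr (n : ℕ) : W.CoordinateRing := (wrMatrix W n).det

/-- The total weight `∑ wᵢ + ∑ j`. -/
def wrWeight (n : ℕ) : ℕ := ∑ i : Fin n, (wgt i + (i : ℕ))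

/-- The matrix of leading coefficients. -/
noncomputable def wrCoeffMatrix (K : Type*) [Field K] (n : ℕ) : Matrix (Fin n) (Fin n) K :=
  fun j i => (ascPochhammer K (j : ℕ)).eval ((wgt i : ℕ) : K)

lemma wrMatrix_Fil (n : ℕ) (j i : Fin n) :
    Fil W ((wgt i + (j : ℕ) : ℕ) : ℤ) (wrMatrix W n j i) ∧
      sym W (wgt i + (j : ℕ)) (wrMatrix W n j i) = wrCoeffMatrix K n j i := by
  obtain ⟨h1, h2⟩ := Fil_mono W (wgt i) (wgt_ne_one i)
  obtain ⟨h3, h4⟩ := Fil.iterD W h1 (j : ℕ)
  refine ⟨h3, ?_⟩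
  rw [wrMatrix, h4, h2, mul_one, wrCoeffMatrix]

lemma sum_perm_weight (n : ℕ) (σ : Equiv.Perm (Fin n)) :
    ∑ i : Fin n, (wgt i + ((σ i : Fin n) : ℕ)) = wrWeight n := by
  unfold wrWeight
  rw [Finset.sum_add_distrib, Finset.sum_add_distrib]
  congr 1
  exact Equiv.sum_comp σ (fun i : Fin n => (i : ℕ))

/-- The Wronskian has pole order `≤ wrWeight n` with top symbol `det (wrCoeffMatrix)`. -/
theorem Wr_Fil (n : ℕ) :
    Fil W (wrWeight n : ℤ) (Wr W n) ∧ sym W (wrWeight n) (Wr W n) = (wrCoeffMatrix K n).det := by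
  have hterm : ∀ σ : Equiv.Perm (Fin n),
      Fil W (wrWeight n : ℤ) (∏ i, wrMatrix W n (σ i) i) ∧
        sym W (wrWeight n) (∏ i, wrMatrix W n (σ i) i) = ∏ i, wrCoeffMatrix K n (σ i) i := by
    intro σ
    have := Fil.prod W Finset.univ (fun i : Fin n => wgt i + ((σ i : Fin n) : ℕ))
      (fun i => wrMatrix W n (σ i) i) (fun i _ => (wrMatrix_Fil W n (σ i) i).1)
    rw [sum_perm_weight] at this
    refine ⟨this.1, ?_⟩
    rw [this.2]
    exact Finset.prod_congr rfl fun i _ => (wrMatrix_Fil W n (σ i) i).2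
  have hsmul : ∀ (ε : ℤˣ) (x : W.CoordinateRing), Fil W (wrWeight n : ℤ) x →
      Fil W (wrWeight n : ℤ) (ε • x) := by
    intro ε x hx
    rcases Int.units_eq_one_or ε with h | h
    · rw [h, one_smul]; exact hx
    · rw [h, Units.neg_smul, one_smul]; exact hx.neg W
  refine ⟨?_, ?_⟩
  · rw [Wr, Matrix.det_apply]
    exact Fil.sum W _ fun σ _ => hsmul _ _ (hterm σ).1
  · have hs : sym W (wrWeight n) (Wr W n) = symL W (wrWeight n) (Wr W n) := rfl
    rw [hs, Wr, Matrix.det_apply, map_sum, Matrix.det_apply]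
    refine Finset.sum_congr rfl fun σ _ => ?_
    have h2 := (hterm σ).2
    rw [Units.smul_def, Units.smul_def, map_zsmul]
    congr 1

end Fermat.Agent.S13.WronskianDiv
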