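import Fermat.Agent.S13.WrSpan

/-!
# Degree and leading coefficient of the Wronskian
-/

set_option autoImplicit false

open Polynomial
open scoped Polynomial.Bivariate

namespace Fermat.Agent.S13.WronskianDiv

open WeierstrassCurve WeierstrassCurve.Affine

variable {K : Type*} [Field K]

/-- The leading coefficient of the Wronskian: the Vandermonde determinant of the weights. -/
noncomputable def wrLead (K : Type*) [Field K] (n : ℕ) : K :=
  ∏ i : Fin n, ∏ j ∈ Finset.Ioi i, (((wgt j : ℕ) : K) - ((wgt i : ℕ) : K))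

lemma det_wrCoeffMatrix (n : ℕ) : (wrCoeffMatrix K n).det = wrLead K n := by
  have h := Matrix.det_eval_matrixOfPolynomials_eq_det_vandermonde
    (fun i : Fin n => ((wgt i : ℕ) : K)) (fun j : Fin n => ascPochhammer K (j : ℕ))
    (fun i => ascPochhammer_natDegree K _) (fun i => monic_ascPochhammer K _)
  rw [Matrix.det_vandermonde] at h
  rw [wrLead, h, ← Matrix.det_transpose]
  rfl

lemma wrLead_ne_zero [CharZero K] (n : ℕ) : wrLead K n ≠ 0 := by
  rw [wrLead]
  refine Finset.prod_ne_zero_iff.mpr fun i _ => Finset.prod_ne_zero_iff.mpr fun j hj => ?_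
  rw [sub_ne_zero]
  intro h
  have h1 : wgt (j : ℕ) = wgt (i : ℕ) := by exact_mod_cast h
  have h2 : j = i := Fin.ext (wgt_injective h1)
  rw [Finset.mem_Ioi] at hj
  exact absurd h2 (ne_of_gt hj)

lemma wrWeight_succ (m : ℕ) : wrWeight (m + 1) = (m + 1) ^ 2 - 1 := by
  induction m with
  | zero => simp [wrWeight, wgt]
  | succ m ih =>
    have : wrWeight (m + 1 + 1) = wrWeight (m + 1) + (wgt (m + 1) + (m + 1)) := by
      unfold wrWeight
      rw [Fin.sum_univ_castSucc]
      simp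
    rw [this, ih, wgt, if_neg (by omega)]
    have : (m + 1) ^ 2 ≥ 1 := Nat.one_le_pow _ _ (by omega)
    have e : (m + 1 + 1) ^ 2 = (m + 1) ^ 2 + 2 * m + 3 := by ring
    omega

lemma wrWeight_eq {n : ℕ} (hn : 1 ≤ n) : wrWeight n = n ^ 2 - 1 := by
  obtain ⟨m, rfl⟩ : ∃ m, n = m + 1 := ⟨n - 1, by omega⟩
  exact wrWeight_succ m

variable (W : WeierstrassCurve.Affine K)

/-- For odd `n`, the `K[X]`-part `u` of `Wr = u + vY` has degree `(n² - 1)/2`
and leading coefficient `wrLead`. -/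
theorem cu_Wr_odd {n : ℕ} (hn : Odd n) :
    (cu W (Wr W n)).natDegree ≤ (n ^ 2 - 1) / 2 ∧
      (cu W (Wr W n)).coeff ((n ^ 2 - 1) / 2) = wrLead K n := by
  obtain ⟨m, rfl⟩ := hn
  have hw : wrWeight (2 * m + 1) = 2 * (2 * m * (m + 1)) := by
    rw [wrWeight_eq (by omega)]
    have : (2 * m + 1) ^ 2 = 2 * (2 * m * (m + 1)) + 1 := by ring
    omega
  have hM : ((2 * m + 1) ^ 2 - 1) / 2 = 2 * m * (m + 1) := by
    have : (2 * m + 1) ^ 2 = 2 * (2 * m * (m + 1)) + 1 := by ring
    omega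
  obtain ⟨hFil, hsym⟩ := Wr_Fil W (2 * m + 1)
  rw [det_wrCoeffMatrix, hw] at hsym
  rw [hw] at hFil
  rw [hM]
  obtain ⟨u, v, huv⟩ := el_surj W (Wr W (2 * m + 1))
  rw [huv] at hFil hsym ⊢
  rw [cu_el]
  obtain ⟨hU, -⟩ := hFil
  rw [evenPart_el] at hU
  refine ⟨?_, ?_⟩
  · have := hU.natDegree_le
    rw [natDegree_expand] at this
    omega
  · rw [sym, iota_el, coeff_add, coeff_X_pow_three_mul_expand_even, add_zero,
      coeff_expand (by norm_num), if_pos ⟨_, rfl⟩, Nat.mul_div_cancel_left _ (by norm_num)] at hsym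
    exact hsym

end Fermat.Agent.S13.WronskianDiv
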