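import Fermat.Agent.S13.WrCoord

/-!
# Local analysis of the coordinate ring at a nonsingular point:
evaluation, the maximal ideal, uniformizer, Taylor functionals, `R ⧸ 𝔪ⁿ ≃ Kⁿ`.
-/

set_option autoImplicit false

open Polynomial
open scoped Polynomial.Bivariate

namespace Fermat.Agent.S13.WronskianDiv

open WeierstrassCurve WeierstrassCurve.Affine

variable {K : Type*} [Field K] (W : WeierstrassCurve.Affine K)

lemma el_C_zero (c : K) : el W (C c) 0 = algebraMap K W.CoordinateRing c := by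
  simp only [el, zero_smul, add_zero]
  rw [Algebra.algebraMap_eq_smul_one, C_eq_algebraMap, algebraMap_smul]

section Eval

variable {W} {x₀ y₀ : K} (h : W.Equation x₀ y₀)

/-- Evaluation of the coordinate ring at a point of the curve. -/
noncomputable def evalAt : W.CoordinateRing →+* K :=
  AdjoinRoot.evalEval (show W.polynomial.evalEval x₀ y₀ = 0 from h)

lemma evalAt_mk (g : K[X][Y]) : evalAt h (CoordinateRing.mk W g) = g.evalEval x₀ y₀ :=
  AdjoinRoot.evalEval_mk (show W.polynomial.evalEval x₀ y₀ = 0 from h) g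

lemma evalAt_el (u v : K[X]) : evalAt h (el W u v) = u.eval x₀ + v.eval x₀ * y₀ := by
  have : el W u v = CoordinateRing.mk W (C u + C v * Y) := by
    simp only [el, CoordinateRing.smul, map_add, map_mul, mul_one]
  rw [this, evalAt_mk]
  simp [evalEval_add, evalEval_mul, evalEval_C, evalEval_X]

lemma evalAt_algebraMap (c : K) : evalAt h (algebraMap K W.CoordinateRing c) = c := by
  rw [← el_C_zero, evalAt_el]; simp

/-- Evaluation as a `K`-algebra homomorphism. -/
noncomputable def evalAtAlg : W.CoordinateRing →ₐ[K] K :=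
  { evalAt h with commutes' := evalAt_algebraMap h }

lemma evalAtAlg_apply (f : W.CoordinateRing) : evalAtAlg h f = evalAt h f := rfl

lemma evalAt_XClass : evalAt h (CoordinateRing.XClass W x₀) = 0 := by
  rw [CoordinateRing.XClass, evalAt_mk]; simp [evalEval_C]

lemma evalAt_YClass : evalAt h (CoordinateRing.YClass W (C y₀)) = 0 := by
  rw [CoordinateRing.YClass, evalAt_mk]; simp [evalEval_sub, evalEval_X, evalEval_C]

include h in
lemma XYIdeal_isMaximal : (CoordinateRing.XYIdeal W x₀ (C y₀)).IsMaximal := by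
  have h' : (W.polynomial.eval (C y₀)).eval x₀ = 0 := h
  exact Ideal.Quotient.maximal_of_isField _
    ((CoordinateRing.quotientXYIdealEquiv h').toMulEquiv.isField (Field.toIsField K))

lemma XYIdeal_eq_ker : CoordinateRing.XYIdeal W x₀ (C y₀) = RingHom.ker (evalAt h) := by
  have hle : CoordinateRing.XYIdeal W x₀ (C y₀) ≤ RingHom.ker (evalAt h) := by
    rw [CoordinateRing.XYIdeal, Ideal.span_le]
    intro f hf
    rcases hf with rfl | rfl
    · exact evalAt_XClass h
    · exact evalAt_YClass h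
  exact (XYIdeal_isMaximal h).eq_of_le (RingHom.ker_ne_top _) hle

lemma mem_XYIdeal_iff (f : W.CoordinateRing) :
    f ∈ CoordinateRing.XYIdeal W x₀ (C y₀) ↔ evalAt h f = 0 := by
  rw [XYIdeal_eq_ker h, RingHom.mem_ker]

end Eval



section Uniformizer

variable {W} {x₀ y₀ : K}

lemma XClass_eq_el : CoordinateRing.XClass W x₀ = el W (X - C x₀) 0 := by
  simp only [el, CoordinateRing.XClass, CoordinateRing.smul, zero_smul, add_zero, mul_one]

lemma YClass_eq_el : CoordinateRing.YClass W (C y₀) = el W (-C y₀) 1 := by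
  simp only [el, CoordinateRing.YClass, CoordinateRing.smul, one_smul, mul_one, map_sub, map_neg]
  ring

/-- The Taylor relation of the Weierstrass equation at a point of the curve. -/
lemma taylor_relation (h : W.Equation x₀ y₀) :
    el W (C (2 * y₀ + W.a₁ * x₀ + W.a₃)) 0 * el W (-C y₀) 1 +
      el W (C (W.a₁ * y₀ - (3 * x₀ ^ 2 + 2 * W.a₂ * x₀ + W.a₄))) 0 * el W (X - C x₀) 0 +
      (el W (-C y₀) 1 * el W (-C y₀) 1 +
        el W (C W.a₁) 0 * (el W (X - C x₀) 0 * el W (-C y₀) 1) -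
        el W (C (3 * x₀ + W.a₂)) 0 * (el W (X - C x₀) 0 * el W (X - C x₀) 0) -
        el W (X - C x₀) 0 * (el W (X - C x₀) 0 * el W (X - C x₀) 0)) = 0 := by
  have key : ∀ P Q : K[X], P = 0 → Q = 0 → el W P Q = 0 := by
    rintro P Q rfl rfl; exact el_zero W
  have hC := congrArg C ((W.equation_iff x₀ y₀).mp h)
  simp only [map_add, map_mul, map_pow] at hC
  simp only [el_mul, el_add, el_sub]
  apply key
  · simp only [polyA, polyB, map_add, map_mul, map_pow, map_sub, map_ofNat]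
    linear_combination (-1 : K[X]) * hC
  · simp only [polyA, polyB, map_add, map_mul, map_pow, map_sub, map_ofNat]
    ring

lemma el_C_mul_el_C (c c' : K) : el W (C c) 0 * el W (C c') 0 = el W (C (c * c')) 0 := by
  rw [el_mul]; congr 1 <;> simp

/-- Existence of a uniformizer at a nonsingular point: an element `t` of the maximal ideal `𝔪`
with `𝔪 ≤ (t) + 𝔪²` and `(D t)(P) ≠ 0`. -/
theorem exists_uniformizer (h : W.Nonsingular x₀ y₀) :
    ∃ t ∈ CoordinateRing.XYIdeal W x₀ (C y₀),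
      CoordinateRing.XYIdeal W x₀ (C y₀) ≤
        Ideal.span {t} ⊔ CoordinateRing.XYIdeal W x₀ (C y₀) ^ 2 ∧
      evalAt h.1 (D W t) ≠ 0 := by
  set 𝔪 := CoordinateRing.XYIdeal W x₀ (C y₀) with h𝔪
  set a := el W (X - C x₀) 0 with ha
  set b := el W (-C y₀) 1 with hb
  have ha𝔪 : a ∈ 𝔪 := by
    rw [ha, ← XClass_eq_el]; exact Ideal.subset_span (Set.mem_insert _ _)
  have hb𝔪 : b ∈ 𝔪 := by
    rw [hb, ← YClass_eq_el]
    exact Ideal.subset_span (Set.mem_insert_of_mem _ (Set.mem_singleton _))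
  have hspan : 𝔪 = Ideal.span {a, b} := by
    rw [h𝔪, CoordinateRing.XYIdeal, XClass_eq_el, YClass_eq_el]
  set E := b * b + el W (C W.a₁) 0 * (a * b) - el W (C (3 * x₀ + W.a₂)) 0 * (a * a) -
    a * (a * a) with hE
  have hE2 : E ∈ 𝔪 ^ 2 := by
    rw [sq]
    refine Ideal.sub_mem _ (Ideal.sub_mem _ (Ideal.add_mem _ ?_ ?_) ?_) ?_
    · exact Ideal.mul_mem_mul hb𝔪 hb𝔪
    · exact Ideal.mul_mem_left _ _ (Ideal.mul_mem_mul ha𝔪 hb𝔪)
    · exact Ideal.mul_mem_left _ _ (Ideal.mul_mem_mul ha𝔪 ha𝔪)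
    · exact Ideal.mul_mem_left _ _ (Ideal.mul_mem_mul ha𝔪 ha𝔪)
  have hrel := taylor_relation h.1
  rw [← ha, ← hb, ← hE] at hrel
  obtain ⟨-, hns⟩ := (W.nonsingular_iff' x₀ y₀).mp h
  rcases hns with hx | hy
  · -- `W_X(P) ≠ 0`: `t = b`
    refine ⟨b, hb𝔪, ?_, ?_⟩
    · refine hspan.le.trans (Ideal.span_le.mpr ?_)
      have hbJ : b ∈ Ideal.span {b} ⊔ 𝔪 ^ 2 :=
        Ideal.mem_sup_left (Ideal.subset_span (Set.mem_singleton _))
      have hsum : el W (C (2 * y₀ + W.a₁ * x₀ + W.a₃)) 0 * b + E ∈ Ideal.span {b} ⊔ 𝔪 ^ 2 :=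
        Ideal.add_mem _ (Ideal.mul_mem_left _ _ hbJ) (Ideal.mem_sup_right hE2)
      have haeq : a = -(el W (C (W.a₁ * y₀ - (3 * x₀ ^ 2 + 2 * W.a₂ * x₀ + W.a₄))⁻¹) 0 *
          (el W (C (2 * y₀ + W.a₁ * x₀ + W.a₃)) 0 * b + E)) := by
        have h1 : el W (C (W.a₁ * y₀ - (3 * x₀ ^ 2 + 2 * W.a₂ * x₀ + W.a₄))⁻¹) 0 *
            el W (C (W.a₁ * y₀ - (3 * x₀ ^ 2 + 2 * W.a₂ * x₀ + W.a₄))) 0 = 1 := by
          rw [el_C_mul_el_C, inv_mul_cancel₀ hx, map_one, el_one]
        linear_combination (el W (C (W.a₁ * y₀ - (3 * x₀ ^ 2 + 2 * W.a₂ * x₀ + W.a₄))⁻¹) 0) *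
          hrel - a * h1
      intro f hf
      rcases hf with hfa | hfb
      · rw [hfa, haeq]
        exact (Ideal.neg_mem_iff _).mpr (Ideal.mul_mem_left _ _ hsum)
      · rw [Set.mem_singleton_iff] at hfb
        rw [hfb]; exact hbJ
    · rw [hb, D_el, evalAt_el, derivative_polyA, derivative_polyB]
      simp only [derivative_neg, derivative_C, derivative_one, neg_zero, mul_zero, add_zero,
        zero_add, mul_one, sub_zero, zero_sub, eval_add, eval_mul, eval_pow, eval_X, eval_C,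
        eval_neg, eval_ofNat]
      intro hz
      apply hx
      linear_combination -hz
  · -- `W_Y(P) ≠ 0`: `t = a`
    refine ⟨a, ha𝔪, ?_, ?_⟩
    · refine hspan.le.trans (Ideal.span_le.mpr ?_)
      have haJ : a ∈ Ideal.span {a} ⊔ 𝔪 ^ 2 :=
        Ideal.mem_sup_left (Ideal.subset_span (Set.mem_singleton _))
      have hsum : el W (C (W.a₁ * y₀ - (3 * x₀ ^ 2 + 2 * W.a₂ * x₀ + W.a₄))) 0 * a + E ∈
          Ideal.span {a} ⊔ 𝔪 ^ 2 :=
        Ideal.add_mem _ (Ideal.mul_mem_left _ _ haJ) (Ideal.mem_sup_right hE2)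
      have hbeq : b = -(el W (C (2 * y₀ + W.a₁ * x₀ + W.a₃)⁻¹) 0 *
          (el W (C (W.a₁ * y₀ - (3 * x₀ ^ 2 + 2 * W.a₂ * x₀ + W.a₄))) 0 * a + E)) := by
        have h1 : el W (C (2 * y₀ + W.a₁ * x₀ + W.a₃)⁻¹) 0 *
            el W (C (2 * y₀ + W.a₁ * x₀ + W.a₃)) 0 = 1 := by
          rw [el_C_mul_el_C, inv_mul_cancel₀ hy, map_one, el_one]
        linear_combination (el W (C (2 * y₀ + W.a₁ * x₀ + W.a₃)⁻¹) 0) * hrel - b * h1
      intro f hf
      rcases hf with hfa | hfb
      · rw [hfa]; exact haJ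
      · rw [Set.mem_singleton_iff] at hfb
        rw [hfb, hbeq]
        exact (Ideal.neg_mem_iff _).mpr (Ideal.mul_mem_left _ _ hsum)
    · rw [ha, D_el, evalAt_el]
      simp only [derivative_sub, derivative_X, derivative_C, derivative_zero, sub_zero, mul_zero,
        add_zero, mul_one, polyA, eval_add, eval_mul, eval_X, eval_C, eval_ofNat]
      intro hz
      apply hy
      linear_combination hz

end Uniformizer

end Fermat.Agent.S13.WronskianDiv
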