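import Fermat.Agent.S13.WrTorsion
import Fermat.Agent.S13.WrLead

/-!
# Abscissae of torsion points are roots of the `K[X]`-part of the Wronskian
-/

set_option autoImplicit false
set_option linter.unusedSectionVars false

open Polynomial
open scoped Polynomial.Bivariate

namespace Fermat.Agent.S13.WronskianDiv

open WeierstrassCurve WeierstrassCurve.Affine

variable {K : Type*} [Field K] [CharZero K] [DecidableEq K] {W : WeierstrassCurve.Affine K}

/-- A point of odd order is not a 2-torsion point. -/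
lemma Y_ne_negY_of_odd_nsmul {n : ℕ} (hn : Odd n) {x₀ y₀ : K} (h : W.Nonsingular x₀ y₀)
    (hP : n • Point.some x₀ y₀ h = 0) : y₀ ≠ W.negY x₀ y₀ := by
  intro hy
  have h2 : Point.some x₀ y₀ h + Point.some x₀ y₀ h = 0 := Point.add_self_of_Y_eq hy
  obtain ⟨m, rfl⟩ := hn
  have : (2 * m + 1) • Point.some x₀ y₀ h = Point.some x₀ y₀ h := by
    rw [add_smul, mul_comm, mul_smul, two_smul, h2, smul_zero, zero_add, one_smul]
  rw [this] at hP
  exact Point.some_ne_zero h hP

/-- The abscissa of a nonzero point of odd order `n` is a root of `cu (Wr n)`. -/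
theorem X_sub_C_dvd_cu_Wr {n : ℕ} (hn : Odd n) {x₀ y₀ : K} (h : W.Nonsingular x₀ y₀)
    (hP : n • Point.some x₀ y₀ h = 0) : (X - C x₀) ∣ cu W (Wr W n) := by
  have hn1 : 1 ≤ n := hn.pos
  have h' : W.Nonsingular x₀ (W.negY x₀ y₀) := (nonsingular_neg ..).mpr h
  have hneg : n • Point.some x₀ (W.negY x₀ y₀) h' = 0 := by
    rw [← Point.neg_some h, smul_neg, hP, neg_zero]
  have e1 := evalAt_Wr_of_nsmul_eq_zero h hn1 hP
  have e2 := evalAt_Wr_of_nsmul_eq_zero h' hn1 hneg
  rw [← el_cu_cv W (Wr W n), evalAt_el] at e1 e2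
  have hne := Y_ne_negY_of_odd_nsmul hn h hP
  have hv : (cv W (Wr W n)).eval x₀ = 0 := by
    have : (cv W (Wr W n)).eval x₀ * (y₀ - W.negY x₀ y₀) = 0 := by linear_combination e1 - e2
    rcases mul_eq_zero.mp this with h0 | h0
    · exact h0
    · exact absurd (sub_eq_zero.mp h0) hne
  rw [hv, zero_mul, add_zero] at e1
  exact dvd_iff_isRoot.mpr e1

/-- The product over a finite set of abscissae of torsion points divides `cu (Wr n)`. -/
theorem prod_X_sub_C_dvd_cu_Wr {n : ℕ} (hn : Odd n) (S : Finset K)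
    (hS : ∀ r ∈ S, ∃ (y : K) (h : W.Nonsingular r y), n • Point.some r y h = 0) :
    ∏ r ∈ S, (X - C r) ∣ cu W (Wr W n) := by
  apply Finset.prod_dvd_of_coprime
  · intro a _ b _ hab
    exact isCoprime_X_sub_C_of_isUnit_sub (sub_ne_zero.mpr hab).isUnit
  · intro r hr
    obtain ⟨y, h, hP⟩ := hS r hr
    exact X_sub_C_dvd_cu_Wr hn h hP

lemma cu_Wr_ne_zero {n : ℕ} (hn : Odd n) : cu W (Wr W n) ≠ 0 := by
  intro h0
  have := (cu_Wr_odd W hn).2
  rw [h0, coeff_zero] at this
  exact wrLead_ne_zero n this.symm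

lemma natDegree_cu_Wr {n : ℕ} (hn : Odd n) : (cu W (Wr W n)).natDegree = (n ^ 2 - 1) / 2 := by
  refine le_antisymm (cu_Wr_odd W hn).1 ?_
  apply le_natDegree_of_ne_zero
  rw [(cu_Wr_odd W hn).2]
  exact wrLead_ne_zero n

lemma leadingCoeff_cu_Wr {n : ℕ} (hn : Odd n) : (cu W (Wr W n)).leadingCoeff = wrLead K n := by
  rw [leadingCoeff, natDegree_cu_Wr hn, (cu_Wr_odd W hn).2]

/-- At most `(n² - 1)/2` abscissae of nonzero `n`-torsion points (`n` odd). -/
theorem card_abscissae_le {n : ℕ} (hn : Odd n) (S : Finset K)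
    (hS : ∀ r ∈ S, ∃ (y : K) (h : W.Nonsingular r y), n • Point.some r y h = 0) :
    S.card ≤ (n ^ 2 - 1) / 2 := by
  have hdvd := prod_X_sub_C_dvd_cu_Wr hn S hS
  have := natDegree_le_of_dvd hdvd (cu_Wr_ne_zero hn)
  rw [natDegree_prod_of_monic _ _ (fun r _ => monic_X_sub_C r)] at this
  simp only [natDegree_X_sub_C, Finset.sum_const, smul_eq_mul, mul_one] at this
  rwa [natDegree_cu_Wr hn] at this

end Fermat.Agent.S13.WronskianDiv
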