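import Fermat.Agent.S13.WrDet

/-!
# `L(n·O)` is spanned by the monomials of weight `0, 2, 3, …, n`; link with the norm degree
-/

set_option autoImplicit false

open Polynomial
open scoped Polynomial.Bivariate

namespace Fermat.Agent.S13.WronskianDiv

open WeierstrassCurve WeierstrassCurve.Affine

variable {K : Type*} [Field K] (W : WeierstrassCurve.Affine K)

lemma iota_el (u v : K[X]) : iota W (el W u v) = expand K 2 u + X ^ 3 * expand K 2 v := by
  rw [iota, evenPart_el, oddPart_el]

lemma iota_mono (k : ℕ) (hk : k ≠ 1) : iota W (mono W k) = X ^ k := by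
  rcases Nat.even_or_odd k with he | ho
  · obtain ⟨a, rfl⟩ := he
    have h2 : (a + a) / 2 = a := by omega
    rw [mono, if_pos ⟨a, rfl⟩, h2, iota_el, map_zero, mul_zero, add_zero, map_pow, expand_X,
      ← pow_mul, two_mul]
  · obtain ⟨a, rfl⟩ := ho
    have ha : 1 ≤ a := by omega
    obtain ⟨b, rfl⟩ : ∃ b, a = b + 1 := ⟨a - 1, by omega⟩
    have h2 : (2 * (b + 1) + 1 - 3) / 2 = b := by omega
    have hne : ¬ Even (2 * (b + 1) + 1) := by
      rw [Nat.not_even_iff_odd]; exact ⟨b + 1, rfl⟩
    rw [mono, if_neg hne, h2, iota_el, map_zero, zero_add, map_pow, expand_X, ← pow_mul,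
      ← pow_add]
    congr 1; ring

/-- `iota` as a linear map. -/
noncomputable def iotaL : W.CoordinateRing →ₗ[K] K[X] where
  toFun := iota W
  map_add' := iota_add W
  map_smul' c f := by rw [iota_smul, RingHom.id_apply, smul_eq_C_mul]

lemma iotaL_apply (f : W.CoordinateRing) : iotaL W f = iota W f := rfl

lemma coeff_X_pow_three_mul_expand_even (v : K[X]) (a : ℕ) :
    (X ^ 3 * expand K 2 v).coeff (2 * a) = 0 := by
  rw [coeff_X_pow_mul']
  split_ifs with h
  · rw [coeff_expand (by norm_num), if_neg]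
    omega
  · rfl

lemma iota_eq_zero {f : W.CoordinateRing} (h : iota W f = 0) : f = 0 := by
  obtain ⟨u, v, rfl⟩ := el_surj W f
  rw [iota_el] at h
  have hu : u = 0 := by
    ext a
    have := congrArg (fun p => p.coeff (2 * a)) h
    simp only [coeff_add, coeff_zero] at this
    rw [coeff_X_pow_three_mul_expand_even, add_zero, coeff_expand (by norm_num),
      if_pos ⟨a, rfl⟩, Nat.mul_div_cancel_left _ (by norm_num)] at this
    simpa using this
  rw [hu, map_zero, zero_add] at h
  have hv : v = 0 := by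
    rcases mul_eq_zero.mp h with h1 | h1
    · exact absurd h1 (pow_ne_zero _ X_ne_zero)
    · exact (expand_eq_zero (by norm_num)).mp h1
  rw [hu, hv, el_zero]

lemma iota_injective : Function.Injective (iota W) := by
  intro f g h
  have : iota W (f - g) = 0 := by
    have := (iotaL W).map_sub f g
    simp only [iotaL_apply] at this
    rw [this, h, sub_self]
  exact sub_eq_zero.mp (iota_eq_zero W this)

lemma sym_one (f : W.CoordinateRing) : sym W 1 f = 0 := by
  obtain ⟨u, v, rfl⟩ := el_surj W f
  rw [sym, iota_el, coeff_add, coeff_expand (by norm_num), if_neg (by norm_num),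
    coeff_X_pow_mul', if_neg (by norm_num), add_zero]

/-- Elements of pole order `≤ n` are combinations of the monomials of weight `0,2,3,…,n`. -/
theorem eq_sum_mono_of_Fil {n : ℕ} (hn : 1 ≤ n) {f : W.CoordinateRing} (hf : Fil W n f) :
    f = ∑ i : Fin n, sym W (wgt i) f • mono W (wgt i) := by
  apply iota_injective W
  have h1 : iota W (∑ i : Fin n, sym W (wgt i) f • mono W (wgt i)) =
      ∑ i : Fin n, C (sym W (wgt i) f) * X ^ (wgt i) := by
    rw [← iotaL_apply, map_sum]
    refine Finset.sum_congr rfl fun i _ => ?_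
    rw [map_smul, iotaL_apply, iota_mono W _ (wgt_ne_one _), smul_eq_C_mul]
  rw [h1]
  have h2 : (iota W f).natDegree < n + 1 := Nat.lt_succ_of_le (hf.va_iota W).natDegree_le
  rw [as_sum_range' (iota W f) (n + 1) h2]
  simp only [← C_mul_X_pow_eq_monomial]
  rw [Fin.sum_univ_eq_sum_range (fun i => C (sym W (wgt i) f) * X ^ (wgt i)) n]
  obtain ⟨m, rfl⟩ : ∃ m, n = m + 1 := ⟨n - 1, by omega⟩
  rw [Finset.sum_range_succ' _ (m + 1), Finset.sum_range_succ' _ m,
    Finset.sum_range_succ' (fun i => C (sym W (wgt i) f) * X ^ (wgt i)) m]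
  have h3 : (iota W f).coeff (0 + 1) = 0 := sym_one W f
  rw [h3]
  simp only [wgt, map_zero, zero_mul, add_zero]
  rfl

lemma va_expand_iff (u : K[X]) (n : ℕ) :
    VanishAbove (expand K 2 u) (n : ℤ) ↔ 2 • u.degree ≤ (n : WithBot ℕ) := by
  by_cases hu : u = 0
  · subst hu
    simp [VanishAbove.zero]
  · rw [degree_eq_natDegree hu]
    have h2 : (2 : ℕ) • ((u.natDegree : ℕ) : WithBot ℕ) = ((2 * u.natDegree : ℕ) : WithBot ℕ) := by
      rw [two_nsmul, two_mul]; rfl
    rw [h2, Nat.cast_le]
    constructor
    · intro h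
      have := h.natDegree_le
      rw [natDegree_expand] at this
      omega
    · intro h
      apply VanishAbove.of_natDegree_le
      rw [natDegree_expand]
      omega

lemma va_X_pow_three_expand_iff (v : K[X]) (n : ℕ) :
    VanishAbove (X ^ 3 * expand K 2 v) (n : ℤ) ↔ 2 • v.degree + 3 ≤ (n : WithBot ℕ) := by
  by_cases hv : v = 0
  · subst hv
    simp [VanishAbove.zero]
  · rw [degree_eq_natDegree hv]
    have h2 : (2 : ℕ) • ((v.natDegree : ℕ) : WithBot ℕ) + 3 =
        ((2 * v.natDegree + 3 : ℕ) : WithBot ℕ) := by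
      rw [two_nsmul, two_mul]; rfl
    have hne : expand K 2 v ≠ 0 := fun h => hv ((expand_eq_zero (by norm_num)).mp h)
    rw [h2, Nat.cast_le]
    constructor
    · intro h
      have := h.natDegree_le
      rw [natDegree_X_pow_mul 3 hne, natDegree_expand] at this
      omega
    · intro h
      apply VanishAbove.of_natDegree_le
      rw [natDegree_X_pow_mul 3 hne, natDegree_expand]
      omega

theorem Fil_iff_degree_norm (n : ℕ) (f : W.CoordinateRing) :
    Fil W n f ↔ (Algebra.norm K[X] f).degree ≤ (n : WithBot ℕ) := by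
  obtain ⟨u, v, rfl⟩ := el_surj W f
  have := CoordinateRing.degree_norm_smul_basis (W' := W) u v
  rw [el, this, max_le_iff, Fil, evenPart, oddPart]
  have h1 : cu W (u • (1 : W.CoordinateRing) + v • CoordinateRing.mk W Y) = u := cu_el W u v
  have h2 : cv W (u • (1 : W.CoordinateRing) + v • CoordinateRing.mk W Y) = v := cv_el W u v
  rw [h1, h2, va_expand_iff, va_X_pow_three_expand_iff]

end Fermat.Agent.S13.WronskianDiv
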