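import Mathlib

/-!
# `VanishAbove`: integer-valued degree bounds for polynomials
-/

set_option autoImplicit false

open Polynomial

namespace Fermat.Agent.S13.WronskianDiv

variable {K : Type*} [Field K]

/-- All coefficients of `p` of index `> n` vanish (with `n : ℤ`, possibly negative). -/
def VanishAbove (p : K[X]) (n : ℤ) : Prop := ∀ m : ℕ, n < (m : ℤ) → p.coeff m = 0

namespace VanishAbove

lemma zero (n : ℤ) : VanishAbove (0 : K[X]) n := fun _ _ => coeff_zero _

lemma mono {p : K[X]} {a b : ℤ} (h : VanishAbove p a) (hab : a ≤ b) : VanishAbove p b :=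
  fun m hm => h m (lt_of_le_of_lt hab hm)

lemma add {p q : K[X]} {n : ℤ} (hp : VanishAbove p n) (hq : VanishAbove q n) :
    VanishAbove (p + q) n := fun m hm => by rw [coeff_add, hp m hm, hq m hm, add_zero]

lemma neg {p : K[X]} {n : ℤ} (hp : VanishAbove p n) : VanishAbove (-p) n :=
  fun m hm => by rw [coeff_neg, hp m hm, neg_zero]

lemma sub {p q : K[X]} {n : ℤ} (hp : VanishAbove p n) (hq : VanishAbove q n) :
    VanishAbove (p - q) n := fun m hm => by rw [coeff_sub, hp m hm, hq m hm, sub_zero]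

lemma mul {p q : K[X]} {a b : ℤ} (hp : VanishAbove p a) (hq : VanishAbove q b) :
    VanishAbove (p * q) (a + b) := by
  intro m hm
  rw [coeff_mul]
  apply Finset.sum_eq_zero
  intro x hx
  rw [Finset.HasAntidiagonal.mem_antidiagonal] at hx
  by_cases h1 : a < (x.1 : ℤ)
  · rw [hp _ h1, zero_mul]
  · have h2 : b < (x.2 : ℤ) := by
      have : (x.1 : ℤ) + (x.2 : ℤ) = (m : ℤ) := by exact_mod_cast hx
      omega
    rw [hq _ h2, mul_zero]

lemma of_natDegree_le {p : K[X]} {n : ℕ} (h : p.natDegree ≤ n) : VanishAbove p (n : ℤ) :=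
  fun m hm => coeff_eq_zero_of_natDegree_lt (lt_of_le_of_lt h (by exact_mod_cast hm))

lemma natDegree_le {p : K[X]} {n : ℕ} (h : VanishAbove p (n : ℤ)) : p.natDegree ≤ n :=
  natDegree_le_iff_coeff_eq_zero.mpr fun m hm => h m (by exact_mod_cast hm)

lemma C_mul {p : K[X]} {n : ℤ} (c : K) (hp : VanishAbove p n) : VanishAbove (C c * p) n :=
  fun m hm => by rw [coeff_C_mul, hp m hm, mul_zero]

lemma X_pow_mul {p : K[X]} {n : ℤ} (k : ℕ) (hp : VanishAbove p n) :
    VanishAbove (X ^ k * p) (n + k) := by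
  intro m hm
  rw [coeff_X_pow_mul']
  split_ifs with h
  · apply hp
    have : ((m - k : ℕ) : ℤ) = (m : ℤ) - k := by omega
    omega
  · rfl

lemma of_X_pow_mul {p : K[X]} {n : ℤ} (k : ℕ) (hp : VanishAbove (X ^ k * p) (n + k)) :
    VanishAbove p n := by
  intro m hm
  have := hp (m + k) (by push_cast; omega)
  rwa [coeff_X_pow_mul] at this

lemma expand_two {p : K[X]} {n : ℤ} (hp : VanishAbove p n) :
    VanishAbove (expand K 2 p) (2 * n) := by
  intro m hm
  rw [coeff_expand (by norm_num)]
  split_ifs with h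
  · apply hp
    obtain ⟨k, rfl⟩ := h
    rw [Nat.mul_div_cancel_left _ (by norm_num)]
    push_cast at hm
    omega
  · rfl

/-- Bound for `expand 2 (derivative u)` from a bound on `expand 2 u`. -/
lemma expand_two_derivative {u : K[X]} {n : ℤ} (h : VanishAbove (expand K 2 u) n) :
    VanishAbove (expand K 2 (derivative u)) (n - 2) := by
  intro m hm
  rw [coeff_expand (by norm_num)]
  split_ifs with hd
  · obtain ⟨k, rfl⟩ := hd
    rw [Nat.mul_div_cancel_left _ (by norm_num), coeff_derivative]
    have := h (2 * (k + 1)) (by push_cast at hm ⊢; omega)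
    rw [coeff_expand (by norm_num), if_pos ⟨k + 1, rfl⟩,
      Nat.mul_div_cancel_left _ (by norm_num)] at this
    rw [this, zero_mul]
  · rfl

/-- The top coefficient of a product. -/
lemma coeff_mul_top {p q : K[X]} {a b : ℕ} (hp : VanishAbove p (a : ℤ))
    (hq : VanishAbove q (b : ℤ)) : (p * q).coeff (a + b) = p.coeff a * q.coeff b :=
  coeff_mul_add_eq_of_natDegree_le hp.natDegree_le hq.natDegree_le

end VanishAbove

end Fermat.Agent.S13.WronskianDiv
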