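import Fermat.Agent.S13.WrCoord
import Fermat.Agent.S13.WrVanish

/-!
# Pole-order filtration and symbols on the coordinate ring
-/

set_option autoImplicit false

open Polynomial
open scoped Polynomial.Bivariate

namespace Fermat.Agent.S13.WronskianDiv

open WeierstrassCurve WeierstrassCurve.Affine

variable {K : Type*} [Field K] (W : WeierstrassCurve.Affine K)

/-- Even part `u(T²)` of the weight embedding. -/
noncomputable def evenPart (f : W.CoordinateRing) : K[X] := expand K 2 (cu W f)

/-- Odd part `T³ v(T²)` of the weight embedding. -/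
noncomputable def oddPart (f : W.CoordinateRing) : K[X] := X ^ 3 * expand K 2 (cv W f)

/-- The weight embedding `u + vY ↦ u(T²) + T³ v(T²)`. -/
noncomputable def iota (f : W.CoordinateRing) : K[X] := evenPart W f + oddPart W f

/-- Pole order at infinity `≤ n`. -/
def Fil (n : ℤ) (f : W.CoordinateRing) : Prop :=
  VanishAbove (evenPart W f) n ∧ VanishAbove (oddPart W f) n

/-- The coefficient of weight `n`. -/
noncomputable def sym (n : ℕ) (f : W.CoordinateRing) : K := (iota W f).coeff n

lemma evenPart_el (u v : K[X]) : evenPart W (el W u v) = expand K 2 u := by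
  rw [evenPart, cu_el]

lemma oddPart_el (u v : K[X]) : oddPart W (el W u v) = X ^ 3 * expand K 2 v := by
  rw [oddPart, cv_el]

lemma Fil.va_iota {n : ℤ} {f : W.CoordinateRing} (h : Fil W n f) : VanishAbove (iota W f) n :=
  h.1.add h.2

lemma Fil.mono {m n : ℤ} {f : W.CoordinateRing} (h : Fil W m f) (hmn : m ≤ n) : Fil W n f :=
  ⟨h.1.mono hmn, h.2.mono hmn⟩

lemma Fil.add {n : ℤ} {f g : W.CoordinateRing} (hf : Fil W n f) (hg : Fil W n g) :
    Fil W n (f + g) := by
  refine ⟨?_, ?_⟩
  · rw [evenPart, cu_add, map_add]; exact hf.1.add hg.1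
  · rw [oddPart, cv_add, map_add, mul_add]; exact hf.2.add hg.2

lemma Fil.smul {n : ℤ} {f : W.CoordinateRing} (c : K) (hf : Fil W n f) : Fil W n (c • f) := by
  refine ⟨?_, ?_⟩
  · rw [evenPart, cu_smul, map_mul, expand_C]; exact hf.1.C_mul c
  · rw [oddPart, cv_smul, map_mul, expand_C, mul_left_comm]; exact hf.2.C_mul c

lemma Fil.zero (n : ℤ) : Fil W n 0 := by
  have h0 : (0 : W.CoordinateRing) = el W 0 0 := (el_zero W).symm
  refine ⟨?_, ?_⟩
  · rw [h0, evenPart_el, map_zero]; exact VanishAbove.zero n
  · rw [h0, oddPart_el, map_zero, mul_zero]; exact VanishAbove.zero n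

lemma Fil.neg {n : ℤ} {f : W.CoordinateRing} (hf : Fil W n f) : Fil W n (-f) := by
  have := hf.smul W (-1 : K)
  rwa [neg_one_smul] at this

lemma Fil.sub {n : ℤ} {f g : W.CoordinateRing} (hf : Fil W n f) (hg : Fil W n g) :
    Fil W n (f - g) := by
  rw [sub_eq_add_neg]; exact hf.add W (hg.neg W)

lemma Fil.sum {ι : Type*} (s : Finset ι) {n : ℤ} {f : ι → W.CoordinateRing}
    (h : ∀ i ∈ s, Fil W n (f i)) : Fil W n (∑ i ∈ s, f i) := by
  classical
  induction s using Finset.induction_on with
  | empty => simpa using Fil.zero W n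
  | insert a s ha ih =>
    rw [Finset.sum_insert ha]
    exact (h a (Finset.mem_insert_self a s)).add W
      (ih fun i hi => h i (Finset.mem_insert_of_mem hi))

lemma iota_add (f g : W.CoordinateRing) : iota W (f + g) = iota W f + iota W g := by
  simp only [iota, evenPart, oddPart, cu_add, cv_add, map_add, mul_add]; ring

lemma iota_smul (c : K) (f : W.CoordinateRing) : iota W (c • f) = C c * iota W f := by
  simp only [iota, evenPart, oddPart, cu_smul, cv_smul, map_mul, expand_C]; ring

/-- `sym n` as a linear map. -/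
noncomputable def symL (n : ℕ) : W.CoordinateRing →ₗ[K] K where
  toFun := sym W n
  map_add' f g := by simp only [sym, iota_add, coeff_add]
  map_smul' c f := by simp only [sym, iota_smul, coeff_C_mul, RingHom.id_apply, smul_eq_mul]

lemma sym_eq_zero_of_Fil {m : ℤ} {n : ℕ} {f : W.CoordinateRing} (h : Fil W m f)
    (hmn : m < (n : ℤ)) : sym W n f = 0 := h.va_iota W n hmn

/-- Explicit form of `expand 2 B`. -/
lemma expand_polyB : expand K 2 (polyB W) = X ^ 6 + C W.a₂ * X ^ 4 + C W.a₄ * X ^ 2 + C W.a₆ := by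
  simp only [polyB, map_add, map_mul, map_pow, expand_X, expand_C]; ring

lemma expand_polyA : expand K 2 (polyA W) = C W.a₁ * X ^ 2 + C W.a₃ := by
  simp only [polyA, map_add, map_mul, expand_X, expand_C]

lemma va_expand_polyB : VanishAbove (expand K 2 (polyB W)) 6 := by
  rw [expand_polyB]
  exact VanishAbove.of_natDegree_le (n := 6) (by compute_degree)

lemma va_expand_polyA : VanishAbove (expand K 2 (polyA W)) 2 := by
  rw [expand_polyA]
  exact VanishAbove.of_natDegree_le (n := 2) (by compute_degree)

lemma va_errB : VanishAbove (X ^ 6 - expand K 2 (polyB W)) 4 := by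
  rw [expand_polyB]
  have : X ^ 6 - (X ^ 6 + C W.a₂ * X ^ 4 + C W.a₄ * X ^ 2 + C W.a₆) =
      -(C W.a₂ * X ^ 4 + C W.a₄ * X ^ 2 + C W.a₆ : K[X]) := by ring
  rw [this]
  exact VanishAbove.of_natDegree_le (n := 4) (by compute_degree)

/-- Multiplicativity of the filtration and of symbols. -/
theorem Fil.mul {m n : ℕ} {f g : W.CoordinateRing} (hf : Fil W m f) (hg : Fil W n g) :
    Fil W ((m + n : ℕ) : ℤ) (f * g) ∧ sym W (m + n) (f * g) = sym W m f * sym W n g := by
  obtain ⟨u, v, rfl⟩ := el_surj W f
  obtain ⟨u', v', rfl⟩ := el_surj W g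
  obtain ⟨hU, hP⟩ := hf
  obtain ⟨hU', hP'⟩ := hg
  rw [evenPart_el] at hU hU'
  rw [oddPart_el] at hP hP'
  set U := expand K 2 u with hUdef
  set V := expand K 2 v with hVdef
  set U' := expand K 2 u' with hU'def
  set V' := expand K 2 v' with hV'def
  set A' := expand K 2 (polyA W) with hAdef
  set B' := expand K 2 (polyB W) with hBdef
  have hA := va_expand_polyA W
  have hB := va_expand_polyB W
  rw [← hAdef] at hA
  rw [← hBdef] at hB
  -- the products
  have hev : evenPart W (el W u v * el W u' v') = U * U' + V * V' * B' := by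
    rw [el_mul, evenPart_el]; simp only [map_add, map_mul, U, V, U', V', B']
  have hod : oddPart W (el W u v * el W u' v') =
      U * (X ^ 3 * V') + U' * (X ^ 3 * V) - X ^ 3 * (V * V' * A') := by
    rw [el_mul, oddPart_el]; simp only [map_add, map_sub, map_mul, U, V, U', V', A']; ring
  have h1 : VanishAbove (V * V' * B') ((m + n : ℕ) : ℤ) := by
    apply VanishAbove.of_X_pow_mul 6
    have : X ^ 6 * (V * V' * B') = (X ^ 3 * V) * (X ^ 3 * V') * B' := by ring
    rw [this]
    exact ((hP.mul hP').mul hB).mono (by push_cast; omega)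
  have h2 : VanishAbove (X ^ 3 * (V * V' * A')) ((m + n : ℕ) : ℤ) := by
    apply VanishAbove.of_X_pow_mul 3
    have : X ^ 3 * (X ^ 3 * (V * V' * A')) = (X ^ 3 * V) * (X ^ 3 * V') * A' := by ring
    rw [this]
    exact ((hP.mul hP').mul hA).mono (by push_cast; omega)
  have hFil : Fil W ((m + n : ℕ) : ℤ) (el W u v * el W u' v') := by
    refine ⟨?_, ?_⟩
    · rw [hev]
      exact ((hU.mul hU').mono (by push_cast; omega)).add h1
    · rw [hod]
      exact (((hU.mul hP').mono (by push_cast; omega)).add
        ((hU'.mul hP).mono (by push_cast; omega))).sub h2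
  refine ⟨hFil, ?_⟩
  -- symbols
  have hι : iota W (el W u v) = U + X ^ 3 * V := by rw [iota, evenPart_el, oddPart_el]
  have hι' : iota W (el W u' v') = U' + X ^ 3 * V' := by rw [iota, evenPart_el, oddPart_el]
  have hprod : iota W (el W u v * el W u' v') =
      (U + X ^ 3 * V) * (U' + X ^ 3 * V') -
        (V * V' * (X ^ 6 - B') + X ^ 3 * (V * V' * A')) := by
    rw [iota, hev, hod]; ring
  have herr : (V * V' * (X ^ 6 - B') + X ^ 3 * (V * V' * A')).coeff (m + n) = 0 := by
    have hq : VanishAbove (V * V' * (X ^ 6 - B') + X ^ 3 * (V * V' * A'))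
        (((m + n : ℕ) : ℤ) - 1) := by
      apply VanishAbove.of_X_pow_mul 6
      have : X ^ 6 * (V * V' * (X ^ 6 - B') + X ^ 3 * (V * V' * A')) =
          (X ^ 3 * V) * (X ^ 3 * V') * ((X ^ 6 - B') + X ^ 3 * A') := by ring
      rw [this]
      have hQ : VanishAbove ((X ^ 6 - B') + X ^ 3 * A') 5 := by
        refine ((va_errB W).mono (by norm_num)).add ?_
        have := hA.X_pow_mul 3
        exact this.mono (by norm_num)
      exact ((hP.mul hP').mul hQ).mono (by push_cast; omega)
    exact hq (m + n) (by omega)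
  rw [sym, sym, sym, hprod, coeff_sub, herr, sub_zero, hι, hι']
  exact VanishAbove.coeff_mul_top (hU.add hP) (hU'.add hP')

lemma expand_derivative_polyA : expand K 2 (derivative (polyA W)) = C W.a₁ := by
  rw [derivative_polyA, expand_C]

lemma expand_derivative_polyB :
    expand K 2 (derivative (polyB W)) = 3 * X ^ 4 + 2 * C W.a₂ * X ^ 2 + C W.a₄ := by
  rw [derivative_polyB]
  simp only [map_add, map_mul, map_pow, expand_X, expand_C, map_ofNat]
  ring

lemma va_expand_derivative_polyA : VanishAbove (expand K 2 (derivative (polyA W))) 0 := by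
  rw [expand_derivative_polyA]
  exact VanishAbove.of_natDegree_le (n := 0) (by compute_degree)

lemma va_expand_derivative_polyB : VanishAbove (expand K 2 (derivative (polyB W))) 4 := by
  rw [expand_derivative_polyB]
  exact VanishAbove.of_natDegree_le (n := 4) (by compute_degree)

lemma va_errB' : VanishAbove (expand K 2 (derivative (polyB W)) - 3 * X ^ 4) 2 := by
  rw [expand_derivative_polyB]
  have : (3 * X ^ 4 + 2 * C W.a₂ * X ^ 2 + C W.a₄ - 3 * X ^ 4 : K[X]) =
      2 * C W.a₂ * X ^ 2 + C W.a₄ := by ring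
  rw [this]
  exact VanishAbove.of_natDegree_le (n := 2) (by compute_degree)

lemma VanishAbove.two_mul {p : K[X]} {n : ℤ} (hp : VanishAbove p n) : VanishAbove (2 * p) n := by
  rw [_root_.two_mul]; exact hp.add hp

/-- The derivation raises the pole order by one and multiplies the symbol by the weight. -/
theorem Fil.D {n : ℕ} {f : W.CoordinateRing} (hf : Fil W n f) :
    Fil W ((n + 1 : ℕ) : ℤ) (D W f) ∧ sym W (n + 1) (D W f) = (n : K) * sym W n f := by
  obtain ⟨u, v, rfl⟩ := el_surj W f
  obtain ⟨hU, hP⟩ := hf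
  rw [evenPart_el] at hU
  rw [oddPart_el] at hP
  set U := expand K 2 u with hUdef
  set V := expand K 2 v with hVdef
  set Eu := expand K 2 (derivative u) with hEudef
  set Ev := expand K 2 (derivative v) with hEvdef
  set A' := expand K 2 (polyA W) with hAdef
  set B' := expand K 2 (polyB W) with hBdef
  set dA := expand K 2 (derivative (polyA W)) with hdAdef
  set dB := expand K 2 (derivative (polyB W)) with hdBdef
  have hA : VanishAbove A' 2 := va_expand_polyA W
  have hB : VanishAbove B' 6 := va_expand_polyB W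
  have hdA : VanishAbove dA 0 := va_expand_derivative_polyA W
  have hdB : VanishAbove dB 4 := va_expand_derivative_polyB W
  have hEu : VanishAbove Eu ((n : ℤ) - 2) := hU.expand_two_derivative
  have hV : VanishAbove V ((n : ℤ) - 3) := by
    apply VanishAbove.of_X_pow_mul 3
    exact hP.mono (by push_cast; omega)
  have hEv : VanishAbove Ev ((n : ℤ) - 3 - 2) := hV.expand_two_derivative
  have hev : evenPart W (WronskianDiv.D W (el W u v)) = A' * Eu + 2 * B' * Ev + dB * V := by
    rw [D_el, evenPart_el]; simp only [map_add, map_mul, map_ofNat, V, Eu, Ev, A', B', dB]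
  have hod : oddPart W (WronskianDiv.D W (el W u v)) =
      X ^ 3 * (2 * Eu) - X ^ 3 * (A' * Ev) - X ^ 3 * (dA * V) := by
    rw [D_el, oddPart_el]
    simp only [map_sub, map_mul, map_ofNat, V, Eu, Ev, A', dA]; ring
  have hFil : Fil W ((n + 1 : ℕ) : ℤ) (WronskianDiv.D W (el W u v)) := by
    refine ⟨?_, ?_⟩
    · rw [hev]
      refine (((hA.mul hEu).mono (by push_cast; omega)).add ?_).add ?_
      · rw [mul_assoc]
        exact ((hB.mul hEv).mono (by push_cast; omega)).two_mul
      · exact (hdB.mul hV).mono (by push_cast; omega)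
    · rw [hod]
      refine ((?_ : VanishAbove _ _).sub ?_).sub ?_
      · exact ((hEu.two_mul).X_pow_mul 3).mono (by push_cast; omega)
      · exact ((hA.mul hEv).X_pow_mul 3).mono (by push_cast; omega)
      · exact ((hdA.mul hV).X_pow_mul 3).mono (by push_cast; omega)
  refine ⟨hFil, ?_⟩
  have hι : iota W (el W u v) = U + X ^ 3 * V := by rw [iota, evenPart_el, oddPart_el]
  have hdU : derivative U = Eu * (2 * X) := by
    rw [hUdef, derivative_expand, hEudef]; norm_num
  have hdV : derivative V = Ev * (2 * X) := by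
    rw [hVdef, derivative_expand, hEvdef]; norm_num
  have hder : X ^ 2 * derivative (iota W (el W u v)) =
      2 * X ^ 3 * Eu + 3 * X ^ 4 * V + 2 * X ^ 6 * Ev := by
    rw [hι, derivative_add, derivative_mul, derivative_X_pow, hdU, hdV]
    push_cast
    rw [show (C (3:K)) = 3 from map_ofNat C 3]
    ring
  have hprod : iota W (WronskianDiv.D W (el W u v)) = X ^ 2 * derivative (iota W (el W u v)) +
      ((A' * Eu - X ^ 3 * (A' * Ev) - X ^ 3 * (dA * V)) +
        (2 * ((B' - X ^ 6) * Ev) + (dB - 3 * X ^ 4) * V)) := by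
    rw [hder, iota, hev, hod]; ring
  have herr : ((A' * Eu - X ^ 3 * (A' * Ev) - X ^ 3 * (dA * V)) +
        (2 * ((B' - X ^ 6) * Ev) + (dB - 3 * X ^ 4) * V)).coeff (n + 1) = 0 := by
    have hq : VanishAbove ((A' * Eu - X ^ 3 * (A' * Ev) - X ^ 3 * (dA * V)) +
        (2 * ((B' - X ^ 6) * Ev) + (dB - 3 * X ^ 4) * V)) (n : ℤ) := by
      refine ((((hA.mul hEu).mono (by omega)).sub ?_).sub ?_).add (?_ : VanishAbove _ _)
      · exact ((hA.mul hEv).X_pow_mul 3).mono (by push_cast; omega)
      · exact ((hdA.mul hV).X_pow_mul 3).mono (by push_cast; omega)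
      · refine VanishAbove.add ?_ ?_
        · have h6 : VanishAbove (B' - X ^ 6) 4 := by
            have := (va_errB W).neg
            rwa [neg_sub] at this
          exact ((h6.mul hEv).mono (by omega)).two_mul
        · exact ((va_errB' W).mul hV).mono (by omega)
    exact hq (n + 1) (by push_cast; omega)
  rw [sym, sym, hprod, coeff_add, herr, add_zero]
  rcases Nat.eq_zero_or_pos n with hn | hn
  · subst hn
    rw [coeff_X_pow_mul']
    simp
  · obtain ⟨k, rfl⟩ : ∃ k, n = k + 1 := ⟨n - 1, by omega⟩
    have : k + 1 + 1 = k + 2 := rfl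
    rw [this, coeff_X_pow_mul, coeff_derivative]
    push_cast
    ring

end Fermat.Agent.S13.WronskianDiv
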