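import Mathlib

/-!
# Taylor functionals at a smooth point of a one-dimensional algebra with a derivation

Generic setting: `A` a commutative `k`-algebra (`k` a field of characteristic zero), `d` a
`k`-derivation of `A`, `ev : A →ₐ[k] k` an evaluation with kernel `𝔪`, and a uniformizer
`t ∈ 𝔪` with `𝔪 ≤ (t) + 𝔪²` and `ev (d t) ≠ 0`.  Then `f ∈ 𝔪ⁿ ↔ ev (dʲ f) = 0` for all `j < n`,
and `A ⧸ 𝔪ⁿ ≃ kⁿ`.
-/

set_option autoImplicit false
set_option linter.unusedSectionVars false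

namespace Fermat.Agent.S13.WronskianDiv

section GenericDerivation

variable {k A : Type*} [CommRing k] [CommRing A] [Algebra k A] (d : Derivation k A A)
  (I : Ideal A)

/-- A derivation lowers the `I`-adic order by at most one. -/
lemma deriv_mem_pow {n : ℕ} {f : A} (hf : f ∈ I ^ (n + 1)) : d f ∈ I ^ n := by
  induction n generalizing f with
  | zero => simp
  | succ n ih =>
    rw [pow_succ] at hf
    refine Submodule.mul_induction_on hf ?_ ?_
    · intro a ha b hb
      rw [Derivation.leibniz, smul_eq_mul, smul_eq_mul]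
      refine Ideal.add_mem _ ?_ ?_
      · exact Ideal.mul_mem_right _ _ ha
      · have := Ideal.mul_mem_mul (ih ha) hb
        rw [← pow_succ] at this
        rwa [mul_comm]
    · intro x y hx hy
      rw [map_add]
      exact Ideal.add_mem _ hx hy

/-- Iterated version. -/
lemma iterate_deriv_mem_pow (j : ℕ) {n : ℕ} {f : A} (hf : f ∈ I ^ (n + j)) :
    d^[j] f ∈ I ^ n := by
  induction j generalizing f with
  | zero => simpa using hf
  | succ j ih =>
    rw [Function.iterate_succ_apply]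
    apply ih
    apply deriv_mem_pow d I
    exact hf

/-- `dᵏ (c tᵏ) ≡ k! c (d t)ᵏ` modulo `I`, for `t ∈ I`. -/
lemma iterate_deriv_mul_pow {t : A} (ht : t ∈ I) (k : ℕ) (c : A) :
    d^[k] (c * t ^ k) - (k.factorial : A) * c * (d t) ^ k ∈ I := by
  induction k generalizing c with
  | zero => simp
  | succ k ih =>
    rw [Function.iterate_succ_apply]
    have h1 : d (c * t ^ (k + 1)) = d c * t ^ (k + 1) + ((k + 1 : ℕ) : A) * c * d t * t ^ k := by
      rw [Derivation.leibniz, Derivation.leibniz_pow, smul_eq_mul, smul_eq_mul]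
      simp only [nsmul_eq_mul, smul_eq_mul, Nat.add_sub_cancel]
      ring
    rw [h1, iterate_map_add]
    have h2 : d^[k] (d c * t ^ (k + 1)) ∈ I := by
      have := iterate_deriv_mem_pow d I k (n := 1) (f := d c * t ^ (k + 1))
        (by rw [add_comm]; exact Ideal.mul_mem_left _ _ (Ideal.pow_mem_pow ht _))
      simpa using this
    have h3 := ih (((k + 1 : ℕ) : A) * c * d t)
    have h4 : d^[k] (d c * t ^ (k + 1)) + d^[k] (((k + 1 : ℕ) : A) * c * d t * t ^ k) -
        ((k + 1).factorial : A) * c * d t ^ (k + 1) =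
        d^[k] (d c * t ^ (k + 1)) + (d^[k] (((k + 1 : ℕ) : A) * c * d t * t ^ k) -
          (k.factorial : A) * (((k + 1 : ℕ) : A) * c * d t) * d t ^ k) := by
      rw [Nat.factorial_succ]
      push_cast
      ring
    rw [h4]
    exact Ideal.add_mem _ h2 h3

end GenericDerivation

section Taylor

variable {k A : Type*} [Field k] [CharZero k] [CommRing A] [Algebra k A]
  (d : Derivation k A A) (ev : A →ₐ[k] k) (𝔪 : Ideal A) (h𝔪 : ∀ f, f ∈ 𝔪 ↔ ev f = 0)
  (t : A) (ht : t ∈ 𝔪) (hsup : 𝔪 ≤ Ideal.span {t} ⊔ 𝔪 ^ 2) (hdt : ev (d t) ≠ 0)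

include ht hsup in
lemma pow_le_span_sup (n : ℕ) : 𝔪 ^ n ≤ Ideal.span {t ^ n} ⊔ 𝔪 ^ (n + 1) := by
  induction n with
  | zero => simp
  | succ n ih =>
    have htn : Ideal.span {t ^ n} ≤ 𝔪 ^ n :=
      (Ideal.span_singleton_le_iff_mem _).mpr (Ideal.pow_mem_pow ht n)
    have ht1 : Ideal.span {t} ≤ 𝔪 := (Ideal.span_singleton_le_iff_mem _).mpr ht
    calc 𝔪 ^ (n + 1) = 𝔪 ^ n * 𝔪 := pow_succ _ _
      _ ≤ (Ideal.span {t ^ n} ⊔ 𝔪 ^ (n + 1)) * (Ideal.span {t} ⊔ 𝔪 ^ 2) := Ideal.mul_mono ih hsup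
      _ ≤ Ideal.span {t ^ (n + 1)} ⊔ 𝔪 ^ (n + 1 + 1) := by
        rw [Ideal.sup_mul, Ideal.mul_sup, Ideal.mul_sup]
        refine sup_le (sup_le ?_ ?_) (sup_le ?_ ?_)
        · rw [Ideal.span_singleton_mul_span_singleton, ← pow_succ]; exact le_sup_left
        · refine le_trans (Ideal.mul_mono htn le_rfl) (le_trans ?_ le_sup_right)
          rw [← pow_add]
        · refine le_trans (Ideal.mul_mono le_rfl ht1) (le_trans ?_ le_sup_right)
          rw [← pow_succ]
        · refine le_trans ?_ le_sup_right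
          rw [← pow_add]
          exact Ideal.pow_le_pow_right (by omega)

include ht hsup in
lemma exists_sub_mul_pow_mem {n : ℕ} {f : A} (hf : f ∈ 𝔪 ^ n) :
    ∃ c : A, f - c * t ^ n ∈ 𝔪 ^ (n + 1) := by
  have := pow_le_span_sup 𝔪 t ht hsup n hf
  rw [Submodule.mem_sup] at this
  obtain ⟨y, hy, z, hz, rfl⟩ := this
  obtain ⟨c, rfl⟩ := Ideal.mem_span_singleton'.mp hy
  exact ⟨c, by simpa using hz⟩

/-- The `j`-th Taylor functional. -/
def tay (j : ℕ) (f : A) : k := ev (d^[j] f)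

lemma tay_add (j : ℕ) (f g : A) : tay d ev j (f + g) = tay d ev j f + tay d ev j g := by
  simp only [tay, iterate_map_add, map_add]

lemma iterate_deriv_smul (j : ℕ) (c : k) (f : A) : d^[j] (c • f) = c • d^[j] f := by
  induction j with
  | zero => rfl
  | succ j ih =>
    rw [Function.iterate_succ_apply', ih, Derivation.map_smul, ← Function.iterate_succ_apply' d]

lemma tay_smul (j : ℕ) (c : k) (f : A) : tay d ev j (c • f) = c * tay d ev j f := by
  simp only [tay]
  rw [iterate_deriv_smul, map_smul, smul_eq_mul]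

lemma tay_sub (j : ℕ) (f g : A) : tay d ev j (f - g) = tay d ev j f - tay d ev j g := by
  simp only [tay, iterate_map_sub, map_sub]

include h𝔪 in
lemma tay_eq_zero_of_mem {j : ℕ} {f : A} (hf : f ∈ 𝔪 ^ (j + 1)) : tay d ev j f = 0 := by
  have := iterate_deriv_mem_pow d 𝔪 j (n := 1) (f := f) (by rwa [add_comm])
  rw [pow_one] at this
  exact (h𝔪 _).mp this

include h𝔪 ht in
lemma tay_mul_pow (j : ℕ) (c : A) :
    tay d ev j (c * t ^ j) = (j.factorial : k) * ev c * ev (d t) ^ j := by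
  have := (h𝔪 _).mp (iterate_deriv_mul_pow d 𝔪 ht j c)
  rw [map_sub, sub_eq_zero] at this
  rw [tay, this]
  simp

include h𝔪 ht hsup hdt in
lemma mem_pow_succ_of_tay {j : ℕ} {f : A} (hf : f ∈ 𝔪 ^ j) (h0 : tay d ev j f = 0) :
    f ∈ 𝔪 ^ (j + 1) := by
  obtain ⟨c, hc⟩ := exists_sub_mul_pow_mem 𝔪 t ht hsup hf
  have h1 : tay d ev j (f - c * t ^ j) = 0 := tay_eq_zero_of_mem d ev 𝔪 h𝔪 hc
  rw [tay_sub, h0, tay_mul_pow d ev 𝔪 h𝔪 t ht, zero_sub, neg_eq_zero] at h1
  have hfac : (j.factorial : k) ≠ 0 := Nat.cast_ne_zero.mpr (Nat.factorial_ne_zero j)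
  have hc0 : ev c = 0 := by
    rcases mul_eq_zero.mp h1 with h2 | h2
    · rcases mul_eq_zero.mp h2 with h3 | h3
      · exact absurd h3 hfac
      · exact h3
    · exact absurd (pow_eq_zero_iff (n := j) (by
        rintro rfl
        simp at h2) |>.mp h2) hdt
  have hcm : c ∈ 𝔪 := (h𝔪 c).mpr hc0
  have : c * t ^ j ∈ 𝔪 ^ (j + 1) := by
    have h5 := Ideal.mul_mem_mul (Ideal.pow_mem_pow ht j) hcm
    rwa [← pow_succ, mul_comm] at h5
  have := Ideal.add_mem _ hc this
  simpa using this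

include h𝔪 ht hsup hdt in
/-- Order of vanishing via Taylor functionals. -/
theorem mem_pow_iff_tay (n : ℕ) (f : A) : f ∈ 𝔪 ^ n ↔ ∀ j < n, tay d ev j f = 0 := by
  constructor
  · intro hf j hj
    exact tay_eq_zero_of_mem d ev 𝔪 h𝔪 (Ideal.pow_le_pow_right (by omega) hf)
  · intro h
    induction n with
    | zero => simp
    | succ n ih =>
      exact mem_pow_succ_of_tay d ev 𝔪 h𝔪 t ht hsup hdt
        (ih fun j hj => h j (by omega)) (h n (by omega))

include h𝔪 ht hdt in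
/-- Prescribing the first `n` Taylor coefficients. -/
theorem exists_tay_eq (w : ℕ → k) (n : ℕ) : ∃ f : A, ∀ j < n, tay d ev j f = w j := by
  induction n with
  | zero => exact ⟨0, fun j hj => absurd hj (by omega)⟩
  | succ n ih =>
    obtain ⟨f₀, hf₀⟩ := ih
    set δ : k := (n.factorial : k) * ev (d t) ^ n with hδ
    have hδ0 : δ ≠ 0 :=
      mul_ne_zero (Nat.cast_ne_zero.mpr (Nat.factorial_ne_zero n)) (pow_ne_zero _ hdt)
    set c : k := (w n - tay d ev n f₀) / δ with hc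
    refine ⟨f₀ + algebraMap k A c * t ^ n, fun j hj => ?_⟩
    rw [tay_add]
    rcases Nat.lt_succ_iff_lt_or_eq.mp hj with hlt | rfl
    · rw [hf₀ j hlt]
      have : tay d ev j (algebraMap k A c * t ^ n) = 0 := by
        apply tay_eq_zero_of_mem d ev 𝔪 h𝔪
        exact Ideal.mul_mem_left _ _ (Ideal.pow_le_pow_right (by omega) (Ideal.pow_mem_pow ht n))
      rw [this, add_zero]
    · rw [tay_mul_pow d ev 𝔪 h𝔪 t ht, AlgHom.commutes, Algebra.algebraMap_self_apply]
      rw [hc]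
      field_simp
      ring

/-- The Taylor map `f ↦ (ev (dʲ f))_{j<n}`. -/
def tayLin (n : ℕ) : A →ₗ[k] (Fin n → k) where
  toFun f := fun j => tay d ev (j : ℕ) f
  map_add' f g := by ext j; simp [tay_add]
  map_smul' c f := by ext j; simp [tay_smul]

include h𝔪 ht hsup hdt in
lemma ker_tayLin (n : ℕ) : LinearMap.ker (tayLin d ev n) = (𝔪 ^ n).restrictScalars k := by
  ext f
  rw [LinearMap.mem_ker, Submodule.restrictScalars_mem, mem_pow_iff_tay d ev 𝔪 h𝔪 t ht hsup hdt]
  constructor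
  · intro h j hj
    exact congrFun h ⟨j, hj⟩
  · intro h
    ext j
    exact h j j.2

include h𝔪 ht hdt in
lemma tayLin_surjective (n : ℕ) : Function.Surjective (tayLin d ev n) := by
  intro w
  obtain ⟨f, hf⟩ := exists_tay_eq d ev 𝔪 h𝔪 t ht hdt
    (fun j => if hj : j < n then w ⟨j, hj⟩ else 0) n
  refine ⟨f, ?_⟩
  ext j
  change tay d ev (j : ℕ) f = w j
  rw [hf j j.2, dif_pos j.2]

include h𝔪 ht hsup hdt in
/-- `A ⧸ 𝔪ⁿ ≃ kⁿ`. -/
theorem nonempty_quot_pow_equiv (n : ℕ) : Nonempty ((A ⧸ 𝔪 ^ n) ≃ₗ[k] (Fin n → k)) := by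
  have e1 := (Submodule.Quotient.restrictScalarsEquiv k (𝔪 ^ n)).symm
  have e2 := Submodule.quotEquivOfEq _ _ (ker_tayLin d ev 𝔪 h𝔪 t ht hsup hdt n).symm
  have e3 := (tayLin d ev n).quotKerEquivOfSurjective (tayLin_surjective d ev 𝔪 h𝔪 t ht hdt n)
  exact ⟨e1 ≪≫ₗ e2 ≪≫ₗ e3⟩

include h𝔪 ht hsup hdt in
theorem finrank_quot_pow (n : ℕ) : Module.finrank k (A ⧸ 𝔪 ^ n) = n := by
  obtain ⟨e⟩ := nonempty_quot_pow_equiv d ev 𝔪 h𝔪 t ht hsup hdt n
  rw [e.finrank_eq]
  simp

include h𝔪 ht hsup hdt in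
theorem finite_quot_pow (n : ℕ) : Module.Finite k (A ⧸ 𝔪 ^ n) := by
  obtain ⟨e⟩ := nonempty_quot_pow_equiv d ev 𝔪 h𝔪 t ht hsup hdt n
  exact Module.Finite.equiv e.symm

end Taylor

section Compare

variable {k A : Type*} [Field k] [CommRing A] [Algebra k A]

/-- If `J ≤ I`, `A ⧸ J` is finite-dimensional and `dim (A ⧸ J) ≤ dim (A ⧸ I)` then `I = J`. -/
theorem ideal_eq_of_finrank_le {I J : Ideal A} (hJI : J ≤ I) [Module.Finite k (A ⧸ J)]
    (hdim : Module.finrank k (A ⧸ J) ≤ Module.finrank k (A ⧸ I)) : I = J := by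
  refine le_antisymm ?_ hJI
  let φ : (A ⧸ J) →ₐ[k] (A ⧸ I) := Ideal.Quotient.factorₐ k hJI
  have hsurj : Function.Surjective φ := Ideal.Quotient.factor_surjective hJI
  have h1 := LinearMap.finrank_range_add_finrank_ker φ.toLinearMap
  have h2 : Module.finrank k (LinearMap.range φ.toLinearMap) = Module.finrank k (A ⧸ I) := by
    rw [LinearMap.range_eq_top.mpr hsurj, finrank_top]
  have h3 : Module.finrank k (LinearMap.ker φ.toLinearMap) = 0 := by omega
  have h4 : LinearMap.ker φ.toLinearMap = ⊥ := Submodule.finrank_eq_zero.mp h3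
  have hinj : Function.Injective φ := LinearMap.ker_eq_bot.mp h4
  intro x hx
  have : φ (Ideal.Quotient.mk J x) = 0 := by
    change Ideal.Quotient.factor hJI (Ideal.Quotient.mk J x) = 0
    rw [Ideal.Quotient.factor_mk, Ideal.Quotient.eq_zero_iff_mem]
    exact hx
  have := hinj (this.trans (map_zero φ).symm)
  exact Ideal.Quotient.eq_zero_iff_mem.mp this

end Compare

end Fermat.Agent.S13.WronskianDiv
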