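import Fermat.Agent.S13.WrSpan
import Fermat.Agent.S13.WrLocal
import Fermat.Agent.S13.WrTaylor

/-!
# Zeros of the Wronskian of `L(n·O)` are exactly the nonzero `n`-torsion points
-/

set_option autoImplicit false
set_option linter.unusedSectionVars false

open Polynomial
open scoped Polynomial.Bivariate nonZeroDivisors

namespace Fermat.Agent.S13.WronskianDiv

open WeierstrassCurve WeierstrassCurve.Affine

variable {K : Type*} [Field K] [CharZero K] (W : WeierstrassCurve.Affine K)

section Point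

variable {W} {x₀ y₀ : K} (h : W.Nonsingular x₀ y₀)

include h in
/-- Order of vanishing at a nonsingular point via the invariant derivation. -/
theorem mem_XYIdeal_pow_iff (n : ℕ) (f : W.CoordinateRing) :
    f ∈ CoordinateRing.XYIdeal W x₀ (C y₀) ^ n ↔
      ∀ j < n, evalAt h.1 ((WronskianDiv.D W)^[j] f) = 0 := by
  obtain ⟨t, ht, hsup, hdt⟩ := exists_uniformizer h
  exact mem_pow_iff_tay (WronskianDiv.D W) (evalAtAlg h.1) _ (mem_XYIdeal_iff h.1) t ht hsup hdt n f

include h in
theorem finrank_quot_XYIdeal_pow (n : ℕ) :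
    Module.finrank K (W.CoordinateRing ⧸ CoordinateRing.XYIdeal W x₀ (C y₀) ^ n) = n := by
  obtain ⟨t, ht, hsup, hdt⟩ := exists_uniformizer h
  exact finrank_quot_pow (WronskianDiv.D W) (evalAtAlg h.1) _ (mem_XYIdeal_iff h.1) t ht hsup hdt n

/-- The combination `∑ cᵢ mᵢ` of the monomial basis of `L(n·O)`. -/
noncomputable def comb (n : ℕ) (c : Fin n → K) : W.CoordinateRing :=
  ∑ i : Fin n, c i • mono W (wgt i)

lemma sym_comb (n : ℕ) (c : Fin n → K) (i : Fin n) : sym W (wgt i) (comb (W := W) n c) = c i := by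
  have hs : sym W (wgt i) (comb (W := W) n c) = symL W (wgt i) (comb (W := W) n c) := rfl
  rw [hs, comb, map_sum]
  have : ∀ k : Fin n, symL W (wgt i) (c k • mono W (wgt k)) = if k = i then c k else 0 := by
    intro k
    rw [map_smul]
    change c k • sym W (wgt i) (mono W (wgt k)) = _
    rw [sym, iota_mono W _ (wgt_ne_one _), coeff_X_pow]
    by_cases hki : k = i
    · subst hki; simp
    · have : wgt i ≠ wgt k := fun e => hki (Fin.ext (wgt_injective e)).symm
      rw [if_neg this, if_neg hki, smul_zero]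
  simp only [this, Finset.sum_ite_eq', Finset.mem_univ, if_true]

lemma comb_ne_zero {n : ℕ} {c : Fin n → K} (hc : c ≠ 0) : comb (W := W) n c ≠ 0 := by
  intro h0
  apply hc
  ext i
  rw [← sym_comb (W := W) n c i, h0]
  have : sym W (wgt i) (0 : W.CoordinateRing) = symL W (wgt i) 0 := rfl
  rw [this, map_zero]; rfl

lemma Fil_comb (n : ℕ) (c : Fin n → K) : Fil W n (comb (W := W) n c) := by
  refine Fil.sum W _ fun i _ => Fil.smul W _ ?_
  exact (Fil_mono W (wgt i) (wgt_ne_one _)).1.mono W (by exact_mod_cast wgt_le i.2)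

/-- The evaluated Wronskian matrix. -/
noncomputable def wrMatrixAt (n : ℕ) : Matrix (Fin n) (Fin n) K :=
  (wrMatrix W n).map (evalAt h.1)

lemma det_wrMatrixAt (n : ℕ) : (wrMatrixAt h n).det = evalAt h.1 (Wr W n) := by
  rw [wrMatrixAt, Wr, RingHom.map_det]; rfl

lemma iterate_D_comb (n : ℕ) (c : Fin n → K) (j : Fin n) :
    evalAt h.1 ((WronskianDiv.D W)^[(j : ℕ)] (comb (W := W) n c)) = (wrMatrixAt h n).mulVec c j := by
  have h1 : evalAt h.1 ((WronskianDiv.D W)^[(j : ℕ)] (comb (W := W) n c)) =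
      tayLin (WronskianDiv.D W) (evalAtAlg h.1) n (comb (W := W) n c) j := rfl
  rw [h1, comb, map_sum]
  simp only [map_smul, Finset.sum_apply, Pi.smul_apply, Matrix.mulVec, dotProduct, smul_eq_mul]
  refine Finset.sum_congr rfl fun i _ => ?_
  rw [mul_comm]
  rfl

lemma finite_quot_span {f : W.CoordinateRing} (hf : f ≠ 0) :
    Module.Finite K (W.CoordinateRing ⧸ Ideal.span {f}) := by
  have hI : Ideal.span {f} ≠ ⊥ := by
    rwa [Ne, Ideal.span_singleton_eq_bot]
  exact Module.Finite.equiv (Ideal.quotientEquivDirectSum K (CoordinateRing.basis W) hI).symm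

include h in
/-- If `f ≠ 0` has pole order `≤ n` and vanishes to order `≥ n` at `P`, then `(f) = 𝔪_Pⁿ`. -/
theorem XYIdeal_pow_eq_span {n : ℕ} {f : W.CoordinateRing} (hf0 : f ≠ 0) (hFil : Fil W n f)
    (hmem : f ∈ CoordinateRing.XYIdeal W x₀ (C y₀) ^ n) :
    CoordinateRing.XYIdeal W x₀ (C y₀) ^ n = Ideal.span {f} := by
  have hle : Ideal.span {f} ≤ CoordinateRing.XYIdeal W x₀ (C y₀) ^ n :=
    (Ideal.span_singleton_le_iff_mem _).mpr hmem
  have := finite_quot_span (W := W) hf0
  apply ideal_eq_of_finrank_le (k := K) hle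
  rw [finrank_quot_XYIdeal_pow h,
    finrank_quotient_span_eq_natDegree_norm (CoordinateRing.basis W) hf0]
  have := (Fil_iff_degree_norm W n f).mp hFil
  exact natDegree_le_iff_degree_le.mpr this

include h in
/-- A generator of `𝔪_Pⁿ` has pole order `≤ n`. -/
theorem Fil_of_XYIdeal_pow_eq_span {n : ℕ} {f : W.CoordinateRing} (hf0 : f ≠ 0)
    (heq : CoordinateRing.XYIdeal W x₀ (C y₀) ^ n = Ideal.span {f}) : Fil W n f := by
  rw [Fil_iff_degree_norm]
  apply natDegree_le_iff_degree_le.mp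
  rw [← finrank_quotient_span_eq_natDegree_norm (CoordinateRing.basis W) hf0, ← heq,
    finrank_quot_XYIdeal_pow h]

variable [DecidableEq K]

lemma nsmul_some_eq_zero_iff (n : ℕ) :
    n • (Point.some x₀ y₀ h) = 0 ↔
      ∃ f : W.CoordinateRing, f ≠ 0 ∧ CoordinateRing.XYIdeal W x₀ (C y₀) ^ n = Ideal.span {f} := by
  rw [← Point.toClass_eq_zero, map_nsmul, Point.toClass_some]
  have hcoe : (((CoordinateRing.XYIdeal' (W := W) h) ^ n :
      (FractionalIdeal W.CoordinateRing⁰ W.FunctionField)ˣ) :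
        FractionalIdeal W.CoordinateRing⁰ W.FunctionField) =
      ((CoordinateRing.XYIdeal W x₀ (C y₀) ^ n : Ideal W.CoordinateRing) :
        FractionalIdeal W.CoordinateRing⁰ W.FunctionField) := by
    rw [Units.val_pow_eq_pow_val, CoordinateRing.XYIdeal'_eq, FractionalIdeal.coeIdeal_pow]
  have := ClassGroup.mk_eq_one_of_coe_ideal hcoe
  rw [map_pow] at this
  exact this

/-- **Zeros of the Wronskian are torsion points.** -/
theorem nsmul_eq_zero_of_evalAt_Wr {n : ℕ} (hz : evalAt h.1 (Wr W n) = 0) :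
    n • (Point.some x₀ y₀ h) = 0 := by
  rw [nsmul_some_eq_zero_iff]
  rw [← det_wrMatrixAt h] at hz
  obtain ⟨c, hc, hMc⟩ := Matrix.exists_mulVec_eq_zero_iff.mpr hz
  refine ⟨comb (W := W) n c, comb_ne_zero hc, ?_⟩
  apply XYIdeal_pow_eq_span h (comb_ne_zero hc) (Fil_comb n c)
  rw [mem_XYIdeal_pow_iff h]
  intro j hj
  have := iterate_D_comb h n c ⟨j, hj⟩
  rw [hMc] at this
  exact this

/-- **Nonzero torsion points are zeros of the Wronskian.** -/
theorem evalAt_Wr_of_nsmul_eq_zero {n : ℕ} (hn : 1 ≤ n) (hP : n • (Point.some x₀ y₀ h) = 0) :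
    evalAt h.1 (Wr W n) = 0 := by
  obtain ⟨f, hf0, heq⟩ := (nsmul_some_eq_zero_iff h n).mp hP
  have hFil := Fil_of_XYIdeal_pow_eq_span h hf0 heq
  have hfc := eq_sum_mono_of_Fil W hn hFil
  set c : Fin n → K := fun i => sym W (wgt i) f with hc
  have hcomb : f = comb (W := W) n c := hfc
  have hc0 : c ≠ 0 := by
    intro h0
    apply hf0
    rw [hcomb, comb, h0]
    simp
  have hmem : f ∈ CoordinateRing.XYIdeal W x₀ (C y₀) ^ n := by
    rw [heq]; exact Ideal.subset_span (Set.mem_singleton f)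
  rw [mem_XYIdeal_pow_iff h] at hmem
  rw [← det_wrMatrixAt h]
  apply Matrix.exists_mulVec_eq_zero_iff.mp
  refine ⟨c, hc0, ?_⟩
  ext j
  rw [← iterate_D_comb h n c j, ← hcomb]
  exact hmem j j.2

end Point

end Fermat.Agent.S13.WronskianDiv
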