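/-
S13, block (Σ) (owner: helper34): the torsion points of odd order `n = 2m+1` in the kernel of
reduction `E1(A)` satisfy `v(n) * ∏ v(x(T)) ≤ 1`, the product over any finite set of distinct
non-integral abscissae of `n`-torsion points.

No division polynomials, no formal group, no completion: everything happens in the ring of
"integral analytic functions" of the single variable `t = 1/x` on the open unit disc of the
valuation subring `A`:

* `An1 A f` : `f : K → K` is built from constants of `A`, the variable, `+`, `*` and inverses of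
  functions whose value at `0` is a unit of `A`;
* factor lemma: `f t - f t₁ = (t - t₁) * g t` on the disc, with `g` again in `An1`;
* the x-only sum formula gives a three-term recursion WITH UNIT DENOMINATORS for
  `ξ(kP) = 1/x(kP)` in terms of `t = ξ(P)`: `ξ(kP) = t * Nf k t`, `Nf k` in `An1`, `Nf k 0 = k²`;
* for `T` of order dividing `2m+1` in `E1(A)`: `(m+1)T = -(mT)`, hence `δ := Nf (m+1) - Nf m`
  vanishes at `ξ(T)`, and `δ 0 = 2m+1`; factoring out the distinct roots and evaluating at `0`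
  gives `2m+1 = ± ∏ ξ(T_i) * g 0` with `g 0 ∈ A`.
-/
import Mathlib
import Fermat.Agent.S13.XOnlyGen
import Fermat.Agent.S13.E1Subgroup

set_option autoImplicit false

namespace Fermat.Agent.S13.XiSum

open WeierstrassCurve WeierstrassCurve.Affine Fermat.Agent.S13.XOnlyGen
  Fermat.Agent.S13.E1Subgroup

variable {K : Type*} [Field K] (A : ValuationSubring K)

/-! ### integral analytic functions of one variable on the open unit disc -/

/-- functions built from constants of `A`, the variable, `+`, `*`, and inversion of functions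
whose value at `0` is a unit of `A`. -/
inductive An1 : (K → K) → Prop
  | const (a : K) (ha : a ∈ A) : An1 (fun _ => a)
  | var : An1 (fun t => t)
  | add {f g : K → K} : An1 f → An1 g → An1 (fun t => f t + g t)
  | mul {f g : K → K} : An1 f → An1 g → An1 (fun t => f t * g t)
  | inv {f : K → K} : An1 f → A.valuation (f 0) = 1 → An1 (fun t => (f t)⁻¹)

namespace An1

variable {A}

lemma natCast (n : ℕ) : An1 A (fun _ => (n : K)) := An1.const _ (natCast_mem A n)

lemma ofNat (n : ℕ) [n.AtLeastTwo] : An1 A (fun _ => (OfNat.ofNat n : K)) := by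
  have h := natCast (A := A) n
  have e : (fun _ : K => (n : K)) = fun _ => (OfNat.ofNat n : K) := by
    funext _; exact Nat.cast_ofNat
  rwa [e] at h

lemma one : An1 A (fun _ => (1 : K)) := An1.const _ A.one_mem

lemma zero : An1 A (fun _ => (0 : K)) := An1.const _ A.zero_mem

lemma neg {f : K → K} (hf : An1 A f) : An1 A (fun t => -f t) := by
  have h := (An1.const (-1 : K) (A.neg_mem _ A.one_mem)).mul hf
  have e : (fun t => (-1 : K) * f t) = fun t => -f t := by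
    funext t; ring
  rwa [e] at h

lemma sub {f g : K → K} (hf : An1 A f) (hg : An1 A g) : An1 A (fun t => f t - g t) := by
  have h := hf.add hg.neg
  have e : (fun t => f t + -g t) = fun t => f t - g t := by
    funext t; ring
  rwa [e] at h

lemma pow {f : K → K} (hf : An1 A f) (n : ℕ) : An1 A (fun t => f t ^ n) := by
  induction n with
  | zero => simpa using (one : An1 A _)
  | succ n ih =>
    have h := ih.mul hf
    have e : (fun t => f t ^ n * f t) = fun t => f t ^ (n + 1) := by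
      funext t; rw [pow_succ]
    rwa [e] at h

lemma div {f g : K → K} (hf : An1 A f) (hg : An1 A g) (h0 : A.valuation (g 0) = 1) :
    An1 A (fun t => f t / g t) := by
  have h := hf.mul (hg.inv h0)
  have e : (fun t => f t * (g t)⁻¹) = fun t => f t / g t := by
    funext t; rw [div_eq_mul_inv]
  rwa [e] at h

/-- values on the disc are integral and congruent to the value at `0`. -/
lemma val {f : K → K} (hf : An1 A f) :
    ∀ t : K, A.valuation t < 1 → A.valuation (f t) ≤ 1 ∧ A.valuation (f t - f 0) < 1 := by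
  induction hf with
  | const a ha =>
    intro t _
    exact ⟨(A.valuation_le_one_iff a).mpr ha, by simp⟩
  | var =>
    intro t ht
    exact ⟨ht.le, by simpa using ht⟩
  | @add f g _ _ ihf ihg =>
    intro t ht
    obtain ⟨f1, f2⟩ := ihf t ht
    obtain ⟨g1, g2⟩ := ihg t ht
    refine ⟨(A.valuation.map_add _ _).trans (max_le f1 g1), ?_⟩
    have e : f t + g t - (f 0 + g 0) = (f t - f 0) + (g t - g 0) := by ring
    rw [e]
    exact Valuation.map_add_lt _ f2 g2
  | @mul f g _ _ ihf ihg =>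
    intro t ht
    obtain ⟨f1, f2⟩ := ihf t ht
    obtain ⟨g1, g2⟩ := ihg t ht
    have f0 : A.valuation (f 0) ≤ 1 := (ihf 0 (by simp)).1
    refine ⟨by rw [map_mul]; exact mul_le_one' f1 g1, ?_⟩
    have e : f t * g t - f 0 * g 0 = (f t - f 0) * g t + f 0 * (g t - g 0) := by ring
    rw [e]
    refine Valuation.map_add_lt _ ?_ ?_
    · rw [map_mul]
      exact lt_of_le_of_lt (mul_le_mul' le_rfl g1) (by simpa using f2)
    · rw [map_mul]
      exact lt_of_le_of_lt (mul_le_mul' f0 le_rfl) (by simpa using g2)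
  | @inv f _ h0 ihf =>
    intro t ht
    obtain ⟨_, f2⟩ := ihf t ht
    have hv : A.valuation (f t) = 1 := by
      rw [← h0]
      exact Valuation.map_eq_of_sub_lt _ (by rw [h0]; exact f2)
    have hft : f t ≠ 0 := by
      intro h; rw [h, map_zero] at hv; exact zero_ne_one hv
    have hf0 : f 0 ≠ 0 := by
      intro h; rw [h, map_zero] at h0; exact zero_ne_one h0
    refine ⟨by rw [map_inv₀, hv, inv_one], ?_⟩
    have e : (f t)⁻¹ - (f 0)⁻¹ = (f 0 - f t) * ((f t)⁻¹ * (f 0)⁻¹) := by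
      field_simp
    rw [e, map_mul, map_mul, map_inv₀, map_inv₀, hv, h0, inv_one, mul_one, mul_one,
      ← Valuation.map_neg, neg_sub]
    exact f2

lemma val_le {f : K → K} (hf : An1 A f) {t : K} (ht : A.valuation t < 1) :
    A.valuation (f t) ≤ 1 := (hf.val t ht).1

lemma val_zero_le {f : K → K} (hf : An1 A f) : A.valuation (f 0) ≤ 1 :=
  hf.val_le (by simp)

/-- a function whose value at `0` is a unit takes unit values on the whole disc. -/
lemma val_eq_one {f : K → K} (hf : An1 A f) (h0 : A.valuation (f 0) = 1) {t : K}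
    (ht : A.valuation t < 1) : A.valuation (f t) = 1 := by
  rw [← h0]
  exact Valuation.map_eq_of_sub_lt _ (by rw [h0]; exact (hf.val t ht).2)

/-- **Factor lemma.** -/
lemma factor {f : K → K} (hf : An1 A f) :
    ∀ t₁ : K, A.valuation t₁ < 1 →
      ∃ g : K → K, An1 A g ∧ ∀ t : K, A.valuation t < 1 → f t - f t₁ = (t - t₁) * g t := by
  induction hf with
  | const a ha =>
    intro t₁ _
    exact ⟨fun _ => 0, zero, fun t _ => by simp⟩
  | var =>
    intro t₁ _
    exact ⟨fun _ => 1, one, fun t _ => by simp⟩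
  | @add f g _ _ ihf ihg =>
    intro t₁ ht₁
    obtain ⟨F, hF, eF⟩ := ihf t₁ ht₁
    obtain ⟨G, hG, eG⟩ := ihg t₁ ht₁
    refine ⟨fun t => F t + G t, hF.add hG, fun t ht => ?_⟩
    linear_combination eF t ht + eG t ht
  | @mul f g hf hg ihf ihg =>
    intro t₁ ht₁
    obtain ⟨F, hF, eF⟩ := ihf t₁ ht₁
    obtain ⟨G, hG, eG⟩ := ihg t₁ ht₁
    have hc : f t₁ ∈ A := (A.valuation_le_one_iff _).mp (hf.val_le ht₁)
    refine ⟨fun t => F t * g t + f t₁ * G t, (hF.mul hg).add ((An1.const _ hc).mul hG),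
      fun t ht => ?_⟩
    linear_combination g t * eF t ht + f t₁ * eG t ht
  | @inv f hf h0 ihf =>
    intro t₁ ht₁
    obtain ⟨F, hF, eF⟩ := ihf t₁ ht₁
    have hv1 : A.valuation (f t₁) = 1 := hf.val_eq_one h0 ht₁
    have hf1 : f t₁ ≠ 0 := by
      intro h; rw [h, map_zero] at hv1; exact zero_ne_one hv1
    have hc : (f t₁)⁻¹ ∈ A := by
      rw [← A.valuation_le_one_iff, map_inv₀, hv1, inv_one]
    refine ⟨fun t => -F t * (f t)⁻¹ * (f t₁)⁻¹, (hF.neg.mul (hf.inv h0)).mul (An1.const _ hc),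
      fun t ht => ?_⟩
    have hv : A.valuation (f t) = 1 := hf.val_eq_one h0 ht
    have hft : f t ≠ 0 := by
      intro h; rw [h, map_zero] at hv; exact zero_ne_one hv
    have := eF t ht
    field_simp
    linear_combination -eF t ht

/-- factoring out finitely many distinct roots in the disc. -/
lemma factor_finset [DecidableEq K] {f : K → K} (hf : An1 A f) (S : Finset K)
    (hS : ∀ r ∈ S, A.valuation r < 1 ∧ f r = 0) :
    ∃ g : K → K, An1 A g ∧ ∀ t : K, A.valuation t < 1 → f t = (∏ r ∈ S, (t - r)) * g t := by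
  induction S using Finset.induction_on with
  | empty => exact ⟨f, hf, fun t _ => by simp⟩
  | insert a S ha ih =>
    obtain ⟨g, hg, eg⟩ := ih (fun r hr => hS r (Finset.mem_insert_of_mem hr))
    obtain ⟨ha1, ha0⟩ := hS a (Finset.mem_insert_self a S)
    have hga : g a = 0 := by
      have h1 := eg a ha1
      rw [ha0] at h1
      have hne : (∏ r ∈ S, (a - r)) ≠ 0 := by
        rw [Finset.prod_ne_zero_iff]
        intro r hr h
        exact ha (by rw [sub_eq_zero.mp h]; exact hr)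
      rcases mul_eq_zero.mp h1.symm with h | h
      · exact absurd h hne
      · exact h
    obtain ⟨G, hG, eG⟩ := hg.factor a ha1
    refine ⟨G, hG, fun t ht => ?_⟩
    rw [Finset.prod_insert ha, eg t ht]
    have := eG t ht
    rw [hga, sub_zero] at this
    rw [this]; ring

end An1

/-! ### the multiplication functions in the variable `t = 1/x` -/

section Mult

variable (b2 b4 b6 b8 : K)

/-- numerator of the x-only sum formula in the variables `s = 1/x(Q)`, `t = 1/x(P)`. -/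
def S2 (s t : K) : K := 2 * (s + t) + b2 * s * t + b4 * s * t * (s + t) + b6 * s ^ 2 * t ^ 2

/-- denominator of the x-only sum formula (a unit on the disc). -/
def U2 (s t : K) : K := 1 - b4 * s * t - b6 * s * t * (s + t) - b8 * s ^ 2 * t ^ 2

/-- `S2 (t ν) t / t`. -/
def Sq (ν t : K) : K :=
  2 * (ν + 1) + b2 * t * ν + b4 * t ^ 2 * ν * (ν + 1) + b6 * t ^ 3 * ν ^ 2

/-- `U2 (t ν) t`. -/
def Uq (ν t : K) : K := 1 - b4 * t ^ 2 * ν - b6 * t ^ 3 * ν * (ν + 1) - b8 * t ^ 4 * ν ^ 2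

lemma S2_mul (ν t : K) : S2 b2 b4 b6 (t * ν) t = t * Sq b2 b4 b6 ν t := by
  simp only [S2, Sq]; ring

lemma U2_mul (ν t : K) : U2 b4 b6 b8 (t * ν) t = Uq b4 b6 b8 ν t := by
  simp only [U2, Uq]; ring

/-- `ξ(kP) = t * Nf k t` for `t = ξ(P)`. -/
def Nf : ℕ → K → K
  | 0 => fun _ => 0
  | 1 => fun _ => 1
  | (n + 2) => fun t =>
      Sq b2 b4 b6 (Nf (n + 1) t) t / Uq b4 b6 b8 (Nf (n + 1) t) t - Nf n t

lemma Nf_succ_succ (n : ℕ) (t : K) : Nf b2 b4 b6 b8 (n + 2) t =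
    Sq b2 b4 b6 (Nf b2 b4 b6 b8 (n + 1) t) t / Uq b4 b6 b8 (Nf b2 b4 b6 b8 (n + 1) t) t -
      Nf b2 b4 b6 b8 n t := rfl

lemma Nf_apply_zero (n : ℕ) : Nf b2 b4 b6 b8 n 0 = (n : K) ^ 2 := by
  induction n using Nat.twoStepInduction with
  | zero => simp [Nf]
  | one => simp [Nf]
  | more n ih0 ih1 =>
    rw [Nf_succ_succ, ih0, ih1]
    simp only [Sq, Uq]
    push_cast
    ring

variable {A} {b2 b4 b6 b8}

lemma Sq_an (hb2 : b2 ∈ A) (hb4 : b4 ∈ A) (hb6 : b6 ∈ A) {ν : K → K} (hν : An1 A ν) :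
    An1 A (fun t => Sq b2 b4 b6 (ν t) t) := by
  unfold Sq
  exact ((((An1.ofNat 2).mul (hν.add An1.one)).add (((An1.const _ hb2).mul An1.var).mul hν)).add
    ((((An1.const _ hb4).mul (An1.var.pow 2)).mul hν).mul (hν.add An1.one))).add
    (((An1.const _ hb6).mul (An1.var.pow 3)).mul (hν.pow 2))

lemma Uq_an (hb4 : b4 ∈ A) (hb6 : b6 ∈ A) (hb8 : b8 ∈ A) {ν : K → K} (hν : An1 A ν) :
    An1 A (fun t => Uq b4 b6 b8 (ν t) t) := by
  unfold Uq
  exact (((An1.one).sub (((An1.const _ hb4).mul (An1.var.pow 2)).mul hν)).sub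
    ((((An1.const _ hb6).mul (An1.var.pow 3)).mul hν).mul (hν.add An1.one))).sub
    (((An1.const _ hb8).mul (An1.var.pow 4)).mul (hν.pow 2))

lemma Nf_an (hb2 : b2 ∈ A) (hb4 : b4 ∈ A) (hb6 : b6 ∈ A) (hb8 : b8 ∈ A) (n : ℕ) :
    An1 A (Nf b2 b4 b6 b8 n) := by
  induction n using Nat.twoStepInduction with
  | zero => exact An1.zero
  | one => exact An1.one
  | more n ih0 ih1 =>
    have hS := Sq_an hb2 hb4 hb6 ih1
    have hU := Uq_an hb4 hb6 hb8 ih1
    have hU0 : A.valuation (Uq b4 b6 b8 (Nf b2 b4 b6 b8 (n + 1) 0) 0) = 1 := by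
      simp [Uq]
    exact (hS.div hU hU0).sub ih0

end Mult

/-! ### the recursion computes `1/x(kP)` on the kernel of reduction -/

section Points

variable {A} [DecidableEq K] {W : WeierstrassCurve K}

omit [DecidableEq K] in
lemma U2_val (hb4 : W.b₄ ∈ A) (hb6 : W.b₆ ∈ A) (hb8 : W.b₈ ∈ A) {s t : K}
    (hs : A.valuation s < 1) (ht : A.valuation t < 1) :
    A.valuation (U2 W.b₄ W.b₆ W.b₈ s t) = 1 := by
  have ms : s ∈ A := mem_of_val_lt_one A hs
  have mt : t ∈ A := mem_of_val_lt_one A ht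
  have hc : W.b₄ * s + W.b₆ * s * (s + t) + W.b₈ * s ^ 2 * t ∈ A :=
    A.add_mem _ _ (A.add_mem _ _ (A.mul_mem _ _ hb4 ms)
      (A.mul_mem _ _ (A.mul_mem _ _ hb6 ms) (A.add_mem _ _ ms mt)))
      (A.mul_mem _ _ (A.mul_mem _ _ hb8 (pow_mem ms 2)) mt)
  have h := val_one_sub_eq_one A (val_mul_lt_one A hc ht)
  have e : U2 W.b₄ W.b₆ W.b₈ s t =
      1 - (W.b₄ * s + W.b₆ * s * (s + t) + W.b₈ * s ^ 2 * t) * t := by
    simp only [U2]; ring
  rw [e]; exact h

omit [DecidableEq K] in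
lemma U2_ne_zero (hb4 : W.b₄ ∈ A) (hb6 : W.b₆ ∈ A) (hb8 : W.b₈ ∈ A) {s t : K}
    (hs : A.valuation s < 1) (ht : A.valuation t < 1) : U2 W.b₄ W.b₆ W.b₈ s t ≠ 0 := by
  intro h
  have := U2_val hb4 hb6 hb8 hs ht
  rw [h, map_zero] at this
  exact zero_ne_one this

omit [DecidableEq K] in
lemma ne_zero_of_not_mem {x : K} (h : x ∉ A) : x ≠ 0 := fun h0 => h (h0 ▸ A.zero_mem)

omit [DecidableEq K] in
lemma point_ne_zero {P : W.toAffine.Point} (h : xc P ∉ A) : P ≠ 0 := by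
  rintro rfl
  exact h (by rw [xc_zero]; exact A.zero_mem)

/-- duplication in the variable `t = 1/x`. -/
lemma xi_dbl (hb2 : W.b₂ ∈ A) (hb4 : W.b₄ ∈ A) (hb6 : W.b₆ ∈ A) (hb8 : W.b₈ ∈ A)
    {P : W.toAffine.Point} (hP : xc P ∉ A) :
    (xc (P + P))⁻¹ = S2 W.b₂ W.b₄ W.b₆ (xc P)⁻¹ (xc P)⁻¹ / U2 W.b₄ W.b₆ W.b₈ (xc P)⁻¹ (xc P)⁻¹ := by
  have hP0 : P ≠ 0 := point_ne_zero hP
  have hx : xc P ≠ 0 := ne_zero_of_not_mem hP
  have ht : A.valuation (xc P)⁻¹ < 1 := inv_val_lt_one_of_not_mem A hP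
  have hU := U2_ne_zero hb4 hb6 hb8 ht ht
  have hpoly := two_torsion_poly (nonsingular_xc_yc hP0).1
  by_cases h2 : P + P = 0
  · have hy := (add_self_eq_zero_iff hP0).mp h2
    rw [h2, xc_zero, inv_zero, eq_comm, div_eq_zero_iff]
    left
    rw [hy] at hpoly
    simp only [S2]
    field_simp
    linear_combination -hpoly
  · have hy : 2 * yc P + W.a₁ * xc P + W.a₃ ≠ 0 := fun h => h2 ((add_self_eq_zero_iff hP0).mpr h)
    obtain ⟨_, hdbl⟩ := xc_add_self hP0 hy
    have hx2 : xc (P + P) ≠ 0 := ne_zero_of_not_mem (xc_add_self_not_mem A hb2 hb4 hb6 hb8 hP0 hP h2)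
    rw [eq_div_iff hU]
    simp only [S2, U2]
    field_simp
    linear_combination -hdbl

/-- the x-only sum formula in the variables `1/x`, valid for ALL pairs of points of `E1`. -/
lemma xi_add_sub (hb2 : W.b₂ ∈ A) (hb4 : W.b₄ ∈ A) (hb6 : W.b₆ ∈ A) (hb8 : W.b₈ ∈ A)
    {P Q : W.toAffine.Point} (hP : xc P ∉ A) (hQ : Q = 0 ∨ xc Q ∉ A) :
    (xc (Q + P))⁻¹ + (xc (Q - P))⁻¹ =
      S2 W.b₂ W.b₄ W.b₆ (xc Q)⁻¹ (xc P)⁻¹ / U2 W.b₄ W.b₆ W.b₈ (xc Q)⁻¹ (xc P)⁻¹ := by
  have hP0 : P ≠ 0 := point_ne_zero hP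
  have hxP : xc P ≠ 0 := ne_zero_of_not_mem hP
  have ht : A.valuation (xc P)⁻¹ < 1 := inv_val_lt_one_of_not_mem A hP
  rcases hQ with rfl | hQ
  · rw [zero_add, zero_sub, xc_neg, xc_zero, inv_zero]
    simp only [S2, U2]
    ring
  have hQ0 : Q ≠ 0 := point_ne_zero hQ
  have hxQ : xc Q ≠ 0 := ne_zero_of_not_mem hQ
  have hs : A.valuation (xc Q)⁻¹ < 1 := inv_val_lt_one_of_not_mem A hQ
  by_cases hx : xc Q = xc P
  · rcases eq_or_eq_neg_of_xc_eq hQ0 hP0 hx with rfl | rfl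
    · rw [sub_self, xc_zero, inv_zero, add_zero]
      exact xi_dbl hb2 hb4 hb6 hb8 hP
    · rw [neg_add_cancel, xc_zero, inv_zero, zero_add, xc_neg]
      have e : -P - P = -(P + P) := by abel
      rw [e, xc_neg]
      exact xi_dbl hb2 hb4 hb6 hb8 hP
  · obtain ⟨_, _, hsum, hprod⟩ := xc_add_sub hQ0 hP0 hx
    obtain ⟨h3, h4⟩ := xc_add_not_mem A hb2 hb4 hb6 hb8 hQ0 hP0 hQ hP hx
    have hx3 : xc (Q + P) ≠ 0 := ne_zero_of_not_mem h3
    have hx4 : xc (Q - P) ≠ 0 := ne_zero_of_not_mem h4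
    have hU := U2_ne_zero hb4 hb6 hb8 hs ht
    rw [eq_div_iff hU]
    simp only [S2, U2]
    field_simp
    linear_combination -((xc (Q + P) + xc (Q - P)) * hprod) + xc (Q + P) * xc (Q - P) * hsum

/-- **`1/x(kP) = t * Nf k t`** for `t = 1/x(P)`, `P` in the kernel of reduction, ALL `k`. -/
theorem xi_nsmul (hb2 : W.b₂ ∈ A) (hb4 : W.b₄ ∈ A) (hb6 : W.b₆ ∈ A) (hb8 : W.b₈ ∈ A)
    {P : W.toAffine.Point} (hP : xc P ∉ A) (n : ℕ) :
    (xc (n • P))⁻¹ = (xc P)⁻¹ * Nf W.b₂ W.b₄ W.b₆ W.b₈ n (xc P)⁻¹ := by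
  induction n using Nat.twoStepInduction with
  | zero => simp [Nf]
  | one => simp [Nf]
  | more n ih0 ih1 =>
    have hQ : (n + 1) • P = 0 ∨ xc ((n + 1) • P) ∉ A := by
      by_cases h : (n + 1) • P = 0
      · exact Or.inl h
      · exact Or.inr (xc_nsmul_not_mem A hb2 hb4 hb6 hb8 hP (n + 1) h)
    have key := xi_add_sub hb2 hb4 hb6 hb8 hP hQ
    have e1 : (n + 1) • P + P = (n + 2) • P := by
      rw [succ_nsmul P (n + 1)]
    have e2 : (n + 1) • P - P = n • P := by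
      rw [succ_nsmul P n, add_sub_cancel_right]
    rw [e1, e2, ih0, ih1, S2_mul, U2_mul] at key
    rw [Nf_succ_succ]
    linear_combination key

/-- for a point of odd order dividing `2m+1` in the kernel of reduction, `Nf (m+1) - Nf m`
vanishes at `1/x`. -/
theorem Nf_sub_eq_zero (hb2 : W.b₂ ∈ A) (hb4 : W.b₄ ∈ A) (hb6 : W.b₆ ∈ A) (hb8 : W.b₈ ∈ A)
    {T : W.toAffine.Point} (hT : xc T ∉ A) {m : ℕ} (hm : (2 * m + 1) • T = 0) :
    Nf W.b₂ W.b₄ W.b₆ W.b₈ (m + 1) (xc T)⁻¹ - Nf W.b₂ W.b₄ W.b₆ W.b₈ m (xc T)⁻¹ = 0 := by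
  have h1 := xi_nsmul hb2 hb4 hb6 hb8 hT (m + 1)
  have h0 := xi_nsmul hb2 hb4 hb6 hb8 hT m
  have hneg : (m + 1) • T = -(m • T) := by
    rw [eq_neg_iff_add_eq_zero, ← add_nsmul]
    have : m + 1 + m = 2 * m + 1 := by ring
    rw [this]; exact hm
  rw [hneg, xc_neg, h0] at h1
  have ht : (xc T)⁻¹ ≠ 0 := inv_ne_zero (ne_zero_of_not_mem hT)
  have := mul_left_cancel₀ ht h1
  rw [← this, sub_self]

/-- **Sum bound (Σ).**  For a Weierstrass curve with `b`-invariants in the valuation subring `A`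
and a finite set `S` of pairwise distinct NON-INTEGRAL abscissae of points killed by `2m+1`:
`v(2m+1) * ∏_{r ∈ S} v(r) ≤ 1`. -/
theorem valuation_mul_prod_le_one (hb2 : W.b₂ ∈ A) (hb4 : W.b₄ ∈ A) (hb6 : W.b₆ ∈ A)
    (hb8 : W.b₈ ∈ A) (m : ℕ) (S : Finset K)
    (hS : ∀ r ∈ S, r ∉ A ∧ ∃ T : W.toAffine.Point, (2 * m + 1) • T = 0 ∧ xc T = r) :
    A.valuation ((2 * m + 1 : ℕ) : K) * ∏ r ∈ S, A.valuation r ≤ 1 := by
  classical
  set δ : K → K := fun t =>
    Nf W.b₂ W.b₄ W.b₆ W.b₈ (m + 1) t - Nf W.b₂ W.b₄ W.b₆ W.b₈ m t with hδ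
  have hδan : An1 A δ := (Nf_an hb2 hb4 hb6 hb8 (m + 1)).sub (Nf_an hb2 hb4 hb6 hb8 m)
  have hδ0 : δ 0 = ((2 * m + 1 : ℕ) : K) := by
    simp only [hδ, Nf_apply_zero]
    push_cast
    ring
  have hroots : ∀ r' ∈ S.image (fun r => r⁻¹), A.valuation r' < 1 ∧ δ r' = 0 := by
    intro r' hr'
    obtain ⟨r, hr, rfl⟩ := Finset.mem_image.mp hr'
    obtain ⟨hrA, T, hT, rfl⟩ := hS r hr
    exact ⟨inv_val_lt_one_of_not_mem A hrA, Nf_sub_eq_zero hb2 hb4 hb6 hb8 hrA hT⟩
  obtain ⟨g, hg, eg⟩ := hδan.factor_finset _ hroots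
  have h0 := eg 0 (by simp)
  rw [hδ0, Finset.prod_image (fun x _ y _ h => inv_injective h)] at h0
  have hv := congrArg A.valuation h0
  rw [map_mul, map_prod] at hv
  have hterm : ∀ r ∈ S, A.valuation (0 - r⁻¹) = (A.valuation r)⁻¹ := by
    intro r _
    rw [zero_sub, Valuation.map_neg, map_inv₀]
  rw [Finset.prod_congr rfl hterm] at hv
  have hne : ∀ r ∈ S, A.valuation r ≠ 0 := by
    intro r hr
    rw [Ne, Valuation.zero_iff]
    exact ne_zero_of_not_mem (hS r hr).1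
  have hprod_ne : ∏ r ∈ S, A.valuation r ≠ 0 := Finset.prod_ne_zero_iff.mpr hne
  rw [hv, Finset.prod_inv_distrib, mul_comm, ← mul_assoc, mul_inv_cancel₀ hprod_ne, one_mul]
  exact hg.val_zero_le

/-- (Σ) in the shape `∏ v(r) ≤ v(p)⁻¹` for an odd `p` which is nonzero in `K`. -/
theorem prod_valuation_le_inv (hb2 : W.b₂ ∈ A) (hb4 : W.b₄ ∈ A) (hb6 : W.b₆ ∈ A)
    (hb8 : W.b₈ ∈ A) {p : ℕ} (hodd : Odd p) (hp0 : (p : K) ≠ 0) (S : Finset K)
    (hS : ∀ r ∈ S, ∃ T : W.toAffine.Point, T ≠ 0 ∧ p • T = 0 ∧ xc T = r)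
    (hn : ∀ r ∈ S, r ∉ A) :
    ∏ r ∈ S, A.valuation r ≤ (A.valuation (p : K))⁻¹ := by
  obtain ⟨m, rfl⟩ := hodd
  have h := valuation_mul_prod_le_one hb2 hb4 hb6 hb8 m S (fun r hr => by
    obtain ⟨T, _, hT, hx⟩ := hS r hr
    exact ⟨hn r hr, T, hT, hx⟩)
  have hv : A.valuation ((2 * m + 1 : ℕ) : K) ≠ 0 := by
    rw [Ne, Valuation.zero_iff]; exact hp0
  rw [mul_comm] at h
  calc ∏ r ∈ S, A.valuation r
      = (∏ r ∈ S, A.valuation r) * A.valuation ((2 * m + 1 : ℕ) : K) *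
          (A.valuation ((2 * m + 1 : ℕ) : K))⁻¹ := by
        rw [mul_assoc, mul_inv_cancel₀ hv, mul_one]
    _ ≤ 1 * (A.valuation ((2 * m + 1 : ℕ) : K))⁻¹ := mul_le_mul' h le_rfl
    _ = _ := one_mul _

end Points

end Fermat.Agent.S13.XiSum
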