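/-
S13, block (Σ) instantiated (owner: helper34): the product bound `(Σ)` for the Frey curve over
`Qbar` at EVERY valuation subring `A` (no hypothesis on `A`), in exactly the shape consumed by
`Fermat.Agent.S13.Supersingular.frey` (hypothesis `hSigma`), and the resulting hypothesis-free
form of SS (only finiteness of `E[p]` remains as an input).
-/
import Mathlib
import Fermat.Agent.S13.XiSum
import Fermat.Agent.S13.FreyModel
import Fermat.Agent.S13.Supersingular

set_option autoImplicit false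
open WeierstrassCurve WeierstrassCurve.Affine WeierstrassCurve.Affine.Point

namespace Fermat.Agent.S13.XiSumFrey

open Fermat.Agent.S13.XOnlyGen

local notation "Qbar" => AlgebraicClosure ℚ

/-- `(Σ)` for any Weierstrass curve over `ℚ` whose `b`-invariants are integral at `A`, any odd
`p`. -/
theorem sigma_of_b_mem {W' : Affine ℚ} (A : ValuationSubring Qbar)
    (hb2 : (W'⁄Qbar).b₂ ∈ A) (hb4 : (W'⁄Qbar).b₄ ∈ A) (hb6 : (W'⁄Qbar).b₆ ∈ A)
    (hb8 : (W'⁄Qbar).b₈ ∈ A) {p : ℕ} (hodd : Odd p) (S : Finset Qbar)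
    (hS : ∀ r ∈ S, ∃ T : (W'⁄Qbar).Point, T ≠ 0 ∧ p • T = 0 ∧ xc T = r)
    (hn : ∀ r ∈ S, r ∉ A) :
    ∏ r ∈ S, A.valuation r ≤ (A.valuation (p : Qbar))⁻¹ := by
  have hp0 : (p : Qbar) ≠ 0 := by
    have : p ≠ 0 := by
      rintro rfl
      simp at hodd
    exact_mod_cast this
  exact XiSum.prod_valuation_le_inv hb2 hb4 hb6 hb8 hodd hp0 S hS hn

/-- **`(Σ)` for the Frey curve**, at every valuation subring `A` of `Qbar`. -/
theorem sigma_frey (P : FreyPackage) (A : ValuationSubring Qbar) (S : Finset Qbar)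
    (hS : ∀ r ∈ S, ∃ T : (P.freyCurve⁄Qbar).Point, T ≠ 0 ∧ P.p • T = 0 ∧ xc T = r)
    (hn : ∀ r ∈ S, r ∉ A) :
    ∏ r ∈ S, A.valuation r ≤ (A.valuation (P.p : Qbar))⁻¹ :=
  sigma_of_b_mem A (FreyModel.b₂_mem A) (FreyModel.b₄_mem A) (FreyModel.b₆_mem A)
    (FreyModel.b₈_mem A) P.hp_odd S hS hn

/-- **SS for the Frey curve with `(Σ)` discharged**: at a place `A | p`, if `E[p]` is finite and
has a `G_ℚ`-stable proper nonzero submodule, then some nonzero `p`-torsion point has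
`A`-integral abscissa. -/
theorem not_forall_xc_not_mem (P : FreyPackage) (A : ValuationSubring Qbar)
    (hA : A.LiesOverPrime P.p)
    (X : Submodule (ZMod P.p) (Submodule.torsionBy ℤ (P.freyCurve⁄Qbar).Point P.p))
    (hX : IsGaloisStable ℚ X) (hbot : X ≠ ⊥) (htop : X ≠ ⊤)
    (hfin : Finite (Submodule.torsionBy ℤ (P.freyCurve⁄Qbar).Point P.p)) :
    ¬ ∀ T : (P.freyCurve⁄Qbar).Point, T ≠ 0 → P.p • T = 0 → xc T ∉ A :=
  Supersingular.frey P A hA X hX hbot htop hfin (sigma_frey P A)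

theorem exists_integral (P : FreyPackage) (A : ValuationSubring Qbar)
    (hA : A.LiesOverPrime P.p)
    (X : Submodule (ZMod P.p) (Submodule.torsionBy ℤ (P.freyCurve⁄Qbar).Point P.p))
    (hX : IsGaloisStable ℚ X) (hbot : X ≠ ⊥) (htop : X ≠ ⊤)
    (hfin : Finite (Submodule.torsionBy ℤ (P.freyCurve⁄Qbar).Point P.p)) :
    ∃ T : (P.freyCurve⁄Qbar).Point, T ≠ 0 ∧ P.p • T = 0 ∧ xc T ∈ A :=
  Supersingular.frey_exists_integral P A hA X hX hbot htop hfin (sigma_frey P A)

end Fermat.Agent.S13.XiSumFrey
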